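import Fermat.Agent.TW.Field
import Fermat.Agent.GalRep.Cyclo

/-!
# Levels of `p`-power roots of unity
-/

set_option autoImplicit false
set_option linter.unusedSectionVars false

open scoped Pointwise

noncomputable section

namespace FLTAgent.TW

variable {p : ℕ} [hpf : Fact p.Prime]

/-- `ℚ(μ_N)` inside `ℚ̄`. -/
def muField (N : ℕ) : IntermediateField ℚ Qb := IntermediateField.adjoin ℚ {x | x ^ N = 1}

theorem finite_muSet {N : ℕ} (hN : N ≠ 0) : {x : Qb | x ^ N = 1}.Finite :=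
  (Polynomial.nthRootsFinset N (1 : Qb)).finite_toSet.subset fun _ hx =>
    (Polynomial.mem_nthRootsFinset (Nat.pos_of_ne_zero hN) _).mpr hx

theorem finiteDimensional_muField {N : ℕ} (hN : N ≠ 0) : FiniteDimensional ℚ (muField N) := by
  have : Finite {x : Qb | x ^ N = 1} := (finite_muSet hN).to_subtype
  exact IntermediateField.finiteDimensional_adjoin fun x _ =>
    ((AlgebraicClosure.isAlgebraic ℚ).isAlgebraic x).isIntegral

theorem mem_fixing_muField {N : ℕ} {σ : Γ} :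
    σ ∈ (muField N).fixingSubgroup ↔ ∀ x : Qb, x ^ N = 1 → σ x = x := by
  rw [muField, IntermediateField.mem_fixingSubgroup_iff]
  refine ⟨fun h x hx => h x (IntermediateField.subset_adjoin ℚ _ hx), fun h x hx => ?_⟩
  induction hx using IntermediateField.adjoin_induction with
  | mem x hx => exact h x hx
  | algebraMap a => exact σ.commutes a
  | add x y _ _ hx hy => rw [map_add, hx, hy]
  | inv x _ hx => rw [map_inv₀, hx]
  | mul x y _ _ hx hy => rw [map_mul, hx, hy]

theorem apply_mem_muField {N : ℕ} (σ : Γ) {x : Qb} (hx : x ∈ muField N) : σ x ∈ muField N := by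
  induction hx using IntermediateField.adjoin_induction with
  | mem x hx => exact IntermediateField.subset_adjoin ℚ _ (by
      show σ x ^ N = 1
      rw [← map_pow, show x ^ N = 1 from hx, map_one])
  | algebraMap a => rw [σ.commutes]; exact IntermediateField.algebraMap_mem _ a
  | add x y _ _ hx hy => rw [map_add]; exact add_mem hx hy
  | inv x _ hx => rw [map_inv₀]; exact inv_mem hx
  | mul x y _ _ hx hy => rw [map_mul]; exact mul_mem hx hy

/-- Automorphisms commute on roots of unity. -/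
theorem apply_comm_of_pow_eq_one {N : ℕ} (hN : N ≠ 0) (g h : Γ) {x : Qb} (hx : x ^ N = 1) :
    g (h x) = h (g x) := by
  have : NeZero N := ⟨hN⟩
  obtain ⟨z, hz⟩ := HasEnoughRootsOfUnity.exists_primitiveRoot Qb N
  obtain ⟨a, -, ha⟩ := hz.eq_pow_of_pow_eq_one (ξ := g z) (by rw [← map_pow, hz.pow_eq_one, map_one])
  obtain ⟨b, -, hb⟩ := hz.eq_pow_of_pow_eq_one (ξ := h z) (by rw [← map_pow, hz.pow_eq_one, map_one])
  obtain ⟨i, -, rfl⟩ := hz.eq_pow_of_pow_eq_one hx
  simp only [map_pow, ← hb, ← ha]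
  rw [← pow_mul, ← pow_mul, ← pow_mul, ← pow_mul]
  ring_nf

theorem fixing_muField_conj {N : ℕ} (g : Γ) {τ : Γ} (hτ : τ ∈ (muField N).fixingSubgroup) :
    g * τ * g⁻¹ ∈ (muField N).fixingSubgroup := by
  rw [mem_fixing_muField] at hτ ⊢
  intro x hx
  show g (τ (g⁻¹ x)) = x
  rw [hτ _ (by rw [← map_pow, hx, map_one])]
  exact AlgEquiv.apply_symm_apply g x

theorem commutator_mem_muField {N : ℕ} (hN : N ≠ 0) (g h : Γ) :
    g * h * g⁻¹ * h⁻¹ ∈ (muField N).fixingSubgroup := by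
  rw [mem_fixing_muField]
  intro x hx
  show g (h (g⁻¹ (h⁻¹ x))) = x
  rw [apply_comm_of_pow_eq_one hN g⁻¹ h⁻¹ hx,
    show h (h⁻¹ (g⁻¹ x)) = g⁻¹ x from AlgEquiv.apply_symm_apply h _]
  exact AlgEquiv.apply_symm_apply g x

/-- The `p`-th power of an element fixing `μ_{p^j}` fixes `μ_{p^{j+1}}`, for `j ≥ 1`. -/
theorem pow_p_mem_muField {j : ℕ} {τ : Γ} (hτ : τ ∈ (muField (p ^ (j + 1))).fixingSubgroup) :
    τ ^ p ∈ (muField (p ^ (j + 2))).fixingSubgroup := by
  rw [mem_fixing_muField] at hτ ⊢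
  intro x hx
  have hxp : τ x ^ p = x ^ p := by
    rw [← map_pow]
    exact hτ _ (by rw [← pow_mul, ← pow_succ', hx])
  have hx0 : x ≠ 0 := fun h => by
    rw [h, zero_pow (pow_ne_zero _ hpf.out.ne_zero)] at hx
    exact zero_ne_one hx
  set ζ := τ x / x
  have hζ : ζ ^ p = 1 := by rw [div_pow, hxp, div_self (pow_ne_zero _ hx0)]
  have hτx : τ x = ζ * x := by rw [div_mul_cancel₀ _ hx0]
  have hτζ : τ ζ = ζ := hτ _ (by rw [pow_succ', pow_mul, hζ, one_pow])
  have : ∀ i : ℕ, (τ ^ i : Γ) x = ζ ^ i * x := fun i => by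
    induction i with
    | zero => simp
    | succ i ih => rw [pow_succ', AlgEquiv.mul_apply, ih, map_mul, map_pow, hτζ, hτx]; ring
  rw [this, hζ, one_mul]

theorem pow_mem_muField {σ : Γ} (hσ : σ ∈ (muField p).fixingSubgroup) (n : ℕ) :
    σ ^ p ^ n ∈ (muField (p ^ (n + 1))).fixingSubgroup := by
  induction n with
  | zero => simpa using hσ
  | succ n ih =>
    rw [show σ ^ p ^ (n + 1) = (σ ^ p ^ n) ^ p by rw [pow_succ, pow_mul]]
    exact pow_p_mem_muField ih

/-- A Frobenius element fixing `μ_{p^N}` forces `l ≡ 1 mod p^N`. -/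
theorem dvd_sub_one_of_frobenius {A : ValuationSubring Qb} {l : ℕ} (hl : l.Prime) (hlp : l ≠ p)
    (hA : A.LiesOverPrime l) {φ : Γ} (hφ : A.IsFrobeniusAt φ l) {N : ℕ}
    (hfix : φ ∈ (muField (p ^ N)).fixingSubgroup) : p ^ N ∣ l - 1 := by
  obtain ⟨ζ, hζ⟩ := HasEnoughRootsOfUnity.exists_primitiveRoot (AlgebraicClosure ℚ) (p ^ N)
  have h1 := GalRep.toZModPow_cyclo_eq_one p φ hζ (mem_fixing_muField.mp hfix ζ hζ.pow_eq_one)
  rw [GalRep.cyclo_frobenius hl hlp hA hφ, map_natCast] at h1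
  rw [← Nat.modEq_iff_dvd' hl.one_le, Nat.ModEq.comm, ← ZMod.natCast_eq_natCast_iff, h1,
    Nat.cast_one]

end FLTAgent.TW
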