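import Fermat.Agent.TW.Field
import Fermat.Agent.Frobenius.Unramified
import Fermat.Agent.Ext.Extension

/-!
# The places of a number field inside `ℚ̄` cut out by valuation subrings of `ℚ̄`
-/

set_option autoImplicit false
set_option linter.unusedSectionVars false

open IsDedekindDomain NumberField
open scoped Pointwise

noncomputable section

namespace FLTAgent.TW

open FLTAgent.Frobenius

local instance : IsGalois ℚ Qb := qb_isGalois

/-- The conjugate of a place by a field isomorphism. -/
def placeMap {K K' : Type} [Field K] [Field K'] (e : K ≃+* K') (v : Ext.Place K) :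
    Ext.Place K' where
  asIdeal := v.asIdeal.comap (RingOfIntegers.mapRingEquiv e.symm)
  isPrime := Ideal.comap_isPrime _ _
  ne_bot := fun h => v.ne_bot (by
    refine Ideal.comap_injective_of_surjective _
      (RingOfIntegers.mapRingEquiv e.symm).surjective ?_
    rw [h, Ideal.comap_bot_of_injective _ (RingOfIntegers.mapRingEquiv e.symm).injective])

theorem mem_placeMap {K K' : Type} [Field K] [Field K'] (e : K ≃+* K') (v : Ext.Place K)
    (x : 𝓞 K') :
    x ∈ (placeMap e v).asIdeal ↔ RingOfIntegers.mapRingEquiv e.symm x ∈ v.asIdeal := Iff.rfl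

theorem placeMap_refl {K : Type} [Field K] (v : Ext.Place K) :
    placeMap (RingEquiv.refl K) v = v :=
  HeightOneSpectrum.ext (Ideal.ext fun _ => Iff.rfl)

theorem placeMap_trans {K K' K'' : Type} [Field K] [Field K'] [Field K''] (e : K ≃+* K')
    (e' : K' ≃+* K'') (v : Ext.Place K) :
    placeMap (e.trans e') v = placeMap e' (placeMap e v) :=
  HeightOneSpectrum.ext (Ideal.ext fun _ => Iff.rfl)

theorem valuation_placeMap {K K' : Type} [Field K] [NumberField K] [Field K'] [NumberField K']
    (e : K ≃+* K') (v : Ext.Place K) (z : K) :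
    (placeMap e v).valuation K' (e z) = v.valuation K z := by
  have key : ∀ r : 𝓞 K, (placeMap e v).intValuation (RingOfIntegers.mapRingEquiv e r) =
      v.intValuation r := by
    intro r
    rcases eq_or_ne r 0 with rfl | hr
    · simp
    have hr' : RingOfIntegers.mapRingEquiv e r ≠ 0 := by simpa using hr
    have key : ∀ n : ℕ, (placeMap e v).intValuation (RingOfIntegers.mapRingEquiv e r) ≤
        WithZero.exp (-(n : ℤ)) ↔ v.intValuation r ≤ WithZero.exp (-(n : ℤ)) := by
      intro n
      rw [HeightOneSpectrum.intValuation_le_pow_iff_mem,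
        HeightOneSpectrum.intValuation_le_pow_iff_mem]
      have : (placeMap e v).asIdeal ^ n =
          (v.asIdeal ^ n).map (RingOfIntegers.mapRingEquiv e) := by
        rw [Ideal.map_pow]
        congr 1
        exact Ideal.comap_symm (I := v.asIdeal) (RingOfIntegers.mapRingEquiv e)
      rw [this, Ideal.mem_map_of_equiv]
      simp
    rw [HeightOneSpectrum.intValuation_if_neg _ hr'] at key ⊢
    rw [HeightOneSpectrum.intValuation_if_neg _ hr] at key ⊢
    simp only [WithZero.exp_le_exp, WithZero.exp_inj, neg_le_neg_iff, neg_inj, Nat.cast_le,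
      Nat.cast_inj] at key ⊢
    exact le_antisymm ((key _).mp le_rfl) ((key _).mpr le_rfl)
  obtain ⟨n, d, hd, rfl⟩ := IsFractionRing.div_surjective (A := 𝓞 K) z
  have h : ∀ r : 𝓞 K, e (algebraMap (𝓞 K) K r) =
      algebraMap (𝓞 K') K' (RingOfIntegers.mapRingEquiv e r) := fun r => rfl
  rw [map_div₀ e, h, h, map_div₀, map_div₀]
  simp only [HeightOneSpectrum.valuation_of_algebraMap, key]

theorem ord_placeMap {K K' : Type} [Field K] [NumberField K] [Field K'] [NumberField K']
    (e : K ≃+* K') (v : Ext.Place K) (z : K) :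
    Ext.ord (placeMap e v) (e z) = Ext.ord v z := by
  simp [Ext.ord, valuation_placeMap]

section placeIn

variable (K : IntermediateField ℚ Qb) [FiniteDimensional ℚ K]
variable (A : ValuationSubring Qb)

/-- The place of `K` cut out by `A`. -/
def placeIn {l : ℕ} (hl : l.Prime) (hA : A.LiesOverPrime l) : Ext.Place K where
  asIdeal := centreIn K A
  isPrime := centreIn_isPrime K A
  ne_bot := fun h => by
    have h1 := natCast_mem_centreIn K hA
    rw [h, Ideal.mem_bot] at h1
    exact hl.ne_zero (Nat.cast_eq_zero.mp h1)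

variable {K A} {l : ℕ} {hl : l.Prime} {hA : A.LiesOverPrime l}

theorem mem_placeIn {x : 𝓞 K} :
    x ∈ (placeIn K A hl hA).asIdeal ↔ ((x : K) : Qb) ∈ A.nonunits := Iff.rfl

theorem natCast_mem_placeIn : (l : 𝓞 K) ∈ (placeIn K A hl hA).asIdeal :=
  natCast_mem_centreIn K hA

/-- Conjugation. -/
theorem placeIn_smul (e : K ≃+* K) (σ : Γ) (he : ∀ x : K, ((e x : K) : Qb) = σ x) :
    placeIn K (σ • A) hl (liesOverPrime_smul hA σ) = placeMap e (placeIn K A hl hA) := by
  refine HeightOneSpectrum.ext (Ideal.ext fun x => ?_)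
  rw [mem_placeMap]
  show toZbar K x ∈ centre (σ • A) ↔ _
  rw [centre_smul, Ideal.mem_pointwise_smul_iff_inv_smul_mem]
  have : σ⁻¹ • toZbar K x = toZbar K (RingOfIntegers.mapRingEquiv e.symm x) := Subtype.ext (by
    show σ⁻¹ ((x : K) : Qb) = ((e.symm (x : K) : K) : Qb)
    apply σ.injective
    rw [← he, e.apply_symm_apply]
    exact AlgEquiv.apply_symm_apply σ _)
  rw [this]
  rfl

variable (K)

/-- Places of `ℚ̄` with the same restriction to `K` are conjugate over `K`. -/
theorem exists_fix_smul_eq {B : ValuationSubring Qb} (h : centreIn K A = centreIn K B) :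
    ∃ σ ∈ K.fixingSubgroup, σ • A = B := by
  let _t : TopologicalSpace Zbar := ⊥
  have : DiscreteTopology Zbar := ⟨rfl⟩
  let H : Subgroup Γ := K.fixingSubgroup
  have : CompactSpace H :=
    isCompact_iff_compactSpace.mp (InfiniteGalois.fixingSubgroup_isClosed K).isCompact
  have : ContinuousSMul H Zbar := by
    rw [continuousSMul_iff_stabilizer_isOpen]
    intro x
    have : (MulAction.stabilizer H x : Set H) =
        Subtype.val ⁻¹' (MulAction.stabilizer Γ (x : Qb) : Set Γ) := by
      ext σ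
      simp only [SetLike.mem_coe, Set.mem_preimage, MulAction.mem_stabilizer_iff, Subtype.ext_iff]
      rfl
    rw [this]
    have hop : IsOpen (MulAction.stabilizer Γ (x : Qb) : Set Γ) :=
      stabilizer_isOpen_of_isIntegral (K := ℚ) (L := Qb) _
    exact hop.preimage continuous_subtype_val
  let B' : Subalgebra ℤ Zbar := FixedPoints.subalgebra ℤ Zbar H
  have : SMulCommClass H B' Zbar := ⟨fun g a x ↦ by
    show g • ((a : Zbar) * x) = (a : Zbar) * (g • x)
    rw [smul_mul', a.2 g]⟩
  have : Algebra.IsInvariant B' Zbar H := ⟨fun b hb ↦ ⟨⟨b, hb⟩, rfl⟩⟩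
  have hB' : ∀ x : Zbar, (∀ g : H, g • x = x) → (x : Qb) ∈ K := fun x hx =>
    mem_of_forall_fixed K fun σ hσ => congrArg Subtype.val (hx ⟨σ, hσ⟩)
  have hunder : (centre A).under B' = (centre B).under B' := by
    ext ⟨x, hx⟩
    simp only [Ideal.under, Ideal.mem_comap]
    obtain ⟨y, rfl⟩ := exists_toZbar_eq K (hB' x hx)
    exact SetLike.ext_iff.mp h y
  obtain ⟨g, hg⟩ := Algebra.IsInvariant.exists_smul_of_under_eq_of_profinite (A := B') (G := H)
    (centre A) (centre B) hunder
  exact ⟨g, g.2, eq_of_centre_eq (by rw [centre_smul]; exact hg.symm)⟩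

variable {K}

theorem eq_of_natCast_mem {l' : ℕ} (hl : l.Prime) (hl' : l'.Prime) (v : Ext.Place K)
    (h : (l : 𝓞 K) ∈ v.asIdeal) (h' : (l' : 𝓞 K) ∈ v.asIdeal) : l = l' := by
  by_contra hne
  have hco : Nat.Coprime l l' := (Nat.coprime_primes hl hl').mpr hne
  obtain ⟨a, b, hab⟩ := Int.isCoprime_iff_nat_coprime.mpr
    (by simpa using hco : Int.natAbs (l : ℤ) |>.Coprime (Int.natAbs (l' : ℤ)))
  refine v.isPrime.ne_top ((Ideal.eq_top_iff_one _).mpr ?_)
  have : ((a * l + b * l' : ℤ) : 𝓞 K) ∈ v.asIdeal := by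
    push_cast
    exact add_mem (Ideal.mul_mem_left _ _ h) (Ideal.mul_mem_left _ _ h')
  rwa [hab, Int.cast_one] at this

/-- The residue characteristic of a place. -/
theorem exists_prime_mem (v : Ext.Place K) : ∃ l : ℕ, l.Prime ∧ (l : 𝓞 K) ∈ v.asIdeal := by
  have hpr : (v.asIdeal.under ℤ).IsPrime := inferInstance
  have hne : v.asIdeal.under ℤ ≠ ⊥ := fun h =>
    v.ne_bot (Ideal.eq_bot_of_comap_eq_bot h)
  obtain ⟨g, hg⟩ := (IsPrincipalIdealRing.principal (v.asIdeal.under ℤ)).principal
  rw [Ideal.submodule_span_eq] at hg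
  have hg0 : g ≠ 0 := by
    rintro rfl
    exact hne (by rw [hg]; exact Ideal.span_singleton_eq_bot.mpr rfl)
  have hgp : Prime g := (Ideal.span_singleton_prime hg0).mp (hg ▸ hpr)
  refine ⟨g.natAbs, Int.prime_iff_natAbs_prime.mp hgp, ?_⟩
  have : ((g.natAbs : ℤ)) ∈ v.asIdeal.under ℤ := by
    rw [hg, Ideal.mem_span_singleton, Int.dvd_natAbs]
  rw [Ideal.under, Ideal.mem_comap, map_natCast] at this
  exact this

variable (K)

/-- Every place is cut out by a valuation subring. -/
theorem exists_placeIn (v : Ext.Place K) {l : ℕ} (hl : l.Prime) (hv : (l : 𝓞 K) ∈ v.asIdeal) :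
    ∃ (A : ValuationSubring Qb) (hA : A.LiesOverPrime l), placeIn K A hl hA = v := by
  algebraize [toZbar K]
  have hint : Algebra.IsIntegral (𝓞 K) Zbar := ⟨fun x =>
    ((inferInstance : Algebra.IsIntegral ℤ Zbar).isIntegral x).tower_top⟩
  have : FaithfulSMul (𝓞 K) Zbar :=
    (faithfulSMul_iff_algebraMap_injective _ _).mpr (toZbar_injective K)
  obtain ⟨⟨P, hP, hPv⟩⟩ := v.asIdeal.nonempty_primesOver (S := Zbar)
  have hlP : (l : Zbar) ∈ P := by
    have : (l : 𝓞 K) ∈ P.under (𝓞 K) := hPv.over ▸ hv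
    rw [Ideal.under, Ideal.mem_comap, map_natCast] at this
    exact this
  have hPl : P.under ℤ = Ideal.span {(l : ℤ)} := by
    have hmax : (Ideal.span {(l : ℤ)}).IsMaximal :=
      ((Ideal.span_singleton_prime (Int.natCast_ne_zero.mpr hl.ne_zero)).mpr
        (Nat.prime_iff_prime_int.mp hl)).isMaximal
        (mt Ideal.span_singleton_eq_bot.mp (Int.natCast_ne_zero.mpr hl.ne_zero))
    refine (hmax.eq_of_le (Ideal.IsPrime.ne_top inferInstance) ?_).symm
    rw [Ideal.span_singleton_le_iff_mem]
    simpa [Ideal.under] using hlP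
  obtain ⟨A₀, hA₀⟩ := exists_liesOverPrime hl
  have := isInvariant_zbar
  let _t : TopologicalSpace Zbar := ⊥
  have : DiscreteTopology Zbar := ⟨rfl⟩
  have : ContinuousSMul Γ Zbar := by
    rw [continuousSMul_iff_stabilizer_isOpen]
    intro x
    have : MulAction.stabilizer Γ x = MulAction.stabilizer Γ (x : Qb) := by
      ext σ; simp [MulAction.mem_stabilizer_iff, Subtype.ext_iff]
    rw [this]
    exact stabilizer_isOpen_of_isIntegral (K := ℚ) (L := Qb) _
  obtain ⟨τ, hτ⟩ := Algebra.IsInvariant.exists_smul_of_under_eq_of_profinite (A := ℤ) (G := Γ)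
    (centre A₀) P (by rw [under_centre hl hA₀, hPl])
  refine ⟨τ • A₀, liesOverPrime_smul hA₀ τ, HeightOneSpectrum.ext ?_⟩
  show (centre (τ • A₀)).comap (toZbar K) = v.asIdeal
  rw [centre_smul, ← hτ]
  exact hPv.over.symm

/-- An automorphism of a normal level fixing the place lifts into the decomposition group. -/
theorem exists_decomposition_eqOn [Normal ℚ K] (g : Γ)
    (hg : centreIn K (g • A) = centreIn K A) :
    ∃ σ ∈ A.decompositionSubgroup ℚ, ∀ x ∈ K, σ x = g x := by
  obtain ⟨h, hh, he⟩ := exists_fix_smul_eq K hg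
  refine ⟨h * g, MulAction.mem_stabilizer_iff.mpr (by rw [mul_smul, he]), fun x hx => ?_⟩
  show h (g x) = g x
  refine apply_eq_of_mem_fixing hh ?_
  rw [show g x = g ((⟨x, hx⟩ : K) : Qb) from rfl, apply_coe_eq K g]
  exact SetLike.coe_mem _

end placeIn

end FLTAgent.TW
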