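import Fermat.Agent.TW.RayL.Defs
import Fermat.Agent.Ext.SUnits
import Mathlib.RingTheory.UniqueFactorizationDomain.NormalizedFactors
import Mathlib.RingTheory.DedekindDomain.Ideal.Lemmas

/-!
# Ray characters from functions on places
-/

set_option autoImplicit false
set_option linter.unusedSectionVars false

open IsDedekindDomain NumberField UniqueFactorizationMonoid

noncomputable section

namespace FLTAgent.TW

variable {K : Type} [Field K] [NumberField K] {V : Type} [AddCommGroup V]

/-- The divisor of an element. -/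
def divisor (x : Kˣ) : Ext.Place K →₀ ℤ :=
  Finsupp.ofSupportFinite (fun v => Ext.ord v (x : K)) (Ext.finite_ord_ne_zero (x : K))

@[simp] theorem divisor_apply (x : Kˣ) (v : Ext.Place K) : divisor x v = Ext.ord v (x : K) := rfl

theorem divisor_mul (x y : Kˣ) : divisor (x * y) = divisor x + divisor y :=
  Finsupp.ext fun v => by simp [Ext.ord_mul v x.ne_zero y.ne_zero]

open Classical in
/-- A function on places, on all ideals. -/
def primeVal (φ : Ext.Place K → V) (P : Ideal (𝓞 K)) : V :=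
  if h : P.IsPrime ∧ P ≠ ⊥ then φ ⟨P, h.1, h.2⟩ else 0

theorem primeVal_asIdeal (φ : Ext.Place K → V) (v : Ext.Place K) :
    primeVal φ v.asIdeal = φ v := by
  rw [primeVal, dif_pos ⟨v.isPrime, v.ne_bot⟩]

open Classical in
/-- The additive extension of a function on places. -/
def idealVal (m : Ideal (𝓞 K)) (φ : Ext.Place K → V) (I : Ideal (𝓞 K)) : V :=
  if I ≠ ⊥ ∧ IsCoprime I m then ((normalizedFactors I).map (primeVal φ)).sum else 0

theorem idealVal_asIdeal (m : Ideal (𝓞 K)) (φ : Ext.Place K → V) (v : Ext.Place K)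
    (hv : IsCoprime v.asIdeal m) : idealVal m φ v.asIdeal = φ v := by
  rw [idealVal, if_pos ⟨v.ne_bot, hv⟩, normalizedFactors_irreducible v.prime.irreducible,
    normalize_eq, Multiset.map_singleton, Multiset.sum_singleton, primeVal_asIdeal]

theorem count_span_eq_ord (v : Ext.Place K) {x : 𝓞 K} (hx : x ≠ 0) :
    ((normalizedFactors (Ideal.span {x})).count v.asIdeal : ℤ) = Ext.ord v (x : K) := by
  classical
  have hpos := Ext.ord_algebraMap_nonneg v x
  obtain ⟨n, hn⟩ := Int.eq_ofNat_of_zero_le hpos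
  rw [hn, Nat.cast_inj]
  have hnext : ¬ ((n + 1 : ℕ) : ℤ) ≤ Ext.ord v (x : K) := by rw [hn]; push_cast; omega
  refine Ideal.count_normalizedFactors_eq ?_ ?_
  · rw [Ideal.span_singleton_le_iff_mem, ← Ext.le_ord_iff_mem v hx n, hn]
  · rw [Ideal.span_singleton_le_iff_mem, ← Ext.le_ord_iff_mem v hx (n + 1)]
    exact hnext

theorem sum_normalizedFactors_span (φ : Ext.Place K → V) {x : 𝓞 K} (hx : x ≠ 0)
    (hx' : (x : K) ≠ 0) :
    ((normalizedFactors (Ideal.span {x})).map (primeVal φ)).sum =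
      (divisor (Units.mk0 (x : K) hx')).sum fun v n => n • φ v := by
  classical
  rw [Finset.sum_multiset_map_count, Finsupp.sum]
  refine (Finset.sum_bij (fun v _ => v.asIdeal) (fun v hv => ?_) (fun a _ b _ h =>
    HeightOneSpectrum.ext h) (fun P hP => ?_) fun v hv => ?_).symm
  · rw [Finsupp.mem_support_iff, divisor_apply, Units.val_mk0, ← count_span_eq_ord v hx] at hv
    rw [Multiset.mem_toFinset]
    exact Multiset.count_ne_zero.mp (by exact_mod_cast hv)
  · rw [Multiset.mem_toFinset] at hP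
    have hpr := prime_of_normalized_factor P hP
    refine ⟨⟨P, Ideal.isPrime_of_prime hpr, hpr.ne_zero⟩, ?_, rfl⟩
    rw [Finsupp.mem_support_iff, divisor_apply, Units.val_mk0, ← count_span_eq_ord _ hx]
    exact_mod_cast Multiset.count_ne_zero.mpr hP
  · rw [primeVal_asIdeal, divisor_apply, Units.val_mk0, ← count_span_eq_ord v hx, natCast_zsmul]

/-- A function on places killing the ray gives a ray character. -/
def rayHomOfPlaces (m : Ideal (𝓞 K)) (φ : Ext.Place K → V)
    (h : ∀ x : Kˣ, (∃ y : 𝓞 K, (x : K) = y ∧ y - 1 ∈ m) →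
      ((divisor x).sum fun v n => n • φ v) = 0) : RayHom m V where
  toFun := idealVal m φ
  map_mul I J hI hJ hIm hJm := by
    classical
    have h1 : I * J ≠ ⊥ ∧ IsCoprime (I * J) m :=
      ⟨(mul_ne_zero (M₀ := Ideal (𝓞 K)) hI hJ), hIm.mul_left hJm⟩
    have hI' : I ≠ ⊥ ∧ IsCoprime I m := ⟨hI, hIm⟩
    have hJ' : J ≠ ⊥ ∧ IsCoprime J m := ⟨hJ, hJm⟩
    simp only [idealVal]
    rw [if_pos h1, if_pos hI', if_pos hJ', normalizedFactors_mul hI hJ, Multiset.map_add,
      Multiset.sum_add]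
  map_ray x hx hxm := by
    have hco : IsCoprime (Ideal.span {x}) m := Ideal.isCoprime_iff_exists.2
      ⟨x, Ideal.mem_span_singleton_self x, 1 - x, by rw [← neg_sub]; exact neg_mem hxm, by ring⟩
    have hx' : (x : K) ≠ 0 := RingOfIntegers.coe_ne_zero_iff.mpr hx
    have h1 : Ideal.span {x} ≠ ⊥ := fun h0 => hx (Ideal.span_singleton_eq_bot.mp h0)
    have h2 : Ideal.span {x} ≠ ⊥ ∧ IsCoprime (Ideal.span {x}) m := ⟨h1, hco⟩
    simp only [idealVal]
    rw [if_pos h2, sum_normalizedFactors_span φ hx hx']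
    exact h _ ⟨x, rfl, hxm⟩
  eq_zero I hI := if_neg fun h' => by
    rcases hI with hI | hI
    · exact h'.1 hI
    · exact hI h'.2

theorem rayHomOfPlaces_asIdeal (m : Ideal (𝓞 K)) (φ : Ext.Place K → V)
    (h : ∀ x : Kˣ, (∃ y : 𝓞 K, (x : K) = y ∧ y - 1 ∈ m) →
      ((divisor x).sum fun v n => n • φ v) = 0) (v : Ext.Place K) (hv : IsCoprime v.asIdeal m) :
    (rayHomOfPlaces m φ h).toFun v.asIdeal = φ v :=
  idealVal_asIdeal m φ v hv

theorem not_isCoprime_iff_le (m : Ideal (𝓞 K)) (v : Ext.Place K) :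
    ¬ IsCoprime v.asIdeal m ↔ m ≤ v.asIdeal := by
  rw [Ideal.isCoprime_iff_sup_eq]
  constructor
  · intro h
    by_contra hle
    exact h (v.isMaximal.out.2 _ (left_lt_sup.mpr hle))
  · intro hle h
    rw [sup_eq_left.mpr hle] at h
    exact v.isPrime.ne_top h

end FLTAgent.TW
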