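import Fermat.Agent.TW.RayL.Main
import Mathlib.RingTheory.Ideal.Norm.RelNorm
import Mathlib.RingTheory.Flat.FaithfullyFlat.Algebra
import Mathlib.RingTheory.IntegralClosure.IntegralRestrict

/-!
# Composing a ray character with a norm; finiteness of ray characters
-/

set_option autoImplicit false
set_option linter.unusedSectionVars false

open IsDedekindDomain NumberField

noncomputable section

namespace FLTAgent.TW

variable {K L : Type} [Field K] [NumberField K] [Field L] [NumberField L] [Algebra K L]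
  [IsGalois K L] {m : Ideal (𝓞 K)} {V : Type} [AddCommGroup V]

theorem intNorm_sub_one_mem {x : 𝓞 L} (hx : x - 1 ∈ m.map (algebraMap (𝓞 K) (𝓞 L))) :
    Algebra.intNorm (𝓞 K) (𝓞 L) x - 1 ∈ m := by
  classical
  set M := m.map (algebraMap (𝓞 K) (𝓞 L)) with hM
  let e : (L ≃ₐ[K] L) → (𝓞 L ≃ₐ[𝓞 K] 𝓞 L) := fun σ => RingOfIntegers.mapAlgEquiv σ
  have hσ : ∀ σ : 𝓞 L ≃ₐ[𝓞 K] 𝓞 L, σ x - 1 ∈ M := fun σ => by
    have h1 := Ideal.mem_map_of_mem (σ : 𝓞 L →+* 𝓞 L) hx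
    rw [map_sub, map_one, hM, Ideal.map_map,
      show (σ : 𝓞 L →+* 𝓞 L).comp (algebraMap (𝓞 K) (𝓞 L)) = algebraMap (𝓞 K) (𝓞 L) from
        RingHom.ext σ.commutes] at h1
    exact h1
  have hprod : (∏ σ : L ≃ₐ[K] L, e σ x) - 1 ∈ M := by
    rw [← Ideal.Quotient.eq, map_prod, map_one]
    exact Finset.prod_eq_one fun σ _ => by
      rw [← map_one (Ideal.Quotient.mk M), Ideal.Quotient.eq]
      exact hσ (e σ)
  have hN : algebraMap (𝓞 K) (𝓞 L) (Algebra.intNorm (𝓞 K) (𝓞 L) x) =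
      ∏ σ : L ≃ₐ[K] L, e σ x := by
    apply FaithfulSMul.algebraMap_injective (𝓞 L) L
    rw [← IsScalarTower.algebraMap_apply (𝓞 K) (𝓞 L) L, IsScalarTower.algebraMap_apply (𝓞 K) K L,
      Algebra.algebraMap_intNorm (K := K) (L := L), Algebra.norm_eq_prod_automorphisms, map_prod]
    rfl
  rw [← hN, ← map_one (algebraMap (𝓞 K) (𝓞 L)), ← map_sub] at hprod
  rw [← Ideal.comap_map_eq_self_of_faithfullyFlat (B := 𝓞 L) m]
  exact hprod

theorem isCoprime_relNorm {I : Ideal (𝓞 L)}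
    (h : IsCoprime I (m.map (algebraMap (𝓞 K) (𝓞 L)))) :
    IsCoprime (Ideal.relNorm (𝓞 K) I) m := by
  obtain ⟨a, ha, b, hb, hab⟩ := Ideal.isCoprime_iff_exists.mp h
  refine Ideal.isCoprime_iff_exists.mpr ⟨Algebra.intNorm (𝓞 K) (𝓞 L) a, ?_,
    1 - Algebra.intNorm (𝓞 K) (𝓞 L) a, ?_, by ring⟩
  · exact Ideal.relNorm_mono (R := 𝓞 K) ((Ideal.span_singleton_le_iff_mem I).mpr ha)
      (Ideal.relNorm_singleton (R := 𝓞 K) a ▸ Ideal.mem_span_singleton_self _)
  · rw [← neg_sub]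
    refine neg_mem (intNorm_sub_one_mem ?_)
    rw [show a - 1 = -b by linear_combination hab]
    exact neg_mem hb

open Classical in
/-- The character `I ↦ χ (N I)`. -/
def normPull (χ : RayHom m V) : RayHom (m.map (algebraMap (𝓞 K) (𝓞 L))) V where
  toFun I := if I ≠ ⊥ ∧ IsCoprime I (m.map (algebraMap (𝓞 K) (𝓞 L))) then
    χ.toFun (Ideal.relNorm (𝓞 K) I) else 0
  map_mul I J hI hJ hIm hJm := by
    have h1 : I ≠ ⊥ ∧ IsCoprime I (m.map (algebraMap (𝓞 K) (𝓞 L))) := ⟨hI, hIm⟩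
    have h2 : J ≠ ⊥ ∧ IsCoprime J (m.map (algebraMap (𝓞 K) (𝓞 L))) := ⟨hJ, hJm⟩
    have h3 : I * J ≠ ⊥ ∧ IsCoprime (I * J) (m.map (algebraMap (𝓞 K) (𝓞 L))) :=
      ⟨mul_ne_zero (M₀ := Ideal (𝓞 L)) hI hJ, hIm.mul_left hJm⟩
    rw [if_pos h1, if_pos h2, if_pos h3, map_mul]
    exact χ.map_mul _ _ (mt Ideal.relNorm_eq_bot_iff.mp hI) (mt Ideal.relNorm_eq_bot_iff.mp hJ)
      (isCoprime_relNorm hIm) (isCoprime_relNorm hJm)
  map_ray x hx hxm := by
    have hco : IsCoprime (Ideal.span {x}) (m.map (algebraMap (𝓞 K) (𝓞 L))) :=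
      Ideal.isCoprime_iff_exists.2 ⟨x, Ideal.mem_span_singleton_self x, 1 - x,
        by rw [← neg_sub]; exact neg_mem hxm, by ring⟩
    have hne : Ideal.span {x} ≠ ⊥ := fun h0 => hx (Ideal.span_singleton_eq_bot.mp h0)
    have h1 : Ideal.span {x} ≠ ⊥ ∧ IsCoprime (Ideal.span {x}) (m.map (algebraMap (𝓞 K) (𝓞 L))) :=
      ⟨hne, hco⟩
    rw [if_pos h1, Ideal.relNorm_singleton]
    refine χ.map_ray _ ?_ (intNorm_sub_one_mem hxm)
    exact fun h0 => hne (by rw [← Ideal.relNorm_eq_bot_iff (R := 𝓞 K), Ideal.relNorm_singleton, h0,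
      Ideal.span_singleton_eq_bot])
  eq_zero I hI := if_neg fun h' => by
    rcases hI with hI | hI
    · exact h'.1 hI
    · exact hI h'.2

theorem normPull_apply (χ : RayHom m V) {I : Ideal (𝓞 L)} (hI : I ≠ ⊥)
    (hc : IsCoprime I (m.map (algebraMap (𝓞 K) (𝓞 L)))) :
    (normPull χ).toFun I = χ.toFun (Ideal.relNorm (𝓞 K) I) := by
  classical
  exact if_pos ⟨hI, hc⟩

/-- The value at a prime is a multiple of the value at the prime below. -/
theorem normPull_prime (χ : RayHom m V) (w : HeightOneSpectrum (𝓞 L))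
    (hc : IsCoprime w.asIdeal (m.map (algebraMap (𝓞 K) (𝓞 L)))) :
    (normPull χ).toFun w.asIdeal =
      w.asIdeal.inertiaDeg (𝓞 K) • χ.toFun (w.asIdeal.under (𝓞 K)) := by
  have : (w.asIdeal.under (𝓞 K)).IsMaximal := inferInstance
  have hne : w.asIdeal.under (𝓞 K) ≠ ⊥ := Ideal.under_ne_bot (𝓞 K) w.ne_bot
  rw [normPull_apply χ w.ne_bot hc,
    Ideal.relNorm_eq_pow_of_isMaximal w.asIdeal (w.asIdeal.under (𝓞 K))]
  have hco : IsCoprime (w.asIdeal.under (𝓞 K)) m := by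
    obtain ⟨n, hn⟩ : ∃ n, w.asIdeal.inertiaDeg (𝓞 K) = n + 1 :=
      ⟨_, (Nat.succ_pred_eq_of_pos (Ideal.inertiaDeg_pos w.asIdeal (𝓞 K))).symm⟩
    have h := isCoprime_relNorm hc
    rw [Ideal.relNorm_eq_pow_of_isMaximal w.asIdeal (w.asIdeal.under (𝓞 K)), hn, pow_succ] at h
    exact h.of_mul_left_right
  induction w.asIdeal.inertiaDeg (𝓞 K) with
  | zero =>
    rw [pow_zero, zero_smul]
    exact RayL.rayHom_map_one χ
  | succ n ih =>
    rw [pow_succ, χ.map_mul _ _ (pow_ne_zero _ hne) hne (hco.pow_left) hco, ih, succ_nsmul]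

/-- A degree one prime with nonzero pulled back value lies over a prime with nonzero value. -/
theorem exists_ne_zero_of_normPull (χ : RayHom m V) (w : HeightOneSpectrum (𝓞 L))
    (h : (normPull χ).toFun w.asIdeal ≠ 0) : χ.toFun (w.asIdeal.under (𝓞 K)) ≠ 0 := fun h0 => h (by
  by_cases hc : IsCoprime w.asIdeal (m.map (algebraMap (𝓞 K) (𝓞 L)))
  · rw [normPull_prime χ w hc, h0, smul_zero]
  · exact (normPull χ).eq_zero _ (Or.inr hc))

/-- At a degree one prime the pulled back value is the value below. -/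
theorem normPull_degreeOne (χ : RayHom m V) (w : HeightOneSpectrum (𝓞 L)) (hw : IsDegreeOne w)
    (hc : IsCoprime w.asIdeal (m.map (algebraMap (𝓞 K) (𝓞 L)))) :
    (normPull χ).toFun w.asIdeal = χ.toFun (w.asIdeal.under (𝓞 K)) := by
  have hmax : (w.asIdeal.under (𝓞 K)).IsMaximal := inferInstance
  rw [normPull_apply χ w.ne_bot hc]
  congr 1
  have hN : Ideal.absNorm (Ideal.relNorm (𝓞 K) w.asIdeal) = Ideal.absNorm w.asIdeal :=
    Ideal.absNorm_relNorm (R := 𝓞 K) (S := 𝓞 L) (I := w.asIdeal)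
  have hpr : (Ideal.relNorm (𝓞 K) w.asIdeal).IsPrime :=
    Ideal.isPrime_of_irreducible_absNorm (by rw [hN]; exact hw)
  have hne : Ideal.relNorm (𝓞 K) w.asIdeal ≠ ⊥ := mt Ideal.relNorm_eq_bot_iff.mp w.ne_bot
  exact (hpr.isMaximal hne).eq_of_le hmax.ne_top (Ideal.relNorm_le_comap (R := 𝓞 K) w.asIdeal)

/-- A finite set of ideals determines a ray character. -/
theorem RayHom.exists_determining {K : Type} [Field K] [NumberField K] {m : Ideal (𝓞 K)}
    (hm : m ≠ ⊥) : ∃ F : Finset (Ideal (𝓞 K)),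
      ∀ {V : Type} [AddCommGroup V] (χ : RayHom m V), (∀ I ∈ F, χ.toFun I = 0) →
        ∀ I, χ.toFun I = 0 := by
  classical
  choose J hJ hJcls using fun C : ClassGroup (𝓞 K) => RayL.exists_rep C hm
  have : Finite (𝓞 K ⧸ m) := Ideal.finiteQuotientOfFreeOfNeBot m hm
  have : Fintype (𝓞 K ⧸ m) := Fintype.ofFinite _
  choose r hr using fun a : 𝓞 K ⧸ m => Ideal.Quotient.mk_surjective a
  refine ⟨(Finset.univ.image fun C => ((J C : (Ideal (𝓞 K))) : Ideal (𝓞 K))) ∪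
    (Finset.univ.image fun a => Ideal.span {r a}), fun {V} _ χ hF I => ?_⟩
  by_cases hI : I = ⊥ ∨ ¬ IsCoprime I m
  · exact χ.eq_zero I hI
  rw [not_or, not_not] at hI
  obtain ⟨hI0, hIm⟩ := hI
  set I₀ : nonZeroDivisors (Ideal (𝓞 K)) := ⟨I, mem_nonZeroDivisors_of_ne_zero hI0⟩
  have h1 : ClassGroup.mk0 (I₀ * J (ClassGroup.mk0 I₀)) = 1 := by
    rw [_root_.map_mul, hJcls, mul_inv_cancel]
  rw [ClassGroup.mk0_eq_one_iff (SetLike.coe_mem _)] at h1
  obtain ⟨x, hx⟩ := h1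
  rw [Ideal.submodule_span_eq, Submonoid.coe_mul] at hx
  have hx0 : x ≠ 0 := by
    rintro rfl
    rw [Ideal.span_singleton_zero] at hx
    exact mul_ne_zero (M₀ := Ideal (𝓞 K)) hI0 (nonZeroDivisors.coe_ne_zero _) hx
  have hJm := hJ (ClassGroup.mk0 I₀)
  have hxm : IsCoprime (Ideal.span {x}) m := hx ▸ hIm.mul_left hJm
  -- an inverse of `x` modulo `m`
  obtain ⟨a, ha, b, hb, hab⟩ := Ideal.isCoprime_iff_exists.mp hxm
  obtain ⟨x', hx'⟩ := Ideal.mem_span_singleton'.mp ha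
  set y := r (Ideal.Quotient.mk m x')
  have hy : x * y - 1 ∈ m := by
    have h2 : y - x' ∈ m := Ideal.Quotient.eq.mp (hr _)
    have h3 : x * y - 1 = x * (y - x') + (-b) := by linear_combination hab + hx'
    rw [h3]
    exact add_mem (Ideal.mul_mem_left _ _ h2) (neg_mem hb)
  by_cases hy0 : y = 0
  · rw [hy0, mul_zero, zero_sub, neg_mem_iff] at hy
    obtain rfl : m = ⊤ := (Ideal.eq_top_iff_one m).mpr hy
    have h4 := χ.map_ray x hx0 Submodule.mem_top
    have hc : IsCoprime I (⊤ : Ideal (𝓞 K)) := Ideal.isCoprime_iff_sup_eq.2 (sup_top_eq _)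
    have hc' : IsCoprime ((J (ClassGroup.mk0 I₀) : Ideal (𝓞 K))) (⊤ : Ideal (𝓞 K)) :=
      Ideal.isCoprime_iff_sup_eq.2 (sup_top_eq _)
    rw [← hx, χ.map_mul I _ hI0 (nonZeroDivisors.coe_ne_zero _) hc hc',
      hF _ (Finset.mem_union_left _ (Finset.mem_image_of_mem _ (Finset.mem_univ _))),
      add_zero] at h4
    exact h4
  have hym : IsCoprime (Ideal.span {y}) m := Ideal.isCoprime_iff_exists.2
    ⟨x * y, Ideal.mul_mem_left _ _ (Ideal.mem_span_singleton_self y), 1 - x * y,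
      by rw [← neg_sub]; exact neg_mem hy, by ring⟩
  have h4 := χ.map_ray (x * y) (mul_ne_zero hx0 hy0) hy
  rw [← Ideal.span_singleton_mul_span_singleton, χ.map_mul _ _
    (fun h => hx0 (Ideal.span_singleton_eq_bot.mp h)) (fun h => hy0 (Ideal.span_singleton_eq_bot.mp h))
    hxm hym, ← hx, χ.map_mul I _ hI0 (nonZeroDivisors.coe_ne_zero _) hIm hJm,
    hF _ (Finset.mem_union_left _ (Finset.mem_image_of_mem _ (Finset.mem_univ _))),
    hF _ (Finset.mem_union_right _ (Finset.mem_image_of_mem _ (Finset.mem_univ _))),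
    add_zero, add_zero] at h4
  exact h4

end FLTAgent.TW
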