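import Fermat.Agent.TW.FrobPlaces
import Fermat.Agent.TW.NormPull
import Fermat.Agent.TW.MuLevel

/-!
# Products, translations and degree one primes for ray characters
-/

set_option autoImplicit false
set_option linter.unusedSectionVars false

open IsDedekindDomain NumberField
open scoped Pointwise

noncomputable section

namespace FLTAgent.TW

open FLTAgent.Frobenius

section General

variable {K : Type} [Field K] [NumberField K] {m : Ideal (𝓞 K)} {V : Type} [AddCommGroup V]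

/-- The value at a product. -/
theorem RayHom.map_finsetProd (χ : RayHom m V) {ι : Type} (s : Finset ι) (I : ι → Ideal (𝓞 K))
    (h0 : ∀ i ∈ s, I i ≠ ⊥) (hc : ∀ i ∈ s, IsCoprime (I i) m) :
    χ.toFun (∏ i ∈ s, I i) = ∑ i ∈ s, χ.toFun (I i) := by
  classical
  induction s using Finset.induction with
  | empty => rw [Finset.prod_empty, Finset.sum_empty]; exact RayL.rayHom_map_one χ
  | insert a s ha ih =>
    rw [Finset.prod_insert ha, Finset.sum_insert ha,
      χ.map_mul _ _ (h0 a (Finset.mem_insert_self _ _))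
        (Finset.prod_ne_zero_iff.mpr fun i hi => h0 i (Finset.mem_insert_of_mem hi))
        (hc a (Finset.mem_insert_self _ _))
        (IsCoprime.prod_left fun i hi => hc i (Finset.mem_insert_of_mem hi)),
      ih (fun i hi => h0 i (Finset.mem_insert_of_mem hi))
        fun i hi => hc i (Finset.mem_insert_of_mem hi)]

/-- A nonzero value comes from a prime factor. -/
theorem RayHom.exists_prime_factor (χ : RayHom m V) (I : Ideal (𝓞 K)) (h : χ.toFun I ≠ 0) :
    ∃ Q : HeightOneSpectrum (𝓞 K), I ≤ Q.asIdeal ∧ χ.toFun Q.asIdeal ≠ 0 := by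
  revert h
  induction I using UniqueFactorizationMonoid.induction_on_prime with
  | h₁ => exact fun h => absurd (χ.eq_zero _ (Or.inl rfl)) h
  | h₂ I hI => exact fun h => absurd (by rw [Ideal.isUnit_iff.mp hI, ← Ideal.one_eq_top]
                                         exact RayL.rayHom_map_one χ) h
  | h₃ J P hJ hP ih =>
    intro h
    let Q : HeightOneSpectrum (𝓞 K) := ⟨P, Ideal.isPrime_of_prime hP, hP.ne_zero⟩
    by_cases hc : IsCoprime (P * J) m
    · rw [χ.map_mul P J hP.ne_zero hJ hc.of_mul_left_left hc.of_mul_left_right] at h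
      by_cases hP0 : χ.toFun P = 0
      · rw [hP0, zero_add] at h
        obtain ⟨Q', h1, h2⟩ := ih h
        exact ⟨Q', Ideal.mul_le_right.trans h1, h2⟩
      · exact ⟨Q, Ideal.mul_le_left, hP0⟩
    · exact absurd (χ.eq_zero _ (Or.inr hc)) h

/-- A prime with residue characteristic not dividing `n ∈ m` is prime to `m`. -/
theorem isCoprime_of_natCast (v : HeightOneSpectrum (𝓞 K)) {l n : ℕ} (hl : l.Prime)
    (hv : (l : 𝓞 K) ∈ v.asIdeal) (hn : (n : 𝓞 K) ∈ m) (hln : ¬ l ∣ n) :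
    IsCoprime v.asIdeal m := by
  obtain ⟨a, b, hab⟩ := Nat.isCoprime_iff_coprime.mpr ((hl.coprime_iff_not_dvd).mpr hln)
  refine Ideal.isCoprime_iff_exists.mpr
    ⟨(a : 𝓞 K) * l, Ideal.mul_mem_left _ _ hv, (b : 𝓞 K) * n, Ideal.mul_mem_left _ _ hn, ?_⟩
  exact_mod_cast congrArg (Int.cast (R := 𝓞 K)) hab

/-- A ring map pulls back a ray character. -/
def RayHom.pull {E : Type} [Field E] [NumberField E] (ι : 𝓞 E →+* 𝓞 K)
    (hι : Function.Injective ι) (mE : Ideal (𝓞 E)) (hm : mE.map ι ≤ m) (χ : RayHom m V) :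
    RayHom mE V :=
  haveI key : ∀ I : Ideal (𝓞 E), IsCoprime I mE → IsCoprime (I.map ι) m := fun I h =>
    Ideal.isCoprime_iff_sup_eq.mpr (top_le_iff.mp (by
      calc (⊤ : Ideal (𝓞 K)) = (I ⊔ mE).map ι := by
            rw [Ideal.isCoprime_iff_sup_eq.mp h, Ideal.map_top]
        _ = I.map ι ⊔ mE.map ι := Ideal.map_sup _ _ _
        _ ≤ I.map ι ⊔ m := sup_le_sup_left hm _))
  letI : ∀ I : Ideal (𝓞 E), Decidable (I ≠ ⊥ ∧ IsCoprime I mE) := fun _ => Classical.dec _
  { toFun := fun I => if I ≠ ⊥ ∧ IsCoprime I mE then χ.toFun (I.map ι) else 0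
    map_mul := fun I J hI hJ hIm hJm => by
      rw [if_pos ⟨mul_ne_zero (M₀ := Ideal (𝓞 E)) hI hJ, hIm.mul_left hJm⟩, if_pos ⟨hI, hIm⟩,
        if_pos ⟨hJ, hJm⟩, Ideal.map_mul]
      exact χ.map_mul _ _ (mt (Ideal.map_eq_bot_iff_of_injective hι).mp hI)
        (mt (Ideal.map_eq_bot_iff_of_injective hι).mp hJ) (key I hIm) (key J hJm)
    map_ray := fun x hx hxm => by
      have hco : IsCoprime (Ideal.span {x}) mE :=
        Ideal.isCoprime_iff_exists.2 ⟨x, Ideal.mem_span_singleton_self x, 1 - x,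
          by rw [← neg_sub]; exact neg_mem hxm, by ring⟩
      rw [if_pos ⟨fun h0 => hx (Ideal.span_singleton_eq_bot.mp h0), hco⟩, Ideal.map_span,
        Set.image_singleton]
      refine χ.map_ray _ (fun h0 => hx (hι (h0.trans (map_zero ι).symm))) ?_
      have h := hm (Ideal.mem_map_of_mem ι hxm)
      rwa [map_sub, map_one] at h
    eq_zero := fun I hI => if_neg fun h' => hI.elim h'.1 fun h => h h'.2 }

theorem RayHom.pull_apply {E : Type} [Field E] [NumberField E] (ι : 𝓞 E →+* 𝓞 K)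
    (hι : Function.Injective ι) (mE : Ideal (𝓞 E)) (hm : mE.map ι ≤ m) (χ : RayHom m V)
    {I : Ideal (𝓞 E)} (hI : I ≠ ⊥) (hc : IsCoprime I mE) :
    (χ.pull ι hι mE hm).toFun I = χ.toFun (I.map ι) := by
  classical
  exact if_pos ⟨hI, hc⟩

/-- Residue degree one. -/
theorem absNorm_eq_of_pow_eq (v : HeightOneSpectrum (𝓞 K)) {l : ℕ} (hl : l.Prime)
    (hlv : (l : 𝓞 K) ∈ v.asIdeal) (h : ∀ x : 𝓞 K, x ^ l - x ∈ v.asIdeal) :
    Ideal.absNorm v.asIdeal = l := by
  classical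
  let _ : Field (𝓞 K ⧸ v.asIdeal) := @Ideal.Quotient.field _ _ v.asIdeal v.isMaximal
  have : Finite (𝓞 K ⧸ v.asIdeal) := Ideal.finiteQuotientOfFreeOfNeBot v.asIdeal v.ne_bot
  have : Fintype (𝓞 K ⧸ v.asIdeal) := Fintype.ofFinite _
  have hroot : ∀ a : 𝓞 K ⧸ v.asIdeal, a ^ l = a := fun a => by
    obtain ⟨x, rfl⟩ := Ideal.Quotient.mk_surjective a
    rw [← map_pow, Ideal.Quotient.eq]
    exact h x
  have hle : Fintype.card (𝓞 K ⧸ v.asIdeal) ≤ l := by
    have hne : (Polynomial.X ^ l - Polynomial.X : Polynomial (𝓞 K ⧸ v.asIdeal)) ≠ 0 :=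
      FiniteField.X_pow_card_sub_X_ne_zero _ hl.one_lt
    calc Fintype.card (𝓞 K ⧸ v.asIdeal)
        ≤ (Polynomial.X ^ l - Polynomial.X : Polynomial (𝓞 K ⧸ v.asIdeal)).natDegree :=
          Polynomial.card_le_degree_of_subset_roots (Z := Finset.univ) fun a _ => by
            rw [Polynomial.mem_roots hne]; simp [hroot a]
      _ = l := FiniteField.X_pow_card_sub_X_natDegree_eq _ hl.one_lt
  have hdvd : l ∣ Fintype.card (𝓞 K ⧸ v.asIdeal) := by
    have h0 : (l : 𝓞 K ⧸ v.asIdeal) = 0 := by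
      rw [← map_natCast (Ideal.Quotient.mk v.asIdeal), Ideal.Quotient.eq_zero_iff_mem]
      exact hlv
    have hchar : CharP (𝓞 K ⧸ v.asIdeal) l :=
      ringChar.of_eq ((hl.eq_one_or_self_of_dvd _ (ringChar.dvd h0)).resolve_left
        CharP.ringChar_ne_one)
    obtain ⟨n, -, hn⟩ := FiniteField.card (𝓞 K ⧸ v.asIdeal) l
    rw [hn]
    exact dvd_pow_self l n.ne_zero
  rw [Ideal.absNorm_apply, Submodule.cardQuot_apply, Nat.card_eq_fintype_card]
  exact le_antisymm hle (Nat.le_of_dvd Fintype.card_pos hdvd)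

/-- At a degree one prime every residue class is rational. -/
theorem exists_natCast_sub_mem (v : HeightOneSpectrum (𝓞 K)) {l : ℕ} (hl : l.Prime)
    (hv : Ideal.absNorm v.asIdeal = l) (x : 𝓞 K) : ∃ a : ℕ, x - a ∈ v.asIdeal := by
  classical
  have : Finite (𝓞 K ⧸ v.asIdeal) := Ideal.finiteQuotientOfFreeOfNeBot v.asIdeal v.ne_bot
  have : Fintype (𝓞 K ⧸ v.asIdeal) := Fintype.ofFinite _
  rw [Ideal.absNorm_apply, Submodule.cardQuot_apply, Nat.card_eq_fintype_card] at hv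
  have : Fact l.Prime := ⟨hl⟩
  obtain ⟨a, ha⟩ := (ZMod.ringEquivOfPrime (𝓞 K ⧸ v.asIdeal) hl hv).surjective
    (Ideal.Quotient.mk v.asIdeal x)
  refine ⟨a.val, ?_⟩
  rw [← Ideal.Quotient.eq, map_natCast, ← ha]
  conv_lhs => rw [← ZMod.natCast_zmod_val a]
  rw [map_natCast]

/-- The pullback by a norm at a degree one prime. -/
theorem normPull_degreeOne' {L : Type} [Field L] [NumberField L] [Algebra K L] [IsGalois K L]
    (χ : RayHom m V) (w : HeightOneSpectrum (𝓞 L)) (hw : IsDegreeOne w) :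
    (normPull χ).toFun w.asIdeal = χ.toFun (w.asIdeal.under (𝓞 K)) := by
  by_cases hc : IsCoprime w.asIdeal (m.map (algebraMap (𝓞 K) (𝓞 L)))
  · exact normPull_degreeOne χ w hw hc
  · rw [(normPull χ).eq_zero _ (Or.inr hc), χ.eq_zero _ (Or.inr fun h => hc ?_)]
    rw [Ideal.isCoprime_iff_sup_eq] at h ⊢
    refine top_le_iff.mp ?_
    calc (⊤ : Ideal (𝓞 L)) = (w.asIdeal.under (𝓞 K) ⊔ m).map (algebraMap (𝓞 K) (𝓞 L)) := by
          rw [h, Ideal.map_top]
      _ = (w.asIdeal.under (𝓞 K)).map (algebraMap (𝓞 K) (𝓞 L)) ⊔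
          m.map (algebraMap (𝓞 K) (𝓞 L)) := Ideal.map_sup _ _ _
      _ ≤ _ := sup_le_sup_right Ideal.map_comap_le _

end General

theorem finite_places_over {K : Type} [Field K] [NumberField K] (bad : Finset ℕ) :
    {v : HeightOneSpectrum (𝓞 K) | ∃ l ∈ bad, l ≠ 0 ∧ (l : 𝓞 K) ∈ v.asIdeal}.Finite := by
  have h : {v : HeightOneSpectrum (𝓞 K) | ∃ l ∈ bad, l ≠ 0 ∧ (l : 𝓞 K) ∈ v.asIdeal} ⊆
      ⋃ l ∈ bad.filter (· ≠ 0),
        {v : HeightOneSpectrum (𝓞 K) | v.asIdeal ∣ Ideal.span {(l : 𝓞 K)}} := by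
    rintro v ⟨l, hl, hl0, hlv⟩
    refine Set.mem_biUnion (Finset.mem_filter.mpr ⟨hl, hl0⟩) ?_
    exact Ideal.dvd_span_singleton.mpr hlv
  refine Set.Finite.subset (Set.Finite.biUnion (Finset.finite_toSet _) fun l hl => ?_) h
  refine Ideal.finite_factors ?_
  rw [Ne, Ideal.zero_eq_bot, Ideal.span_singleton_eq_bot]
  exact Nat.cast_ne_zero.mpr (Finset.mem_filter.mp hl).2

theorem placeIn_smul_fix {K : IntermediateField ℚ Qb} [FiniteDimensional ℚ K]
    {A : ValuationSubring Qb} {l : ℕ} {hl : l.Prime} {hA : A.LiesOverPrime l} {τ : Γ}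
    (hτ : τ ∈ K.fixingSubgroup) :
    placeIn K (τ • A) hl (liesOverPrime_smul hA τ) = placeIn K A hl hA := by
  rw [placeIn_smul (RingEquiv.refl K) τ fun x => (apply_coe_eq_of_mem_fixing hτ x).symm,
    placeMap_refl]

end FLTAgent.TW
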