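import Fermat.Agent.TW.Selmer
import Fermat.Agent.Deformation.Export
import Fermat.Agent.RT.Irr.Monomial
import Fermat.Prelude.Def_GaloisRep_LocalConditions

/-!
# From deformations to `k[ε]` to Selmer classes

A deformation of `ρbar` to `k[ε]` with cyclotomic determinant is a cocycle in the Selmer space
modulo the global coboundaries, a space of dimension three.
-/

set_option autoImplicit false
set_option linter.unusedSectionVars false

noncomputable section

open IsLocalRing Matrix Polynomial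
open scoped TensorProduct

namespace FLTAgent.TW

open FLTAgent.Deformation FLTAgent.RTIrr

section Linear

variable {k : Type} [Field k] {p : ℕ} {rb : Gal →* Mat k}

theorem snd_map_mul (M N : Mat (DualNumber k)) :
    (M * N).map TrivSqZeroExt.snd =
      M.map TrivSqZeroExt.fst * N.map TrivSqZeroExt.snd +
        M.map TrivSqZeroExt.snd * N.map TrivSqZeroExt.fst := by
  ext i j
  simp [Matrix.mul_apply, TrivSqZeroExt.snd_mul, Finset.sum_add_distrib, mul_comm]
  ring

theorem fst_map_mul (M N : Mat (DualNumber k)) :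
    (M * N).map TrivSqZeroExt.fst = M.map TrivSqZeroExt.fst * N.map TrivSqZeroExt.fst := by
  ext i j
  simp [Matrix.mul_apply, TrivSqZeroExt.fst_sum]

theorem rb_inv_mul (rb : Gal →* Mat k) (σ : Gal) : rb σ⁻¹ * rb σ = 1 := by
  rw [← map_mul, inv_mul_cancel, map_one]

theorem rb_mul_inv (rb : Gal →* Mat k) (σ : Gal) : rb σ * rb σ⁻¹ = 1 := by
  rw [← map_mul, mul_inv_cancel, map_one]

theorem liftCocycle_mul {N : Gal →* Mat (DualNumber k)}
    (hfst : ∀ σ, (N σ).map TrivSqZeroExt.fst = rb σ) (g h : Gal) :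
    liftCocycle rb N (g * h) = liftCocycle rb N g + adAct rb g (liftCocycle rb N h) := by
  simp only [liftCocycle, adAct, map_mul, snd_map_mul, hfst, _root_.mul_inv_rev, add_mul]
  rw [add_comm]
  congr 1
  · rw [mul_assoc, ← mul_assoc (rb h), rb_mul_inv, one_mul]
  · simp only [mul_assoc]

theorem trace_liftCocycle_of_det {N : Gal →* Mat (DualNumber k)}
    (hfst : ∀ σ, (N σ).map TrivSqZeroExt.fst = rb σ) (σ : Gal)
    (h : TrivSqZeroExt.snd (N σ).det = 0) : Matrix.trace (liftCocycle rb N σ) = 0 := by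
  have e1 := rb_inv_mul rb σ
  have hd : (rb σ).det ≠ 0 := fun h0 => by
    have := congrArg Matrix.det e1
    rw [Matrix.det_mul, h0, mul_zero, Matrix.det_one] at this
    exact zero_ne_one this
  have a00 := congrFun (congrFun (hfst σ) 0) 0
  have a01 := congrFun (congrFun (hfst σ) 0) 1
  have a10 := congrFun (congrFun (hfst σ) 1) 0
  have a11 := congrFun (congrFun (hfst σ) 1) 1
  simp only [Matrix.map_apply] at a00 a01 a10 a11
  rw [Matrix.det_fin_two] at h
  simp [TrivSqZeroExt.snd_mul, a00, a01, a10, a11] at h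
  have e00 := congrFun (congrFun e1 0) 0
  have e01 := congrFun (congrFun e1 0) 1
  have e10 := congrFun (congrFun e1 1) 0
  have e11 := congrFun (congrFun e1 1) 1
  simp [Matrix.mul_apply, Fin.sum_univ_two] at e00 e01 e10 e11
  rw [Matrix.det_fin_two] at hd
  suffices key : Matrix.trace (liftCocycle rb N σ) *
      (rb σ 0 0 * rb σ 1 1 - rb σ 0 1 * rb σ 1 0) = 0 from
    (mul_eq_zero.mp key).resolve_right hd
  rw [liftCocycle, Matrix.trace_fin_two]
  simp only [Matrix.mul_apply, Fin.sum_univ_two, Matrix.map_apply]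
  linear_combination h + ((N σ) 0 0).snd * (rb σ 1 1) * e00 - ((N σ) 0 0).snd * (rb σ 1 0) * e01 +
    ((N σ) 1 0).snd * (rb σ 0 0) * e01 - ((N σ) 1 0).snd * (rb σ 0 1) * e00 +
    ((N σ) 0 1).snd * (rb σ 1 1) * e10 - ((N σ) 0 1).snd * (rb σ 1 0) * e11 +
    ((N σ) 1 1).snd * (rb σ 0 0) * e11 - ((N σ) 1 1).snd * (rb σ 0 1) * e10

theorem liftCocycle_level {N : Gal →* Mat (DualNumber k)}
    (hfst : ∀ σ, (N σ).map TrivSqZeroExt.fst = rb σ) {L : IntermediateField ℚ (AlgebraicClosure ℚ)}
    (hL : ∀ σ : Gal, (∀ x ∈ L, σ x = x) → N σ = 1) (g s : Gal) (hs : ∀ x ∈ L, s x = x) :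
    liftCocycle rb N (g * s) = liftCocycle rb N g := by
  have h1 : N (g * s) = N g := by rw [map_mul, hL s hs, mul_one]
  have h2 : rb (g * s)⁻¹ = rb g⁻¹ := by
    have : rb s⁻¹ = 1 := by
      rw [← hfst, hL s⁻¹ fun x hx => by
        show s.symm x = x
        rw [AlgEquiv.symm_apply_eq, hs x hx]]
      exact Matrix.map_one _ TrivSqZeroExt.fst_zero TrivSqZeroExt.fst_one
    rw [_root_.mul_inv_rev, map_mul, this, one_mul]
  rw [liftCocycle, liftCocycle, h1, h2]

/-- The global coboundary. -/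
def globalDelta (rb : Gal →* Mat k) : Mat k →ₗ[k] (Gal → Mat k) where
  toFun X g := adAct rb g X - X
  map_add' X Y := funext fun g => by simp [adAct, mul_add, add_mul]; abel
  map_smul' t X := funext fun g => by simp [adAct, smul_sub]

theorem globalDelta_apply (rb : Gal →* Mat k) (X : Mat k) (g : Gal) :
    globalDelta rb X g = rb g * X * rb g⁻¹ - X := rfl

/-- A lift whose cocycle differs by a coboundary is conjugate. -/
theorem exists_conj_of_sub_eq_globalDelta {N N' : Gal →* Mat (DualNumber k)}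
    (hfst : ∀ σ, (N σ).map TrivSqZeroExt.fst = rb σ)
    (hfst' : ∀ σ, (N' σ).map TrivSqZeroExt.fst = rb σ) (X : Mat k)
    (h : ∀ σ, liftCocycle rb N σ - liftCocycle rb N' σ = globalDelta rb X σ) :
    ∃ u : (Mat (DualNumber k))ˣ, N = conjRep u N' := by
  let E : Mat k → Mat (DualNumber k) := fun Y => 1 + Y.map TrivSqZeroExt.inr
  have hE1 : ∀ Y, (E Y).map TrivSqZeroExt.fst = 1 := fun Y => by
    ext i j; by_cases hij : i = j <;> simp [E, hij, Matrix.one_apply]
  have hE2 : ∀ Y, (E Y).map TrivSqZeroExt.snd = Y := fun Y => by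
    ext i j; by_cases hij : i = j <;> simp [E, hij, Matrix.one_apply]
  have hext : ∀ {A B : Mat (DualNumber k)}, A.map TrivSqZeroExt.fst = B.map TrivSqZeroExt.fst →
      A.map TrivSqZeroExt.snd = B.map TrivSqZeroExt.snd → A = B := fun {A B} h1 h2 => by
    ext i j : 1
    exact TrivSqZeroExt.ext (congrFun (congrFun h1 i) j) (congrFun (congrFun h2 i) j)
  have hmul : ∀ Y, E Y * E (-Y) = 1 := fun Y => hext
    (by rw [fst_map_mul, hE1, hE1, one_mul,
      Matrix.map_one _ TrivSqZeroExt.fst_zero TrivSqZeroExt.fst_one])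
    (by rw [snd_map_mul, hE1, hE1, hE2, hE2, one_mul, mul_one, neg_add_cancel]
        ext i j; by_cases hij : i = j <;> simp [hij, Matrix.one_apply])
  refine ⟨⟨E (-X), E X, by simpa using hmul (-X), hmul X⟩, MonoidHom.ext fun σ => ?_⟩
  rw [conjRep_apply]
  show N σ = E (-X) * N' σ * E X
  refine hext ?_ ?_
  · rw [fst_map_mul, fst_map_mul, hE1, hE1, one_mul, mul_one, hfst, hfst']
  · rw [snd_map_mul, snd_map_mul, fst_map_mul, hE1, hE1, hE2, hE2, hfst', one_mul, mul_one]
    have := congrArg (· * rb σ) (h σ)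
    simp only [liftCocycle, globalDelta_apply, sub_mul, mul_assoc, rb_inv_mul, mul_one] at this
    rw [sub_eq_iff_eq_add.mp this]
    simp only [Matrix.neg_mul, one_mul, mul_one]
    abel

theorem finrank_sl2 : Module.finrank k (sl2 k) = 3 := by
  have h := LinearMap.finrank_range_add_finrank_ker (Matrix.traceLinearMap (Fin 2) k k)
  have hs : LinearMap.range (Matrix.traceLinearMap (Fin 2) k k) = ⊤ :=
    LinearMap.range_eq_top.mpr fun t => ⟨Matrix.of ![![t, 0], ![0, 0]], by simp [Matrix.trace_fin_two]⟩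
  rw [hs, finrank_top, Module.finrank_self, Module.finrank_matrix, Module.finrank_self,
    Fintype.card_fin] at h
  show Module.finrank k (LinearMap.ker (Matrix.traceLinearMap (Fin 2) k k)) = 3
  omega

/-- Without a stable line over the algebraic closure the global coboundary is injective on trace
zero matrices. -/
theorem eq_zero_of_globalDelta (h2 : (2 : k) ≠ 0)
    (hirr : ¬ HasStableLine (mapRep (algebraMap k (AlgebraicClosure k)) rb) Set.univ)
    {X : Mat k} (htr : X.trace = 0) (hX : globalDelta rb X = 0) : X = 0 := by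
  by_contra hne
  let f := algebraMap k (AlgebraicClosure k)
  have hcomm : ∀ g, rb g * X = X * rb g := fun g => by
    have h := congrArg (· * rb g) (congrFun hX g)
    simp only [globalDelta_apply, Pi.zero_apply, sub_mul, zero_mul, mul_assoc, rb_inv_mul, mul_one,
      sub_eq_zero] at h
    exact h
  obtain ⟨a, ha⟩ := IsAlgClosed.exists_root (X.map f).charpoly (by
    rw [Matrix.charpoly_degree_eq_dim]; simp)
  set M : Mat (AlgebraicClosure k) := X.map f - a • 1 with hM
  have hdet : M.det = 0 := by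
    rw [Polynomial.IsRoot, Matrix.eval_charpoly] at ha
    rw [hM, show X.map f - a • (1 : Mat (AlgebraicClosure k)) =
      -(Matrix.scalar (Fin 2) a - X.map f) by
      rw [neg_sub, Matrix.smul_one_eq_diagonal]; rfl, Matrix.det_neg, ha, mul_zero]
  have hM0 : M ≠ 0 := by
    intro h0
    have e : X.map f = a • (1 : Mat (AlgebraicClosure k)) := sub_eq_zero.mp h0
    have ht := congrArg Matrix.trace e
    have e2 : (X.map f).trace = f X.trace := by simp [Matrix.trace_fin_two]
    rw [Matrix.trace_smul, Matrix.trace_one, e2, htr, map_zero] at ht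
    simp at ht
    have h2' : (2 : AlgebraicClosure k) ≠ 0 := by
      rw [← map_ofNat f 2]; exact (map_ne_zero f).mpr h2
    rw [ht.resolve_right h2'] at e
    rw [zero_smul] at e
    exact hne (Matrix.map_injective f.injective (by
      show X.map f = (0 : Mat k).map f
      rw [e]; ext i j; simp))
  obtain ⟨v, hv, hv0⟩ := Matrix.exists_mulVec_eq_zero_iff.mpr hdet
  refine hirr ⟨v, hv, fun g _ => ?_⟩
  have hc : M * (mapRep f rb g) = (mapRep f rb g) * M := by
    rw [hM, mapRep_apply, sub_mul, mul_sub, Matrix.smul_mul, Matrix.mul_smul, one_mul, mul_one,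
      ← Matrix.map_mul, ← Matrix.map_mul, hcomm]
  have hker : M *ᵥ (mapRep f rb g *ᵥ v) = 0 := by
    rw [Matrix.mulVec_mulVec, hc, ← Matrix.mulVec_mulVec, hv0, Matrix.mulVec_zero]
  -- the kernel is a line
  by_contra hline
  push Not at hline
  refine hM0 ?_
  let P : Mat (AlgebraicClosure k) := Matrix.of fun i j => ![v, mapRep f rb g *ᵥ v] j i
  have hP : IsUnit P := by
    rw [← Matrix.linearIndependent_cols_iff_isUnit]
    have c0 : P.col 0 = v := rfl
    have c1 : P.col 1 = mapRep f rb g *ᵥ v := rfl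
    refine linearIndependent_fin2.mpr ⟨fun h => hline 0 ?_, fun t h => ?_⟩
    · simpa [c1] using h
    · rw [c0, c1] at h
      by_cases ht : t = 0
      · exact hv (by simpa [ht] using h.symm)
      · refine hline t⁻¹ ?_
        conv_rhs => rw [← h, smul_smul, inv_mul_cancel₀ ht, one_smul]
  have h0 : M * P = 0 := by
    ext i j
    fin_cases j
    · exact (Matrix.mul_apply).trans (by simpa [Matrix.mulVec, dotProduct, P] using congrFun hv0 i)
    · exact (Matrix.mul_apply).trans (by simpa [Matrix.mulVec, dotProduct, P] using congrFun hker i)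
  exact hP.mul_left_eq_zero.mp h0

/-- The global coboundaries lie in the Selmer space. -/
theorem globalDelta_mem_selmer {Smin Q : Finset ℕ} (h : ResidualHyp p rb Smin)
    {A : ℕ → ValuationSubring (AlgebraicClosure ℚ)}
    {L : ∀ l : ℕ, Submodule k ((A l).decompositionSubgroup ℚ → Mat k)}
    (hLB : ∀ l ∈ Smin, adB1 rb ((A l).decompositionSubgroup ℚ) ≤ L l) {X : Mat k} (hX : X ∈ sl2 k) :
    globalDelta rb X ∈ selmer rb Smin Q A L := by
  refine ⟨fun g g' => ?_, fun g => ?_, ?_, fun l hl => hLB l hl ⟨X, hX, rfl⟩,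
    fun l hl hls _ B hB σ hσ => ?_⟩
  · simp only [globalDelta_apply, adAct, map_mul, _root_.mul_inv_rev, mul_sub, sub_mul, mul_assoc]
    abel
  · rw [globalDelta_apply, Matrix.trace_sub, Matrix.trace_mul_cycle, rb_inv_mul, one_mul, sub_self]
  · obtain ⟨M, hM, hM1⟩ := h.level
    refine ⟨M, hM, fun g s hs => ?_⟩
    have : rb s⁻¹ = 1 := hM1 _ fun x hx => by
      show s.symm x = x
      rw [AlgEquiv.symm_apply_eq, hs x hx]
    simp [globalDelta_apply, _root_.mul_inv_rev, map_mul, hM1 s hs, this]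
  · simp [globalDelta_apply, h.unramified l hl hls B hB σ hσ,
      h.unramified l hl hls B hB σ⁻¹ (inv_mem hσ)]

end Linear

section Deformations

variable {𝒪 : Type} [CommRing 𝒪] [IsDomain 𝒪] [IsDiscreteValuationRing 𝒪]
  [IsAdicComplete (maximalIdeal 𝒪) 𝒪] [Finite (ResidueField 𝒪)]
  {ρbar : ResidualGaloisRep (ResidueField 𝒪)}

attribute [local instance] dualAlg

theorem toK_dual (x : DualNumber (ResidueField 𝒪)) :
    (isCoeff_dual (𝒪 := 𝒪)).toK x = TrivSqZeroExt.fst x := by
  have := (isCoeff_dual (𝒪 := 𝒪)).algHom_eq_toK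
    { (TrivSqZeroExt.fstHom (ResidueField 𝒪) (ResidueField 𝒪) (ResidueField 𝒪)).toRingHom with
      commutes' := fun r => by
        show TrivSqZeroExt.fst (algebraMap 𝒪 (DualNumber (ResidueField 𝒪)) r) = _
        rw [dualAlg_algebraMap, TrivSqZeroExt.fst_inl]; rfl }
  exact (DFunLike.congr_fun this x).symm

/-- A deformation to `k[ε]` is equivalent to a matrix lift with residual matrices exactly those of
`ρbar`. -/
theorem exists_dual_lift (ρ : GaloisRepAdic (DualNumber (ResidueField 𝒪)))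
    (h : ρ.residual.IsEquiv (ρbar.baseChangeAlong
      ((residue (DualNumber (ResidueField 𝒪))).comp
        (algebraMap (ResidueField 𝒪) (DualNumber (ResidueField 𝒪)))))) :
    ∃ (N : Gal →* Mat (DualNumber (ResidueField 𝒪))) (hN : MatCont N),
      (∀ σ, (N σ).map TrivSqZeroExt.fst = barMatrix ρbar σ) ∧ ρ.IsEquiv (matRep N hN) := by
  obtain ⟨N, hN, hl, he⟩ := exists_isLift_of_residual_isEquiv (isCoeff_dual (𝒪 := 𝒪)) ρ
    (fun r => rfl) h
  refine ⟨N, hN, fun σ => ?_, he⟩
  rw [← hl, mapRep_apply]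
  ext i j
  exact (toK_dual _).symm

variable {p : ℕ} [Fact p.Prime]

theorem snd_det_of_detIsCyclotomic (hpk : (p : ResidueField 𝒪) = 0)
    {N : Gal →* Mat (DualNumber (ResidueField 𝒪))} {hN : MatCont N}
    (h : (matRep N hN).DetIsCyclotomic p) (σ : Gal) : TrivSqZeroExt.snd (N σ).det = 0 := by
  have hp := (Fact.out : p.Prime)
  have : NeZero p := ⟨hp.ne_zero⟩
  obtain ⟨ζ, hζ⟩ := HasEnoughRootsOfUnity.exists_primitiveRoot (AlgebraicClosure ℚ) p
  have hσζ : σ ζ ^ p = 1 := by rw [← map_pow, hζ.pow_eq_one, map_one]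
  obtain ⟨a, -, ha⟩ := hζ.eq_pow_of_pow_eq_one hσζ
  have h1 := h.2 1 σ a fun μ hμ => by
    rw [pow_one] at hμ
    obtain ⟨i, -, rfl⟩ := hζ.eq_pow_of_pow_eq_one hμ
    rw [map_pow, ← ha, ← pow_mul, ← pow_mul, mul_comm]
  have hp0 : ((p ^ 1 : ℕ) : DualNumber (ResidueField 𝒪)) = 0 := by
    rw [pow_one, ← map_natCast (algebraMap (ResidueField 𝒪) (DualNumber (ResidueField 𝒪))), hpk,
      map_zero]
  rw [hp0, Ideal.span_singleton_eq_bot.mpr rfl, Ideal.mem_bot, sub_eq_zero] at h1
  have h2 : LinearMap.det ((matRep N hN).ρ σ) = (N σ).det := by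
    rw [← LinearMap.det_toMatrix (Pi.basisFun _ (Fin 2))]
    exact congrArg Matrix.det (DFunLike.congr_fun (repMatrix_matRep N hN) σ)
  rw [← h2, h1, TrivSqZeroExt.snd_natCast]

/-- **Counting tangent vectors.** Maps to `k[ε]` out of a deformation ring whose deformations give
classes in a Selmer space of dimension at most `r + 3` are at most `#k ^ r` in number. -/
theorem natCard_algHom_le_of_selmer (hp2 : p ≠ 2) [CharP (ResidueField 𝒪) p]
    {Smin Q : Finset ℕ} (h : ResidualHyp p (barMatrix ρbar) Smin)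
    (hirr : ¬ HasStableLine
      (mapRep (algebraMap (ResidueField 𝒪) (AlgebraicClosure (ResidueField 𝒪))) (barMatrix ρbar))
      Set.univ)
    {A : ℕ → ValuationSubring (AlgebraicClosure ℚ)}
    {L : ∀ l : ℕ, Submodule (ResidueField 𝒪)
      ((A l).decompositionSubgroup ℚ → Mat (ResidueField 𝒪))}
    (hLB : ∀ l ∈ Smin, adB1 (barMatrix ρbar) ((A l).decompositionSubgroup ℚ) ≤ L l)
    (r : ℕ) (hfin : Module.Finite (ResidueField 𝒪) (selmer (barMatrix ρbar) Smin Q A L))
    (hdim : Module.finrank (ResidueField 𝒪) (selmer (barMatrix ρbar) Smin Q A L) ≤ r + 3)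
    {𝒟 : ∀ ⦃A : Type⦄ [CommRing A] [IsLocalRing A] [Algebra 𝒪 A], GaloisRepAdic A → Prop}
    (h𝒟 : GaloisRep.IsDeformationCondition 𝒪 𝒟)
    (hdet : ∀ (N : Gal →* Mat (DualNumber (ResidueField 𝒪))) (hN : MatCont N),
      𝒟 (matRep N hN) → (matRep N hN).DetIsCyclotomic p)
    (hunr : ∀ (N : Gal →* Mat (DualNumber (ResidueField 𝒪))) (hN : MatCont N),
      𝒟 (matRep N hN) → ∀ l : ℕ, l.Prime → l ∉ Smin → l ∉ Q → (matRep N hN).IsUnramifiedAt l)
    (D : GaloisRep.DeformationRingData 𝒪 ρbar 𝒟)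
    (P : (D.R →ₐ[𝒪] DualNumber (ResidueField 𝒪)) → Prop)
    (hloc : ∀ (f : D.R →ₐ[𝒪] DualNumber (ResidueField 𝒪)), P f →
      ∀ (hf : IsLocalHom (f : D.R →+* DualNumber (ResidueField 𝒪)))
        (N : Gal →* Mat (DualNumber (ResidueField 𝒪))) (hN : MatCont N),
      (∀ σ, (N σ).map TrivSqZeroExt.fst = barMatrix ρbar σ) →
      (∀ σ, Matrix.trace (liftCocycle (barMatrix ρbar) N σ) = 0) →
      (D.ρ.baseChangeAlong (f : D.R →+* DualNumber (ResidueField 𝒪)) hf).IsEquiv (matRep N hN) →
      𝒟 (matRep N hN) → ∀ l ∈ Smin,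
        (fun g : (A l).decompositionSubgroup ℚ => liftCocycle (barMatrix ρbar) N g) ∈ L l) :
    Finite {f // P f} ∧ Nat.card {f // P f} ≤ Nat.card (ResidueField 𝒪) ^ r := by
  classical
  set k := ResidueField 𝒪
  set rb := barMatrix ρbar
  set Z := selmer rb Smin Q A L
  have hpk : (p : k) = 0 := CharP.cast_eq_zero k p
  have h2 : (2 : k) ≠ 0 := by
    intro h0
    have : ((2 : ℕ) : k) = 0 := by exact_mod_cast h0
    rw [CharP.cast_eq_zero_iff k p] at this
    exact hp2 ((Nat.prime_dvd_prime_iff_eq Fact.out Nat.prime_two).mp this)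
  let B : Submodule k (Gal → Mat k) := (sl2 k).map (globalDelta rb)
  have hBZ : B ≤ Z := by
    rintro _ ⟨X, hX, rfl⟩
    exact globalDelta_mem_selmer h hLB hX
  have hB3 : Module.finrank k B = 3 := by
    have hinj : Function.Injective ((globalDelta rb).domRestrict (sl2 k)) := by
      rw [← LinearMap.ker_eq_bot, LinearMap.ker_eq_bot']
      intro X hX
      exact Subtype.ext (eq_zero_of_globalDelta h2 hirr X.2 hX)
    rw [← finrank_sl2 (k := k), ← LinearMap.finrank_range_of_inj hinj, LinearMap.range_domRestrict]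
  let B' : Submodule k Z := B.comap Z.subtype
  have hB'3 : Module.finrank k B' = 3 := by
    rw [(Submodule.comapSubtypeEquivOfLe hBZ).finrank_eq, hB3]
  have hq : Module.finrank k (Z ⧸ B') ≤ r := by
    rw [Submodule.finrank_quotient, hB'3]
    have hd' : Module.finrank k Z ≤ r + 3 := hdim
    exact Nat.sub_le_iff_le_add.mpr hd'
  have : Finite (Z ⧸ B') := Module.finite_of_finite k
  have hX : Nat.card (Z ⧸ B') ≤ Nat.card k ^ r := by
    rw [Module.natCard_eq_pow_finrank (K := k)]
    exact Nat.pow_le_pow_right Nat.card_pos hq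
  have hE := isArtinianTestAlgebra_dual (𝒪 := 𝒪)
  have hbc := fun (f : D.R →ₐ[𝒪] DualNumber k)
      (hf : IsLocalHom (f : D.R →+* DualNumber k)) =>
    cond_baseChangeAlong_of_complete h𝒟 (isCoeff_deformationRing D) hE f hf D.isOfType
  have hlh := fun f : D.R →ₐ[𝒪] DualNumber k =>
    (isCoeff_deformationRing D).isLocalHom_algHom hE.isCoeff f
  have key : ∀ f : {f // P f}, ∃ (N : Gal →* Mat (DualNumber k)) (hN : MatCont N),
        (∀ σ, (N σ).map TrivSqZeroExt.fst = rb σ) ∧
        (D.ρ.baseChangeAlong (f.1 : D.R →+* DualNumber k) (hlh f.1)).IsEquiv (matRep N hN) ∧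
        liftCocycle rb N ∈ Z := by
    rintro ⟨f, hPf⟩
    obtain ⟨N, hN, hfst, he⟩ := exists_dual_lift _
      (residual_baseChangeAlong_isEquiv D hE.isCoeff f (hlh f) fun _ => rfl)
    have hDN := h𝒟.of_isEquiv hE he (hbc f (hlh f))
    have htr : ∀ σ, Matrix.trace (liftCocycle rb N σ) = 0 := fun σ =>
      trace_liftCocycle_of_det hfst σ (snd_det_of_detIsCyclotomic hpk (hdet N hN hDN) σ)
    obtain ⟨n, hn⟩ := hE.exists_pow_eq_bot
    obtain ⟨M, hM, hM1⟩ := hN.exists_eq_one hn
    refine ⟨N, hN, hfst, he, liftCocycle_mul hfst, htr,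
      ⟨M, hM, fun g s hs => liftCocycle_level hfst hM1 g s hs⟩,
      hloc f hPf (hlh f) N hN hfst htr he hDN,
      fun l hl hls hlQ P' hP' σ hσ => ?_⟩
    have h1 : N σ = 1 := by
      have e := hunr N hN hDN l hl hls hlQ P' hP' σ hσ
      have e' := DFunLike.congr_fun (repMatrix_matRep N hN) σ
      rw [← e', repMatrix_apply, e, LinearMap.toMatrix_one]
    have h0 : (N σ).map TrivSqZeroExt.snd = 0 := by
      rw [h1]; ext i j; by_cases hij : i = j <;> simp [hij, Matrix.one_apply]
    simp [liftCocycle, h0]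
  choose Nf hNf hfst he hmem using key
  let c : {f // P f} → Z ⧸ B' := fun f => Submodule.Quotient.mk (⟨_, hmem f⟩ : Z)
  have hc : Function.Injective c := fun f f' hc => by
    rw [Submodule.Quotient.eq] at hc
    obtain ⟨X, -, hX⟩ := (Submodule.mem_comap.mp hc : _ ∈ B)
    obtain ⟨u, hu⟩ := exists_conj_of_sub_eq_globalDelta (hfst f) (hfst f') X
      fun σ => (congrFun hX σ).symm
    obtain ⟨e⟩ := he f
    obtain ⟨e'⟩ := he f'
    obtain ⟨e''⟩ := (isEquiv_matRep_iff (hNf f') (hNf f)).mpr ⟨u, hu⟩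
    exact Subtype.ext (algHom_eq_of_isEquiv D hE (hlh f.1) (hlh f'.1) (hbc f.1 (hlh f.1))
      ⟨e.trans (e'.trans e'').symm⟩)
  exact ⟨Finite.of_injective c hc, (Nat.card_le_card_of_injective c hc).trans hX⟩

/-- **Tangent space bound.** Deformation rings for conditions whose deformations to `k[ε]` give
classes in a Selmer space of dimension at most `r + 3` need at most `r` variables. -/
theorem exists_mvPowerSeries_surjective_of_selmer (hp2 : p ≠ 2) [CharP (ResidueField 𝒪) p]
    {Smin Q : Finset ℕ} (h : ResidualHyp p (barMatrix ρbar) Smin)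
    (hirr : ¬ HasStableLine
      (mapRep (algebraMap (ResidueField 𝒪) (AlgebraicClosure (ResidueField 𝒪))) (barMatrix ρbar))
      Set.univ)
    {A : ℕ → ValuationSubring (AlgebraicClosure ℚ)}
    {L : ∀ l : ℕ, Submodule (ResidueField 𝒪)
      ((A l).decompositionSubgroup ℚ → Mat (ResidueField 𝒪))}
    (hLB : ∀ l ∈ Smin, adB1 (barMatrix ρbar) ((A l).decompositionSubgroup ℚ) ≤ L l)
    (r : ℕ) (hfin : Module.Finite (ResidueField 𝒪) (selmer (barMatrix ρbar) Smin Q A L))
    (hdim : Module.finrank (ResidueField 𝒪) (selmer (barMatrix ρbar) Smin Q A L) ≤ r + 3)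
    {𝒟 : ∀ ⦃A : Type⦄ [CommRing A] [IsLocalRing A] [Algebra 𝒪 A], GaloisRepAdic A → Prop}
    (h𝒟 : GaloisRep.IsDeformationCondition 𝒪 𝒟)
    (hdet : ∀ (N : Gal →* Mat (DualNumber (ResidueField 𝒪))) (hN : MatCont N),
      𝒟 (matRep N hN) → (matRep N hN).DetIsCyclotomic p)
    (hunr : ∀ (N : Gal →* Mat (DualNumber (ResidueField 𝒪))) (hN : MatCont N),
      𝒟 (matRep N hN) → ∀ l : ℕ, l.Prime → l ∉ Smin → l ∉ Q → (matRep N hN).IsUnramifiedAt l)
    (hloc : ∀ (N : Gal →* Mat (DualNumber (ResidueField 𝒪))) (hN : MatCont N),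
      (∀ σ, (N σ).map TrivSqZeroExt.fst = barMatrix ρbar σ) →
      (∀ σ, Matrix.trace (liftCocycle (barMatrix ρbar) N σ) = 0) →
      𝒟 (matRep N hN) → ∀ l ∈ Smin,
        (fun g : (A l).decompositionSubgroup ℚ => liftCocycle (barMatrix ρbar) N g) ∈ L l)
    (D : GaloisRep.DeformationRingData 𝒪 ρbar 𝒟) :
    ∃ γ : MvPowerSeries (Fin r) 𝒪 →ₐ[𝒪] D.R, Function.Surjective γ := by
  have hE := isArtinianTestAlgebra_dual (𝒪 := 𝒪)
  obtain ⟨hF, hle⟩ := natCard_algHom_le_of_selmer hp2 h hirr hLB r hfin hdim h𝒟 hdet hunr D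
    (fun _ => True) fun f _ hf N hN e1 e2 _ hD => hloc N hN e1 e2 hD
  have := Finite.of_equiv _ (Equiv.subtypeUnivEquiv
    (p := fun _ : D.R →ₐ[𝒪] DualNumber (ResidueField 𝒪) => True) fun _ => trivial)
  exact exists_powerSeries_surjective_of_card_algHom_le (isCoeff_deformationRing D) r
    ((Nat.card_congr (Equiv.subtypeUnivEquiv
      (p := fun _ : D.R →ₐ[𝒪] DualNumber (ResidueField 𝒪) => True) fun _ => trivial)).symm.trans_le hle)

end Deformations

end FLTAgent.TW
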