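import Fermat.Agent.Deformation.MatRep
import Mathlib.Algebra.DualNumber
import Mathlib.LinearAlgebra.Matrix.Trace
import Mathlib.Algebra.TrivSqZeroExt.Basic

/-!
# Basic definitions for the Taylor–Wiles argument

Adjoint cocycles on a subgroup of the absolute Galois group, with values in trace zero matrices,
and the cocycle attached to a lift to the dual numbers.
-/

set_option autoImplicit false

noncomputable section

namespace FLTAgent.TW

open FLTAgent.Deformation

variable {k : Type} [Field k]

/-- A function on a subgroup of the Galois group which factors through a finite level. -/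
def IsLevelOn {X : Type*} (D : Subgroup Gal) (f : D → X) : Prop :=
  ∃ L : IntermediateField ℚ (AlgebraicClosure ℚ), FiniteDimensional ℚ L ∧
    ∀ g s : D, (∀ x ∈ L, (s : Gal) x = x) → f (g * s) = f g

/-- The adjoint action. -/
def adAct (rb : Gal →* Mat k) (σ : Gal) (X : Mat k) : Mat k := rb σ * X * rb σ⁻¹

/-- Continuous adjoint cocycles of trace zero on `D`. -/
def adZ1 (rb : Gal →* Mat k) (D : Subgroup Gal) : Submodule k (D → Mat k) where
  carrier := {c | (∀ g h : D, c (g * h) = c g + adAct rb g (c h)) ∧
    (∀ g : D, Matrix.trace (c g) = 0) ∧ IsLevelOn D c}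
  zero_mem' := ⟨fun g h => by simp [adAct], fun g => by simp,
    ⊥, inferInstance, fun _ _ _ => rfl⟩
  add_mem' := by
    rintro a b ⟨ha, ha', L, hL, haL⟩ ⟨hb, hb', L', hL', hbL⟩
    refine ⟨fun g h => ?_, fun g => ?_, L ⊔ L', IntermediateField.finiteDimensional_sup L L',
      fun g s hs => ?_⟩
    · simp only [Pi.add_apply, ha g h, hb g h, adAct, mul_add, add_mul]
      abel
    · simp [ha' g, hb' g]
    · simp only [Pi.add_apply]
      rw [haL g s fun x hx => hs x (le_sup_left (b := L') hx),
        hbL g s fun x hx => hs x (le_sup_right (a := L) hx)]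
  smul_mem' := by
    rintro t a ⟨ha, ha', L, hL, haL⟩
    refine ⟨fun g h => ?_, fun g => ?_, L, hL, fun g s hs => ?_⟩
    · simp only [Pi.smul_apply, ha g h, smul_add, adAct, Matrix.mul_smul, Matrix.smul_mul]
    · simp [ha' g]
    · simp only [Pi.smul_apply, haL g s hs]

/-- The coboundary of a matrix. -/
def adDelta (rb : Gal →* Mat k) (D : Subgroup Gal) : Mat k →ₗ[k] (D → Mat k) where
  toFun X g := adAct rb g X - X
  map_add' X Y := funext fun g => by simp [adAct, mul_add, add_mul]; abel
  map_smul' t X := funext fun g => by simp [adAct, smul_sub]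

/-- The trace zero matrices. -/
def sl2 (k : Type) [Field k] : Submodule k (Mat k) :=
  LinearMap.ker (Matrix.traceLinearMap (Fin 2) k k)

/-- Adjoint coboundaries on `D`. -/
def adB1 (rb : Gal →* Mat k) (D : Subgroup Gal) : Submodule k (D → Mat k) :=
  (sl2 k).map (adDelta rb D)

/-- The invariants of the trace zero matrices under `D`. -/
def adH0 (rb : Gal →* Mat k) (D : Subgroup Gal) : Submodule k (Mat k) :=
  sl2 k ⊓ LinearMap.ker (adDelta rb D)

/-- The cocycle of a lift to the dual numbers. -/
def liftCocycle (rb : Gal →* Mat k) (N : Gal →* Mat (DualNumber k)) (σ : Gal) : Mat k :=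
  (N σ).map TrivSqZeroExt.snd * rb σ⁻¹

end FLTAgent.TW
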