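import Fermat.Agent.TW.GroupLemma.Defs
import Fermat.Agent.TW.Defs
import Mathlib.Algebra.CharP.Lemmas
import Mathlib.LinearAlgebra.Dual.Lemmas
import Mathlib.LinearAlgebra.FreeModule.Finite.Matrix

/-!
# The adjoint module of trace zero matrices
-/

set_option autoImplicit false
set_option linter.unusedSectionVars false

noncomputable section

open Matrix Polynomial

namespace FLTAgent.TW

variable {k : Type} [Field k]

theorem mem_sl2_iff {X : Matrix (Fin 2) (Fin 2) k} : X ∈ sl2 k ↔ X.trace = 0 := Iff.rfl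

/-- Conjugation on trace zero matrices. -/
def adLin (g : GL (Fin 2) k) : sl2 k →ₗ[k] sl2 k where
  toFun X := ⟨(g : Matrix (Fin 2) (Fin 2) k) * (X : Matrix (Fin 2) (Fin 2) k) *
    ((g⁻¹ : GL (Fin 2) k) : Matrix (Fin 2) (Fin 2) k), by
    rw [mem_sl2_iff, Matrix.trace_units_conj]
    exact X.2⟩
  map_add' X Y := Subtype.ext (by simp [mul_add, add_mul])
  map_smul' t X := Subtype.ext (by simp)

@[simp] theorem coe_adLin (g : GL (Fin 2) k) (X : sl2 k) :
    ((adLin g X : sl2 k) : Matrix (Fin 2) (Fin 2) k) =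
      (g : Matrix (Fin 2) (Fin 2) k) * (X : Matrix (Fin 2) (Fin 2) k) *
        ((g⁻¹ : GL (Fin 2) k) : Matrix (Fin 2) (Fin 2) k) := rfl

/-- The adjoint representation. -/
def adGL : Representation k (GL (Fin 2) k) (sl2 k) where
  toFun := adLin
  map_one' := LinearMap.ext fun X => Subtype.ext (by simp)
  map_mul' g h := LinearMap.ext fun X => Subtype.ext (by simp [mul_assoc])

@[simp] theorem coe_adGL (g : GL (Fin 2) k) (X : sl2 k) :
    ((adGL g X : sl2 k) : Matrix (Fin 2) (Fin 2) k) =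
      (g : Matrix (Fin 2) (Fin 2) k) * (X : Matrix (Fin 2) (Fin 2) k) *
        ((g⁻¹ : GL (Fin 2) k) : Matrix (Fin 2) (Fin 2) k) := rfl

/-- Cayley–Hamilton for two trace zero matrices. -/
theorem mul_add_mul_of_trace_zero {X Y : Matrix (Fin 2) (Fin 2) k} (hX : X.trace = 0)
    (hY : Y.trace = 0) : X * Y + Y * X = (X * Y).trace • (1 : Matrix (Fin 2) (Fin 2) k) := by
  rw [Matrix.trace_fin_two] at hX hY
  ext i j
  fin_cases i <;> fin_cases j <;>
    simp [Matrix.mul_apply, Fin.sum_univ_two, Matrix.trace_fin_two]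
  · linear_combination (Y 0 0) * hX + (-(X 1 1)) * hY
  · linear_combination (X 0 1) * hY + (Y 0 1) * hX
  · linear_combination (X 1 0) * hY + (Y 1 0) * hX
  · linear_combination (-(X 0 0)) * hY + (Y 1 1) * hX

/-- `X + s X s⁻¹` is a multiple of `s` for `s² = -1`. -/
theorem add_conj_eq {s : GL (Fin 2) k} (hs : (s : Matrix (Fin 2) (Fin 2) k) * s = -1)
    (hs0 : (s : Matrix (Fin 2) (Fin 2) k).trace = 0) (X : sl2 k) :
    (X : Matrix (Fin 2) (Fin 2) k) + (adGL s X : sl2 k) =
      (-((s : Matrix (Fin 2) (Fin 2) k) * (X : Matrix (Fin 2) (Fin 2) k)).trace) •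
        (s : Matrix (Fin 2) (Fin 2) k) := by
  have hinv : ((s⁻¹ : GL (Fin 2) k) : Matrix (Fin 2) (Fin 2) k) =
      -(s : Matrix (Fin 2) (Fin 2) k) := by
    have h1 : (s : Matrix (Fin 2) (Fin 2) k) * -(s : Matrix (Fin 2) (Fin 2) k) = 1 := by
      rw [mul_neg, hs, neg_neg]
    calc ((s⁻¹ : GL (Fin 2) k) : Matrix (Fin 2) (Fin 2) k)
        = ((s⁻¹ : GL (Fin 2) k) : Matrix (Fin 2) (Fin 2) k) *
            ((s : Matrix (Fin 2) (Fin 2) k) * -(s : Matrix (Fin 2) (Fin 2) k)) := by
          rw [h1, mul_one]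
      _ = -(s : Matrix (Fin 2) (Fin 2) k) := by
          rw [← mul_assoc, ← Units.val_mul, inv_mul_cancel, Units.val_one, one_mul]
  have h := mul_add_mul_of_trace_zero hs0 X.2
  set t := ((s : Matrix (Fin 2) (Fin 2) k) * (X : Matrix (Fin 2) (Fin 2) k)).trace
  rw [coe_adGL, hinv, mul_neg, eq_sub_of_add_eq h, sub_mul, mul_assoc, hs, smul_mul_assoc,
    one_mul, neg_smul, mul_neg, mul_one]
  abel

/-- Elements of square `-1` and determinant one have trace zero. -/
theorem trace_eq_zero_of_sq_eq_neg_one {A : Matrix (Fin 2) (Fin 2) k} (hA : A * A = -1)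
    (hd : A.det = 1) : A.trace = 0 := by
  have hA0 : A ≠ 0 := fun h => by
    rw [h, Matrix.det_zero] at hd
    exact zero_ne_one hd
  rw [Matrix.det_fin_two] at hd
  rw [Matrix.trace_fin_two]
  have h00 := congrFun (congrFun hA 0) 0
  have h01 := congrFun (congrFun hA 0) 1
  have h10 := congrFun (congrFun hA 1) 0
  have h11 := congrFun (congrFun hA 1) 1
  simp [Matrix.mul_apply, Fin.sum_univ_two] at h00 h01 h10 h11
  have e1 : A 0 0 * (A 0 0 + A 1 1) = 0 := by linear_combination h00 + hd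
  have e4 : A 1 1 * (A 0 0 + A 1 1) = 0 := by linear_combination h11 + hd
  have e2 : A 0 1 * (A 0 0 + A 1 1) = 0 := by linear_combination h01
  have e3 : A 1 0 * (A 0 0 + A 1 1) = 0 := by linear_combination h10
  by_contra hne
  refine hA0 (Matrix.ext fun i j => ?_)
  fin_cases i <;> fin_cases j <;>
    simp_all [mul_eq_zero]

theorem two_ne_zero_of_charP {p : ℕ} [Fact p.Prime] [CharP k p] (hp : p ≠ 2) : (2 : k) ≠ 0 := by
  intro h
  have h' : ((2 : ℕ) : k) = 0 := by exact_mod_cast h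
  rw [CharP.cast_eq_zero_iff k p] at h'
  exact hp ((Nat.prime_two.eq_one_or_self_of_dvd p h').resolve_left (Fact.out : p.Prime).ne_one)

/-- The sum over a quaternionic pair of the conjugates of a trace zero matrix vanishes. -/
theorem klein_sum {s t : GL (Fin 2) k} (hs : (s : Matrix (Fin 2) (Fin 2) k) * s = -1)
    (hs0 : (s : Matrix (Fin 2) (Fin 2) k).trace = 0)
    (hst : (s : Matrix (Fin 2) (Fin 2) k) * t =
      -((t : Matrix (Fin 2) (Fin 2) k) * s)) (X : sl2 k) :
    X + adGL s X + adGL t (X + adGL s X) = 0 := by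
  refine Subtype.ext ?_
  simp only [Submodule.coe_add, Submodule.coe_zero]
  rw [coe_adGL t]
  rw [Submodule.coe_add, add_conj_eq hs hs0 X]
  simp only [Matrix.mul_smul, Matrix.smul_mul]
  rw [show (t : Matrix (Fin 2) (Fin 2) k) * (s : Matrix (Fin 2) (Fin 2) k) =
      -((s : Matrix (Fin 2) (Fin 2) k) * t) by rw [hst, neg_neg]]
  rw [neg_mul, mul_assoc, ← Units.val_mul, mul_inv_cancel, Units.val_one, mul_one, smul_neg,
    add_neg_cancel]

section Klein

variable {p : ℕ} [Fact p.Prime] [CharP k p] (hp : p ≠ 2)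
variable {s t : GL (Fin 2) k} (hs : (s : Matrix (Fin 2) (Fin 2) k) * s = -1)
  (hs0 : (s : Matrix (Fin 2) (Fin 2) k).trace = 0)
  (hst : (s : Matrix (Fin 2) (Fin 2) k) * t = -((t : Matrix (Fin 2) (Fin 2) k) * s))

include hp hs hs0 hst

/-- A trace zero matrix fixed by a quaternionic pair is zero. -/
theorem eq_zero_of_klein_fixed {X : sl2 k} (h1 : adGL s X = X) (h2 : adGL t X = X) : X = 0 := by
  have h := klein_sum hs hs0 hst X
  rw [h1, map_add, h2] at h
  have h4 : ((2 : k) * 2) • X = 0 := by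
    rw [show ((2 : k) * 2) • X = X + X + (X + X) by rw [mul_smul, two_smul, two_smul]]
    exact h
  exact (smul_eq_zero.mp h4).resolve_left
    (mul_ne_zero (two_ne_zero_of_charP hp) (two_ne_zero_of_charP hp))

/-- A functional fixed by a quaternionic pair is zero. -/
theorem dual_eq_zero_of_klein_fixed {φ : Module.Dual k (sl2 k)} (h1 : ∀ X, φ (adGL s X) = φ X)
    (h2 : ∀ X, φ (adGL t X) = φ X) : φ = 0 := by
  refine LinearMap.ext fun X => ?_
  have h := congrArg φ (klein_sum hs hs0 hst X)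
  rw [map_add, map_add, h2, map_add, h1, map_zero] at h
  have h4 : ((2 : k) * 2) * φ X = 0 := by rw [← h]; ring
  exact (mul_eq_zero.mp h4).resolve_left
    (mul_ne_zero (two_ne_zero_of_charP hp) (two_ne_zero_of_charP hp))

end Klein

/-- The centraliser of an element of square `-1` in `sl₂`. -/
theorem mem_span_of_fixed {p : ℕ} [Fact p.Prime] [CharP k p] (hp : p ≠ 2) {u : GL (Fin 2) k}
    (hu : (u : Matrix (Fin 2) (Fin 2) k) * u = -1)
    (hu0 : (u : Matrix (Fin 2) (Fin 2) k).trace = 0) {X : sl2 k} (h : adGL u X = X) :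
    X ∈ Submodule.span k {(⟨(u : Matrix (Fin 2) (Fin 2) k), hu0⟩ : sl2 k)} := by
  have h1 := add_conj_eq hu hu0 X
  rw [h] at h1
  rw [Submodule.mem_span_singleton]
  refine ⟨(2 : k)⁻¹ * -((u : Matrix (Fin 2) (Fin 2) k) * (X : Matrix (Fin 2) (Fin 2) k)).trace,
    Subtype.ext ?_⟩
  rw [Submodule.coe_smul, mul_smul, ← h1, ← two_smul k, smul_smul,
    inv_mul_cancel₀ (two_ne_zero_of_charP hp), one_smul]

/-- The centraliser has dimension at most one. -/
theorem finrank_fixed_le_one {p : ℕ} [Fact p.Prime] [CharP k p] (hp : p ≠ 2) {u : GL (Fin 2) k}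
    (hu : (u : Matrix (Fin 2) (Fin 2) k) * u = -1)
    (hu0 : (u : Matrix (Fin 2) (Fin 2) k).trace = 0) (N : Submodule k (sl2 k))
    (hN : ∀ X ∈ N, adGL u X = X) : Module.finrank k N ≤ 1 :=
  (Submodule.finrank_mono fun X hX => mem_span_of_fixed hp hu hu0 (hN X hX)).trans
    ((finrank_span_le_card _).trans (by simp))

/-- Anticommutation with an involution of determinant `-1` is the orthogonality to it. -/
theorem finrank_antifixed_le_two {p : ℕ} [Fact p.Prime] [CharP k p] (hp : p ≠ 2)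
    {c : GL (Fin 2) k} (hc : (c : Matrix (Fin 2) (Fin 2) k) * c = 1)
    (hd : (c : Matrix (Fin 2) (Fin 2) k).det = -1) (N : Submodule k (sl2 k))
    (hN : ∀ X ∈ N, adGL c X = -X) : Module.finrank k N ≤ 2 := by
  have hcinv : ((c⁻¹ : GL (Fin 2) k) : Matrix (Fin 2) (Fin 2) k) =
      (c : Matrix (Fin 2) (Fin 2) k) := by
    calc ((c⁻¹ : GL (Fin 2) k) : Matrix (Fin 2) (Fin 2) k)
        = ((c⁻¹ : GL (Fin 2) k) : Matrix (Fin 2) (Fin 2) k) *
            ((c : Matrix (Fin 2) (Fin 2) k) * (c : Matrix (Fin 2) (Fin 2) k)) := by rw [hc, mul_one]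
      _ = (c : Matrix (Fin 2) (Fin 2) k) := by
          rw [← mul_assoc, ← Units.val_mul, inv_mul_cancel, Units.val_one, one_mul]
  have h2 := two_ne_zero_of_charP (k := k) hp
  have hct : (c : Matrix (Fin 2) (Fin 2) k).trace = 0 := by
    rw [Matrix.det_fin_two] at hd
    rw [Matrix.trace_fin_two]
    have h00 := congrFun (congrFun hc 0) 0
    have h01 := congrFun (congrFun hc 0) 1
    have h10 := congrFun (congrFun hc 1) 0
    have h11 := congrFun (congrFun hc 1) 1
    simp [Matrix.mul_apply, Fin.sum_univ_two] at h00 h01 h10 h11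
    by_contra hne
    have e2 : (c : Matrix (Fin 2) (Fin 2) k) 0 1 = 0 :=
      (mul_eq_zero.mp (show (c : Matrix (Fin 2) (Fin 2) k) 0 1 *
        ((c : Matrix (Fin 2) (Fin 2) k) 0 0 + (c : Matrix (Fin 2) (Fin 2) k) 1 1) = 0 by
          linear_combination h01)).resolve_right hne
    rw [e2, zero_mul, sub_zero] at hd
    rw [e2, zero_mul, add_zero] at h00
    set a := (c : Matrix (Fin 2) (Fin 2) k) 0 0
    set d := (c : Matrix (Fin 2) (Fin 2) k) 1 1
    exact hne (by linear_combination a * hd - d * h00)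
  let φ : sl2 k →ₗ[k] k := (Matrix.traceLinearMap (Fin 2) k k).comp
    ((LinearMap.mulLeft k (c : Matrix (Fin 2) (Fin 2) k)).comp (sl2 k).subtype)
  have hker : N ≤ LinearMap.ker φ := fun X hX => by
    have h := congrArg Subtype.val (hN X hX)
    rw [coe_adGL, hcinv, NegMemClass.coe_neg] at h
    show ((c : Matrix (Fin 2) (Fin 2) k) * (X : Matrix (Fin 2) (Fin 2) k)).trace = 0
    have h1 : (c : Matrix (Fin 2) (Fin 2) k) * (X : Matrix (Fin 2) (Fin 2) k) +
        (X : Matrix (Fin 2) (Fin 2) k) * c = 0 := by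
      have h3 := congrArg (· * (c : Matrix (Fin 2) (Fin 2) k)) h
      simp only [mul_assoc, hc, mul_one, neg_mul] at h3
      rw [h3, neg_add_cancel]
    rw [mul_add_mul_of_trace_zero hct X.2] at h1
    have := congrFun (congrFun h1 0) 0
    simpa using this
  have hne : φ ≠ 0 := fun h => by
    have h1 : φ ⟨(c : Matrix (Fin 2) (Fin 2) k), hct⟩ = 0 := by rw [h]; rfl
    change ((c : Matrix (Fin 2) (Fin 2) k) * (c : Matrix (Fin 2) (Fin 2) k)).trace = 0 at h1
    rw [hc, Matrix.trace_one, Fintype.card_fin, Nat.cast_ofNat] at h1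
    exact h2 h1
  have h3 : Module.finrank k (sl2 k) ≤ 3 := by
    have h := LinearMap.finrank_range_add_finrank_ker (Matrix.traceLinearMap (Fin 2) k k)
    rw [LinearMap.range_eq_top.mpr (fun a => ⟨Matrix.single 0 0 a, by simp⟩),
      finrank_top, Module.finrank_self, Module.finrank_matrix, Module.finrank_self,
      Fintype.card_fin] at h
    show Module.finrank k (LinearMap.ker (Matrix.traceLinearMap (Fin 2) k k)) ≤ 3
    omega
  have h4 := Submodule.finrank_mono hker
  have h5 := LinearMap.finrank_range_add_finrank_ker φ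
  have h6 : 0 < Module.finrank k (LinearMap.range φ) := by
    rw [Nat.pos_iff_ne_zero]
    intro h0
    exact hne (LinearMap.range_eq_bot.mp (Submodule.finrank_eq_zero.mp h0))
  omega

/-- Square `-1` gives distinct eigenvalues. -/
theorem exists_distinct_roots {p : ℕ} [Fact p.Prime] [CharP k p] (hp : p ≠ 2)
    {A : Matrix (Fin 2) (Fin 2) k} (hA : A * A = -1) (hd : A.det = 1)
    (hsplit : ∃ α β : k, A.charpoly = (X - C α) * (X - C β)) :
    ∃ α β : k, α ≠ β ∧ A.charpoly = (X - C α) * (X - C β) := by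
  obtain ⟨α, β, h⟩ := hsplit
  refine ⟨α, β, fun hab => ?_, h⟩
  rw [Matrix.charpoly_fin_two, trace_eq_zero_of_sq_eq_neg_one hA hd, hd, hab] at h
  have h1 := congrArg (fun f => f.coeff 1) h
  have h0 := congrArg (fun f => f.coeff 0) h
  simp [Polynomial.coeff_X, Polynomial.coeff_one, Polynomial.coeff_mul, Finset.Nat.antidiagonal_succ] at h0 h1
  have hb : β = 0 := by
    have : (2 : k) * β = 0 := by linear_combination h1
    exact (mul_eq_zero.mp this).resolve_left (two_ne_zero_of_charP hp)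
  rw [hb] at h0
  simp at h0

end FLTAgent.TW
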