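import Fermat.Agent.TW.Selmer
import Fermat.Agent.TW.AdModule

/-!
# Conjugation of the residual representation

The hypotheses on the residual representation, the local conditions and the Selmer spaces are
transported along a change of basis.
-/

set_option autoImplicit false
set_option linter.unusedSectionVars false

noncomputable section

open Matrix Polynomial

namespace FLTAgent.TW

open FLTAgent.Deformation

variable {k : Type} [Field k] (b : GL (Fin 2) k)

/-- Conjugation of matrices by a fixed invertible one. -/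
def conjMat : Mat k ≃ₗ[k] Mat k where
  toFun X := (b : Mat k) * X * ((b⁻¹ : GL (Fin 2) k) : Mat k)
  invFun X := ((b⁻¹ : GL (Fin 2) k) : Mat k) * X * (b : Mat k)
  map_add' X Y := by simp [mul_add, add_mul]
  map_smul' t X := by simp
  left_inv X := by simp [mul_assoc]
  right_inv X := by simp [mul_assoc]

theorem conjMat_apply (X : Mat k) :
    conjMat b X = (b : Mat k) * X * ((b⁻¹ : GL (Fin 2) k) : Mat k) := rfl

theorem conjMat_mul (X Y : Mat k) : conjMat b (X * Y) = conjMat b X * conjMat b Y := by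
  simp only [conjMat_apply, mul_assoc, Units.inv_mul_cancel_left]

theorem conjMat_one : conjMat b 1 = 1 := by simp [conjMat_apply]

theorem trace_conjMat (X : Mat k) : (conjMat b X).trace = X.trace := Matrix.trace_units_conj b X

/-- The conjugated representation. -/
def conjRep (rb : Gal →* Mat k) : Gal →* Mat k where
  toFun σ := conjMat b (rb σ)
  map_one' := by rw [map_one, conjMat_one]
  map_mul' σ τ := by rw [map_mul, conjMat_mul]

theorem conjRep_apply (rb : Gal →* Mat k) (σ : Gal) : conjRep b rb σ = conjMat b (rb σ) := rfl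

theorem charpoly_conjRep (rb : Gal →* Mat k) (σ : Gal) :
    (conjRep b rb σ).charpoly = (rb σ).charpoly := by
  rw [conjRep_apply, conjMat_apply, Matrix.coe_units_inv]
  exact Matrix.charpoly_units_conj b (rb σ)

theorem adAct_conjRep (rb : Gal →* Mat k) (σ : Gal) (X : Mat k) :
    adAct (conjRep b rb) σ (conjMat b X) = conjMat b (adAct rb σ X) := by
  simp only [adAct, conjRep_apply, ← conjMat_mul]

/-- Conjugation of matrix valued functions. -/
def conjFun (D : Subgroup Gal) : (D → Mat k) ≃ₗ[k] (D → Mat k) :=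
  LinearEquiv.piCongrRight fun _ => conjMat b

theorem conjFun_apply (D : Subgroup Gal) (c : D → Mat k) (g : D) :
    conjFun b D c g = conjMat b (c g) := rfl

theorem conjFun_mem_adZ1 {rb : Gal →* Mat k} {D : Subgroup Gal} {c : D → Mat k}
    (hc : c ∈ adZ1 rb D) : conjFun b D c ∈ adZ1 (conjRep b rb) D := by
  obtain ⟨h1, h2, L, hL, h3⟩ := hc
  refine ⟨fun g g' => ?_, fun g => ?_, L, hL, fun g s hs => ?_⟩
  · simp only [conjFun_apply, adAct_conjRep, h1 g g', map_add]
  · rw [conjFun_apply, trace_conjMat, h2]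
  · simp only [conjFun_apply, h3 g s hs]

theorem adB1_conjRep_le (rb : Gal →* Mat k) (D : Subgroup Gal) :
    adB1 (conjRep b rb) D ≤ (adB1 rb D).map (conjFun b D : (D → Mat k) →ₗ[k] (D → Mat k)) := by
  rintro _ ⟨X, hX, rfl⟩
  refine ⟨adDelta rb D ((conjMat b).symm X), ⟨(conjMat b).symm X, ?_, rfl⟩, funext fun g => ?_⟩
  · show Matrix.trace ((conjMat b).symm X) = 0
    rw [← trace_conjMat b, LinearEquiv.apply_symm_apply]
    exact hX
  · show conjMat b (adAct rb g _ - _) = adAct (conjRep b rb) g X - X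
    rw [map_sub, ← adAct_conjRep, LinearEquiv.apply_symm_apply]

theorem imageGL_conjRep (rb : Gal →* Mat k) :
    imageGL (conjRep b rb) = (imageGL rb).map (MulAut.conj b).toMonoidHom := by
  rw [imageGL, imageGL, MonoidHom.map_range]
  congr 1
  exact MonoidHom.ext fun σ => Units.ext rfl

theorem isSplitGroup_map_conj {G : Subgroup (GL (Fin 2) k)} (h : IsSplitGroup G) :
    IsSplitGroup (G.map (MulAut.conj b).toMonoidHom) := by
  rintro _ ⟨g, hg, rfl⟩
  obtain ⟨α, β, hab⟩ := h g hg
  refine ⟨α, β, ?_⟩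
  rw [← hab, show ((MulAut.conj b).toMonoidHom g : GL (Fin 2) k) = b * g * b⁻¹ from rfl,
    Units.val_mul, Units.val_mul, Matrix.coe_units_inv]
  exact Matrix.charpoly_units_conj b (g : Mat k)

theorem isIrredGroup_map_conj {G : Subgroup (GL (Fin 2) k)} (h : IsIrredGroup G) :
    IsIrredGroup (G.map (MulAut.conj b).toMonoidHom) := by
  intro v hv
  set w := ((b⁻¹ : GL (Fin 2) k) : Mat k) *ᵥ v with hw
  have hbw : (b : Mat k) *ᵥ w = v := by rw [hw, Matrix.mulVec_mulVec, Units.mul_inv, Matrix.one_mulVec]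
  have hw0 : w ≠ 0 := fun h0 => hv (by rw [← hbw, h0, Matrix.mulVec_zero])
  obtain ⟨g, hg, hne⟩ := h w hw0
  refine ⟨_, ⟨g, hg, rfl⟩, fun a ha => hne a ?_⟩
  have h1 : ((MulAut.conj b).toMonoidHom g : GL (Fin 2) k) =
      b * g * b⁻¹ := rfl
  rw [h1, Units.val_mul, Units.val_mul, ← Matrix.mulVec_mulVec, ← hw, ← Matrix.mulVec_mulVec] at ha
  have h2 := congrArg (fun x => ((b⁻¹ : GL (Fin 2) k) : Mat k) *ᵥ x) ha
  simp only [Matrix.mulVec_mulVec, ← mul_assoc, Units.inv_mul, one_mul, Matrix.mulVec_smul] at h2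
  rw [h2, hw]

theorem noHalfReducible_map_conj {G : Subgroup (GL (Fin 2) k)} (h : NoHalfReducible G) :
    NoHalfReducible (G.map (MulAut.conj b).toMonoidHom) := by
  intro G' hle hidx
  set c : GL (Fin 2) k →* GL (Fin 2) k := (MulAut.conj b).toMonoidHom
  have hc : Function.Injective c := (MulAut.conj b).injective
  have hmap : (G'.comap c).map c = G' :=
    Subgroup.map_comap_eq_self_of_surjective (MulAut.conj b).surjective G'
  rw [← hmap]
  refine isIrredGroup_map_conj b (h _ (fun g hg => ?_) ?_)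
  · obtain ⟨g', hg', hgg⟩ := hle hg
    exact hc hgg ▸ hg'
  · show (G'.comap c).relIndex G = 2
    rw [Subgroup.relIndex_comap]
    exact hidx

variable {p : ℕ} {rb : Gal →* Mat k} {Smin : Finset ℕ}

theorem ResidualHyp.conj (h : ResidualHyp p rb Smin) : ResidualHyp p (conjRep b rb) Smin where
  level := by
    obtain ⟨L, hL, hrb⟩ := h.level
    exact ⟨L, hL, fun σ hσ => by rw [conjRep_apply, hrb σ hσ, conjMat_one]⟩
  split := by rw [imageGL_conjRep]; exact isSplitGroup_map_conj b h.split
  irred := by rw [imageGL_conjRep]; exact isIrredGroup_map_conj b h.irred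
  noHalf := by rw [imageGL_conjRep]; exact noHalfReducible_map_conj b h.noHalf
  det σ a ha := by
    rw [← h.det σ a ha]
    exact Matrix.det_units_conj b (rb σ)
  mem_p := h.mem_p
  prime := h.prime
  unramified q hq hn A hA σ hσ := by
    rw [conjRep_apply, h.unramified q hq hn A hA σ hσ, conjMat_one]

variable {A : ℕ → ValuationSubring (AlgebraicClosure ℚ)}
  (L : ∀ l : ℕ, Submodule k ((A l).decompositionSubgroup ℚ → Mat k))

/-- The conjugated local conditions. -/
def conjCond (l : ℕ) : Submodule k ((A l).decompositionSubgroup ℚ → Mat k) :=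
  (L l).map (conjFun b ((A l).decompositionSubgroup ℚ)).toLinearMap

theorem conjCond_le_adZ1 {l : ℕ} (hLZ : L l ≤ adZ1 rb ((A l).decompositionSubgroup ℚ)) :
    conjCond b L l ≤ adZ1 (conjRep b rb) ((A l).decompositionSubgroup ℚ) := by
  rintro _ ⟨c, hc, rfl⟩
  exact conjFun_mem_adZ1 b (hLZ hc)

theorem adB1_le_conjCond {l : ℕ} (hLB : adB1 rb ((A l).decompositionSubgroup ℚ) ≤ L l) :
    adB1 (conjRep b rb) ((A l).decompositionSubgroup ℚ) ≤ conjCond b L l :=
  (adB1_conjRep_le b rb _).trans (Submodule.map_mono hLB)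

theorem finite_conjCond {l : ℕ} (h : Module.Finite k (L l)) : Module.Finite k (conjCond b L l) :=
  Module.Finite.equiv ((conjFun b _).submoduleMap (L l))

theorem finrank_conjCond (l : ℕ) :
    Module.finrank k (conjCond b L l) = Module.finrank k (L l) :=
  ((conjFun b _).submoduleMap (L l)).finrank_eq.symm

theorem conj_mem_selmer {Q : Finset ℕ} {c : Gal → Mat k} (hc : c ∈ selmer rb Smin Q A L) :
    (fun g => conjMat b (c g)) ∈ selmer (conjRep b rb) Smin Q A (conjCond b L) := by
  obtain ⟨h1, h2, ⟨M, hM, h3⟩, h4, h5⟩ := hc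
  refine ⟨fun g g' => ?_, fun g => ?_, ⟨M, hM, fun g s hs => ?_⟩, fun l hl => ?_,
    fun l hl hn hnQ B hB σ hσ => ?_⟩
  · simp only [adAct_conjRep, h1 g g', map_add]
  · rw [trace_conjMat, h2]
  · simp only [h3 g s hs]
  · exact ⟨_, h4 l hl, rfl⟩
  · simp only [h5 l hl hn hnQ B hB σ hσ, map_zero]

/-- The Selmer space embeds into the conjugated one. -/
def selmerConj (Q : Finset ℕ) :
    selmer rb Smin Q A L →ₗ[k] selmer (conjRep b rb) Smin Q A (conjCond b L) where
  toFun c := ⟨fun g => conjMat b (c.1 g), conj_mem_selmer b L c.2⟩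
  map_add' _ _ := Subtype.ext (funext fun g => by simp)
  map_smul' _ _ := Subtype.ext (funext fun g => by simp)

theorem selmerConj_injective (Q : Finset ℕ) :
    Function.Injective (selmerConj b L Q : selmer rb Smin Q A L → _) := fun _ _ he =>
  Subtype.ext (funext fun g => (conjMat b).injective (congrFun (congrArg Subtype.val he) g))

end FLTAgent.TW
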