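import Fermat.Agent.TW.ProjMod

/-!
# Complements on the counting functor
-/

set_option autoImplicit false
set_option linter.unusedSectionVars false

noncomputable section

namespace FLTAgent.TW

variable {p : ℕ} [Fact p.Prime] {k : Type} [Field k] [Algebra (ZMod p) k]
variable {C : Type} [Group C] [Fintype C]
variable {W : Type} [AddCommGroup W] [Module k W] [Module (ZMod p) W] [IsScalarTower (ZMod p) k W]
  {ρ : Representation k C W}
variable {X Y Z : Type} [AddCommGroup X] [Module (ZMod p) X] [AddCommGroup Y] [Module (ZMod p) Y]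
  [AddCommGroup Z] [Module (ZMod p) Z]

/-- Groups of order prime to `p`. -/
theorem isRelProj_of_card_ne_zero (h : (Fintype.card C : k) ≠ 0) : IsRelProj ρ := by
  refine ⟨(Fintype.card C : k)⁻¹ • LinearMap.id, LinearMap.ext fun w => ?_⟩
  rw [LinearMap.sum_apply, LinearMap.id_apply,
    Finset.sum_congr rfl (g := fun _ : C => (Fintype.card C : k)⁻¹ • w) (fun c _ => by
      show ρ c ((Fintype.card C : k)⁻¹ • ρ c⁻¹ w) = _
      rw [map_smul, Representation.self_inv_apply]),
    Finset.sum_const, Finset.card_univ, ← Nat.cast_smul_eq_nsmul k, smul_smul,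
    mul_inv_cancel₀ h, one_smul]

/-- The dual of a relatively projective module. -/
theorem isRelProj_dual (h : IsRelProj ρ) : IsRelProj ρ.dual := by
  obtain ⟨θ, hθ⟩ := h
  refine ⟨θ.dualMap, LinearMap.ext fun φ => LinearMap.ext fun w => ?_⟩
  rw [LinearMap.sum_apply, LinearMap.sum_apply, LinearMap.id_apply]
  calc ∑ c : C, ((ρ.dual c).comp (θ.dualMap.comp (ρ.dual c⁻¹))) φ w
      = ∑ c : C, φ (ρ c (θ (ρ c⁻¹ w))) :=
        Finset.sum_congr rfl fun c _ => by
          simp [Representation.dual_apply, Module.Dual.transpose_apply, LinearMap.dualMap_apply]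
    _ = φ w := by
        rw [← map_sum]
        congr 1
        have := LinearMap.congr_fun hθ w
        rwa [LinearMap.sum_apply, LinearMap.id_apply] at this

/-- Twisting by a character preserves relative projectivity. -/
theorem isRelProj_of_twist {ρ' : Representation k C W} (η : C →* kˣ)
    (h : ∀ c w, ρ' c w = (η c : k) • ρ c w) (hρ : IsRelProj ρ) : IsRelProj ρ' := by
  obtain ⟨θ, hθ⟩ := hρ
  refine ⟨θ, LinearMap.ext fun w => ?_⟩
  rw [LinearMap.sum_apply, LinearMap.id_apply]
  conv_rhs => rw [← LinearMap.id_apply (R := k) w, ← hθ, LinearMap.sum_apply]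
  refine Finset.sum_congr rfl fun c _ => ?_
  show ρ' c (θ (ρ' c⁻¹ w)) = ρ c (θ (ρ c⁻¹ w))
  rw [h, h, map_smul, map_smul, smul_smul, ← Units.val_mul, ← map_mul, mul_inv_cancel,
    map_one, Units.val_one, one_smul]

/-- If there is no nonzero equivariant map `X → Dual W`, there is none `Dual X → W`. -/
theorem cnt_eq_zero_of_forall (hρ : IsRelProj ρ) [Finite X] {σ : Representation (ZMod p) C X}
    (h : ∀ χ : X →ₗ[ZMod p] Module.Dual k W, χ ∈ eqMaps ρ.dual σ → χ = 0) :
    cnt ρ σ = 0 := by
  classical
  have hbot : eqMaps ρ σ.dual = ⊥ := by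
    rw [eq_bot_iff]
    intro T hT
    rw [Submodule.mem_bot]
    obtain ⟨θ, hθ⟩ := hρ
    by_contra hne
    obtain ⟨ξ, hξ⟩ : ∃ ξ, T ξ ≠ 0 := by
      by_contra hcon
      push Not at hcon
      exact hne (LinearMap.ext hcon)
    obtain ⟨φ, hφ⟩ : ∃ φ : Module.Dual k W, φ (T ξ) ≠ 0 :=
      not_forall.mp fun hall => hξ ((Module.forall_dual_apply_eq_zero_iff k _).mp hall)
    -- the trace pairing
    let b := Module.finBasis (ZMod p) X
    let pair : (X →ₗ[ZMod p] Module.Dual k W) → k := fun χ => ∑ i, χ (b i) (T (b.coord i))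
    have hpair : ∀ (e : Module.Dual (ZMod p) X) (ψ : Module.Dual k W),
        pair ((LinearMap.toSpanSingleton (ZMod p) _ ψ).comp e) = ψ (T e) := by
      intro e ψ
      have he : e = ∑ i, e (b i) • b.coord i := by
        refine b.ext fun j => ?_
        simp [LinearMap.sum_apply, Finsupp.single_apply]
      conv_rhs => rw [he, map_sum, map_sum]
      refine Finset.sum_congr rfl fun i _ => ?_
      simp only [LinearMap.comp_apply, LinearMap.toSpanSingleton_apply, map_smul]
      rw [LinearMap.map_smul_of_tower, LinearMap.smul_apply]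
    have hχ0 : pair ((LinearMap.toSpanSingleton (ZMod p) _ φ).comp ξ) ≠ 0 := by rwa [hpair]
    apply hχ0
    -- `T` is an average, so the pairing only sees averaged maps
    have havg : eqAvg (ρ := ρ.dual) LinearMap.id σ
        ((LinearMap.toSpanSingleton (ZMod p) _ φ).comp ξ) = 0 := h _ (eqAvg_mem _ _ _)
    have h0 : ∑ i, eqAvg (ρ := ρ.dual) LinearMap.id σ
        ((LinearMap.toSpanSingleton (ZMod p) _ φ).comp ξ) (b i) (θ (T (b.coord i))) = 0 := by
      simp [havg]
    rw [hpair, ← h0]
    have h1 := LinearMap.congr_fun hθ (T ξ)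
    rw [LinearMap.sum_apply, LinearMap.id_apply] at h1
    conv_lhs => rw [← h1, map_sum]
    simp only [eqAvg_apply, LinearMap.sum_apply]
    rw [Finset.sum_comm]
    refine Fintype.sum_equiv (Equiv.inv C) _ _ fun c => ?_
    rw [Equiv.inv_apply]
    have he : σ.dual c⁻¹ ξ = ∑ i, ξ (σ c (b i)) • b.coord i := by
      refine b.ext fun j => ?_
      simp [LinearMap.sum_apply, Finsupp.single_apply, Representation.dual_apply,
        Module.Dual.transpose_apply]
    show φ (ρ c (θ (ρ c⁻¹ (T ξ)))) = _
    rw [← hT, he, map_sum, map_sum, map_sum, map_sum]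
    refine Finset.sum_congr rfl fun i _ => ?_
    simp [Representation.dual_apply, Module.Dual.transpose_apply, LinearMap.map_smul_of_tower]
  rw [cnt, hbot, finrank_bot]

end FLTAgent.TW
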