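import Fermat.Agent.TW.Proj
import Fermat.Agent.TW.ConjTransfer
import Fermat.Agent.TW.GroupLemma.Main
import Fermat.Agent.TW.Mono.Induced

/-!
# The Taylor–Wiles bound on the Selmer space

If `p` does not divide the order of the image, the adjoint module is relatively projective.
Otherwise some conjugate of the image contains an upper unitriangular element, and the monomial
case applies.
-/

set_option autoImplicit false
set_option linter.unusedSectionVars false

noncomputable section

open Polynomial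

namespace FLTAgent.TW

open FLTAgent.Deformation

variable {k : Type} [Field k] [Finite k] {p : ℕ} [hpf : Fact p.Prime] [CharP k p]

/-- The bound in sum form, for one set of local conditions. -/
def SelmerSumConcl (rb : Gal →* Mat k) (p : ℕ) (Smin : Finset ℕ)
    (A : ℕ → ValuationSubring (AlgebraicClosure ℚ))
    (L : ∀ l : ℕ, Submodule k ((A l).decompositionSubgroup ℚ → Mat k)) (S : Finset ℕ) : Prop :=
  ∃ r : ℕ, ∀ n : ℕ, ∃ qv : Fin r → ℕ, Function.Injective qv ∧
    (∀ i, (qv i).Prime ∧ qv i ∉ S ∧ qv i ∉ Smin ∧ p ^ (n + 1) ∣ qv i - 1) ∧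
    (∀ i, ∀ P : ValuationSubring (AlgebraicClosure ℚ), P.LiesOverPrime (qv i) →
      ∀ φ : Gal, P.IsFrobeniusAt φ (qv i) →
        ∃ α β : k, α ≠ β ∧ (rb φ).charpoly = (X - C α) * (X - C β)) ∧
    Module.Finite k (selmer rb Smin (Finset.univ.image qv) A L) ∧
    Module.finrank k (selmer rb Smin (Finset.univ.image qv) A L) +
        ∑ l ∈ Smin, (if l = p then 4 else 3) ≤
      r + 3 + ∑ l ∈ Smin, Module.finrank k (L l)

/-- The bound for a conjugate gives the bound. -/
theorem selmerSumConcl_of_conj {rb : Gal →* Mat k} {Smin : Finset ℕ}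
    {A : ℕ → ValuationSubring (AlgebraicClosure ℚ)}
    {L : ∀ l : ℕ, Submodule k ((A l).decompositionSubgroup ℚ → Mat k)} {S : Finset ℕ}
    (b : GL (Fin 2) k) (H : SelmerSumConcl (conjRep b rb) p Smin A (conjCond b L) S) :
    SelmerSumConcl rb p Smin A L S := by
  obtain ⟨r, hr⟩ := H
  refine ⟨r, fun n => ?_⟩
  obtain ⟨qv, h1, h2, h3, hfin, hle⟩ := hr n
  refine ⟨qv, h1, h2, fun i P hP φ hφ => ?_,
    Module.Finite.of_injective _ (selmerConj_injective b L _), ?_⟩
  · obtain ⟨α, β, hne, hcp⟩ := h3 i P hP φ hφ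
    exact ⟨α, β, hne, by rw [← charpoly_conjRep b]; exact hcp⟩
  · have h4 := LinearMap.finrank_le_finrank_of_injective (selmerConj_injective b (Smin := Smin)
      (rb := rb) L (Finset.univ.image qv))
    simp only [finrank_conjCond] at hle
    omega

/-- The monomial case, as a hypothesis. -/
def MonoBound (k : Type) [Field k] (p : ℕ) : Prop :=
  ∀ (rb : Gal →* Mat k) (Smin : Finset ℕ), ResidualHyp p rb Smin →
    (∃ u ∈ unipPart (imageGL rb), u ≠ 1) →
  ∀ (A : ℕ → ValuationSubring (AlgebraicClosure ℚ)), (∀ l ∈ Smin, (A l).LiesOverPrime l) →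
  ∀ (L : ∀ l : ℕ, Submodule k ((A l).decompositionSubgroup ℚ → Mat k)),
    (∀ l ∈ Smin, adB1 rb ((A l).decompositionSubgroup ℚ) ≤ L l) →
    (∀ l ∈ Smin, L l ≤ adZ1 rb ((A l).decompositionSubgroup ℚ)) →
    (∀ l ∈ Smin, Module.Finite k (L l)) →
    (∀ l ∈ Smin, Module.finrank k (L l) ≤ if l = p then 4 else 3) →
  ∀ S : Finset ℕ, SelmerSumConcl rb p Smin A L S

/-- The bound, from the monomial case. -/
theorem selmerSumConcl_of_monoBound (hmono : MonoBound k p) (hp : p ≠ 2) {rb : Gal →* Mat k}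
    {Smin : Finset ℕ} (h : ResidualHyp p rb Smin)
    (A : ℕ → ValuationSubring (AlgebraicClosure ℚ)) (hA : ∀ l ∈ Smin, (A l).LiesOverPrime l)
    (L : ∀ l : ℕ, Submodule k ((A l).decompositionSubgroup ℚ → Mat k))
    (hLB : ∀ l ∈ Smin, adB1 rb ((A l).decompositionSubgroup ℚ) ≤ L l)
    (hLZ : ∀ l ∈ Smin, L l ≤ adZ1 rb ((A l).decompositionSubgroup ℚ))
    (hLfin : ∀ l ∈ Smin, Module.Finite k (L l))
    (hLdim : ∀ l ∈ Smin, Module.finrank k (L l) ≤ if l = p then 4 else 3)
    (S : Finset ℕ) : SelmerSumConcl rb p Smin A L S := by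
  letI : Algebra (ZMod p) k := ZMod.algebra k p
  by_cases hdvd : p ∣ Nat.card (imageGL rb)
  · have := h.finite_imageGL
    obtain ⟨b, hu⟩ := exists_conj_unipPart_ne_one p (imageGL rb) hdvd
    rw [← imageGL_conjRep] at hu
    exact selmerSumConcl_of_conj b (hmono _ _ (h.conj b) hu A hA _
      (fun l hl => adB1_le_conjCond b L (hLB l hl)) (fun l hl => conjCond_le_adZ1 b L (hLZ l hl))
      (fun l hl => finite_conjCond b L (hLfin l hl))
      (fun l hl => (finrank_conjCond b L l).trans_le (hLdim l hl)) S)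
  · have hρ : IsRelProj h.rho := isRelProj_of_card_ne_zero (by
      rw [← Nat.card_eq_fintype_card, ← h.natCard_imageGL, Ne, CharP.cast_eq_zero_iff k p]
      exact hdvd)
    exact h.exists_twPrimes_add_of_isRelProj hp hρ hA hLB hLZ hLfin S

end FLTAgent.TW
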