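import Fermat.Agent.TW.Mono.Bound
import Fermat.Agent.TW.SelmerBound

/-!
# The Taylor–Wiles bound on the Selmer space
-/

set_option autoImplicit false

noncomputable section

open Polynomial

namespace FLTAgent.TW

open FLTAgent.Deformation

/-- Primes `q ≡ 1 mod p ^ (n + 1)` such that the Selmer space has dimension at most the number of
primes plus three. -/
theorem exists_twPrimes_selmer_le {k : Type} [Field k] [Finite k] {p : ℕ} [Fact p.Prime]
    [CharP k p] (hp : p ≠ 2) {rb : Gal →* Mat k} {Smin : Finset ℕ} (h : ResidualHyp p rb Smin)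
    (A : ℕ → ValuationSubring (AlgebraicClosure ℚ)) (hA : ∀ l ∈ Smin, (A l).LiesOverPrime l)
    (L : ∀ l : ℕ, Submodule k ((A l).decompositionSubgroup ℚ → Mat k))
    (hLB : ∀ l ∈ Smin, adB1 rb ((A l).decompositionSubgroup ℚ) ≤ L l)
    (hLZ : ∀ l ∈ Smin, L l ≤ adZ1 rb ((A l).decompositionSubgroup ℚ))
    (hLfin : ∀ l ∈ Smin, Module.Finite k (L l))
    (hLdim : ∀ l ∈ Smin, Module.finrank k (L l) ≤ if l = p then 4 else 3)
    (S : Finset ℕ) :
    ∃ r : ℕ, ∀ n : ℕ, ∃ qv : Fin r → ℕ, Function.Injective qv ∧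
      (∀ i, (qv i).Prime ∧ qv i ∉ S ∧ qv i ∉ Smin ∧ p ^ (n + 1) ∣ qv i - 1) ∧
      (∀ i, ∀ P : ValuationSubring (AlgebraicClosure ℚ), P.LiesOverPrime (qv i) →
        ∀ φ : Gal, P.IsFrobeniusAt φ (qv i) →
          ∃ α β : k, α ≠ β ∧ (rb φ).charpoly = (X - C α) * (X - C β)) ∧
      Module.Finite k (selmer rb Smin (Finset.univ.image qv) A L) ∧
      Module.finrank k (selmer rb Smin (Finset.univ.image qv) A L) ≤ r + 3 := by
  letI : Algebra (ZMod p) k := ZMod.algebra k p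
  obtain ⟨r, hr⟩ := selmerSumConcl_of_monoBound (monoBound hp) hp h A hA L hLB hLZ hLfin hLdim S
  refine ⟨r, fun n => ?_⟩
  obtain ⟨qv, h1, h2, h3, hfin, hle⟩ := hr n
  have := Finset.sum_le_sum hLdim
  exact ⟨qv, h1, h2, h3, hfin, by omega⟩

end FLTAgent.TW
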