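import Fermat.Agent.TW.Tangent
import Fermat.Agent.RT.Cond.Main
import Fermat.Agent.RT.Irr.Residual
import Fermat.Agent.TW.Local.Main
import Fermat.Agent.TW.SelmerBoundMain
import Fermat.Agent.TW.Flat.Main

/-!
# Assembly of the Taylor–Wiles primes statement
-/

set_option autoImplicit false
set_option linter.unusedSectionVars false

noncomputable section

open IsLocalRing Matrix Polynomial
open scoped TensorProduct

namespace FLTAgent.TW

open FLTAgent.Deformation FLTAgent.RTIrr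

/-- A stable line gives a proper stable submodule of the base change. -/
theorem not_hasStableLine_of_baseChange {k : Type} [Field k] (ρbar : ResidualGaloisRep k)
    (b : Module.Basis (Fin 2) k ρbar.V) (K : Type) [Field K] [Algebra k K] (S : Set Gal)
    (h : ∀ V : Submodule K (ρbar.baseChange K).V,
      (∀ σ ∈ S, ∀ x ∈ V, (ρbar.baseChange K).ρ σ x ∈ V) → V = ⊥ ∨ V = ⊤) :
    ¬ HasStableLine (mapRep (algebraMap k K) (repMatrix ρbar.ρ b)) S := by
  rintro ⟨v, hv, hst⟩
  let B : Module.Basis (Fin 2) K (ρbar.baseChange K).V := Algebra.TensorProduct.basis K b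
  have hne : B.equivFun.symm v ≠ 0 := fun h0 => hv ((LinearEquiv.map_eq_zero_iff _).mp h0)
  rcases h (K ∙ B.equivFun.symm v) fun σ hσ x hx => by
    obtain ⟨t, rfl⟩ := Submodule.mem_span_singleton.mp hx
    obtain ⟨a, ha⟩ := hst σ hσ
    refine Submodule.mem_span_singleton.mpr ⟨t * a, B.equivFun.injective ?_⟩
    have e : mapRep (algebraMap k K) (repMatrix ρbar.ρ b) σ = repMatrix (ρbar.baseChange K).ρ B σ :=
      (LinearMap.toMatrix_baseChange K (ρbar.ρ σ) b b).symm
    rw [← repMatrix_mulVec (ρbar.baseChange K).ρ B σ, ← e, map_smul, map_smul,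
      LinearEquiv.apply_symm_apply, Matrix.mulVec_smul, ha, smul_smul]
  with h1 | h1
  · exact hne (Submodule.span_singleton_eq_bot.mp h1)
  · have h2 := congrArg (fun V : Submodule K (ρbar.baseChange K).V => Module.finrank K V) h1
    rw [finrank_span_singleton hne, finrank_top, (ρbar.baseChange K).finrank_eq] at h2
    omega

variable {𝒪 : Type} [CommRing 𝒪] [IsDomain 𝒪] [IsDiscreteValuationRing 𝒪]
  [IsAdicComplete (maximalIdeal 𝒪) 𝒪] [Finite (ResidueField 𝒪)]
  (ρbar : ResidualGaloisRep (ResidueField 𝒪)) {p : ℕ} [Fact p.Prime]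

theorem not_hasStableLine_algebraicClosure (habs : ρbar.IsAbsolutelyIrreducible) :
    ¬ HasStableLine
      (mapRep (algebraMap (ResidueField 𝒪) (AlgebraicClosure (ResidueField 𝒪))) (barMatrix ρbar))
      Set.univ :=
  not_hasStableLine_of_baseChange ρbar _ _ _ fun V hV => habs V fun σ => hV σ trivial

theorem charpoly_barMatrix (σ : Gal) :
    (barMatrix ρbar σ).charpoly = LinearMap.charpoly (ρbar.ρ σ) := by
  rw [barMatrix, repMatrix_apply, LinearMap.charpoly_toMatrix]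

/-- The residual hypotheses in matrix form. -/
theorem residualHyp_barMatrix [CharP (ResidueField 𝒪) p]
    (habs : ρbar.IsAbsolutelyIrreducible)
    (hdet : (GaloisRepAdic.ofResidualGaloisRep ρbar).DetIsCyclotomic p)
    (hsplit : ∀ σ : Gal, ∃ α β : ResidueField 𝒪,
      LinearMap.charpoly (ρbar.ρ σ) = (X - C α) * (X - C β))
    (hTW : ∀ (K : Type) [Field K] [Algebra (ResidueField 𝒪) K] (G : Subgroup Gal), G.index = 2 →
      ∀ V : Submodule K (ρbar.baseChange K).V,
        (∀ σ ∈ G, ∀ x ∈ V, (ρbar.baseChange K).ρ σ x ∈ V) → V = ⊥ ∨ V = ⊤)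
    (Smin : Finset ℕ) (hpS : p ∈ Smin) (hS : ∀ q ∈ Smin, q.Prime)
    (hmin : ∀ q : ℕ, q.Prime → q ≠ p → (q ∈ Smin ↔ ¬ ρbar.IsUnramifiedAt q)) :
    ResidualHyp p (barMatrix ρbar) Smin where
  level := by
    obtain ⟨L, hL, h⟩ := ρbar.factorsThroughFiniteLevel
    exact ⟨L, hL, fun σ hσ => by rw [barMatrix, repMatrix_apply, h σ hσ, LinearMap.toMatrix_one]⟩
  split := by
    rintro g ⟨σ, rfl⟩
    obtain ⟨α, β, h⟩ := hsplit σ
    refine ⟨α, β, ?_⟩
    rw [MonoidHom.coe_toHomUnits, charpoly_barMatrix, h]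
  irred := by
    intro v hv
    by_contra hc
    push Not at hc
    refine not_hasStableLine_algebraicClosure ρbar habs
      ⟨algebraMap (ResidueField 𝒪) (AlgebraicClosure (ResidueField 𝒪)) ∘ v, fun h0 => hv
        (funext fun i => (algebraMap (ResidueField 𝒪) (AlgebraicClosure (ResidueField 𝒪))).injective
          (by simpa using congrFun h0 i)), fun g _ => ?_⟩
    obtain ⟨a, ha⟩ := hc _ ⟨g, rfl⟩
    refine ⟨algebraMap _ _ a, funext fun i => ?_⟩
    rw [mapRep_apply, ← RingHom.map_mulVec]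
    show algebraMap (ResidueField 𝒪) (AlgebraicClosure (ResidueField 𝒪))
      ((((barMatrix ρbar).toHomUnits g : Mat (ResidueField 𝒪)) *ᵥ v) i) = _
    rw [ha]
    simp
  noHalf := by
    intro G' hle hidx v hv
    by_contra hc
    push Not at hc
    have hidx' : (G'.comap (barMatrix ρbar).toHomUnits).index = 2 := by
      rw [Subgroup.index_comap]
      exact hidx
    refine not_hasStableLine_of_baseChange ρbar (residualBasis ρbar) (ResidueField 𝒪) _
      (hTW (ResidueField 𝒪) _ hidx') ⟨v, hv, fun g hg => ?_⟩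
    obtain ⟨a, ha⟩ := hc _ hg
    refine ⟨a, ?_⟩
    rw [mapRep_apply]
    exact ha
  det := fun σ a ha => by
    have h := hdet.2 1 σ a (by simpa [pow_one] using ha)
    rw [pow_one, CharP.cast_eq_zero (ResidueField 𝒪) p, Ideal.span_singleton_eq_bot.mpr rfl,
      Ideal.mem_bot, sub_eq_zero] at h
    rw [barMatrix, repMatrix_apply, LinearMap.det_toMatrix]
    exact h
  mem_p := hpS
  prime := hS
  unramified := fun q hq hqS A hA σ hσ => by
    have hqp : q ≠ p := fun h => hqS (h ▸ hpS)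
    have hu : ρbar.IsUnramifiedAt q := by
      by_contra h
      exact hqS ((hmin q hq hqp).mpr h)
    rw [barMatrix, repMatrix_apply, hu A hA σ hσ, LinearMap.toMatrix_one]

attribute [local instance] dualAlg

/-- **Taylor–Wiles primes** for a problem with a local condition `Cp` at `p` of small tangent
space, unipotent inertia at `Smin` and unramified elsewhere. -/
theorem exists_twPrimes_surjective (hp2 : p ≠ 2) [CharP (ResidueField 𝒪) p]
    (habs : ρbar.IsAbsolutelyIrreducible) {Smin : Finset ℕ}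
    (h : ResidualHyp p (barMatrix ρbar) Smin)
    (hram : ∀ q : ℕ, q ∈ Smin → q ≠ p → ¬ ρbar.IsUnramifiedAt q)
    (Cp : GaloisRepAdic (DualNumber (ResidueField 𝒪)) → Prop)
    (hCp : ∀ P : ValuationSubring (AlgebraicClosure ℚ), P.LiesOverPrime p →
      ∃ S : Submodule (ResidueField 𝒪) (P.decompositionSubgroup ℚ → Mat (ResidueField 𝒪)),
        adB1 (barMatrix ρbar) (P.decompositionSubgroup ℚ) ≤ S ∧
        S ≤ adZ1 (barMatrix ρbar) (P.decompositionSubgroup ℚ) ∧
        Module.Finite (ResidueField 𝒪) S ∧ Module.finrank (ResidueField 𝒪) S ≤ 4 ∧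
        ∀ (N : Gal →* Mat (DualNumber (ResidueField 𝒪))) (hN : MatCont N),
          (∀ σ, (N σ).map TrivSqZeroExt.fst = barMatrix ρbar σ) →
          (∀ σ, Matrix.trace (liftCocycle (barMatrix ρbar) N σ) = 0) →
          Cp (matRep N hN) →
          (fun g : P.decompositionSubgroup ℚ => liftCocycle (barMatrix ρbar) N g) ∈ S)
    (S : Finset ℕ)
    (𝒟 : Finset ℕ → ∀ ⦃A : Type⦄ [CommRing A] [IsLocalRing A] [Algebra 𝒪 A], GaloisRepAdic A → Prop)
    (h𝒟 : ∀ Q, GaloisRep.IsDeformationCondition 𝒪 (𝒟 Q))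
    (hcond : ∀ Q (ρ : GaloisRepAdic (DualNumber (ResidueField 𝒪))), 𝒟 Q ρ →
      ρ.DetIsCyclotomic p ∧ Cp ρ ∧
        (∀ q : ℕ, q.Prime → q ∉ Smin ∪ Q → ρ.IsUnramifiedAt q) ∧
        ∀ q ∈ Smin, q.Prime → q ≠ p → ρ.IsUnipotentOnInertiaAt q) :
    ∃ r : ℕ, ∀ n : ℕ, ∃ qv : Fin r → ℕ, Function.Injective qv ∧
      (∀ i, (qv i).Prime ∧ qv i ∉ S ∧ p ^ (n + 1) ∣ qv i - 1) ∧
      (∀ i, ∀ P : ValuationSubring (AlgebraicClosure ℚ), P.LiesOverPrime (qv i) →
        ∀ φ : Gal, P.IsFrobeniusAt φ (qv i) →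
          ∃ α β : ResidueField 𝒪, α ≠ β ∧
            LinearMap.charpoly (ρbar.ρ φ) = (X - C α) * (X - C β)) ∧
      ∀ DQ : GaloisRep.DeformationRingData 𝒪 ρbar (𝒟 (Finset.univ.image qv)),
        ∃ γ : MvPowerSeries (Fin r) 𝒪 →ₐ[𝒪] DQ.R, Function.Surjective γ := by
  classical
  have hex : ∀ l : ℕ, ∃ A : ValuationSubring (AlgebraicClosure ℚ), l ∈ Smin →
      A.LiesOverPrime l ∧ (l ≠ p → ∃ σ ∈ A.inertiaSubgroupIn ℚ, barMatrix ρbar σ ≠ 1) := by
    intro l
    by_cases hl : l ∈ Smin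
    · by_cases hlp : l = p
      · obtain ⟨A, hA⟩ := Frobenius.exists_liesOverPrime (h.prime l hl)
        exact ⟨A, fun _ => ⟨hA, fun h' => absurd hlp h'⟩⟩
      · have := hram l hl hlp
        simp only [ResidualGaloisRep.IsUnramifiedAt] at this
        push Not at this
        obtain ⟨A, hA, σ, hσ, hσ1⟩ := this
        refine ⟨A, fun _ => ⟨hA, fun _ => ⟨σ, hσ, fun h1 => hσ1 ?_⟩⟩⟩
        rwa [barMatrix, repMatrix_apply, ← LinearMap.toMatrix_one (residualBasis ρbar),
          (LinearMap.toMatrix _ _).injective.eq_iff] at h1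
    · exact ⟨⊤, fun h' => absurd h' hl⟩
  choose A hA using hex
  have hloc : ∀ l : ℕ, ∃ L : Submodule (ResidueField 𝒪)
      ((A l).decompositionSubgroup ℚ → Mat (ResidueField 𝒪)), l ∈ Smin →
      adB1 (barMatrix ρbar) ((A l).decompositionSubgroup ℚ) ≤ L ∧
      L ≤ adZ1 (barMatrix ρbar) ((A l).decompositionSubgroup ℚ) ∧
      Module.Finite (ResidueField 𝒪) L ∧
      Module.finrank (ResidueField 𝒪) L ≤ (if l = p then 4 else 3) ∧
      ∀ (N : Gal →* Mat (DualNumber (ResidueField 𝒪))) (hN : MatCont N),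
        (∀ σ, (N σ).map TrivSqZeroExt.fst = barMatrix ρbar σ) →
        (∀ σ, Matrix.trace (liftCocycle (barMatrix ρbar) N σ) = 0) →
        ((l = p → Cp (matRep N hN)) ∧ (l ≠ p → (matRep N hN).IsUnipotentOnInertiaAt l)) →
        (fun g : (A l).decompositionSubgroup ℚ => liftCocycle (barMatrix ρbar) N g) ∈ L := by
    intro l
    by_cases hl : l ∈ Smin
    · by_cases hlp : l = p
      · subst hlp
        obtain ⟨L, h1, h2, h3, h4, h5⟩ := hCp (A l) (hA l hl).1
        exact ⟨L, fun _ => ⟨h1, h2, h3, by rw [if_pos rfl]; exact h4,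
          fun N hN e1 e2 e3 => h5 N hN e1 e2 (e3.1 rfl)⟩⟩
      · obtain ⟨L, h1, h2, h3, h4, h5⟩ := unipotent_cocycle_bound hp2 (barMatrix ρbar) h.level h.det
          (h.prime l hl) hlp (A l) (hA l hl).1 ((hA l hl).2 hlp)
        exact ⟨L, fun _ => ⟨h1, h2, h3, by rw [if_neg hlp]; exact h4,
          fun N hN e1 e2 e3 => h5 N hN e1 e2 (e3.2 hlp)⟩⟩
    · exact ⟨⊥, fun h' => absurd h' hl⟩
  choose L hL using hloc
  obtain ⟨r, hr⟩ := exists_twPrimes_selmer_le hp2 h A (fun l hl => (hA l hl).1) L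
    (fun l hl => (hL l hl).1) (fun l hl => (hL l hl).2.1) (fun l hl => (hL l hl).2.2.1)
    (fun l hl => (hL l hl).2.2.2.1) S
  refine ⟨r, fun n => ?_⟩
  obtain ⟨qv, hinj, hqv, hfrob, hfin, hdim⟩ := hr n
  refine ⟨qv, hinj, fun i => ⟨(hqv i).1, (hqv i).2.1, (hqv i).2.2.2⟩, fun i P hP φ hφ => ?_,
    fun DQ => ?_⟩
  · obtain ⟨α, β, hne, hcp⟩ := hfrob i P hP φ hφ
    refine ⟨α, β, hne, ?_⟩
    rw [← hcp, barMatrix, repMatrix_apply, LinearMap.charpoly_toMatrix]
  · exact exists_mvPowerSeries_surjective_of_selmer hp2 h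
      (not_hasStableLine_algebraicClosure ρbar habs) (fun l hl => (hL l hl).1) r hfin hdim
      (h𝒟 _) (fun N hN hD => (hcond _ _ hD).1)
      (fun N hN hD l hl hls hlQ => (hcond _ _ hD).2.2.1 l hl
        (fun hm => (Finset.mem_union.mp hm).elim hls hlQ))
      (fun N hN e1 e2 hD l hl => (hL l hl).2.2.2.2 N hN e1 e2
        ⟨fun _ => (hcond _ _ hD).2.1, fun hlp => (hcond _ _ hD).2.2.2 l hl (h.prime l hl) hlp⟩) DQ

end FLTAgent.TW
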