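import Fermat.Agent.TW.Setting
import Fermat.Agent.TW.PlaceTools
import Fermat.Agent.TW.NormChar.Main
import Fermat.Agent.Chebotarev.Main

/-!
# Taylor–Wiles primes at which a given equivariant ray character does not vanish
-/

set_option autoImplicit false
set_option linter.unusedSectionVars false

open IsDedekindDomain NumberField
open scoped Pointwise

noncomputable section

namespace FLTAgent.TW

open FLTAgent.Frobenius

variable {p : ℕ} [hpf : Fact p.Prime]

theorem restrict_eq_one {L : IntermediateField ℚ Qb} [Normal ℚ L] {g : Γ} :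
    AlgEquiv.restrictNormalHom L g = 1 ↔ g ∈ L.fixingSubgroup := by
  rw [IntermediateField.mem_fixingSubgroup_iff]
  constructor
  · intro h x hx
    have h1 := apply_coe_eq L g ⟨x, hx⟩
    rw [h] at h1
    exact h1
  · intro h
    refine AlgEquiv.ext fun x => Subtype.ext ?_
    rw [← apply_coe_eq L g x]
    exact h _ x.2

theorem conj_mem_fixing {L : IntermediateField ℚ Qb} [Normal ℚ L] (g : Γ) {τ : Γ}
    (hτ : τ ∈ L.fixingSubgroup) : g * τ * g⁻¹ ∈ L.fixingSubgroup := by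
  rw [← restrict_eq_one] at hτ ⊢
  rw [map_mul, map_mul, hτ, map_inv, mul_one, mul_inv_cancel]

theorem restrict_eq_iff {L : IntermediateField ℚ Qb} [Normal ℚ L] {a b : Γ} :
    AlgEquiv.restrictNormalHom L a = AlgEquiv.restrictNormalHom L b ↔
      a * b⁻¹ ∈ L.fixingSubgroup := by
  rw [← restrict_eq_one, map_mul, map_inv, mul_inv_eq_one]

theorem normal_muField (N : ℕ) : Normal ℚ (muField N) :=
  IntermediateField.normal_iff_forall_map_le'.mpr fun σ => by
    rintro x ⟨y, hy, rfl⟩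
    exact apply_mem_muField σ hy

theorem normal_sup' (L M : IntermediateField ℚ Qb) [h : Normal ℚ L] [h' : Normal ℚ M] :
    Normal ℚ ↥(L ⊔ M) := @IntermediateField.normal_sup ℚ Qb _ _ _ L M h h'

namespace KField

variable (S : KField p) {V : Type} [AddCommGroup V] {m : Ideal (𝓞 S.K)}

/-- The character vanishes at almost all places with Frobenius fixing `L`. -/
def VanAt (χ : RayHom m V) (L : IntermediateField ℚ Qb) : Prop :=
  ∃ bad : Finset ℕ, ∀ (A : ValuationSubring Qb) (l : ℕ) (hl : l.Prime) (hA : A.LiesOverPrime l),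
    l ∉ bad → ∀ φ ∈ L.fixingSubgroup, A.IsFrobeniusAt φ l →
      χ.toFun (placeIn S.K A hl hA).asIdeal = 0

variable [Module (ZMod p) V] (act : S.C → V →+ V)

/-- One layer. -/
theorem vanAt_step (hp : p ≠ 2) {L L' : IntermediateField ℚ Qb} [FiniteDimensional ℚ L]
    [FiniteDimensional ℚ L'] [Normal ℚ L'] (hKL : S.K ≤ L) (hLL' : L ≤ L')
    (hgal : @IsGalois S.K _ L _ (inclAlgebra hKL))
    (hLH : ∀ g ∈ S.H, ∀ τ ∈ L.fixingSubgroup, g * τ * g⁻¹ ∈ L.fixingSubgroup)
    (hexp : ∀ σ ∈ L.fixingSubgroup, σ ^ p ∈ L'.fixingSubgroup)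
    (hcomm : ∀ σ ∈ L.fixingSubgroup, ∀ τ ∈ L.fixingSubgroup,
      σ * τ * σ⁻¹ * τ⁻¹ ∈ L'.fixingSubgroup)
    (hm : m ≠ ⊥) (χ : RayHom m V)
    (heq : ∀ (c : S.C) (v : Ext.Place S.K), χ.toFun (c • v).asIdeal = act c (χ.toFun v.asIdeal))
    (hzero : ∀ h : L.fixingSubgroup → V, (∀ σ τ, h (σ * τ) = h σ + h τ) →
      (∀ τ : L.fixingSubgroup, (τ : Γ) ∈ L'.fixingSubgroup → h τ = 0) →
      (∀ (g : S.H) (τ τ' : L.fixingSubgroup), (τ' : Γ) = (g : Γ) * τ * (g : Γ)⁻¹ →
        h τ' = act (S.π g) (h τ)) → ∀ τ, h τ = 0)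
    (hvan : S.VanAt χ L') : S.VanAt χ L := by
  let _ := inclAlgebra hKL
  have := isInclusion_inclAlgebra hKL
  have := hgal
  obtain ⟨bad, hbad⟩ := hvan
  have hm' : m.map (algebraMap (𝓞 S.K) (𝓞 L)) ≠ ⊥ := fun h => hm
    ((Ideal.map_eq_bot_iff_of_injective (FaithfulSMul.algebraMap_injective _ _)).mp h)
  have hunder : ∀ {A : ValuationSubring Qb} {l : ℕ} {hl : l.Prime} {hA : A.LiesOverPrime l},
      (placeIn L A hl hA).asIdeal.under (𝓞 S.K) = (placeIn S.K A hl hA).asIdeal :=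
    congrArg HeightOneSpectrum.asIdeal below_placeIn
  obtain ⟨h, bad', hadd, hkill, hval⟩ := RayHom.exists_hom_of_vanish (p := p) hp hLL'
    (fun σ _ x hx => by
      have h1 : σ x = σ ((⟨x, hx⟩ : L') : Qb) := rfl
      rw [h1, apply_coe_eq L' σ]
      exact SetLike.coe_mem _)
    hexp hcomm hm' (normPull χ) bad (fun A l hl hA hlb φ hφ hfrob => by
      by_contra hne
      exact exists_ne_zero_of_normPull χ _ hne (by rw [hunder]; exact hbad A l hl hA hlb φ hφ hfrob))
  have hχ : ∀ (A : ValuationSubring Qb) (l : ℕ) (hl : l.Prime) (hA : A.LiesOverPrime l),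
      l ∉ bad' → ∀ φ : L.fixingSubgroup, A.IsFrobeniusAt (φ : Γ) l →
        χ.toFun (placeIn S.K A hl hA).asIdeal = h φ := fun A l hl hA hlb φ hφ => by
    rw [← hval A l hl hA hlb φ hφ, normPull_degreeOne' χ _ (by
      rw [IsDegreeOne, absNorm_placeIn_of_frobenius φ.2 hφ]; exact hl), hunder]
  have hcongr : ∀ σ τ : L.fixingSubgroup, ((τ⁻¹ * σ : L.fixingSubgroup) : Γ) ∈ L'.fixingSubgroup →
      h σ = h τ := fun σ τ hστ => by
    have := hadd τ (τ⁻¹ * σ)
    rw [mul_inv_cancel_left, hkill _ hστ, add_zero] at this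
    exact this
  have heqv : ∀ (g : S.H) (τ τ' : L.fixingSubgroup), (τ' : Γ) = (g : Γ) * τ * (g : Γ)⁻¹ →
      h τ' = act (S.π g) (h τ) := fun g τ τ' hτ' => by
    obtain ⟨l, hl, hlb, A, hA, -, φ₀, hφ₀, heqOn⟩ :=
      Chebotarev.exists_frobenius_eqOn L' (τ : Γ) bad'
    have hφL : φ₀ ∈ L.fixingSubgroup := (IntermediateField.mem_fixingSubgroup_iff _ _).mpr
      fun x hx => by rw [heqOn x (hLL' hx)]; exact apply_eq_of_mem_fixing τ.2 hx
    have hdiff : (τ : Γ)⁻¹ * φ₀ ∈ L'.fixingSubgroup :=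
      (IntermediateField.mem_fixingSubgroup_iff _ _).mpr fun x hx => by
        show (τ : Γ)⁻¹ (φ₀ x) = x
        rw [heqOn x hx]
        exact AlgEquiv.symm_apply_apply (τ : Γ) x
    let φ : L.fixingSubgroup := ⟨φ₀, hφL⟩
    let φ' : L.fixingSubgroup := ⟨(g : Γ) * φ₀ * (g : Γ)⁻¹, hLH _ g.2 _ hφL⟩
    have h1 := hχ A l hl hA hlb φ hφ₀
    have h2 := hχ ((g : Γ) • A) l hl (liesOverPrime_smul hA _) hlb φ'
      (isFrobeniusAt_conj hl.pos hφ₀ _)
    rw [S.placeIn_smul_π g hl hA, heq, h1, hcongr φ τ hdiff, hcongr φ' τ' ?_] at h2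
    · exact h2.symm
    · show (τ' : Γ)⁻¹ * ((g : Γ) * φ₀ * (g : Γ)⁻¹) ∈ _
      rw [hτ', show ((g : Γ) * τ * (g : Γ)⁻¹)⁻¹ * ((g : Γ) * φ₀ * (g : Γ)⁻¹) =
        (g : Γ) * ((τ : Γ)⁻¹ * φ₀) * (g : Γ)⁻¹ by group]
      exact conj_mem_fixing _ hdiff
  refine ⟨bad', fun A l hl hA hlb φ hφ hfrob => ?_⟩
  rw [hχ A l hl hA hlb ⟨φ, hφ⟩ hfrob]
  exact hzero h hadd hkill heqv _

variable {S}
variable {F : IntermediateField ℚ Qb} [FiniteDimensional ℚ F] [Normal ℚ F]

/-- The restriction to `F`. -/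
abbrev resTo (F : IntermediateField ℚ Qb) [Normal ℚ F] : Γ →* (F ≃ₐ[ℚ] F) :=
  AlgEquiv.restrictNormalHom F

theorem fix_muField_of_le (hKF : S.K ≤ F) {σ : Γ} (hσ : σ ∈ F.fixingSubgroup) :
    σ ∈ (muField p).fixingSubgroup := by
  rw [mem_fixing_muField]
  intro x hx
  have : NeZero p := ⟨hpf.out.ne_zero⟩
  obtain ⟨i, -, rfl⟩ := (coe_zeta_isPrimitiveRoot S.hζ).eq_pow_of_pow_eq_one hx
  rw [map_pow, apply_eq_of_mem_fixing hσ (hKF S.ζ.2)]

/-- The conclusion: a good prime where `χ` does not vanish. -/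
def HasTWPrime (χ : RayHom m V) (P : (F ≃ₐ[ℚ] F) → Prop) (n : ℕ) (bad : Finset ℕ) : Prop :=
  ∃ l : ℕ, l.Prime ∧ l ∉ bad ∧ p ^ (n + 1) ∣ l - 1 ∧
    (∀ A : ValuationSubring Qb, A.LiesOverPrime l → A.inertiaSubgroupIn ℚ ≤ F.fixingSubgroup ∧
      ∀ φ : Γ, A.IsFrobeniusAt φ l → P (resTo F φ)) ∧
    ∃ v : Ext.Place S.K, (l : 𝓞 S.K) ∈ v.asIdeal ∧ χ.toFun v.asIdeal ≠ 0

set_option maxHeartbeats 400000 in
/-- Either a good prime exists or translation by `u` changes the sign. -/
theorem neg_or_hasTWPrime (hp : p ≠ 2) (hKF : S.K ≤ F) (hm : m ≠ ⊥) (χ : RayHom m V)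
    (heq : ∀ (c : S.C) (v : Ext.Place S.K), χ.toFun (c • v).asIdeal = act c (χ.toFun v.asIdeal))
    {z : Γ} (hzH : z ∈ S.H) (hzact : ∀ x, act (S.π ⟨z, hzH⟩) x = x)
    (hzc : ∀ g, Commute (resTo F g) (resTo F z)) (hz1 : resTo F z ≠ 1)
    (hz2 : resTo F z * resTo F z = 1)
    {u : Γ} (hu : u ∈ (muField p).fixingSubgroup) (hu2 : resTo F u * resTo F u = resTo F z)
    (P : (F ≃ₐ[ℚ] F) → Prop) (hPconj : ∀ a b, P b → P (a * b * a⁻¹))
    (hPu : P (resTo F u)) (hPu' : P (resTo F u)⁻¹) (n : ℕ) (bad : Finset ℕ) :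
    HasTWPrime (S := S) χ P n bad ∨
      ∃ bad' : Finset ℕ, ∀ (A : ValuationSubring Qb) (l : ℕ) (hl : l.Prime)
        (hA : A.LiesOverPrime l), l ∉ bad' →
        ∀ φ ∈ (F ⊔ muField (p ^ (n + 1))).fixingSubgroup, A.IsFrobeniusAt φ l → ∀ g : Γ,
          χ.toFun (placeIn S.K ((g * u) • A) hl (liesOverPrime_smul hA _)).asIdeal =
            -χ.toFun (placeIn S.K (g • A) hl (liesOverPrime_smul hA _)).asIdeal := by
  classical
  set N := p ^ (n + 1)
  have : FiniteDimensional ℚ (muField N) :=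
    finiteDimensional_muField (pow_ne_zero _ hpf.out.ne_zero)
  have : Normal ℚ (muField N) := normal_muField N
  set M : IntermediateField ℚ Qb := F ⊔ muField N
  have : FiniteDimensional ℚ M := IntermediateField.finiteDimensional_sup _ _
  have : Normal ℚ M := normal_sup' _ _
  have : IsGalois ℚ M := ⟨⟩
  have hMF : ∀ {τ : Γ}, τ ∈ M.fixingSubgroup → τ ∈ F.fixingSubgroup := fun hτ =>
    IntermediateField.fixingSubgroup_antitone le_sup_left hτ
  have hMmu : ∀ {τ : Γ}, τ ∈ M.fixingSubgroup → τ ∈ (muField N).fixingSubgroup := fun hτ =>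
    IntermediateField.fixingSubgroup_antitone le_sup_right hτ
  have hKM : S.K ≤ M := hKF.trans le_sup_left
  let _ := inclAlgebra hKM
  have := isInclusion_inclAlgebra hKM
  have := IsInclusion.isGalois (K := S.K) (L := M)
  set r := resTo M
  set rF := resTo F
  -- the corrected element
  obtain ⟨j, hj⟩ := (hpf.out.odd_of_ne_two hp).pow (n := n)
  set u' : Γ := u ^ (p ^ n * p ^ n)
  have hu4 : rF u ^ 4 = 1 := by
    rw [show (4 : ℕ) = 2 + 2 from rfl, pow_add, pow_two, hu2, hz2]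
  have huF : rF u' = rF u := by
    rw [map_pow, show p ^ n * p ^ n = 4 * (j * j + j) + 1 by rw [hj]; ring, pow_succ, pow_mul,
      hu4, one_pow, one_mul]
  have hu'mu : u' ∈ (muField N).fixingSubgroup := by
    show u ^ (p ^ n * p ^ n) ∈ _
    rw [pow_mul]
    exact pow_mem (pow_mem_muField hu n) _
  set σ := r u'
  have hσ4 : σ ^ 4 = 1 := by
    rw [← map_pow r, restrict_eq_one, IntermediateField.fixingSubgroup_sup]
    refine ⟨?_, pow_mem hu'mu 4⟩
    show u' ^ 4 ∈ F.fixingSubgroup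
    rw [← restrict_eq_one, map_pow]
    show rF u' ^ 4 = 1
    rw [huF, hu4]
  have hσ2 : σ ^ 2 ≠ 1 := fun h => by
    rw [← map_pow r, restrict_eq_one] at h
    have h1 := hMF h
    rw [← restrict_eq_one, map_pow] at h1
    change rF u' ^ 2 = 1 at h1
    rw [huF, pow_two, hu2] at h1
    exact hz1 h1
  have hord : orderOf σ = 4 := by
    have : Fact (Nat.Prime 2) := ⟨Nat.prime_two⟩
    exact orderOf_eq_prime_pow (p := 2) (n := 1) (by simpa using hσ2) (by simpa using hσ4)
  -- the field fixed by `σ`, and the quadratic layer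
  set E : IntermediateField ℚ M := IntermediateField.fixedField (Subgroup.zpowers σ)
  have hEfix : E.fixingSubgroup = Subgroup.zpowers σ := IntermediateField.fixingSubgroup_fixedField _
  let τ : M ≃ₐ[E] M :=
    IntermediateField.fixingSubgroupEquiv E ⟨σ, hEfix.ge (Subgroup.mem_zpowers σ)⟩
  have hgen : ∀ x : M ≃ₐ[E] M, ∃ i : ℤ, x = τ ^ i := fun x => by
    obtain ⟨⟨y, hy⟩, rfl⟩ := (IntermediateField.fixingSubgroupEquiv E).surjective x
    obtain ⟨i, rfl⟩ := hEfix.le hy
    exact ⟨i, by rw [← map_zpow]; rfl⟩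
  have hτσ : ∀ i : ℤ, (τ ^ i).restrictScalars ℚ = σ ^ i := fun i => by
    rw [← map_zpow]
    rfl
  set H2 : Subgroup (M ≃ₐ[E] M) := Subgroup.zpowers (τ ^ 2)
  have : H2.Normal := ⟨fun a ha b => by
    obtain ⟨i, rfl⟩ := hgen b
    obtain ⟨i', rfl⟩ := hgen a
    rwa [← zpow_neg, ← zpow_add, ← zpow_add, add_neg_cancel_comm]⟩
  set L0 : IntermediateField E M := IntermediateField.fixedField H2
  have hEM : Module.finrank E M = 4 := by
    rw [IntermediateField.finrank_fixedField_eq_card, Nat.card_zpowers, hord]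
  have hL0 : 2 ≤ Module.finrank E L0 := by
    by_contra hlt
    have h1 : Module.finrank E L0 = 1 := by
      have := Module.finrank_pos (R := E) (M := L0)
      omega
    rw [IntermediateField.finrank_eq_one_iff] at h1
    have h2 : H2 = ⊤ := by
      rw [← IntermediateField.fixingSubgroup_fixedField H2]
      show L0.fixingSubgroup = ⊤
      rw [h1, IntermediateField.fixingSubgroup_bot]
    obtain ⟨i, hi⟩ := h2.ge (Subgroup.mem_top τ)
    have h3 : σ ^ (2 * i - 1) = 1 := by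
      have h4 := hτσ (2 * i)
      rw [zpow_mul, show (τ ^ (2 : ℤ)) ^ i = τ from hi] at h4
      rw [zpow_sub_one, ← h4, mul_inv_eq_one]
      exact (hτσ 1).trans (zpow_one σ) |>.symm ▸ rfl
    rw [← orderOf_dvd_iff_zpow_eq_one, hord] at h3
    omega
  obtain ⟨Sram, hSram⟩ := exists_finset_inertia_le_fixingSubgroup M
  set N₀ := Ideal.absNorm m
  have hN0 : N₀ ≠ 0 := fun h => hm (Ideal.absNorm_eq_zero_iff.mp h)
  have hNm : (N₀ : 𝓞 S.K) ∈ m := Ideal.absNorm_mem m
  have hNM : (N₀ : 𝓞 M) ∈ m.map (algebraMap (𝓞 S.K) (𝓞 M)) := by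
    rw [← map_natCast (algebraMap (𝓞 S.K) (𝓞 M))]
    exact Ideal.mem_map_of_mem _ hNm
  set bad₀ := bad ∪ Sram ∪ N₀.primeFactors ∪ {p}
  set η := normPull (L := M) χ
  let gh : Γ → (𝓞 M →+* 𝓞 M) := fun g =>
    (RingOfIntegers.mapRingEquiv (r g).toRingEquiv).toRingHom
  have hgh : ∀ (g : Γ) (B : ValuationSubring Qb) (l : ℕ) (hl : l.Prime) (hB : B.LiesOverPrime l),
      (placeIn M B hl hB).asIdeal.map (gh g) =
        (placeIn M (g • B) hl (liesOverPrime_smul hB g)).asIdeal := fun g B l hl hB => by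
    rw [placeIn_smul (r g).toRingEquiv g fun x => (apply_coe_eq M g x).symm]
    exact (Ideal.comap_symm (I := (placeIn M B hl hB).asIdeal)
      (RingOfIntegers.mapRingEquiv (r g).toRingEquiv)).symm
  let ιE : Γ → (𝓞 E →+* 𝓞 M) := fun g => (gh g).comp (algebraMap (𝓞 E) (𝓞 M))
  have hιE : ∀ g, Function.Injective (ιE g) := fun g =>
    (RingOfIntegers.mapRingEquiv (r g).toRingEquiv).injective.comp
      (FaithfulSMul.algebraMap_injective _ _)
  set mE : Ideal (𝓞 E) := Ideal.span {(N₀ : 𝓞 E)}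
  have hmE : mE ≠ ⊥ := fun h => hN0 (Nat.cast_eq_zero.mp (Ideal.span_singleton_eq_bot.mp h))
  have hmap : ∀ g, mE.map (ιE g) ≤ m.map (algebraMap (𝓞 S.K) (𝓞 M)) := fun g => by
    rw [Ideal.map_span, Set.image_singleton, Ideal.span_singleton_le_iff_mem, map_natCast]
    exact hNM
  let χE : Γ → RayHom mE V := fun g => RayHom.pull (ιE g) (hιE g) mE (hmap g) η
  by_cases hall : ∀ g, ∀ I, (χE g).toFun I = 0
  · -- the sum over the four places vanishes
    right
    refine ⟨bad₀, fun A l hl hA hlb φ hφ hfrob => ?_⟩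
    have hlN : ¬ l ∣ N₀ := fun h => hlb (by
      simp only [bad₀, Finset.mem_union, Nat.mem_primeFactors]
      exact Or.inl (Or.inr ⟨hl, h, hN0⟩))
    have hinA : A.inertiaSubgroupIn ℚ ≤ M.fixingSubgroup := hSram l hl (fun h => hlb (by
      simp only [bad₀, Finset.mem_union]
      exact Or.inl (Or.inl (Or.inr h)))) A hA
    have hdeg : ∀ g : Γ,
        Ideal.absNorm (placeIn M (g • A) hl (liesOverPrime_smul hA g)).asIdeal = l := fun g =>
      absNorm_placeIn_of_frobenius (conj_mem_fixing g hφ) (isFrobeniusAt_conj hl.pos hfrob g)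
    set Q₀ := placeIn M A hl hA
    have hQ₀ : Ideal.absNorm Q₀.asIdeal = l := absNorm_placeIn_of_frobenius hφ hfrob
    have hfix : ∀ g : Γ, centreIn M (g • A) = centreIn M A → r g = 1 := fun g hg => by
      obtain ⟨δ, hδ, hδg⟩ := exists_decomposition_eqOn M g hg
      obtain ⟨ι, hι, hιeq⟩ := exists_mem_inertiaSubgroupIn_eqOn M (A := A) δ fun x hx => by
        obtain ⟨y, rfl⟩ := exists_toZbar_eq M hx
        obtain ⟨a, ha⟩ := exists_natCast_sub_mem Q₀ hl hQ₀ y
        have ha' : toZbar M (y - a) ∈ centre A := ha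
        have h1 : δ • toZbar M (y - a) ∈ centre A := by
          have h2 := Ideal.smul_mem_pointwise_smul δ _ _ ha'
          rwa [← centre_smul, MulAction.mem_stabilizer_iff.mp hδ] at h2
        have h3 : δ • (a : Zbar) = (a : Zbar) := map_natCast (MulSemiringAction.toRingHom Γ Zbar δ) a
        have h4 := sub_mem h1 ha'
        rwa [map_sub, map_natCast, smul_sub, h3, sub_sub_sub_cancel_right] at h4
      refine AlgEquiv.ext fun x => Subtype.ext ?_
      show ((r g x : M) : Qb) = (x : Qb)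
      rw [← apply_coe_eq M g x, ← hδg _ x.2, ← hιeq _ x.2]
      exact apply_coe_eq_of_mem_fixing (hinA hι) x
    let Q : Fin 4 → HeightOneSpectrum (𝓞 M) := fun i =>
      placeIn M (u' ^ (i : ℕ) • A) hl (liesOverPrime_smul hA _)
    have hQinj : Function.Injective Q := fun i i' hii => by
      have h1 : centreIn M (((u' ^ (i : ℕ))⁻¹ * u' ^ (i' : ℕ)) • A) = centreIn M A := by
        have h2 := congrArg (placeMap (r (u' ^ (i : ℕ))⁻¹).toRingEquiv) hii
        simp only [Q] at h2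
        rw [← placeIn_smul (r (u' ^ (i : ℕ))⁻¹).toRingEquiv (u' ^ (i : ℕ))⁻¹
            fun x => (apply_coe_eq M _ x).symm,
          ← placeIn_smul (r (u' ^ (i : ℕ))⁻¹).toRingEquiv (u' ^ (i : ℕ))⁻¹
            fun x => (apply_coe_eq M _ x).symm] at h2
        have h3 := congrArg HeightOneSpectrum.asIdeal h2
        change centreIn M ((u' ^ (i : ℕ))⁻¹ • (u' ^ (i : ℕ) • A)) =
          centreIn M ((u' ^ (i : ℕ))⁻¹ • (u' ^ (i' : ℕ) • A)) at h3
        rw [inv_smul_smul, ← mul_smul] at h3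
        exact h3.symm
      have h4 := hfix _ h1
      rw [map_mul, map_inv, map_pow r u', map_pow r u', inv_mul_eq_one] at h4
      exact Fin.ext (pow_injOn_Iio_orderOf (x := σ) (show (i : ℕ) < orderOf σ by omega)
        (show (i' : ℕ) < orderOf σ by omega) h4)
    set P0 : HeightOneSpectrum (𝓞 E) := RayL.below (K := E) Q₀
    have hP0 : Ideal.absNorm P0.asIdeal = l :=
      (RayL.absNorm_below_eq (show IsDegreeOne Q₀ by rw [IsDegreeOne, hQ₀]; exact hl)).trans hQ₀
    have hle : ∀ i, P0.asIdeal.map (algebraMap (𝓞 E) (𝓞 M)) ≤ (Q i).asIdeal := fun i => by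
      rw [Ideal.map_le_iff_le_comap]
      intro x hx
      show toZbar M (algebraMap (𝓞 E) (𝓞 M) x) ∈ centre (u' ^ (i : ℕ) • A)
      rw [centre_smul, Ideal.mem_pointwise_smul_iff_inv_smul_mem]
      have hx' : toZbar M (algebraMap (𝓞 E) (𝓞 M) x) ∈ centre A := hx
      have hfx : (u' ^ (i : ℕ))⁻¹ • toZbar M (algebraMap (𝓞 E) (𝓞 M) x) =
          toZbar M (algebraMap (𝓞 E) (𝓞 M) x) := Subtype.ext (by
        show (u' ^ (i : ℕ))⁻¹ ((((x : E) : M)) : Qb) = _
        rw [apply_coe_eq M]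
        exact congrArg Subtype.val ((x : E).2 ⟨r (u' ^ (i : ℕ))⁻¹, by
          rw [map_inv, map_pow]
          exact inv_mem (pow_mem (Subgroup.mem_zpowers σ) _)⟩))
      rw [hfx]
      exact hx'
    have hprod : P0.asIdeal.map (algebraMap (𝓞 E) (𝓞 M)) = ∏ i, (Q i).asIdeal := by
      have hdvd : ∏ i, (Q i).asIdeal ∣ P0.asIdeal.map (algebraMap (𝓞 E) (𝓞 M)) := by
        have h := Finset.prod_primes_dvd (s := Finset.univ.image fun i => (Q i).asIdeal)
          (P0.asIdeal.map (algebraMap (𝓞 E) (𝓞 M)))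
          (fun I hI => by
            obtain ⟨i, -, rfl⟩ := Finset.mem_image.1 hI
            exact (Q i).prime)
          (fun I hI => by
            obtain ⟨i, -, rfl⟩ := Finset.mem_image.1 hI
            exact Ideal.dvd_iff_le.mpr (hle i))
        rwa [Finset.prod_image fun a _ b _ h => hQinj (HeightOneSpectrum.ext h)] at h
      obtain ⟨R, hR⟩ := hdvd
      have hn := congrArg Ideal.absNorm hR
      rw [RayL.absNorm_map, hP0, hEM, map_mul, map_prod] at hn
      simp only [Q, hdeg, Finset.prod_const, Finset.card_univ, Fintype.card_fin] at hn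
      have hR1 : Ideal.absNorm R = 1 :=
        (Nat.eq_of_mul_eq_mul_left (pow_pos hl.pos 4) (by rw [mul_one]; exact hn)).symm
      rw [hR, Ideal.absNorm_eq_one_iff.mp hR1, Ideal.mul_top]
    intro g
    let f : Γ → V := fun a => χ.toFun (placeIn S.K (a • A) hl (liesOverPrime_smul hA a)).asIdeal
    have hf : ∀ a b, rF a = rF b → f a = f b := fun a b hab => by
      have hτ : a * b⁻¹ ∈ S.K.fixingSubgroup :=
        IntermediateField.fixingSubgroup_antitone hKF (restrict_eq_iff.mp hab)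
      show χ.toFun _ = χ.toFun _
      congr 2
      rw [← placeIn_smul_fix (A := b • A) (hl := hl) (hA := liesOverPrime_smul hA b) hτ]
      congr 1
      rw [← mul_smul, inv_mul_cancel_right]
    have hfz : ∀ a, f (a * (u' * u')) = f a := fun a => by
      rw [hf (a * (u' * u')) (z * a) (by
        rw [map_mul, map_mul, map_mul, huF, hu2]; exact hzc a)]
      show χ.toFun (placeIn S.K ((z * a) • A) hl _).asIdeal = _
      simp only [mul_smul]
      rw [show placeIn S.K (z • a • A) hl (liesOverPrime_smul (liesOverPrime_smul hA a) z) =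
        S.π ⟨z, hzH⟩ • placeIn S.K (a • A) hl (liesOverPrime_smul hA a) from
          S.placeIn_smul_π ⟨z, hzH⟩ hl (liesOverPrime_smul hA a), heq, hzact]
    have hcop : ∀ (B : ValuationSubring Qb) (hB : B.LiesOverPrime l),
        IsCoprime (placeIn M B hl hB).asIdeal (m.map (algebraMap (𝓞 S.K) (𝓞 M))) := fun B hB =>
      isCoprime_of_natCast _ hl natCast_mem_placeIn hNM hlN
    have hz0 := hall g P0.asIdeal
    rw [RayHom.pull_apply (ιE g) (hιE g) mE (hmap g) η P0.ne_bot (isCoprime_of_natCast _ hl (by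
        show algebraMap (𝓞 E) (𝓞 M) (l : 𝓞 E) ∈ Q₀.asIdeal
        rw [map_natCast]; exact natCast_mem_placeIn) (Ideal.mem_span_singleton_self _) hlN),
      ← Ideal.map_map, hprod,
      show (∏ i, (Q i).asIdeal).map (gh g) = ∏ i, ((Q i).asIdeal.map (gh g)) from
        map_prod (Ideal.mapHom (gh g)) _ _,
      RayHom.map_finsetProd η _ _ (fun i _ => by
        simp only [Q]
        rw [hgh]
        exact (placeIn M _ hl _).ne_bot) (fun i _ => by
        simp only [Q]
        rw [hgh]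
        exact hcop _ _)] at hz0
    have hterm : ∀ i : Fin 4, η.toFun ((Q i).asIdeal.map (gh g)) = f (g * u' ^ (i : ℕ)) := fun i => by
      simp only [Q]
      rw [hgh]
      simp only [← mul_smul]
      rw [normPull_degreeOne' χ _ (by rw [IsDegreeOne, hdeg]; exact hl)]
      exact congrArg χ.toFun (congrArg HeightOneSpectrum.asIdeal below_placeIn)
    simp only [hterm, Fin.sum_univ_four, Fin.val_zero, Fin.val_one,
      Fin.val_two, show ((3 : Fin 4) : ℕ) = 3 from rfl, pow_zero, pow_one, mul_one] at hz0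
    rw [pow_two, hfz g, show g * u' ^ 3 = g * u' * (u' * u') by rw [pow_three, mul_assoc], hfz (g * u'),
      hf (g * u') (g * u) (by rw [map_mul, map_mul, huF])] at hz0
    have h2 : (2 : ZMod p) • (f g + f (g * u)) = 0 := by rw [two_smul, ← hz0]; abel
    have h20 : (2 : ZMod p) ≠ 0 := by
      intro h
      have h' : ((2 : ℕ) : ZMod p) = 0 := by exact_mod_cast h
      rw [ZMod.natCast_eq_zero_iff] at h'
      exact hp ((Nat.prime_two.eq_one_or_self_of_dvd p h').resolve_left hpf.out.ne_one)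
    exact eq_neg_of_add_eq_zero_right ((smul_eq_zero.mp h2).resolve_left h20)
  · -- a prime of `E` off the kernel, not split in the quadratic layer
    left
    push Not at hall
    obtain ⟨g, hg⟩ := hall
    set badP := {v : HeightOneSpectrum (𝓞 E) | ∃ l ∈ bad₀, l ≠ 0 ∧ (l : 𝓞 E) ∈ v.asIdeal}
    obtain ⟨P0, hP0b, hP0d, hP0s, hP0v⟩ := RayHom.exists_prime (p := p) hp hmE (χE g) hg L0 hL0
      badP (finite_places_over bad₀)
    set l := Ideal.absNorm P0.asIdeal
    have hl : l.Prime := hP0d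
    have hlP : (l : 𝓞 E) ∈ P0.asIdeal := Ideal.absNorm_mem _
    have hlb : l ∉ bad₀ := fun h => hP0b ⟨l, h, hl.ne_zero, hlP⟩
    simp only [bad₀, Finset.mem_union, Finset.mem_singleton, not_or] at hlb
    obtain ⟨⟨⟨hlbad, hlS⟩, -⟩, hlp⟩ := hlb
    obtain ⟨⟨Qi, hQp, hQover⟩⟩ := P0.asIdeal.nonempty_primesOver (S := 𝓞 M)
    let Q : HeightOneSpectrum (𝓞 M) := ⟨Qi, hQp, fun h => P0.ne_bot (by
      rw [hQover.over, h]
      exact Ideal.comap_bot_of_injective _ (FaithfulSMul.algebraMap_injective _ _))⟩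
    have hQP : Q.asIdeal.under (𝓞 E) = P0.asIdeal := hQover.over.symm
    have hlQ : (l : 𝓞 M) ∈ Q.asIdeal := by
      have h := hlP
      rw [← hQP, Ideal.under, Ideal.mem_comap, map_natCast] at h
      exact h
    obtain ⟨B, hB, hBQ⟩ := exists_placeIn M Q hl hlQ
    have : Finite (𝓞 M ⧸ Q.asIdeal) := Ideal.finiteQuotientOfFreeOfNeBot Q.asIdeal Q.ne_bot
    obtain ⟨τ', hτ'⟩ := IsArithFrobAt.exists_of_isInvariant (R := 𝓞 E) (G := M ≃ₐ[E] M) Q.asIdeal
    have hunder : Nat.card (𝓞 E ⧸ Q.asIdeal.under (𝓞 E)) = l := by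
      rw [hQP, ← Submodule.cardQuot_apply, ← Ideal.absNorm_apply]
    obtain ⟨i, hi⟩ := hgen τ'
    obtain ⟨w, hw⟩ := AlgEquiv.restrictNormalHom_surjective (F := ℚ) (K₁ := M) Qb (σ ^ i)
    have hwy : ∀ y : 𝓞 M, toZbar M (τ' • y) = w • toZbar M y := fun y => Subtype.ext (by
      show (((τ' (y : M) : M)) : Qb) = w ((y : M) : Qb)
      rw [apply_coe_eq M w]
      show _ = ((r w (y : M) : M) : Qb)
      rw [show r w = σ ^ i from hw, ← hτσ i, ← hi]
      rfl)
    obtain ⟨φ, hφ, hφeq⟩ := exists_isFrobeniusAt_eqOn M hl hB w fun x hx => by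
      obtain ⟨y, rfl⟩ := exists_toZbar_eq M hx
      have h := hτ' y
      rw [hunder, ← hBQ] at h
      rw [← hwy, ← map_pow, ← map_sub]
      exact h
    have hrφ : r φ = σ ^ i := by
      rw [← hw]
      refine AlgEquiv.ext fun x => Subtype.ext ?_
      show ((r φ x : M) : Qb) = ((r w x : M) : Qb)
      rw [← apply_coe_eq M φ x, ← apply_coe_eq M w x]
      exact hφeq _ x.2
    -- the exponent is odd
    have hodd : ¬ (2 : ℤ) ∣ i := by
      rintro ⟨i', rfl⟩
      refine hP0s ⟨RayL.below (K := L0) Q, ?_, ?_⟩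
      · show (Q.asIdeal.under (𝓞 L0)).under (𝓞 E) = _
        rw [Ideal.under_under, hQP]
      · have hlL : ∀ x : 𝓞 L0, x ^ l - x ∈ (RayL.below (K := L0) Q).asIdeal := fun x => by
          have h := hτ' (algebraMap (𝓞 L0) (𝓞 M) x)
          rw [hunder] at h
          have hx : τ' • algebraMap (𝓞 L0) (𝓞 M) x = algebraMap (𝓞 L0) (𝓞 M) x :=
            RingOfIntegers.ext (by
              show τ' (((x : L0) : M)) = ((x : L0) : M)
              exact (x : L0).2 ⟨τ', by
                rw [hi, zpow_mul, show (τ ^ (2 : ℤ)) = τ ^ 2 from zpow_natCast τ 2]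
                exact zpow_mem (Subgroup.mem_zpowers _) _⟩)
          show algebraMap (𝓞 L0) (𝓞 M) (x ^ l - x) ∈ Q.asIdeal
          rw [map_sub, map_pow, ← neg_sub]
          have h' : τ' • algebraMap (𝓞 L0) (𝓞 M) x - algebraMap (𝓞 L0) (𝓞 M) x ^ l ∈ Q.asIdeal := h
          rw [hx] at h'
          exact neg_mem h'
        rw [IsDegreeOne, absNorm_eq_of_pow_eq _ hl (by
          show algebraMap (𝓞 L0) (𝓞 M) (l : 𝓞 L0) ∈ Q.asIdeal
          rw [map_natCast]; exact hlQ) hlL]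
        exact hl
    have hφF : rF φ = rF u ∨ rF φ = (rF u)⁻¹ := by
      have h1 : r φ = r (u' ^ i) := by rw [hrφ, map_zpow]
      have h2 : rF φ = rF (u' ^ i) := restrict_eq_iff.mpr (hMF (restrict_eq_iff.mp h1))
      rw [h2, map_zpow, huF]
      obtain ⟨t, ht⟩ : ∃ t : ℤ, i = 4 * t + 1 ∨ i = 4 * t - 1 := by
        rcases Int.emod_two_eq_zero_or_one i with h | h
        · exact absurd (Int.dvd_of_emod_eq_zero h) hodd
        · exact ⟨(i + 1) / 4, by omega⟩
      have h4 : rF u ^ (4 : ℤ) = 1 := by rw [show (4 : ℤ) = ((4 : ℕ) : ℤ) from rfl, zpow_natCast, hu4]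
      rcases ht with rfl | rfl
      · exact Or.inl (by rw [zpow_add_one, zpow_mul, h4, one_zpow, one_mul])
      · exact Or.inr (by rw [zpow_sub_one, zpow_mul, h4, one_zpow, one_mul])
    have hφN : φ ∈ (muField N).fixingSubgroup := by
      have h1 : φ * (u' ^ i)⁻¹ ∈ M.fixingSubgroup := restrict_eq_iff.mp (by
        show r φ = r (u' ^ i)
        rw [hrφ, map_zpow])
      have := mul_mem (hMmu h1) (zpow_mem hu'mu i)
      rwa [inv_mul_cancel_right] at this
    refine ⟨l, hl, hlbad, dvd_sub_one_of_frobenius hl hlp hB hφ hφN, fun A hA => ?_, ?_⟩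
    · have hin := hSram l hl hlS A hA
      refine ⟨fun x hx => hMF (hin hx), fun ψ hψ => ?_⟩
      obtain ⟨a, ha⟩ := exists_smul_eq hl hB hA
      have hconj : A.IsFrobeniusAt (a * φ * a⁻¹) l := by
        rw [← ha]; exact isFrobeniusAt_conj hl.pos hφ a
      have h1 : rF ψ = rF a * rF φ * (rF a)⁻¹ := by
        have h2 := hMF (hin (inv_mul_mem_inertiaSubgroupIn hl.pos hconj hψ))
        rw [← restrict_eq_one, map_mul, map_inv,
          inv_mul_eq_one, map_mul, map_mul, map_inv] at h2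
        exact h2.symm
      rw [h1]
      refine hPconj _ _ ?_
      rcases hφF with h | h <;> rw [h] <;> assumption
    · have hne : η.toFun (P0.asIdeal.map (ιE g)) ≠ 0 := by
        by_cases hc : IsCoprime P0.asIdeal mE
        · rw [← RayHom.pull_apply (ιE g) (hιE g) mE (hmap g) η P0.ne_bot hc]
          exact hP0v
        · exact absurd ((χE g).eq_zero _ (Or.inr hc)) hP0v
      obtain ⟨Q', hQ', hQ'v⟩ := RayHom.exists_prime_factor η _ hne
      have hlQ' : (l : 𝓞 M) ∈ Q'.asIdeal := by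
        have h := hQ' (Ideal.mem_map_of_mem (ιE g) hlP)
        rwa [map_natCast] at h
      obtain ⟨C, hC, hCQ⟩ := exists_placeIn M Q' hl hlQ'
      refine ⟨placeIn S.K C hl hC, natCast_mem_placeIn, ?_⟩
      have h := exists_ne_zero_of_normPull χ Q' hQ'v
      rwa [← hCQ, show (placeIn M C hl hC).asIdeal.under (𝓞 S.K) = (placeIn S.K C hl hC).asIdeal
        from congrArg HeightOneSpectrum.asIdeal below_placeIn] at h

/-- A character vanishing over `F` vanishes if there is no equivariant homomorphism. -/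
theorem eq_zero_of_vanAt (hp : p ≠ 2) (hKF : S.K ≤ F)
    (hexp : ∀ σ ∈ S.K.fixingSubgroup, σ ^ p ∈ F.fixingSubgroup)
    (hcomm : ∀ σ ∈ S.K.fixingSubgroup, ∀ τ ∈ S.K.fixingSubgroup,
      σ * τ * σ⁻¹ * τ⁻¹ ∈ F.fixingSubgroup)
    (hzero : ∀ h : S.K.fixingSubgroup → V, (∀ σ τ, h (σ * τ) = h σ + h τ) →
      (∀ τ : S.K.fixingSubgroup, (τ : Γ) ∈ F.fixingSubgroup → h τ = 0) →
      (∀ (g : S.H) (τ : S.K.fixingSubgroup), h (S.conjK g τ) = act (S.π g) (h τ)) →
        ∀ τ, h τ = 0)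
    (hm : m ≠ ⊥) (χ : RayHom m V)
    (heq : ∀ (c : S.C) (v : Ext.Place S.K), χ.toFun (c • v).asIdeal = act c (χ.toFun v.asIdeal))
    (hvan : S.VanAt χ F) : ∀ I, χ.toFun I = 0 := by
  have hK : S.VanAt χ S.K := S.vanAt_step act hp le_rfl hKF
    (by
      have : inclAlgebra (le_refl S.K) = Algebra.id S.K := Algebra.algebra_ext _ _ fun x => rfl
      rw [this]
      infer_instance)
    (fun g hg τ hτ => (S.conjK ⟨g, hg⟩ ⟨τ, hτ⟩).2) hexp hcomm hm χ heq
    (fun h hadd hkill heqv => hzero h hadd hkill fun g τ => heqv g τ _ rfl) hvan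
  obtain ⟨b, hb⟩ := hK
  exact RayHom.eq_zero_of_frobenius (p := p) hm χ b hb

/-- A nonzero equivariant ray character does not vanish at some good prime. -/
theorem exists_twPrime (hp : p ≠ 2) (hKF : S.K ≤ F)
    (hinv : ∀ x : V, (∀ c, act c x = x) → x = 0)
    (hm : m ≠ ⊥) (χ : RayHom m V)
    (heq : ∀ (c : S.C) (v : Ext.Place S.K), χ.toFun (c • v).asIdeal = act c (χ.toFun v.asIdeal))
    (hne : ¬ S.VanAt χ F)
    {z s t : Γ} (hzH : z ∈ S.H) (hzact : ∀ x, act (S.π ⟨z, hzH⟩) x = x)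
    (hzc : ∀ g, Commute (resTo F g) (resTo F z)) (hz1 : resTo F z ≠ 1)
    (hz2 : resTo F z * resTo F z = 1)
    (hs : s ∈ (muField p).fixingSubgroup) (ht : t ∈ (muField p).fixingSubgroup)
    (hs2 : resTo F s * resTo F s = resTo F z) (ht2 : resTo F t * resTo F t = resTo F z)
    (hst2 : resTo F (s * t) * resTo F (s * t) = resTo F z)
    (P : (F ≃ₐ[ℚ] F) → Prop) (hPconj : ∀ a b, P b → P (a * b * a⁻¹))
    (hPsq : ∀ b, b * b = resTo F z → P b) (n : ℕ) (bad : Finset ℕ) :
    HasTWPrime (S := S) χ P n bad := by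
  by_contra hcon
  have hPinv : ∀ {b : F ≃ₐ[ℚ] F}, b * b = resTo F z → P b⁻¹ := fun {b} hb =>
    hPsq _ (by rw [← mul_inv_rev, hb, inv_eq_of_mul_eq_one_right hz2])
  have key : ∀ u : Γ, u ∈ (muField p).fixingSubgroup → resTo F u * resTo F u = resTo F z →
      ∃ bad' : Finset ℕ, ∀ (A : ValuationSubring Qb) (l : ℕ) (hl : l.Prime)
        (hA : A.LiesOverPrime l), l ∉ bad' →
        ∀ φ ∈ (F ⊔ muField (p ^ (n + 1))).fixingSubgroup, A.IsFrobeniusAt φ l → ∀ g : Γ,
          χ.toFun (placeIn S.K ((g * u) • A) hl (liesOverPrime_smul hA _)).asIdeal =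
            -χ.toFun (placeIn S.K (g • A) hl (liesOverPrime_smul hA _)).asIdeal := fun u hu hu2 =>
    (neg_or_hasTWPrime act hp hKF hm χ heq hzH hzact hzc hz1 hz2 hu hu2 P hPconj (hPsq _ hu2)
      (hPinv hu2) n bad).resolve_left hcon
  obtain ⟨b1, h1⟩ := key s hs hs2
  obtain ⟨b2, h2⟩ := key t ht ht2
  obtain ⟨b3, h3⟩ := key (s * t) (mul_mem hs ht) hst2
  have hVn : S.VanAt χ (F ⊔ muField (p ^ (n + 1))) := by
    refine ⟨b1 ∪ b2 ∪ b3, fun A l hl hA hlb φ hφ hfrob => ?_⟩
    simp only [Finset.mem_union, not_or] at hlb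
    have e1 := h1 A l hl hA hlb.1.1 φ hφ hfrob 1
    have e2 := h2 A l hl hA hlb.1.2 φ hφ hfrob s
    have e3 := h3 A l hl hA hlb.2 φ hφ hfrob 1
    simp only [one_mul, one_smul] at e1 e3
    rw [e3, e1, neg_neg] at e2
    set x := χ.toFun (placeIn S.K A hl hA).asIdeal
    have h2 : (2 : ZMod p) • x = 0 := by rw [two_smul]; nth_rw 2 [← e2]; exact add_neg_cancel x
    refine (smul_eq_zero.mp h2).resolve_left fun h => ?_
    have h' : ((2 : ℕ) : ZMod p) = 0 := by exact_mod_cast h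
    rw [ZMod.natCast_eq_zero_iff] at h'
    exact hp ((Nat.prime_two.eq_one_or_self_of_dvd p h').resolve_left hpf.out.ne_one)
  -- descend through the levels
  have hdesc : ∀ j, S.VanAt χ (F ⊔ muField (p ^ (j + 1))) → S.VanAt χ (F ⊔ muField (p ^ 1)) := by
    intro j
    induction j with
    | zero => exact id
    | succ j ih =>
      intro hv
      refine ih ?_
      have : FiniteDimensional ℚ (muField (p ^ (j + 1))) :=
        finiteDimensional_muField (pow_ne_zero _ hpf.out.ne_zero)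
      have : FiniteDimensional ℚ (muField (p ^ (j + 1 + 1))) :=
        finiteDimensional_muField (pow_ne_zero _ hpf.out.ne_zero)
      have : Normal ℚ (muField (p ^ (j + 1))) := normal_muField _
      have : Normal ℚ (muField (p ^ (j + 1 + 1))) := normal_muField _
      have : FiniteDimensional ℚ ↥(F ⊔ muField (p ^ (j + 1))) :=
        IntermediateField.finiteDimensional_sup _ _
      have : FiniteDimensional ℚ ↥(F ⊔ muField (p ^ (j + 1 + 1))) :=
        IntermediateField.finiteDimensional_sup _ _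
      have : Normal ℚ ↥(F ⊔ muField (p ^ (j + 1))) := normal_sup' _ _
      have : Normal ℚ ↥(F ⊔ muField (p ^ (j + 1 + 1))) := normal_sup' _ _
      have hmem : ∀ {N : ℕ} {σ : Γ}, σ ∈ (F ⊔ muField N).fixingSubgroup ↔
          σ ∈ F.fixingSubgroup ∧ σ ∈ (muField N).fixingSubgroup := fun {N σ} => by
        rw [IntermediateField.fixingSubgroup_sup]; exact Iff.rfl
      refine S.vanAt_step act hp (hKF.trans le_sup_left) (sup_le_sup_left ?_ F) ?_
        (fun g _ τ hτ => conj_mem_fixing g hτ) (fun σ hσ => hmem.mpr ⟨pow_mem (hmem.mp hσ).1 p,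
          pow_p_mem_muField (hmem.mp hσ).2⟩) (fun σ hσ τ hτ => hmem.mpr ⟨mul_mem (mul_mem
            (mul_mem (hmem.mp hσ).1 (hmem.mp hτ).1) (inv_mem (hmem.mp hσ).1))
              (inv_mem (hmem.mp hτ).1),
            commutator_mem_muField (pow_ne_zero _ hpf.out.ne_zero) σ τ⟩)
        hm χ heq (fun h hadd hkill heqv τ => hinv _ fun c => ?_) hv
      · exact IntermediateField.adjoin.mono ℚ _ _ fun x (hx : x ^ p ^ (j + 1) = 1) => by
          show x ^ p ^ (j + 1 + 1) = 1
          rw [pow_succ p (j + 1), pow_mul, hx, one_pow]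
      · let _ := inclAlgebra (hKF.trans (le_sup_left : F ≤ F ⊔ muField (p ^ (j + 1))))
        have := isInclusion_inclAlgebra
          (hKF.trans (le_sup_left : F ≤ F ⊔ muField (p ^ (j + 1))))
        exact IsInclusion.isGalois
      · obtain ⟨g, rfl⟩ := S.π_surj c
        let τ' : (F ⊔ muField (p ^ (j + 1))).fixingSubgroup :=
          ⟨(g : Γ) * τ * (g : Γ)⁻¹, conj_mem_fixing _ τ.2⟩
        rw [← heqv g τ τ' rfl]
        have h2 : h (τ' * τ⁻¹) = 0 := hkill _ (hmem.mpr ⟨mul_mem (hmem.mp τ'.2).1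
          (inv_mem (hmem.mp τ.2).1), commutator_mem_muField (pow_ne_zero _ hpf.out.ne_zero) _ _⟩)
        have h1 := hadd (τ' * τ⁻¹) τ
        rwa [inv_mul_cancel_right, h2, zero_add] at h1
  have hF : S.VanAt χ F := by
    obtain ⟨b, hb⟩ := hdesc n hVn
    refine ⟨b, fun A l hl hA hlb φ hφ hfrob => hb A l hl hA hlb φ ?_ hfrob⟩
    rw [IntermediateField.fixingSubgroup_sup, pow_one]
    exact ⟨hφ, fix_muField_of_le hKF hφ⟩
  exact hne hF

end KField

end FLTAgent.TW
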