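import Fermat.Agent.TW.Selmer
import Fermat.Agent.TW.AdModule
import Fermat.Agent.TW.GroupLemma.Main
import Fermat.Agent.TW.Kill

/-!
# The field cut out by the residual representation and its adjoint modules
-/

set_option autoImplicit false
set_option linter.unusedSectionVars false

open IsDedekindDomain NumberField Polynomial
open scoped Pointwise

noncomputable section

namespace FLTAgent.TW

open FLTAgent.Deformation FLTAgent.Frobenius

variable {k : Type} [Field k] (rb : Gal →* Mat k)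

/-- The residual representation into `GL₂`. -/
abbrev rbGL : Γ →* GL (Fin 2) k := rb.toHomUnits

/-- The field fixed by the kernel. -/
def kerField : IntermediateField ℚ Qb := IntermediateField.fixedField (rbGL rb).ker

variable {rb} {p : ℕ} {Smin : Finset ℕ} (h : ResidualHyp p rb Smin)
include h

theorem ResidualHyp.fixing_kerField : (kerField rb).fixingSubgroup = (rbGL rb).ker := by
  obtain ⟨L, hL, hrb⟩ := h.level
  have hle : L.fixingSubgroup ≤ (rbGL rb).ker := fun σ hσ => MonoidHom.mem_ker.mpr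
    (Units.ext (hrb σ fun x hx => apply_eq_of_mem_fixing hσ hx))
  have hop : IsOpen ((rbGL rb).ker : Set Γ) :=
    Subgroup.isOpen_mono hle (IntermediateField.fixingSubgroup_isOpen L)
  have hcl : IsClosed ((rbGL rb).ker : Set Γ) := Subgroup.isClosed_of_isOpen _ hop
  exact InfiniteGalois.fixingSubgroup_fixedField ⟨(rbGL rb).ker, hcl⟩

theorem ResidualHyp.mem_kerField {σ : Γ} :
    σ ∈ (kerField rb).fixingSubgroup ↔ rb σ = 1 := by
  rw [h.fixing_kerField, MonoidHom.mem_ker, Units.ext_iff]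
  rfl

theorem ResidualHyp.finiteDimensional : FiniteDimensional ℚ (kerField rb) := by
  obtain ⟨L, hL, hrb⟩ := h.level
  refine .of_injective (IntermediateField.inclusion (?_ : kerField rb ≤ L)).toLinearMap
    (RingHom.injective _)
  intro x hx
  exact mem_of_forall_fixed L fun σ hσ =>
    hx ⟨σ, MonoidHom.mem_ker.mpr (Units.ext (hrb σ fun y hy => apply_eq_of_mem_fixing hσ hy))⟩

theorem ResidualHyp.normal : Normal ℚ (kerField rb) :=
  IntermediateField.normal_iff_forall_map_le'.mpr fun σ => by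
    rintro x ⟨y, hy, rfl⟩
    intro τ
    have h1 : σ⁻¹ * τ.1 * σ ∈ (rbGL rb).ker := by
      have := (MonoidHom.normal_ker (rbGL rb)).conj_mem _ τ.2 σ⁻¹
      rwa [inv_inv] at this
    have h2 : (σ⁻¹ * τ.1 * σ) y = y := hy ⟨_, h1⟩
    show τ.1 (σ y) = σ y
    conv_rhs => rw [← h2]
    exact (AlgEquiv.apply_symm_apply σ _).symm

theorem ResidualHyp.exists_det_natCast (σ : Γ) [Fact p.Prime] {ζ : Qb}
    (hζ : IsPrimitiveRoot ζ p) : ∃ a : ℕ, σ ζ = ζ ^ a ∧ (rb σ).det = (a : k) := by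
  have : NeZero p := ⟨(Fact.out : p.Prime).ne_zero⟩
  obtain ⟨a, -, ha⟩ := hζ.eq_pow_of_pow_eq_one (ξ := σ ζ) (by rw [← map_pow, hζ.pow_eq_one, map_one])
  refine ⟨a, ha.symm, h.det σ a fun μ hμ => ?_⟩
  obtain ⟨i, -, rfl⟩ := hζ.eq_pow_of_pow_eq_one hμ
  rw [map_pow, ← ha, ← pow_mul, ← pow_mul, mul_comm]

theorem ResidualHyp.det_eq_one_iff [Fact p.Prime] [CharP k p] (σ : Γ) :
    (rb σ).det = 1 ↔ σ ∈ (muField p).fixingSubgroup := by
  have : NeZero p := ⟨(Fact.out : p.Prime).ne_zero⟩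
  obtain ⟨ζ, hζ⟩ := HasEnoughRootsOfUnity.exists_primitiveRoot Qb p
  obtain ⟨a, ha, hdet⟩ := h.exists_det_natCast σ hζ
  rw [mem_fixing_muField, hdet]
  constructor
  · intro h1 x hx
    obtain ⟨i, -, rfl⟩ := hζ.eq_pow_of_pow_eq_one hx
    rw [map_pow, ha]
    have h2 : a ≡ 1 [MOD p] := by
      rw [← CharP.natCast_eq_natCast k p, h1, Nat.cast_one]
    rw [pow_eq_pow_mod a hζ.pow_eq_one, h2, Nat.mod_eq_of_lt (Fact.out : p.Prime).one_lt, pow_one]
  · intro h1
    have h2 : ζ ^ a = ζ ^ 1 := by rw [pow_one, ← ha]; exact h1 ζ hζ.pow_eq_one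
    rw [pow_eq_pow_mod a hζ.pow_eq_one] at h2
    have h3 := hζ.pow_inj (Nat.mod_lt a (Fact.out : p.Prime).pos) (Fact.out : p.Prime).one_lt h2
    rw [← Nat.cast_one, CharP.natCast_eq_natCast k p]
    exact h3.trans (Nat.mod_eq_of_lt (Fact.out : p.Prime).one_lt).symm

variable [Fact p.Prime] [CharP k p]

/-- The roots of unity lie in the kernel field. -/
theorem ResidualHyp.mem_kerField_of_pow_eq_one {x : Qb} (hx : x ^ p = 1) : x ∈ kerField rb :=
  fun σ => mem_fixing_muField.mp ((h.det_eq_one_iff σ.1).mp (by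
    rw [show rb σ.1 = 1 from congrArg Units.val σ.2, Matrix.det_one])) x hx

/-- The residual representation of the Galois group of the kernel field. -/
theorem ResidualHyp.exists_rbF :
    haveI := h.normal
    ∃ r : (kerField rb ≃ₐ[ℚ] kerField rb) →* GL (Fin 2) k,
      Function.Injective r ∧ ∀ σ : Γ, r (KField.resTo (kerField rb) σ) = rbGL rb σ := by
  have := h.normal
  have hsurj : Function.Surjective (KField.resTo (kerField rb)) :=
    AlgEquiv.restrictNormalHom_surjective (F := ℚ) (K₁ := kerField rb) Qb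
  have hker : (KField.resTo (kerField rb)).ker ≤ (rbGL rb).ker := fun σ hσ => by
    rw [MonoidHom.mem_ker, restrict_eq_one, h.fixing_kerField] at hσ
    exact hσ
  refine ⟨(KField.resTo (kerField rb)).liftOfSurjective hsurj ⟨rbGL rb, hker⟩, ?_, fun σ =>
    MonoidHom.liftOfRightInverse_comp_apply _ _ _ _ σ⟩
  rw [injective_iff_map_eq_one]
  intro g hg
  obtain ⟨σ, rfl⟩ := hsurj g
  have h1 : rbGL rb σ = 1 := by
    rw [← hg]
    exact (MonoidHom.liftOfRightInverse_comp_apply (KField.resTo (kerField rb)) _ _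
      ⟨rbGL rb, hker⟩ σ).symm
  rw [restrict_eq_one, h.fixing_kerField]
  exact h1

/-- The image has cyclotomic determinant. -/
theorem ResidualHyp.hasCyclotomicDet : HasCyclotomicDet p (imageGL rb) := by
  have : NeZero p := ⟨(Fact.out : p.Prime).ne_zero⟩
  obtain ⟨ζ, hζ⟩ := HasEnoughRootsOfUnity.exists_primitiveRoot Qb p
  constructor
  · rintro _ ⟨σ, rfl⟩
    obtain ⟨a, ha, hdet⟩ := h.exists_det_natCast σ hζ
    show (rb σ).det ^ (p - 1) = 1
    have hpa : ¬ p ∣ a := fun hd => by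
      obtain ⟨b, rfl⟩ := hd
      rw [pow_mul, hζ.pow_eq_one, one_pow] at ha
      exact hζ.ne_one (Fact.out : p.Prime).one_lt (σ.injective (ha.trans (map_one σ).symm))
    rw [hdet, ← ZMod.cast_natCast (dvd_refl p) (R := k) a]
    have h1 : ((a : ZMod p)) ^ (p - 1) = 1 :=
      ZMod.pow_card_sub_one_eq_one ((ZMod.natCast_eq_zero_iff a p).not.mpr hpa)
    rw [← ZMod.cast_pow (dvd_refl p), h1, ZMod.cast_one (dvd_refl p)]
  · intro a ha
    have hirr := Polynomial.cyclotomic.irreducible_rat (Fact.out : p.Prime).pos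
    have hu : IsUnit ((a : ZMod p)) :=
      isUnit_iff_ne_zero.mpr ((ZMod.natCast_eq_zero_iff a p).not.mpr ha)
    have hprim : IsPrimitiveRoot (ζ ^ a) p := hζ.pow_of_coprime a
      ((Nat.Prime.coprime_iff_not_dvd (Fact.out : p.Prime)).mpr ha).symm
    have hmin : minpoly ℚ ζ = minpoly ℚ (ζ ^ a) := by
      rw [← Polynomial.cyclotomic_eq_minpoly_rat hζ (Fact.out : p.Prime).pos,
        ← Polynomial.cyclotomic_eq_minpoly_rat hprim (Fact.out : p.Prime).pos]
    obtain ⟨σ, hσ⟩ : ∃ σ : Γ, σ ζ = ζ ^ a := minpoly.exists_algEquiv_of_root' (K := ℚ)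
      ((AlgebraicClosure.isAlgebraic ℚ).isAlgebraic ζ)
      ((congrArg (Polynomial.aeval (ζ ^ a)) hmin).trans (minpoly.aeval ℚ _))
    refine ⟨rbGL rb σ, ⟨σ, rfl⟩, h.det σ a fun μ hμ => ?_⟩
    obtain ⟨i, -, rfl⟩ := hζ.eq_pow_of_pow_eq_one hμ
    rw [map_pow, hσ, ← pow_mul, ← pow_mul, mul_comm]

/-- Lifts of a quaternionic pair. -/
theorem ResidualHyp.exists_klein_lifts (hp : p ≠ 2) : ∃ s t : Γ,
    s ∈ (muField p).fixingSubgroup ∧ t ∈ (muField p).fixingSubgroup ∧
    rb s * rb s = -1 ∧ rb t * rb t = -1 ∧ rb s * rb t = -(rb t * rb s) ∧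
    (rb s).trace = 0 ∧ (rb t).trace = 0 ∧ rb (s * t) * rb (s * t) = -1 := by
  have hfin : Finite (imageGL rb) := by
    have := h.finiteDimensional
    have := h.normal
    obtain ⟨r, -, hr⟩ := h.exists_rbF
    refine Finite.of_surjective (fun g : kerField rb ≃ₐ[ℚ] kerField rb => (⟨r g, by
      obtain ⟨σ, rfl⟩ := AlgEquiv.restrictNormalHom_surjective (F := ℚ) (K₁ := kerField rb) Qb g
      exact ⟨σ, (hr σ).symm⟩⟩ : imageGL rb)) ?_
    rintro ⟨_, σ, rfl⟩
    exact ⟨KField.resTo (kerField rb) σ, Subtype.ext (hr σ)⟩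
  have hd := h.hasCyclotomicDet
  obtain ⟨_, ⟨s, rfl⟩, _, ⟨t, rfl⟩, hsd, htd, hss, htt, hst⟩ :=
    exists_klein p (imageGL rb) hp h.split h.irred h.noHalf hd
  refine ⟨s, t, (h.det_eq_one_iff s).mp hsd, (h.det_eq_one_iff t).mp htd, hss, htt, hst,
    trace_eq_zero_of_sq_eq_neg_one hss hsd, trace_eq_zero_of_sq_eq_neg_one htt htd, ?_⟩
  have hss' : rb s * rb s = -1 := hss
  have htt' : rb t * rb t = -1 := htt
  have hst' : rb s * rb t = -(rb t * rb s) := hst
  have hts : rb t * rb s = -(rb s * rb t) := by rw [hst', neg_neg]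
  rw [map_mul, ← mul_assoc, mul_assoc (rb s) (rb t) (rb s), hts, mul_neg, neg_mul, ← mul_assoc,
    hss', neg_mul, one_mul, neg_mul, htt', neg_neg]

end FLTAgent.TW
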