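import Fermat.Agent.TW.DivMaps

/-!
# Without ray characters, `T`-units account for all classes in `XT`
-/

set_option autoImplicit false
set_option linter.unusedSectionVars false

open IsDedekindDomain NumberField
open scoped Pointwise

noncomputable section

namespace FLTAgent.TW

variable {p : ℕ} [hpf : Fact p.Prime]

namespace KField

variable (S : KField p)

/-- The `T`-units. -/
def unitsT (T : Set (Ext.Place S.K)) : AddSubgroup (Additive S.Kˣ) := (S.divT T).ker

theorem mem_unitsT {T : Set (Ext.Place S.K)} {x : S.Kˣ} :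
    Additive.ofMul x ∈ S.unitsT T ↔ ∀ v ∉ T, Ext.ord v (x : S.K) = 0 := by
  refine ⟨fun h v hv => ?_, fun h => Finsupp.ext fun v => ?_⟩
  · rw [← S.divT_apply_of_notMem x hv, (AddMonoidHom.mem_ker.mp h)]; rfl
  · by_cases hv : v ∈ T
    · exact S.divT_apply_of_mem x hv
    · rw [S.divT_apply_of_notMem x hv, h v hv]; rfl

variable {S}

theorem IsStable.unitsAct_mem {T : Set (Ext.Place S.K)} (hT : S.IsStable T) :
    ∀ c, ∀ a ∈ S.unitsT T, S.unitsAct c a ∈ S.unitsT T := fun c a ha => by
  rw [unitsT, AddMonoidHom.mem_ker] at ha ⊢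
  refine (divT_act hT c (Additive.toMul a)).trans ?_
  rw [show S.divT T (Additive.ofMul (Additive.toMul a)) = 0 from ha, map_zero]

/-- The action on `T`-units. -/
abbrev unitsTAct {T : Set (Ext.Place S.K)} (hT : S.IsStable T) :
    S.C →* AddMonoid.End (S.unitsT T) :=
  subAct S.unitsAct (S.unitsT T) hT.unitsAct_mem

instance fg_unitsT (T : Finset (Ext.Place S.K)) : AddGroup.FG (S.unitsT (T : Set _)) := by
  have : Module.Finite ℤ (Additive (Ext.sUnits (T : Set (Ext.Place S.K)))) := inferInstance
  have : AddGroup.FG (Additive (Ext.sUnits (T : Set (Ext.Place S.K)))) :=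
    Module.Finite.iff_addGroup_fg.mp this
  exact AddGroup.fg_of_surjective (f := AddMonoidHom.mk'
    (fun u : Additive (Ext.sUnits (T : Set (Ext.Place S.K))) =>
      (⟨Additive.ofMul ((Additive.toMul u : Ext.sUnits (T : Set (Ext.Place S.K))) : S.Kˣ),
        S.mem_unitsT.mpr (Additive.toMul u).2⟩ : S.unitsT (T : Set _))) fun _ _ => rfl)
    fun ⟨a, ha⟩ => ⟨Additive.ofMul ⟨Additive.toMul a, S.mem_unitsT.mp ha⟩, rfl⟩

variable (S) in
/-- The subgroup defining the class group outside `T`. -/
def clSub (T : Set (Ext.Place S.K)) : AddSubgroup (Ext.Place S.K →₀ ℤ) :=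
  (AddMonoidHom.mk' (fun x : Additive S.Kˣ => divisor x.toMul) fun x y =>
      divisor_mul x.toMul y.toMul).range ⊔
    (Finsupp.supported ℤ ℤ T).toAddSubgroup

theorem divisor_mem_clSub {T : Set (Ext.Place S.K)} (x : S.Kˣ) : divisor x ∈ S.clSub T :=
  AddSubgroup.mem_sup_left ⟨Additive.ofMul x, rfl⟩

theorem supported_mem_clSub {T : Set (Ext.Place S.K)} {f : Ext.Place S.K →₀ ℤ}
    (h : ∀ v ∉ T, f v = 0) : f ∈ S.clSub T :=
  AddSubgroup.mem_sup_right ((Finsupp.mem_supported' ℤ f).mpr h)

theorem mem_clSub_iff {T : Set (Ext.Place S.K)} {f : Ext.Place S.K →₀ ℤ} :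
    f ∈ S.clSub T ↔ ∃ x : S.Kˣ, ∀ v ∉ T, f v = Ext.ord v (x : S.K) := by
  constructor
  · intro h
    obtain ⟨a, ⟨x, rfl⟩, b, hb, rfl⟩ := AddSubgroup.mem_sup.mp h
    refine ⟨x.toMul, fun v hv => ?_⟩
    rw [Finsupp.add_apply, (Finsupp.mem_supported' ℤ b).mp hb v hv, add_zero]
    rfl
  · rintro ⟨x, hx⟩
    have : f = divisor x + (f - divisor x) := by abel
    rw [this]
    exact add_mem (divisor_mem_clSub x) (supported_mem_clSub fun v hv => by simp [hx v hv])

theorem IsStable.divAct_mem {T : Set (Ext.Place S.K)} (hT : S.IsStable T) :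
    ∀ c, ∀ f ∈ S.clSub T, S.divAct c f ∈ S.clSub T := fun c f hf => by
  obtain ⟨x, hx⟩ := mem_clSub_iff.mp hf
  refine mem_clSub_iff.mpr ⟨Units.map (S.act c).toRingHom.toMonoidHom x, fun v hv => ?_⟩
  rw [divAct_apply, hx _ (hT.compl c⁻¹ hv), ← divisor_apply, ← divisor_apply, S.divisor_act,
    divAct_apply]

variable (S) in
/-- The class group outside `T`. -/
abbrev Cl (T : Set (Ext.Place S.K)) : Type := (Ext.Place S.K →₀ ℤ) ⧸ S.clSub T

/-- The action on the class group outside `T`. -/
abbrev clAct {T : Set (Ext.Place S.K)} (hT : S.IsStable T) : S.C →* AddMonoid.End (S.Cl T) :=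
  quotAct S.divAct (S.clSub T) hT.divAct_mem

instance finite_cl (T : Set (Ext.Place S.K)) : Finite (S.Cl T) := by
  classical
  obtain ⟨G, hG⟩ := Ext.exists_gen (K := S.K)
  let q := QuotientAddGroup.mk' (S.clSub T)
  let U : AddSubgroup (S.Cl T) :=
    AddSubgroup.closure ((fun v => q (Finsupp.single v 1)) '' (G : Set (Ext.Place S.K)))
  have hU : ∀ v : Ext.Place S.K, q (Finsupp.single v 1) ∈ U := fun v => by
    by_cases hv : v ∈ G
    · exact AddSubgroup.subset_closure ⟨v, hv, rfl⟩
    obtain ⟨x, hx, hx'⟩ := hG v hv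
    have h1 : q (divisor x) = 0 := (QuotientAddGroup.eq_zero_iff _).mpr (divisor_mem_clSub x)
    have h2 : Finsupp.single v 1 = divisor x -
        ∑ w ∈ G, Ext.ord w (x : S.K) • Finsupp.single w (1 : ℤ) := Finsupp.ext fun u => by
      rw [Finsupp.sub_apply, Finsupp.finset_sum_apply, divisor_apply]
      by_cases hu : u = v
      · subst hu
        rw [Finsupp.single_eq_same, hx, Finset.sum_eq_zero fun w hw => by
          rw [Finsupp.smul_apply, Finsupp.single_apply,
            if_neg (fun h : w = u => hv (by rwa [← h])), smul_zero], sub_zero]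
      · rw [Finsupp.single_eq_of_ne hu]
        by_cases huG : u ∈ G
        · rw [Finset.sum_eq_single u (fun w _ hw => by
            rw [Finsupp.smul_apply, Finsupp.single_eq_of_ne hw.symm, smul_zero])
            (fun h => absurd huG h)]
          simp
        · rw [hx' u huG hu, Finset.sum_eq_zero fun w hw => by
            rw [Finsupp.smul_apply, Finsupp.single_eq_of_ne (fun h : u = w => huG (h ▸ hw)),
              smul_zero], sub_zero]
    rw [h2, map_sub, h1, zero_sub, map_sum]
    refine neg_mem (sum_mem fun w hw => ?_)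
    rw [map_zsmul]
    exact zsmul_mem (show q (Finsupp.single w 1) ∈ U from
      AddSubgroup.subset_closure ⟨w, hw, rfl⟩) _
  have htop : U = ⊤ := by
    rw [eq_top_iff]
    intro a _
    induction a using QuotientAddGroup.induction_on with
    | H f =>
      induction f using Finsupp.induction with
      | zero => exact zero_mem U
      | single_add v n f _ _ ih =>
        show q (Finsupp.single v n + f) ∈ U
        rw [map_add, ← Finsupp.smul_single_one, map_zsmul]
        exact add_mem (zsmul_mem (hU v) n) (ih trivial)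
  have : AddGroup.FG (S.Cl T) :=
    AddGroup.fg_iff.mpr ⟨_, htop, (G.finite_toSet.image _)⟩
  refine AddCommGroup.finite_of_fg_isAddTorsion _ fun a => ?_
  rw [isOfFinAddOrder_iff_nsmul_eq_zero]
  refine ⟨classNumber S.K, Fintype.card_pos, ?_⟩
  have hsingle : ∀ v : Ext.Place S.K, classNumber S.K • q (Finsupp.single v 1) = 0 := fun v => by
    obtain ⟨g, hg, hg'⟩ := Ext.exists_ord_eq_classNumber v
    rw [← map_nsmul]
    refine (QuotientAddGroup.eq_zero_iff _).mpr ?_
    convert divisor_mem_clSub g using 1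
    refine Finsupp.ext fun u => ?_
    by_cases hu : u = v
    · subst hu; simp [hg]
    · simp [hg' u hu, Finsupp.single_eq_of_ne hu]
  induction a using QuotientAddGroup.induction_on with
  | H f =>
    induction f using Finsupp.induction with
    | zero => exact smul_zero _
    | single_add v n f _ _ ih =>
      show classNumber S.K • q (Finsupp.single v n + f) = 0
      rw [← map_nsmul, smul_add, map_add, ← Finsupp.smul_single_one, smul_comm, map_zsmul,
        map_nsmul, hsingle, zsmul_zero, zero_add, map_nsmul]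
      exact ih

/-- The inclusion of `T`-units modulo `p`-th powers. -/
def unitsToXT (T : Set (Ext.Place S.K)) : ModP p (S.unitsT T) →ₗ[ZMod p] S.XT T :=
  (modPMap p (S.unitsT T).subtype).codRestrict (S.XT T) fun a => by
    obtain ⟨⟨b, hb⟩, rfl⟩ := toModP_surjective p a
    show S.cls (Additive.toMul b) ∈ S.XT T
    rw [S.cls_mem_XT]
    intro v hv
    rw [S.mem_unitsT.mp (show Additive.ofMul (Additive.toMul b) ∈ S.unitsT T from hb) v hv]
    exact dvd_zero _

theorem unitsToXT_injective (T : Set (Ext.Place S.K)) :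
    Function.Injective (unitsToXT (S := S) T) := by
  refine (injective_iff_map_eq_zero _).mpr fun a ha => ?_
  obtain ⟨⟨b, hb⟩, rfl⟩ := toModP_surjective p a
  have h0 : toModP p b = 0 := congrArg Subtype.val ha
  obtain ⟨c, hc⟩ := (toModP_eq_zero_iff p).mp h0
  have hmem : c ∈ S.unitsT T := by
    rw [unitsT, AddMonoidHom.mem_ker] at hb ⊢
    rw [← hc, map_nsmul] at hb
    exact Finsupp.ext fun v => by
      have := Finsupp.ext_iff.mp hb v
      simpa [hpf.out.ne_zero] using this
  exact (toModP_eq_zero_iff p).mpr ⟨⟨c, hmem⟩, Subtype.ext hc⟩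

/-- A lift to `Kˣ`. -/
def repK (a : S.KP) : S.Kˣ := (S.cls_surjective a).choose

theorem cls_repK (a : S.KP) : S.cls (repK a) = a := (S.cls_surjective a).choose_spec

/-- `div(x)/p` in the class group outside `T`. -/
def halfClass (T : Set (Ext.Place S.K)) (x : S.Kˣ) : S.Cl T :=
  QuotientAddGroup.mk ((divisor x).mapRange (· / (p : ℤ)) (Int.zero_ediv _))

theorem halfClass_spec {T : Set (Ext.Place S.K)} {x : S.Kˣ} (f : Ext.Place S.K →₀ ℤ)
    (hf : ∀ v ∉ T, Ext.ord v (x : S.K) = p * f v) :
    halfClass (p := p) T x = QuotientAddGroup.mk f := by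
  rw [halfClass, QuotientAddGroup.eq]
  refine supported_mem_clSub fun v hv => ?_
  have hp : (p : ℤ) ≠ 0 := Int.natCast_ne_zero.mpr hpf.out.ne_zero
  simp [hf v hv, Int.mul_ediv_cancel_left _ hp]

theorem halfClass_mul_pow {T : Set (Ext.Place S.K)} {x : S.Kˣ}
    (hx : ∀ v ∉ T, (p : ℤ) ∣ Ext.ord v (x : S.K)) (y : S.Kˣ) :
    halfClass (p := p) T (x * y ^ p) = halfClass (p := p) T x := by
  classical
  have h := halfClass_spec (p := p) (T := T) (x := x * y ^ p)
    ((divisor x).mapRange (· / (p : ℤ)) (Int.zero_ediv _) + divisor y) fun v hv => by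
      rw [Units.val_mul, Units.val_pow_eq_pow_val,
        Ext.ord_mul v x.ne_zero (pow_ne_zero _ y.ne_zero), Ext.ord_pow, Finsupp.add_apply,
        Finsupp.mapRange_apply, divisor_apply, divisor_apply, mul_add,
        Int.mul_ediv_cancel' (hx v hv)]
  rw [h, halfClass]
  exact (QuotientAddGroup.eq.mpr (by
    rw [neg_add_cancel_left]; exact divisor_mem_clSub y)).symm

theorem halfClass_eq_of_cls_eq {T : Set (Ext.Place S.K)} {x x' : S.Kˣ} (h : S.cls x = S.cls x')
    (hx : ∀ v ∉ T, (p : ℤ) ∣ Ext.ord v (x : S.K)) :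
    halfClass (p := p) T x' = halfClass (p := p) T x := by
  obtain ⟨c, hc⟩ := (toModP_eq_iff p).mp h.symm
  have : x' = x * (Additive.toMul c) ^ p := by
    have := congrArg Additive.toMul hc
    rw [toMul_nsmul, toMul_sub, toMul_ofMul, toMul_ofMul] at this
    rw [this, mul_div_cancel]
  rw [this, halfClass_mul_pow hx]

/-- The class map on `XT`. -/
def clMap (T : Set (Ext.Place S.K)) : S.XT T →ₗ[ZMod p] TorP p (S.Cl T) :=
  AddMonoidHom.toZModLinearMap p ((AddMonoidHom.mk'
    (fun a : S.XT T => halfClass (p := p) T (repK (a : S.KP))) fun a b => by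
      have ha := S.cls_mem_XT.mp ((cls_repK (a : S.KP)).symm ▸ a.2)
      have hb := S.cls_mem_XT.mp ((cls_repK (b : S.KP)).symm ▸ b.2)
      have hab : S.cls (repK (a : S.KP) * repK (b : S.KP)) = S.cls (repK ((a + b : S.XT T) : S.KP)) := by
        rw [cls_repK]
        show toModP p (Additive.ofMul (repK (a : S.KP)) + Additive.ofMul (repK (b : S.KP))) = _
        rw [map_add]
        exact congrArg₂ (· + ·) (cls_repK _) (cls_repK _)
      rw [halfClass_eq_of_cls_eq (T := T) hab fun v hv => by
        rw [Units.val_mul, Ext.ord_mul v (Units.ne_zero _) (Units.ne_zero _)]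
        exact dvd_add (ha v hv) (hb v hv)]
      refine (halfClass_spec (p := p) _ fun v hv => ?_).trans (QuotientAddGroup.mk_add _ _ _)
      rw [Units.val_mul, Ext.ord_mul v (Units.ne_zero _) (Units.ne_zero _), Finsupp.add_apply,
        Finsupp.mapRange_apply, Finsupp.mapRange_apply, divisor_apply, divisor_apply, mul_add,
        Int.mul_ediv_cancel' (ha v hv), Int.mul_ediv_cancel' (hb v hv)]).codRestrict _ fun a => by
    show p • halfClass (p := p) T (repK (a : S.KP)) = 0
    have ha := S.cls_mem_XT.mp ((cls_repK (a : S.KP)).symm ▸ a.2)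
    rw [halfClass, ← QuotientAddGroup.mk_nsmul, QuotientAddGroup.eq_zero_iff]
    refine mem_clSub_iff.mpr ⟨repK (a : S.KP), fun v hv => ?_⟩
    rw [Finsupp.smul_apply, Finsupp.mapRange_apply, divisor_apply, nsmul_eq_mul,
      Int.mul_ediv_cancel' (ha v hv)])

theorem ofTorP_clMap {T : Set (Ext.Place S.K)} (a : S.XT T) (x : S.Kˣ)
    (hx : S.cls x = (a : S.KP)) : ofTorP p (clMap T a) = halfClass (p := p) T x :=
  halfClass_eq_of_cls_eq (hx.trans (cls_repK _).symm) (S.cls_mem_XT.mp (hx ▸ a.2))

variable {k : Type} [Field k] [Algebra (ZMod p) k]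
variable {W : Type} [AddCommGroup W] [Module k W] [Module (ZMod p) W] [IsScalarTower (ZMod p) k W]
  [Finite W]

theorem exact_unitsToXT_clMap (T : Set (Ext.Place S.K)) :
    Function.Exact (unitsToXT (S := S) T) (clMap T) := fun a => by
  obtain ⟨x, hx⟩ := S.cls_surjective (a : S.KP)
  constructor
  · intro h
    have h1 : halfClass (p := p) T x = 0 := by rw [← ofTorP_clMap a x hx, h, map_zero]
    have hdiv := S.cls_mem_XT.mp (hx ▸ a.2)
    rw [halfClass, QuotientAddGroup.eq_zero_iff, mem_clSub_iff] at h1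
    obtain ⟨y, hy⟩ := h1
    have hu : Additive.ofMul (x / y ^ p) ∈ S.unitsT T := S.mem_unitsT.mpr fun v hv => by
      rw [Units.val_div_eq_div_val, Units.val_pow_eq_pow_val,
        Ext.ord_div v x.ne_zero (pow_ne_zero _ y.ne_zero), Ext.ord_pow, ← hy v hv,
        Finsupp.mapRange_apply, divisor_apply, Int.mul_ediv_cancel' (hdiv v hv), sub_self]
    refine ⟨toModP p ⟨_, hu⟩, Subtype.ext ?_⟩
    show toModP p (Additive.ofMul (x / y ^ p)) = _
    rw [← hx, toModP_eq_iff]
    refine ⟨-Additive.ofMul y, ?_⟩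
    simp [ofMul_div, ofMul_pow]
  · rintro ⟨b, rfl⟩
    obtain ⟨⟨b, hb⟩, rfl⟩ := toModP_surjective p b
    refine ofTorP_injective p ?_
    rw [map_zero, ofTorP_clMap _ (Additive.toMul b) rfl]
    exact halfClass_spec (p := p) 0 fun v hv => by
      rw [S.mem_unitsT.mp (show Additive.ofMul (Additive.toMul b) ∈ S.unitsT T from hb) v hv]
      simp

theorem clMap_equivariant {T : Set (Ext.Place S.K)} (hT : S.IsStable T) (c : S.C) (a : S.XT T) :
    clMap T (xtRep hT c a) = torPRep p (clAct hT) c (clMap T a) := by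
  obtain ⟨x, hx⟩ := S.cls_surjective (a : S.KP)
  have hd := S.cls_mem_XT.mp (hx ▸ a.2)
  refine ofTorP_injective p ?_
  rw [ofTorP_clMap (xtRep hT c a) (Units.map (S.act c).toRingHom.toMonoidHom x) (by
      rw [← S.kpRep_cls, hx]; rfl),
    show ofTorP p (torPRep p (clAct hT) c (clMap T a)) = clAct hT c (ofTorP p (clMap T a)) from rfl,
    ofTorP_clMap a x hx]
  refine halfClass_spec (p := p) (S.divAct c _) fun v hv => ?_
  rw [← divisor_apply, S.divisor_act, divAct_apply, divAct_apply, divisor_apply,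
    Finsupp.mapRange_apply, divisor_apply, Int.mul_ediv_cancel' (hd _ (hT.compl c⁻¹ hv))]

/-- `ModP` of the class group has no equivariant maps to the dual. -/
theorem cnt_modP_cl {ρ : Representation k S.C W} (hρ : IsRelProj ρ) {T : Set (Ext.Place S.K)}
    (hT : S.IsStable T) {m : Ideal (𝓞 S.K)}
    (hm : ∀ v : Ext.Place S.K, m ≤ v.asIdeal → v ∈ T) {Q : Set (Ext.Place S.K)} (hQ : Q ⊆ T)
    (hno : S.NoChar ρ m Q) : cnt ρ (modPRep p (clAct hT)) = 0 := by
  classical
  have : Finite (ModP p (S.Cl T)) := Finite.of_surjective _ (toModP_surjective p)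
  refine cnt_eq_zero_of_forall hρ fun χ hχ => ?_
  let q : (Ext.Place S.K →₀ ℤ) →+ Module.Dual k W :=
    χ.toAddMonoidHom.comp ((toModP p).comp (QuotientAddGroup.mk' (S.clSub T)))
  let φ : Ext.Place S.K → Module.Dual k W := fun v => q (Finsupp.single v 1)
  have hφT : ∀ v ∈ T, φ v = 0 := fun v hv => by
    show χ (toModP p (QuotientAddGroup.mk (Finsupp.single v 1))) = 0
    rw [(QuotientAddGroup.eq_zero_iff (N := S.clSub T) _).mpr (supported_mem_clSub fun u hu => by
      rw [Finsupp.single_eq_of_ne]; rintro rfl; exact hu hv), map_zero, map_zero]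
  have hsum : ∀ f : Ext.Place S.K →₀ ℤ, (f.sum fun v n => n • φ v) = q f := fun f => by
    conv_rhs => rw [← Finsupp.sum_single f, Finsupp.sum, map_sum]
    refine Finset.sum_congr rfl fun v _ => ?_
    show f v • q (Finsupp.single v 1) = _
    rw [← map_zsmul, Finsupp.smul_single, smul_eq_mul, mul_one]
  let η := rayHomOfPlaces m φ fun x _ => by
    rw [hsum]
    show χ (toModP p (QuotientAddGroup.mk (divisor x))) = 0
    rw [(QuotientAddGroup.eq_zero_iff (N := S.clSub T) _).mpr (divisor_mem_clSub x), map_zero,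
      map_zero]
  have hη : ∀ v : Ext.Place S.K, η.toFun v.asIdeal = φ v := fun v => by
    by_cases hv : IsCoprime v.asIdeal m
    · exact rayHomOfPlaces_asIdeal m φ _ v hv
    · rw [η.eq_zero _ (Or.inr hv), hφT v (hm v ((not_isCoprime_iff_le m v).mp hv))]
  have h0 : ∀ v, φ v = 0 := fun v => by
    rw [← hη]
    refine hno η (fun c v => ?_) (fun v hv => by rw [hη]; exact hφT v (hQ hv)) v
    rw [hη, hη]
    show χ (toModP p (QuotientAddGroup.mk (Finsupp.single (c • v) 1))) = _
    rw [← S.divAct_single]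
    exact hχ c (toModP p (QuotientAddGroup.mk (Finsupp.single v 1)))
  refine LinearMap.ext fun a => ?_
  obtain ⟨b, rfl⟩ := toModP_surjective p a
  induction b using QuotientAddGroup.induction_on with
  | H f =>
    show q f = 0
    rw [← hsum]
    exact Finset.sum_eq_zero fun v _ => by simp [h0]

instance finite_XT (T : Finset (Ext.Place S.K)) : Finite (S.XT (T : Set _)) := by
  have : Finite (ModP p (S.unitsT (T : Set (Ext.Place S.K)))) := (xiFin_of_fg (p := p)).1
  have : Finite (TorP p (S.Cl (T : Set (Ext.Place S.K)))) := Finite.of_injective _ (ofTorP_injective p)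
  have hle := exact_unitsToXT_clMap (S := S) (T : Set (Ext.Place S.K))
  have : Finite (LinearMap.ker (clMap (S := S) (T : Set (Ext.Place S.K)))) := by
    rw [LinearMap.exact_iff.mp hle]
    exact Finite.of_surjective _ (unitsToXT (S := S) _).surjective_rangeRestrict
  have : Finite (S.XT (T : Set _) ⧸ LinearMap.ker (clMap (S := S) (T : Set (Ext.Place S.K)))) :=
    Finite.of_injective _ (clMap (S := S) _).quotKerEquivRange.injective
  have : Finite (S.XT (T : Set _) ⧸
      (LinearMap.ker (clMap (S := S) (T : Set (Ext.Place S.K)))).toAddSubgroup) :=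
    ‹Finite (S.XT (T : Set _) ⧸ LinearMap.ker (clMap (S := S) (T : Set (Ext.Place S.K))))›
  have : Finite (LinearMap.ker (clMap (S := S) (T : Set (Ext.Place S.K)))).toAddSubgroup :=
    ‹Finite (LinearMap.ker (clMap (S := S) (T : Set (Ext.Place S.K))))›
  exact Finite.of_equiv _ (AddSubgroup.addGroupEquivQuotientProdAddSubgroup
    (s := (LinearMap.ker (clMap (S := S) (T : Set (Ext.Place S.K)))).toAddSubgroup)).symm

/-- The count of `XT` equals the count of the `T`-units. -/
theorem cnt_xtRep {ρ : Representation k S.C W} (hρ : IsRelProj ρ) (T : Finset (Ext.Place S.K))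
    (hT : S.IsStable (T : Set (Ext.Place S.K))) {m : Ideal (𝓞 S.K)}
    (hm : ∀ v : Ext.Place S.K, m ≤ v.asIdeal → v ∈ T) {Q : Set (Ext.Place S.K)}
    (hQ : Q ⊆ (T : Set (Ext.Place S.K))) (hno : S.NoChar ρ m Q) :
    cnt ρ (xtRep hT) = cnt ρ (modPRep p (unitsTAct hT)) := by
  have h1 : ∀ c a, unitsToXT _ (modPRep p (unitsTAct hT) c a) =
      xtRep hT c (unitsToXT _ a) := fun c a => by
    obtain ⟨b, rfl⟩ := toModP_surjective p a
    rfl
  have h2 := clMap_equivariant hT
  have : Finite (TorP p (S.Cl (T : Set (Ext.Place S.K)))) := Finite.of_injective _ (ofTorP_injective p)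
  have : Finite (ModP p (S.unitsT (T : Set (Ext.Place S.K)))) := (xiFin_of_fg (p := p)).1
  have hadd := cnt_eq_cntRange_add hρ (unitsToXT _) (clMap _) h1 h2 (exact_unitsToXT_clMap _)
  rw [cntRange_of_injective hρ _ h1 (unitsToXT_injective _)] at hadd
  have hz : cnt ρ (torPRep p (clAct hT)) = 0 := by
    have h := xi_of_finite (p := p) hρ (clAct hT)
    rw [xi, cnt_modP_cl hρ hT hm hQ hno] at h
    omega
  have hle : cntRange ρ (clMap _) h2 ≤ cnt ρ (torPRep p (clAct hT)) := by
    have := cnt_eq_add hρ (LinearMap.range (clMap (S := S) (T : Set (Ext.Place S.K)))).subtype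
      (LinearMap.range (clMap (S := S) (T : Set (Ext.Place S.K)))).mkQ
      (σ := subRep p (torPRep p (clAct hT)) _ (range_invariant _ h2)) (fun _ _ => rfl)
      (υ := (torPRep p (clAct hT)).quotient _ (range_invariant _ h2))
      (fun _ _ => rfl) Subtype.val_injective (Submodule.mkQ_surjective _)
      (LinearMap.exact_subtype_mkQ _)
    rw [cntRange, this]
    exact Nat.le_add_right _ _
  omega

end KField

end FLTAgent.TW
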