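import Fermat.Agent.TW.Setting

/-!
# Cocycles with coefficients in representations factoring through a finite quotient
-/

set_option autoImplicit false
set_option linter.unusedSectionVars false

open scoped Pointwise

noncomputable section

namespace FLTAgent.TW

variable {k : Type} [Field k]
variable {D : Type} [Group D] {C : Type} [Group C]
variable {V : Type} [AddCommGroup V] [Module k V]

/-- A cocycle for the action through `π`. -/
def IsCocycle (π : D →* C) (ρ : Representation k C V) (c : D → V) : Prop :=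
  ∀ g h, c (g * h) = c g + ρ (π g) (c h)

/-- The coboundary of a vector. -/
def cobd (π : D →* C) (ρ : Representation k C V) : V →ₗ[k] (D → V) :=
  LinearMap.pi fun g => ρ (π g) - LinearMap.id

@[simp] theorem cobd_apply (π : D →* C) (ρ : Representation k C V) (X : V) (g : D) :
    cobd π ρ X g = ρ (π g) X - X := rfl

variable {π : D →* C} {ρ : Representation k C V}

theorem IsCocycle.map_one {c : D → V} (hc : IsCocycle π ρ c) : c 1 = 0 := by
  have h := hc 1 1
  rwa [one_mul, _root_.map_one, _root_.map_one, Module.End.one_apply, left_eq_add] at h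

theorem IsCocycle.map_inv {c : D → V} (hc : IsCocycle π ρ c) (g : D) :
    ρ (π g) (c g⁻¹) = -c g := by
  have h := hc g g⁻¹
  rw [mul_inv_cancel, hc.map_one] at h
  exact (neg_eq_of_add_eq_zero_right h.symm).symm

theorem isCocycle_cobd (X : V) : IsCocycle π ρ (cobd π ρ X) := fun g h => by
  simp only [cobd_apply, map_mul, Module.End.mul_apply, map_sub]
  abel

theorem IsCocycle.sub {c c' : D → V} (hc : IsCocycle π ρ c) (hc' : IsCocycle π ρ c') :
    IsCocycle π ρ (c - c') := fun g h => by
  simp only [Pi.sub_apply, hc g h, hc' g h, map_sub]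
  abel

theorem IsCocycle.mul_ker {c : D → V} (hc : IsCocycle π ρ c) {n : D} (hn : π n = 1) (g : D) :
    c (n * g) = c n + c g := by
  rw [hc, hn, _root_.map_one, Module.End.one_apply]

/-- Equivariance on the kernel. -/
theorem IsCocycle.conj_ker {c : D → V} (hc : IsCocycle π ρ c) (g : D) {n : D} (hn : π n = 1) :
    c (g * n * g⁻¹) = ρ (π g) (c n) := by
  rw [hc, hc g n, map_mul, hn, mul_one, hc.map_inv]
  abel

/-- A cocycle vanishing on the kernel factors through the quotient. -/
theorem IsCocycle.eq_of_map_eq {c : D → V} (hc : IsCocycle π ρ c)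
    (h0 : ∀ n, π n = 1 → c n = 0) {g g' : D} (h : π g = π g') : c g = c g' := by
  have hn : π (g' * g⁻¹) = 1 := by rw [map_mul, _root_.map_inv, h, mul_inv_cancel]
  have h1 := hc.mul_ker hn g
  rw [inv_mul_cancel_right, h0 _ hn, zero_add] at h1
  exact h1.symm

/-- A cocycle of a finite quotient with a trace-one endomorphism is a coboundary. -/
theorem IsCocycle.exists_eq_cobd [Fintype C] (hπ : Function.Surjective π) {θ : V →ₗ[k] V}
    (hθ : ∑ x : C, (ρ x).comp (θ.comp (ρ x⁻¹)) = LinearMap.id)
    {c : D → V} (hc : IsCocycle π ρ c) (h0 : ∀ n, π n = 1 → c n = 0) :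
    ∃ X, c = cobd π ρ X := by
  set s := Function.surjInv hπ
  have hs : ∀ x, π (s x) = x := Function.surjInv_eq hπ
  refine ⟨-∑ x : C, ρ x (θ (ρ x⁻¹ (c (s x)))), funext fun g => ?_⟩
  have hsum : ∀ v, ∑ x : C, ρ x (θ (ρ x⁻¹ v)) = v := fun v => by
    have := LinearMap.congr_fun hθ v
    simpa [LinearMap.sum_apply] using this
  have key : ρ (π g) (∑ x : C, ρ x (θ (ρ x⁻¹ (c (s x))))) =
      (∑ x : C, ρ x (θ (ρ x⁻¹ (c (s x))))) - c g := by
    conv_rhs => rw [← hsum (c g), ← Finset.sum_sub_distrib]
    rw [map_sum]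
    refine Fintype.sum_equiv (Equiv.mulLeft (π g)) _ _ fun x => ?_
    rw [Equiv.coe_mulLeft, ← map_sub, ← map_sub, ← map_sub, ← Module.End.mul_apply (ρ (π g)),
      ← map_mul]
    congr 2
    have he : c (s (π g * x)) = c g + ρ (π g) (c (s x)) := by
      rw [← hc]
      exact hc.eq_of_map_eq h0 (by rw [hs, map_mul, hs])
    rw [he, add_sub_cancel_left, ← Module.End.mul_apply (ρ (π g * x)⁻¹), ← map_mul, mul_inv_rev,
      inv_mul_cancel_right]
  rw [cobd_apply, map_neg, key]
  abel

/-- A cocycle vanishing on a subgroup of index prime to the characteristic is a coboundary. -/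
theorem IsCocycle.exists_eq_cobd_of_subgroup (H : Subgroup D) [H.FiniteIndex]
    (hH : (H.index : k) ≠ 0) {c : D → V} (hc : IsCocycle π ρ c) (h0 : ∀ h ∈ H, c h = 0) :
    ∃ X, c = cobd π ρ X := by
  classical
  let _ : Fintype (D ⧸ H) := Subgroup.fintypeQuotientOfFiniteIndex
  let c' : D ⧸ H → V := Quotient.lift c fun a b hab => by
    have hm : a⁻¹ * b ∈ H := QuotientGroup.leftRel_apply.mp hab
    have := hc a (a⁻¹ * b)
    rw [mul_inv_cancel_left, h0 _ hm, map_zero, add_zero] at this
    exact this.symm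
  refine ⟨-((H.index : k)⁻¹ • ∑ q, c' q), funext fun g => ?_⟩
  have key : ρ (π g) (∑ q, c' q) = (∑ q, c' q) - H.index • c g := by
    rw [Subgroup.index_eq_card, Nat.card_eq_fintype_card, ← Finset.card_univ, ← Finset.sum_const,
      ← Finset.sum_sub_distrib, map_sum]
    refine Fintype.sum_equiv (MulAction.toPerm g) _ _ fun q => ?_
    induction q using QuotientGroup.induction_on with
    | H a =>
      show ρ (π g) (c a) = c (g * a) - c g
      rw [hc, add_sub_cancel_left]
  rw [cobd_apply, map_neg, map_smul, key, smul_sub, ← Nat.cast_smul_eq_nsmul k, smul_smul,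
    inv_mul_cancel₀ hH, one_smul]
  abel

section cor

variable [Fintype C]

/-- The kernel component. -/
def kerPart (hπ : Function.Surjective π) (g : D) (y : C) : D :=
  (Function.surjInv hπ (π g * y))⁻¹ * g * Function.surjInv hπ y

theorem map_kerPart (hπ : Function.Surjective π) (g : D) (y : C) : π (kerPart hπ g y) = 1 := by
  rw [kerPart, map_mul, map_mul, _root_.map_inv, Function.surjInv_eq hπ, Function.surjInv_eq hπ]
  group

/-- The cocycle extending an equivariant homomorphism on the kernel. -/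
def corCocycle (ρ : Representation k C V) (hπ : Function.Surjective π) (θ : V →ₗ[k] V)
    (f : D → V) : D → V :=
  fun g => ∑ y : C, ρ (π g * y) (θ (f (kerPart hπ g y)))

theorem isCocycle_corCocycle (hπ : Function.Surjective π) (θ : V →ₗ[k] V) {f : D → V}
    (hf : ∀ m n, π m = 1 → π n = 1 → f (m * n) = f m + f n) :
    IsCocycle π ρ (corCocycle ρ hπ θ f) := fun g h => by
  have hk : ∀ y, kerPart hπ (g * h) y = kerPart hπ g (π h * y) * kerPart hπ h y := fun y => by
    simp only [kerPart, map_mul, mul_assoc]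
    group
  simp only [corCocycle]
  rw [map_sum]
  have h1 : ∀ y : C, ρ (π (g * h) * y) (θ (f (kerPart hπ (g * h) y))) =
      ρ (π g * (π h * y)) (θ (f (kerPart hπ g (π h * y)))) +
        ρ (π g) (ρ (π h * y) (θ (f (kerPart hπ h y)))) := fun y => by
    rw [hk, hf _ _ (map_kerPart hπ _ _) (map_kerPart hπ _ _), map_add, map_add,
      ← Module.End.mul_apply (ρ (π g)), ← map_mul ρ, map_mul π, mul_assoc]
  rw [Finset.sum_congr rfl fun y _ => h1 y, Finset.sum_add_distrib]
  congr 1
  exact Fintype.sum_equiv (Equiv.mulLeft (π h)) _ _ fun y => rfl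

theorem corCocycle_ker (hπ : Function.Surjective π) {θ : V →ₗ[k] V}
    (hθ : ∑ x : C, (ρ x).comp (θ.comp (ρ x⁻¹)) = LinearMap.id) {f : D → V}
    (hf : ∀ g n, π n = 1 → f (g * n * g⁻¹) = ρ (π g) (f n)) {n : D} (hn : π n = 1) :
    corCocycle ρ hπ θ f n = f n := by
  have h := LinearMap.congr_fun hθ (f n)
  rw [LinearMap.sum_apply, LinearMap.id_apply] at h
  conv_rhs => rw [← h]
  refine Finset.sum_congr rfl fun y _ => ?_
  have hy : π ((Function.surjInv hπ y)⁻¹) = y⁻¹ := by
    rw [_root_.map_inv, Function.surjInv_eq hπ]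
  have he : kerPart hπ n y =
      (Function.surjInv hπ y)⁻¹ * n * ((Function.surjInv hπ y)⁻¹)⁻¹ := by
    rw [kerPart, hn, one_mul, inv_inv]
  rw [he, hf _ _ hn, hy, hn, one_mul]
  rfl

end cor

end FLTAgent.TW
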