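import Fermat.Agent.TW.EqHom
import Fermat.Agent.TW.Cocycle
import Fermat.Agent.Frobenius.Places

/-!
# Corestriction of homomorphisms and the tame relation at a place
-/

set_option autoImplicit false
set_option linter.unusedSectionVars false

open IsDedekindDomain NumberField
open scoped Pointwise Classical

noncomputable section

namespace FLTAgent.TW

open FLTAgent.Frobenius

variable {p : ℕ} [hpf : Fact p.Prime]

namespace KField

variable (S : KField p)
variable {k : Type} [Field k]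
variable {W : Type} [AddCommGroup W] [Module k W]

variable {S} in
theorem mem_eqHom [Algebra (ZMod p) k] {ρ : Representation k S.C W} {T : Set (Ext.Place S.K)}
    {f : S.K.fixingSubgroup → W} :
    f ∈ S.eqHom ρ T ↔ (∀ σ τ, f (σ * τ) = f σ + f τ) ∧ IsLevel f ∧
      (∀ h σ, f (S.conjK h σ) = twistRep S.eps ρ (S.π h) (f σ)) ∧ S.InertiaKills T f :=
  Iff.rfl

/-- Extension of a function on `G_K` by zero. -/
def extendFix : (S.K.fixingSubgroup → W) →ₗ[k] (S.H → W) where
  toFun f g := if hg : (g : Γ) ∈ S.K.fixingSubgroup then f ⟨g, hg⟩ else 0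
  map_add' a b := funext fun g => by simp only [Pi.add_apply]; split_ifs <;> simp
  map_smul' t a := funext fun g => by
    simp only [Pi.smul_apply, RingHom.id_apply]; split_ifs <;> simp

theorem extendFix_apply (f : S.K.fixingSubgroup → W) {g : S.H}
    (hg : (g : Γ) ∈ S.K.fixingSubgroup) :
    S.extendFix (k := k) f g = f ⟨g, hg⟩ := by
  show (if hg : (g : Γ) ∈ S.K.fixingSubgroup then f ⟨g, hg⟩ else 0) = _
  rw [dif_pos hg]

/-- Corestriction. -/
def cor (ρ : Representation k S.C W) (θ : W →ₗ[k] W) :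
    (S.K.fixingSubgroup → W) →ₗ[k] (S.H → W) where
  toFun f := corCocycle ρ S.π_surj θ (S.extendFix (k := k) f)
  map_add' a b := funext fun g => by
    simp [corCocycle, Finset.sum_add_distrib]
  map_smul' t a := funext fun g => by
    simp [corCocycle, Finset.smul_sum]

theorem isCocycle_cor (ρ : Representation k S.C W) (θ : W →ₗ[k] W)
    {f : S.K.fixingSubgroup → W} (hadd : ∀ σ τ, f (σ * τ) = f σ + f τ) :
    IsCocycle S.π ρ (S.cor ρ θ f) := by
  refine isCocycle_corCocycle S.π_surj θ fun m n hm hn => ?_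
  rw [S.extendFix_apply f ((S.π_ker m).mp hm), S.extendFix_apply f ((S.π_ker n).mp hn),
    S.extendFix_apply f ((S.π_ker (m * n)).mp (by rw [map_mul, hm, hn, one_mul])), ← hadd]
  rfl

theorem cor_apply_fix (ρ : Representation k S.C W) {θ : W →ₗ[k] W}
    (hθ : ∑ x : S.C, (ρ x).comp (θ.comp (ρ x⁻¹)) = LinearMap.id)
    {f : S.K.fixingSubgroup → W} (heq : ∀ h σ, f (S.conjK h σ) = ρ (S.π h) (f σ))
    (σ : S.K.fixingSubgroup) : S.cor ρ θ f ⟨σ, S.fix_le σ.2⟩ = f σ := by
  show corCocycle ρ S.π_surj θ (S.extendFix (k := k) f) ⟨σ, S.fix_le σ.2⟩ = f σ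
  rw [corCocycle_ker S.π_surj hθ (fun g n hn => ?_) ((S.π_ker _).mpr σ.2), S.extendFix_apply]
  rw [S.extendFix_apply f ((S.π_ker n).mp hn),
    S.extendFix_apply f ((S.π_ker (g * n * g⁻¹)).mp (by rw [map_mul, map_mul, hn, map_inv]; group))]
  exact heq g ⟨n, _⟩

/-- Corestriction goes through a finite level. -/
theorem exists_level_cor (ρ : Representation k S.C W) (θ : W →ₗ[k] W)
    {f : S.K.fixingSubgroup → W} (hadd : ∀ σ τ, f (σ * τ) = f σ + f τ) (hlev : IsLevel f) :
    ∃ L : IntermediateField ℚ Qb, FiniteDimensional ℚ L ∧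
      ∀ g s : S.H, (∀ x ∈ L, (s : Γ) x = x) → S.cor ρ θ f (g * s) = S.cor ρ θ f g := by
  obtain ⟨M, hM, hf⟩ := hlev
  set L : IntermediateField ℚ Qb :=
    IntermediateField.normalClosure ℚ (M ⊔ S.K : IntermediateField ℚ Qb) Qb
  have : FiniteDimensional ℚ ↥(M ⊔ S.K) := IntermediateField.finiteDimensional_sup M S.K
  have hLfin : FiniteDimensional ℚ L := normalClosure.is_finiteDimensional _ _ _
  have hML : M ≤ L := le_sup_left.trans (IntermediateField.le_normalClosure _)
  have hKL : S.K ≤ L := le_sup_right.trans (IntermediateField.le_normalClosure _)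
  have : Normal ℚ L := normalClosure.normal ℚ _ _
  refine ⟨L, hLfin, fun g s hs => ?_⟩
  have hsK : (s : Γ) ∈ S.K.fixingSubgroup :=
    (IntermediateField.mem_fixingSubgroup_iff _ _).mpr fun x hx => hs x (hKL hx)
  have hπ : S.π (g * s) = S.π g := by rw [map_mul, (S.π_ker s).mpr hsK, mul_one]
  have hone : f 1 = 0 := by simpa using hadd 1 1
  refine Finset.sum_congr rfl fun y _ => ?_
  rw [hπ]
  congr 2
  set a := Function.surjInv S.π_surj y
  have hk : kerPart S.π_surj (g * s) y = kerPart S.π_surj g y * (a⁻¹ * s * a) := by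
    simp only [kerPart, hπ, a]
    group
  have hs' : ∀ x ∈ L, ((a⁻¹ * s * a : S.H) : Γ) x = x := fun x hx => by
    show (a : Γ)⁻¹ ((s : Γ) ((a : Γ) x)) = x
    rw [hs _ (by
      rw [show (a : Γ) x = (a : Γ) ((⟨x, hx⟩ : L) : Qb) from rfl, apply_coe_eq L (a : Γ)]
      exact SetLike.coe_mem _)]
    exact AlgEquiv.symm_apply_apply (a : Γ) x
  have h1 : ((a⁻¹ * s * a : S.H) : Γ) ∈ S.K.fixingSubgroup :=
    (IntermediateField.mem_fixingSubgroup_iff _ _).mpr fun x hx => hs' x (hKL hx)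
  have h2 : ((kerPart S.π_surj g y : S.H) : Γ) ∈ S.K.fixingSubgroup :=
    (S.π_ker _).mp (map_kerPart S.π_surj g y)
  have h3 : ((kerPart S.π_surj (g * s) y : S.H) : Γ) ∈ S.K.fixingSubgroup :=
    (S.π_ker _).mp (map_kerPart S.π_surj (g * s) y)
  rw [S.extendFix_apply f h3, S.extendFix_apply f h2]
  have he : (⟨_, h3⟩ : S.K.fixingSubgroup) = ⟨_, h2⟩ * ⟨_, h1⟩ :=
    Subtype.ext ((congrArg Subtype.val hk).trans rfl)
  rw [he]
  exact hf ⟨_, h2⟩ ⟨_, h1⟩ fun x hx => hs' x (hML hx)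

variable [Algebra (ZMod p) k] [Module (ZMod p) W] [IsScalarTower (ZMod p) k W]

/-- On tame inertia conjugation by an element of the decomposition group fixing `μ_p` is
trivial. -/
theorem conj_inertia_eq {B : ValuationSubring Qb} {l : ℕ} (hl : l.Prime)
    (hB : B.LiesOverPrime l) (hlp : l ≠ p) {f : S.K.fixingSubgroup → W}
    (hadd : ∀ σ τ, f (σ * τ) = f σ + f τ) (hlev : IsLevel f) (g : S.H)
    (hg : (g : Γ) ∈ B.decompositionSubgroup ℚ) (heps : S.eps (S.π g) = 1)
    {σ : S.K.fixingSubgroup} (hσ : (σ : Γ) ∈ B.inertiaSubgroupIn ℚ) :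
    f (S.conjK g σ) = f σ := by
  have hgB : (g : Γ) • B = B := MulAction.mem_stabilizer_iff.mp hg
  have hv : S.π g • placeIn S.K B hl hB = placeIn S.K B hl hB := by
    rw [← S.placeIn_smul_π g hl hB]
    refine HeightOneSpectrum.ext ?_
    show centreIn S.K ((g : Γ) • B) = centreIn S.K B
    rw [hgB]
  have hσ' : ((S.conjK g σ : S.K.fixingSubgroup) : Γ) ∈ B.inertiaSubgroupIn ℚ := by
    have := inertiaSubgroupIn_conj hσ (g : Γ)
    rwa [hgB] at this
  rw [← sub_eq_zero]
  refine (Module.forall_dual_apply_eq_zero_iff (ZMod p) _).mp fun ψ => ?_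
  obtain ⟨L, hL, hlevf⟩ := hlev
  obtain ⟨x, hx⟩ := exists_kum S.hζ (fun τ => ψ (f τ)) (fun a b => by rw [hadd, map_add])
    ⟨L, hL, fun a b hb => congrArg ψ (hlevf a b hb)⟩
  rw [map_sub, ← hx, ← hx, sub_eq_zero]
  set x' : S.Kˣ := Units.map (S.act (S.π g)).toRingHom.toMonoidHom x
  have h1 : kum p S.ζ x' (S.conjK g σ) = kum p S.ζ x σ := by
    rw [S.kum_act, heps, Units.val_one, one_mul]
  rw [← h1]
  have h2 : kum p S.ζ (x / x') (S.conjK g σ) = 0 := by
    refine kum_eq_zero_of_dvd_ord (hl := hl) (hA := hB) S.hζ hlp ?_ _ hσ'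
    have h3 : Ext.ord (placeIn S.K B hl hB) (x' : S.K) =
        Ext.ord (placeIn S.K B hl hB) (x : S.K) := by
      conv_lhs => rw [← hv]
      exact S.ord_smul (S.π g) _ _
    rw [Units.val_div_eq_div_val, Ext.ord_div _ x.ne_zero x'.ne_zero, h3, sub_self]
    exact dvd_zero _
  have h4 := kum_mul S.hζ (x / x') x' (S.conjK g σ)
  rwa [div_mul_cancel, h2, zero_add] at h4

end KField

end FLTAgent.TW
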