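import Fermat.Agent.TW.Setting
import Mathlib.NumberTheory.NumberField.InfinitePlace.Ramification

/-!
# The action on infinite places, and the places over a set of primes
-/

set_option autoImplicit false
set_option linter.unusedSectionVars false

open IsDedekindDomain NumberField
open scoped Pointwise

noncomputable section

namespace FLTAgent.TW

variable {p : ℕ} [hpf : Fact p.Prime]

namespace KField

variable (S : KField p)

instance : MulAction S.C (InfinitePlace S.K) where
  smul c w := w.comap (S.act c).symm.toRingHom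
  one_smul w := by
    refine Subtype.ext (AbsoluteValue.ext fun x => ?_)
    show w ((S.act 1).symm x) = w x
    rw [map_one]; rfl
  mul_smul c d w := by
    refine Subtype.ext (AbsoluteValue.ext fun x => ?_)
    show w ((S.act (c * d)).symm x) = w ((S.act d).symm ((S.act c).symm x))
    rw [map_mul]; rfl

theorem infinitePlace_smul_apply (c : S.C) (w : InfinitePlace S.K) (x : S.K) :
    (c • w) (S.act c x) = w x := by
  show w ((S.act c).symm (S.act c x)) = w x
  rw [RingEquiv.symm_apply_apply]

/-- The places over a rational prime in the given set. -/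
def placesOver (P : Finset ℕ) : Finset (Ext.Place S.K) :=
  (show {v : Ext.Place S.K | ∃ l ∈ P, l.Prime ∧ (l : 𝓞 S.K) ∈ v.asIdeal}.Finite from
    (P.finite_toSet.biUnion fun l _ =>
      (show {v : Ext.Place S.K | l.Prime ∧ (l : 𝓞 S.K) ∈ v.asIdeal}.Finite by
        by_cases hl : l.Prime
        · refine (Ideal.finite_factors (I := Ideal.span {(l : 𝓞 S.K)}) ?_).subset fun v hv => ?_
          · exact fun h => hl.ne_zero (by simpa using h)
          · exact Ideal.dvd_span_singleton.mpr hv.2
        · exact Set.finite_empty.subset fun v hv => hl hv.1)).subset fun v hv => by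
      obtain ⟨l, hl, h⟩ := hv
      exact Set.mem_biUnion hl h).toFinset

theorem mem_placesOver {P : Finset ℕ} {v : Ext.Place S.K} :
    v ∈ S.placesOver P ↔ ∃ l ∈ P, l.Prime ∧ (l : 𝓞 S.K) ∈ v.asIdeal := by
  simp [placesOver]

theorem mem_smul_iff (c : S.C) (v : Ext.Place S.K) (n : ℕ) :
    (n : 𝓞 S.K) ∈ (c • v).asIdeal ↔ (n : 𝓞 S.K) ∈ v.asIdeal := by
  show (n : 𝓞 S.K) ∈ (placeMap (S.act c) v).asIdeal ↔ _
  rw [mem_placeMap, map_natCast]

theorem placesOver_stable (P : Finset ℕ) :
    ∀ (c : S.C), ∀ v ∈ (S.placesOver P : Set (Ext.Place S.K)),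
      c • v ∈ (S.placesOver P : Set (Ext.Place S.K)) := fun c v hv => by
  rw [Finset.mem_coe, mem_placesOver] at hv ⊢
  obtain ⟨l, hl, hlp, h⟩ := hv
  exact ⟨l, hl, hlp, (S.mem_smul_iff c v l).mpr h⟩

end KField

end FLTAgent.TW
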