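import Fermat.Agent.TW.ClassCount

/-!
# The Selmer count
-/

set_option autoImplicit false
set_option linter.unusedSectionVars false

open IsDedekindDomain NumberField
open scoped Pointwise

noncomputable section

namespace FLTAgent.TW

variable {p : ℕ} [hpf : Fact p.Prime]

namespace KField

variable (S : KField p)

/-- Classes which are local `p`-th powers at every place of `U`. -/
def splitP (U : Set (Ext.Place S.K)) : Submodule (ZMod p) S.KP :=
  AddSubgroup.toZModSubmodule p
    ((Subgroup.toAddSubgroup (⨅ v ∈ U, Ext.splitSub S.hζ v)).map (toModP p))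

theorem cls_mem_splitP {U : Set (Ext.Place S.K)} {x : S.Kˣ} :
    S.cls x ∈ S.splitP U ↔ ∀ v ∈ U, x ∈ Ext.splitSub S.hζ v := by
  constructor
  · rintro ⟨a, ha, he⟩ v hv
    obtain ⟨c, hc⟩ := (toModP_eq_iff p).mp he
    have ha' : Additive.toMul a ∈ Ext.splitSub S.hζ v := by
      have h1 : Additive.toMul a ∈ ⨅ v ∈ U, Ext.splitSub S.hζ v := ha
      simp only [Subgroup.mem_iInf] at h1
      exact h1 v hv
    have hx : x = Additive.toMul a / Additive.toMul c ^ p := by
      have := congrArg Additive.toMul hc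
      rw [toMul_nsmul, toMul_sub, toMul_ofMul] at this
      rw [this]; simp
    rw [hx]
    exact div_mem ha' (Ext.powSub_le_splitSub S.hζ v (Ext.mem_powSub.mpr ⟨_, rfl⟩))
  · intro h
    refine ⟨Additive.ofMul x, ?_, rfl⟩
    show x ∈ ⨅ v ∈ U, Ext.splitSub S.hζ v
    simp only [Subgroup.mem_iInf]
    exact h

variable {S}

theorem splitSub_smul (c : S.C) {v : Ext.Place S.K} {x : S.Kˣ}
    (hx : x ∈ Ext.splitSub S.hζ v) :
    Units.map (S.act c).toRingHom.toMonoidHom x ∈ Ext.splitSub S.hζ (c • v) := by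
  obtain ⟨y, hy⟩ := (Ext.mem_splitSub S.hζ).mp hx
  refine (Ext.mem_splitSub S.hζ).mpr ⟨Units.map (S.act c).toRingHom.toMonoidHom y, ?_⟩
  rw [← map_pow, ← map_div]
  have hthr : Ext.thr S.hζ (c • v) = Ext.thr S.hζ v := by
    have h1 : (c • v).valuation S.K (S.ζ - 1) =
        (c • v).valuation S.K (S.ζ ^ (S.eps c : ZMod p).val - 1) := by
      refine (Ext.valuation_pow_sub_one S.hζ _ fun h => ?_).symm
      exact (S.eps c).ne_zero ((ZMod.val_eq_zero _).mp
        (Nat.eq_zero_of_dvd_of_lt h (ZMod.val_lt _)))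
    rw [Ext.thr, Ext.thr, h1, ← S.act_zeta', ← map_one (S.act c), ← map_sub, S.valuation_smul,
      map_one]
  show (c • v).valuation S.K ((Units.map (S.act c).toRingHom.toMonoidHom (x / y ^ p) : S.Kˣ) - 1) <
    Ext.thr S.hζ (c • v)
  rw [hthr, show ((Units.map (S.act c).toRingHom.toMonoidHom (x / y ^ p) : S.Kˣ) : S.K) - 1 =
    S.act c (((x / y ^ p : S.Kˣ) : S.K) - 1) by rw [map_sub, map_one]; rfl, S.valuation_smul]
  exact hy

theorem IsStable.splitP_mem {U : Set (Ext.Place S.K)} (hU : S.IsStable U) :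
    ∀ c, ∀ a ∈ S.splitP U, S.kpRep c a ∈ S.splitP U := fun c a ha => by
  obtain ⟨x, rfl⟩ := S.cls_surjective a
  rw [kpRep_cls, cls_mem_splitP]
  rw [cls_mem_splitP] at ha
  intro v hv
  have := splitSub_smul c (ha _ (hU c⁻¹ v hv))
  rwa [smul_inv_smul] at this

variable (S) in
/-- The local Kummer group at `U`. -/
abbrev LocK (U : Set (Ext.Place S.K)) : Type := S.KP ⧸ S.splitP U

/-- The action on the local Kummer group. -/
abbrev locRep {U : Set (Ext.Place S.K)} (hU : S.IsStable U) :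
    Representation (ZMod p) S.C (S.LocK U) :=
  S.kpRep.quotient (S.splitP U) hU.splitP_mem

variable (S) in
/-- Elements of some decomposition group at a place in `U`. -/
def InDec (U : Set (Ext.Place S.K)) : Set S.K.fixingSubgroup :=
  {σ | ∃ (A : ValuationSubring Qb) (l : ℕ) (hl : l.Prime) (hA : A.LiesOverPrime l),
    placeIn S.K A hl hA ∈ U ∧ (σ : Γ) ∈ A.decompositionSubgroup ℚ}

theorem splitP_le_ker_ev {U : Set (Ext.Place S.K)} {σ : S.K.fixingSubgroup}
    (hσ : σ ∈ S.InDec U) : S.splitP U ≤ LinearMap.ker (S.ev σ) := fun a ha => by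
  obtain ⟨x, rfl⟩ := S.cls_surjective a
  obtain ⟨A, l, hl, hA, hv, hD⟩ := hσ
  rw [LinearMap.mem_ker, ev_cls]
  exact kum_eq_zero_of_splitSub S.hζ ((S.cls_mem_splitP.mp ha) _ hv) σ hD

/-- Evaluation on the local Kummer group. -/
def evV (U : Set (Ext.Place S.K)) (σ : S.InDec U) : Module.Dual (ZMod p) (S.LocK U) :=
  (S.splitP U).liftQ (S.ev σ) (splitP_le_ker_ev σ.2)

theorem span_evV (U : Set (Ext.Place S.K)) [Finite (S.LocK U)] :
    Submodule.span (ZMod p) (Set.range (evV (S := S) U)) = ⊤ := by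
  refine span_eq_top_of_separating _ fun a ha => ?_
  obtain ⟨b, rfl⟩ := Submodule.mkQ_surjective _ a
  obtain ⟨x, rfl⟩ := S.cls_surjective b
  refine (Submodule.Quotient.mk_eq_zero _).mpr (S.cls_mem_splitP.mpr fun v hv => ?_)
  obtain ⟨l, hl, hlv⟩ := exists_prime_mem v
  obtain ⟨A, hA, rfl⟩ := exists_placeIn S.K v hl hlv
  exact mem_splitSub_of_kum_eq_zero S.hζ fun σ hσ =>
    ha _ ⟨⟨σ, A, l, hl, hA, hv, hσ⟩, rfl⟩

variable {k : Type} [Field k] [Algebra (ZMod p) k]
variable {W : Type} [AddCommGroup W] [Module k W] [Module (ZMod p) W] [IsScalarTower (ZMod p) k W]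
  [Finite W]

/-- Restriction to the decomposition groups at `U`. -/
def decRes (U : Set (Ext.Place S.K)) :
    (S.K.fixingSubgroup → W) →ₗ[k] (S.InDec U → W) :=
  LinearMap.funLeft k W Subtype.val

/-- Local functions of equivariant maps. -/
def locFun {ρ : Representation k S.C W} {U : Set (Ext.Place S.K)} (hU : S.IsStable U) :
    eqMaps ρ (locRep hU).dual →ₗ[k] (S.InDec U → W) where
  toFun M σ := M.1 (evV U σ)
  map_add' _ _ := rfl
  map_smul' _ _ := rfl

theorem locFun_injective {ρ : Representation k S.C W} {U : Set (Ext.Place S.K)}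
    (hU : S.IsStable U) [Finite (S.LocK U)] : Function.Injective (locFun (ρ := ρ) hU) := by
  refine (injective_iff_map_eq_zero _).mpr fun M hM => Subtype.ext ?_
  exact LinearMap.ext_on (span_evV U) (by
    rintro _ ⟨σ, rfl⟩
    exact congrFun hM σ)

/-- The localisation of classes. -/
def toLoc {T U : Set (Ext.Place S.K)} : S.XT T →ₗ[ZMod p] S.LocK U :=
  (S.splitP U).mkQ.comp (S.XT T).subtype

theorem toLoc_equivariant {T U : Set (Ext.Place S.K)} (hT : S.IsStable T) (hU : S.IsStable U)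
    (c : S.C) (a : S.XT T) :
    toLoc (U := U) (xtRep hT c a) = locRep hU c (toLoc a) := rfl

/-- The localisation is surjective up to equivariant counting. -/
theorem cnt_coker_toLoc {ρ : Representation k S.C W} (hρ : IsRelProj ρ) {T U : Set (Ext.Place S.K)}
    (hT : S.IsStable T) (hU : S.IsStable U) [Finite (S.LocK U)] {m : Ideal (𝓞 S.K)}
    (hm : ∀ v : Ext.Place S.K, m ≤ v.asIdeal → v ∈ T) {Q : Set (Ext.Place S.K)} (hQ : Q ⊆ T)
    (hno : S.NoChar ρ m Q)
    (hray : ∀ v ∈ U, ∀ y ∈ m, v.valuation S.K (y : S.K) < Ext.thr S.hζ v) :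
    cnt ρ ((locRep hU).quotient (LinearMap.range (toLoc (T := T) (U := U)))
      (range_invariant _ (toLoc_equivariant hT hU))) = 0 := by
  have : Finite (S.LocK U ⧸ LinearMap.range (toLoc (T := T) (U := U))) :=
    Finite.of_surjective _ (Submodule.mkQ_surjective _)
  refine cnt_eq_zero_of_forall hρ fun χ hχ => ?_
  let χ₀ : S.KP →ₗ[ZMod p] Module.Dual k W :=
    χ.comp ((LinearMap.range (toLoc (T := T) (U := U))).mkQ.comp (S.splitP U).mkQ)
  have h0 : χ₀ = 0 := by
    refine eq_zero_of_noChar hρ hT hm hQ hno χ₀ (fun c a => hχ c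
      ((LinearMap.range (toLoc (T := T) (U := U))).mkQ ((S.splitP U).mkQ a))) (fun a ha => ?_)
      fun x hx => ?_
    · show χ (Submodule.Quotient.mk ((S.splitP U).mkQ a)) = 0
      rw [(Submodule.Quotient.mk_eq_zero _).mpr
        (show (S.splitP U).mkQ a ∈ LinearMap.range (toLoc (T := T) (U := U)) from
          ⟨⟨a, ha⟩, rfl⟩), map_zero]
    · obtain ⟨y, hy, hym⟩ := hx
      show χ (Submodule.Quotient.mk (Submodule.Quotient.mk (S.cls x))) = 0
      rw [(Submodule.Quotient.mk_eq_zero (S.splitP U)).mpr (S.cls_mem_splitP.mpr fun v hv =>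
        Ext.near_le_splitSub S.hζ v (show v.valuation S.K ((x : S.K) - 1) < _ by
          rw [hy, show (y : S.K) - 1 = ((y - 1 : 𝓞 S.K) : S.K) by simp]
          exact hray v hv _ hym))]
      simp
  refine LinearMap.ext fun a => ?_
  obtain ⟨b, rfl⟩ := Submodule.mkQ_surjective _ a
  obtain ⟨d, rfl⟩ := Submodule.mkQ_surjective _ b
  exact LinearMap.congr_fun h0 d

theorem ofMaps_decRes {ρ : Representation k S.C W} {T U : Set (Ext.Place S.K)}
    (hT : S.IsStable T) (hU : S.IsStable U)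
    (hp : ∀ v : Ext.Place S.K, (p : 𝓞 S.K) ∈ v.asIdeal → v ∈ T) [Finite (S.XT T)]
    [Finite (S.LocK U)] (M : eqMaps ρ (xtRep hT).dual) :
    decRes (k := k) U (ofMaps hT hp M : S.K.fixingSubgroup → W) =
      locFun hU (eqRes ρ (toLoc (T := T) (U := U)).dualMap
        (dual_comp_eq _ (toLoc_equivariant hT hU)) M) :=
  funext fun _ => rfl

/-- The Selmer count. -/
theorem selmer_count_le {ρ : Representation k S.C W} (hρ : IsRelProj ρ)
    (T : Finset (Ext.Place S.K)) (hT : S.IsStable (T : Set (Ext.Place S.K)))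
    {U : Set (Ext.Place S.K)} (hU : S.IsStable U) [Finite (S.LocK U)]
    (hp : ∀ v : Ext.Place S.K, (p : 𝓞 S.K) ∈ v.asIdeal → v ∈ (T : Set (Ext.Place S.K)))
    {m : Ideal (𝓞 S.K)} (hm : ∀ v : Ext.Place S.K, m ≤ v.asIdeal → v ∈ T)
    {Q : Set (Ext.Place S.K)} (hQ : Q ⊆ (T : Set (Ext.Place S.K))) (hno : S.NoChar ρ m Q)
    (hray : ∀ v ∈ U, ∀ y ∈ m, v.valuation S.K (y : S.K) < Ext.thr S.hζ v)
    (Λ : Submodule k (S.InDec U → W)) [Module.Finite k Λ] :
    Module.finrank k ↥(S.eqHom ρ (T : Set (Ext.Place S.K)) ⊓ Λ.comap (decRes U)) +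
      cnt ρ (locRep hU) ≤ cnt ρ (modPRep p (unitsTAct hT)) + Module.finrank k Λ := by
  have : Finite (Module.Dual (ZMod p) (S.XT (T : Set (Ext.Place S.K)))) :=
    Finite.of_injective _ DFunLike.coe_injective
  have : Finite (Module.Dual (ZMod p) (S.LocK U)) := Finite.of_injective _ DFunLike.coe_injective
  let loc := eqRes ρ (toLoc (T := (T : Set (Ext.Place S.K))) (U := U)).dualMap
    (dual_comp_eq _ (toLoc_equivariant hT hU))
  have hsurj : Function.Surjective loc := eqRes_dualMap_surjective hρ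
    (toLoc (T := (T : Set (Ext.Place S.K))) (U := U)) (toLoc_equivariant hT hU)
    (range_invariant _ (toLoc_equivariant hT hU))
    (cnt_coker_toLoc hρ hT hU hm hQ hno hray)
  let e := LinearEquiv.ofBijective _ (ofMaps_bijective (ρ := ρ) hT hp)
  let N : Submodule k (eqMaps ρ (locRep hU).dual) := Λ.comap (locFun hU)
  -- transport the Selmer space
  let F : eqMaps ρ (xtRep hT).dual →ₗ[k] (S.K.fixingSubgroup → W) :=
    (S.eqHom ρ (T : Set (Ext.Place S.K))).subtype.comp e.toLinearMap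
  have hsub : S.eqHom ρ (T : Set (Ext.Place S.K)) ⊓ Λ.comap (decRes U) ≤
      (N.comap loc).map F := fun g hg => by
    obtain ⟨M, hM⟩ := (ofMaps_bijective (ρ := ρ) hT hp).2 ⟨g, hg.1⟩
    have hg' : (ofMaps hT hp M : S.K.fixingSubgroup → W) = g := congrArg Subtype.val hM
    refine ⟨M, ?_, hg'⟩
    show locFun hU (loc M) ∈ Λ
    rw [← ofMaps_decRes hT hU hp, hg']
    exact hg.2
  have h1 := (Submodule.finrank_mono hsub).trans (Submodule.finrank_map_le F (N.comap loc))
  have h2 := finrank_comap_of_surjective loc hsurj N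
  have h3 : Module.finrank k N ≤ Module.finrank k Λ :=
    LinearMap.finrank_le_finrank_of_injective
      (f := (locFun hU).restrict fun x hx => hx) fun a b h =>
      Subtype.ext (locFun_injective hU (congrArg Subtype.val h))
  have h4 := LinearMap.finrank_range_add_finrank_ker loc
  rw [LinearMap.range_eq_top.mpr hsurj, finrank_top] at h4
  have h5 : Module.finrank k (eqMaps ρ (xtRep hT).dual) =
      cnt ρ (modPRep p (unitsTAct hT)) := cnt_xtRep hρ T hT hm hQ hno
  simp only [cnt] at h5 ⊢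
  omega

end KField

end FLTAgent.TW
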