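import Fermat.Agent.TW.EqHom
import Fermat.Agent.TW.RayOfPlaces

/-!
# Divisors outside a stable set of places, and characters killing rays
-/

set_option autoImplicit false
set_option linter.unusedSectionVars false

open IsDedekindDomain NumberField
open scoped Pointwise

noncomputable section

namespace FLTAgent.TW

variable {p : ℕ} [hpf : Fact p.Prime]

namespace KField

variable (S : KField p)
variable {k : Type} [Field k] [Algebra (ZMod p) k]
variable {W : Type} [AddCommGroup W] [Module k W] [Module (ZMod p) W] [IsScalarTower (ZMod p) k W]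
  [Finite W]

/-- There is no nonzero equivariant ray character with values in the dual, vanishing at `Q`. -/
def NoChar (ρ : Representation k S.C W) (m : Ideal (𝓞 S.K)) (Q : Set (Ext.Place S.K)) : Prop :=
  ∀ χ : RayHom m (Module.Dual k W),
    (∀ (c : S.C) (v : Ext.Place S.K), χ.toFun (c • v).asIdeal = ρ.dual c (χ.toFun v.asIdeal)) →
    (∀ v ∈ Q, χ.toFun v.asIdeal = 0) → ∀ v : Ext.Place S.K, χ.toFun v.asIdeal = 0

/-- The permutation action on divisors. -/
def divAct : S.C →* AddMonoid.End (Ext.Place S.K →₀ ℤ) where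
  toFun c := (Finsupp.domCongr (MulAction.toPerm c)).toAddMonoidHom
  map_one' := AddMonoidHom.ext fun f => Finsupp.ext fun v => by
    show f ((MulAction.toPerm (1 : S.C)).symm v) = f v
    simp
  map_mul' c d := AddMonoidHom.ext fun f => Finsupp.ext fun v => by
    show f ((MulAction.toPerm (c * d)).symm v) =
      f ((MulAction.toPerm d).symm ((MulAction.toPerm c).symm v))
    simp [mul_smul]

theorem divAct_apply (c : S.C) (f : Ext.Place S.K →₀ ℤ) (v : Ext.Place S.K) :
    S.divAct c f v = f (c⁻¹ • v) := rfl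

theorem divAct_single (c : S.C) (v : Ext.Place S.K) (n : ℤ) :
    S.divAct c (Finsupp.single v n) = Finsupp.single (c • v) n :=
  Finsupp.equivMapDomain_single _ _ _

/-- The permutation action on divisors modulo `p`. -/
def divRepP : Representation (ZMod p) S.C (Ext.Place S.K →₀ ZMod p) where
  toFun c := (Finsupp.domLCongr (MulAction.toPerm c)).toLinearMap
  map_one' := LinearMap.ext fun f => Finsupp.ext fun v => by
    show f ((MulAction.toPerm (1 : S.C)).symm v) = f v
    simp
  map_mul' c d := LinearMap.ext fun f => Finsupp.ext fun v => by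
    show f ((MulAction.toPerm (c * d)).symm v) =
      f ((MulAction.toPerm d).symm ((MulAction.toPerm c).symm v))
    simp [mul_smul]

theorem divRepP_apply (c : S.C) (f : Ext.Place S.K →₀ ZMod p) (v : Ext.Place S.K) :
    S.divRepP c f v = f (c⁻¹ • v) := rfl

theorem divRepP_single (c : S.C) (v : Ext.Place S.K) (n : ZMod p) :
    S.divRepP c (Finsupp.single v n) = Finsupp.single (c • v) n :=
  Finsupp.equivMapDomain_single _ _ _

theorem divisor_act (c : S.C) (x : S.Kˣ) :
    divisor (Units.map (S.act c).toRingHom.toMonoidHom x) = S.divAct c (divisor x) :=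
  Finsupp.ext fun v => by
    rw [divAct_apply, divisor_apply, divisor_apply]
    conv_lhs => rw [← smul_inv_smul c v]
    exact S.ord_smul c (c⁻¹ • v) (x : S.K)

open Classical in
/-- The divisor outside `T`. -/
def divT (T : Set (Ext.Place S.K)) : Additive S.Kˣ →+ (Ext.Place S.K →₀ ℤ) :=
  AddMonoidHom.mk' (fun x => (divisor x.toMul).filter (· ∉ T)) fun x y => by
    show (divisor (x.toMul * y.toMul)).filter _ = _
    rw [divisor_mul, Finsupp.filter_add]

theorem divT_apply_of_mem {T : Set (Ext.Place S.K)} (x : S.Kˣ) {v : Ext.Place S.K} (hv : v ∈ T) :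
    S.divT T (Additive.ofMul x) v = 0 := by
  classical
  exact Finsupp.filter_apply_neg _ _ (not_not.mpr hv)

theorem divT_apply_of_notMem {T : Set (Ext.Place S.K)} (x : S.Kˣ) {v : Ext.Place S.K}
    (hv : v ∉ T) : S.divT T (Additive.ofMul x) v = Ext.ord v (x : S.K) := by
  classical
  exact Finsupp.filter_apply_pos _ _ hv

/-- The divisor modulo `p` outside `T`. -/
def divP (T : Set (Ext.Place S.K)) : S.KP →ₗ[ZMod p] (Ext.Place S.K →₀ ZMod p) :=
  AddMonoidHom.toZModLinearMap p (QuotientAddGroup.lift _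
    ((Finsupp.mapRange.addMonoidHom (Int.castAddHom (ZMod p))).comp (S.divT T)) (by
      rintro _ ⟨x, rfl⟩
      refine AddMonoidHom.mem_ker.mpr ?_
      show Finsupp.mapRange.addMonoidHom (Int.castAddHom (ZMod p)) (S.divT T (p • x)) = 0
      rw [map_nsmul, map_nsmul]
      exact Finsupp.ext fun v => by simp))

theorem divP_apply_of_mem {T : Set (Ext.Place S.K)} (a : S.KP) {v : Ext.Place S.K} (hv : v ∈ T) :
    S.divP T a v = 0 := by
  obtain ⟨x, rfl⟩ := S.cls_surjective a
  show Int.castAddHom (ZMod p) (S.divT T (Additive.ofMul x) v) = 0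
  rw [S.divT_apply_of_mem x hv, map_zero]

theorem divP_apply_of_notMem {T : Set (Ext.Place S.K)} (a : S.KP) {v : Ext.Place S.K}
    (hv : v ∉ T) : S.divP T a v = S.ordP v a := by
  obtain ⟨x, rfl⟩ := S.cls_surjective a
  show Int.castAddHom (ZMod p) (S.divT T (Additive.ofMul x) v) = _
  rw [S.divT_apply_of_notMem x hv, ordP_cls]
  rfl

variable {S}

theorem divT_act {T : Set (Ext.Place S.K)} (hT : S.IsStable T) (c : S.C) (x : S.Kˣ) :
    S.divT T (Additive.ofMul (Units.map (S.act c).toRingHom.toMonoidHom x)) =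
      S.divAct c (S.divT T (Additive.ofMul x)) := Finsupp.ext fun v => by
  rw [divAct_apply]
  by_cases hv : v ∈ T
  · rw [S.divT_apply_of_mem _ hv, S.divT_apply_of_mem _ (hT c⁻¹ v hv)]
  · rw [S.divT_apply_of_notMem _ hv, S.divT_apply_of_notMem _ (hT.compl c⁻¹ hv)]
    conv_lhs => rw [← smul_inv_smul c v]
    exact S.ord_smul c (c⁻¹ • v) (x : S.K)

theorem divP_kpRep {T : Set (Ext.Place S.K)} (hT : S.IsStable T) (c : S.C) (a : S.KP) :
    S.divP T (S.kpRep c a) = S.divRepP c (S.divP T a) := Finsupp.ext fun v => by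
  rw [divRepP_apply]
  by_cases hv : v ∈ T
  · rw [S.divP_apply_of_mem _ hv, S.divP_apply_of_mem _ (hT c⁻¹ v hv)]
  · rw [S.divP_apply_of_notMem _ hv, S.divP_apply_of_notMem _ (hT.compl c⁻¹ hv)]
    conv_lhs => rw [← smul_inv_smul c v]
    exact S.ordP_smul c (c⁻¹ • v) a

theorem ker_divP (T : Set (Ext.Place S.K)) : LinearMap.ker (S.divP T) = S.XT T := by
  ext a
  rw [LinearMap.mem_ker, mem_XT]
  constructor
  · intro h v hv
    rw [← S.divP_apply_of_notMem a hv, h]; rfl
  · intro h
    refine Finsupp.ext fun v => ?_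
    by_cases hv : v ∈ T
    · exact S.divP_apply_of_mem a hv
    · rw [S.divP_apply_of_notMem a hv, h v hv]; rfl

/-- An equivariant functional killing `XT` and a ray is zero, if there is no ray character. -/
theorem eq_zero_of_noChar {ρ : Representation k S.C W} (hρ : IsRelProj ρ)
    {T : Set (Ext.Place S.K)} (hT : S.IsStable T) {m : Ideal (𝓞 S.K)}
    (hm : ∀ v : Ext.Place S.K, m ≤ v.asIdeal → v ∈ T) {Q : Set (Ext.Place S.K)} (hQ : Q ⊆ T)
    (hno : S.NoChar ρ m Q) (χ : S.KP →ₗ[ZMod p] Module.Dual k W)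
    (heq : χ ∈ eqMaps ρ.dual S.kpRep) (hX : ∀ a ∈ S.XT T, χ a = 0)
    (hray : ∀ x : S.Kˣ, (∃ y : 𝓞 S.K, (x : S.K) = y ∧ y - 1 ∈ m) → χ (S.cls x) = 0) :
    χ = 0 := by
  classical
  have hR : ∀ c, ∀ f ∈ LinearMap.range (S.divP T), S.divRepP c f ∈ LinearMap.range (S.divP T) := by
    rintro c _ ⟨a, rfl⟩
    exact ⟨S.kpRep c a, divP_kpRep hT c a⟩
  have : Module.Free (ZMod p) (LinearMap.range (S.divP T)) :=
    Module.Free.of_divisionRing (ZMod p) _
  obtain ⟨s, hs⟩ := (S.divP T).rangeRestrict.exists_rightInverse_of_surjective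
    (LinearMap.range_eq_top.mpr (S.divP T).surjective_rangeRestrict)
  have hfac : ∀ a, χ (s ((S.divP T).rangeRestrict a)) = χ a := fun a => by
    rw [← sub_eq_zero, ← map_sub]
    refine hX _ ?_
    rw [← ker_divP, LinearMap.mem_ker, map_sub, sub_eq_zero]
    exact congrArg Subtype.val (LinearMap.congr_fun hs ((S.divP T).rangeRestrict a))
  have hχ' : χ.comp s ∈ eqMaps ρ.dual (subRep p S.divRepP _ hR) := fun c f => by
    obtain ⟨a, rfl⟩ := (S.divP T).surjective_rangeRestrict f
    rw [LinearMap.comp_apply, LinearMap.comp_apply, hfac, ← heq c a, ← hfac (S.kpRep c a)]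
    congr 2
    exact Subtype.ext (divP_kpRep hT c a).symm
  obtain ⟨ψ, hψ, hext⟩ := exists_eqMaps_extend (isRelProj_dual hρ)
    (LinearMap.range (S.divP T)).subtype Subtype.val_injective (τ := S.divRepP)
    (fun _ _ => rfl) hχ'
  have hψdiv : ∀ a, ψ (S.divP T a) = χ a := fun a => by
    rw [← hfac a]
    have := LinearMap.congr_fun hext ((S.divP T).rangeRestrict a)
    exact this
  let φ : Ext.Place S.K → Module.Dual k W := fun v => if v ∈ T then 0 else ψ (Finsupp.single v 1)
  have hsum : ∀ x : S.Kˣ, ((divisor x).sum fun v n => n • φ v) = χ (S.cls x) := fun x => by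
    rw [← hψdiv, Finsupp.sum]
    conv_rhs => rw [← Finsupp.sum_single (S.divP T (S.cls x)), Finsupp.sum, map_sum]
    refine (Finset.sum_subset_zero_on_sdiff (fun v hv => ?_) (fun v hv => ?_) fun v hv => ?_).symm
    · rw [Finsupp.mem_support_iff] at hv ⊢
      intro h0
      refine hv ?_
      by_cases hvT : v ∈ T
      · exact S.divP_apply_of_mem _ hvT
      · rw [S.divP_apply_of_notMem _ hvT, ordP_cls, ← divisor_apply, h0]; exact Int.cast_zero
    · rw [Finset.mem_sdiff, Finsupp.mem_support_iff, Finsupp.notMem_support_iff] at hv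
      by_cases hvT : v ∈ T
      · simp [φ, hvT]
      · have h0 := hv.2
        rw [S.divP_apply_of_notMem _ hvT, ordP_cls] at h0
        show (divisor x v) • φ v = 0
        rw [← Int.cast_smul_eq_zsmul (ZMod p), divisor_apply, h0, zero_smul]
    · have hvT : v ∉ T := fun h => (Finsupp.mem_support_iff.mp hv) (S.divP_apply_of_mem _ h)
      rw [S.divP_apply_of_notMem _ hvT, ordP_cls,
        show Finsupp.single v ((Ext.ord v (x : S.K) : ℤ) : ZMod p) =
          Ext.ord v (x : S.K) • Finsupp.single v (1 : ZMod p) by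
          rw [Finsupp.smul_single, zsmul_one], map_zsmul]
      simp only [φ, if_neg hvT, divisor_apply]
  let η := rayHomOfPlaces m φ fun x hx => (hsum x).trans (hray x hx)
  have hη : ∀ v : Ext.Place S.K, η.toFun v.asIdeal = φ v := fun v => by
    by_cases hv : IsCoprime v.asIdeal m
    · exact rayHomOfPlaces_asIdeal m φ _ v hv
    · rw [η.eq_zero _ (Or.inr hv)]
      simp [φ, hm v ((not_isCoprime_iff_le m v).mp hv)]
  have h0 : ∀ v, φ v = 0 := fun v => by
    rw [← hη]
    refine hno η (fun c v => ?_) (fun v hv => ?_) v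
    · rw [hη, hη]
      by_cases hv : v ∈ T
      · simp [φ, hv, hT c v hv]
      · simp only [φ, if_neg hv, if_neg (hT.compl c hv)]
        rw [← hψ c, divRepP_single]
    · rw [hη]; simp [φ, hQ hv]
  refine LinearMap.ext fun a => ?_
  obtain ⟨x, rfl⟩ := S.cls_surjective a
  rw [← hsum, LinearMap.zero_apply]
  exact Finset.sum_eq_zero fun v _ => by simp [h0]

end KField

end FLTAgent.TW
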