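import Fermat.Agent.TW.Orbits
import Fermat.Agent.TW.PlaceActions

/-!
# Dimensions of equivariant functions on unions of stable sets
-/

set_option autoImplicit false
set_option linter.unusedSectionVars false

open IsDedekindDomain NumberField
open scoped Pointwise Classical

noncomputable section

namespace FLTAgent.TW

variable {k : Type} [Field k] {C : Type} [Group C] [Fintype C]
variable {W : Type} [AddCommGroup W] [Module k W] [Finite W]
variable {X : Type} [MulAction C X]

/-- Equivariant functions on a finite set form a finite dimensional space. -/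
theorem finite_eqFunOn [Module.Finite k W] (ρ : Representation k C W) {U : Set X} (hU : U.Finite) :
    Module.Finite k (eqFunOn ρ U) := by
  have := hU.to_subtype
  refine Module.Finite.of_injective
    ((LinearMap.funLeft k W (Subtype.val : U → X)).comp (eqFunOn ρ U).subtype)
    fun T T' h => Subtype.ext (funext fun x => ?_)
  by_cases hx : x ∈ U
  · exact congrFun h ⟨x, hx⟩
  · rw [(mem_eqFunOn.mp T.2).2 x hx, (mem_eqFunOn.mp T'.2).2 x hx]

theorem eqFunOn_mono (ρ : Representation k C W) {U U' : Set X} (h : U ⊆ U') :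
    eqFunOn ρ U ≤ eqFunOn ρ U' := fun T hT => by
  rw [mem_eqFunOn] at hT ⊢
  exact ⟨hT.1, fun x hx => hT.2 x fun hxU => hx (h hxU)⟩

theorem finrank_eqFunOn_mono [Module.Finite k W] (ρ : Representation k C W) {U U' : Set X}
    (hU' : U'.Finite) (h : U ⊆ U') :
    Module.finrank k (eqFunOn ρ U) ≤ Module.finrank k (eqFunOn ρ U') := by
  have := finite_eqFunOn ρ hU'
  exact Submodule.finrank_mono (eqFunOn_mono ρ h)

/-- Subadditivity on a union with a stable part. -/
theorem finrank_eqFunOn_le_add [Module.Finite k W] (ρ : Representation k C W) {U U₁ U₂ : Set X}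
    (hU₁ : ∀ (c : C), ∀ x ∈ U₁, c • x ∈ U₁) (h₁ : U₁.Finite) (h₂ : U₂.Finite)
    (h : U ⊆ U₁ ∪ U₂) :
    Module.finrank k (eqFunOn ρ U) ≤
      Module.finrank k (eqFunOn ρ U₁) + Module.finrank k (eqFunOn ρ U₂) := by
  have := finite_eqFunOn ρ h₁
  have := finite_eqFunOn ρ h₂
  have hmem : ∀ (c : C) (x : X), c • x ∈ U₁ ↔ x ∈ U₁ := fun c x =>
    ⟨fun hx => by simpa using hU₁ c⁻¹ _ hx, hU₁ c x⟩
  let f : eqFunOn ρ U →ₗ[k] eqFunOn ρ U₁ × eqFunOn ρ U₂ :=
    (LinearMap.codRestrict (eqFunOn ρ U₁)
      ({ toFun := fun T x => if x ∈ U₁ then (T : X → W) x else 0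
         map_add' := fun a b => funext fun x => by
           simp only [Submodule.coe_add, Pi.add_apply]; split_ifs <;> simp
         map_smul' := fun t a => funext fun x => by
           simp only [Submodule.coe_smul, Pi.smul_apply, RingHom.id_apply]; split_ifs <;> simp } :
        eqFunOn ρ U →ₗ[k] (X → W))
      fun T => mem_eqFunOn.mpr ⟨fun c x => by
        show (if c • x ∈ U₁ then (T : X → W) (c • x) else 0) =
          ρ c (if x ∈ U₁ then (T : X → W) x else 0)
        rw [apply_ite (ρ c), map_zero, (mem_eqFunOn.mp T.2).1]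
        exact if_congr (hmem c x) rfl rfl, fun x hx => if_neg hx⟩).prod
    (LinearMap.codRestrict (eqFunOn ρ U₂)
      ({ toFun := fun T x => if x ∈ U₁ then 0 else (T : X → W) x
         map_add' := fun a b => funext fun x => by
           simp only [Submodule.coe_add, Pi.add_apply]; split_ifs <;> simp
         map_smul' := fun t a => funext fun x => by
           simp only [Submodule.coe_smul, Pi.smul_apply, RingHom.id_apply]; split_ifs <;> simp } :
        eqFunOn ρ U →ₗ[k] (X → W))
      fun T => mem_eqFunOn.mpr ⟨fun c x => by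
        show (if c • x ∈ U₁ then 0 else (T : X → W) (c • x)) =
          ρ c (if x ∈ U₁ then 0 else (T : X → W) x)
        rw [apply_ite (ρ c), map_zero, (mem_eqFunOn.mp T.2).1]
        exact if_congr (hmem c x) rfl rfl, fun x hx => by
        show (if x ∈ U₁ then 0 else (T : X → W) x) = 0
        split_ifs with h1
        · rfl
        · exact (mem_eqFunOn.mp T.2).2 x fun hxU => (h hxU).elim h1 hx⟩)
  have hf : Function.Injective f := fun a b hab => Subtype.ext (funext fun x => by
    have h1 := congrArg (fun z : eqFunOn ρ U₁ × eqFunOn ρ U₂ => (z.1 : X → W) x) hab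
    have h2 := congrArg (fun z : eqFunOn ρ U₁ × eqFunOn ρ U₂ => (z.2 : X → W) x) hab
    change (if x ∈ U₁ then (a : X → W) x else 0) = if x ∈ U₁ then (b : X → W) x else 0 at h1
    change (if x ∈ U₁ then 0 else (a : X → W) x) = if x ∈ U₁ then 0 else (b : X → W) x at h2
    by_cases hx : x ∈ U₁
    · rwa [if_pos hx, if_pos hx] at h1
    · rwa [if_neg hx, if_neg hx] at h2)
  have h3 := LinearMap.finrank_le_finrank_of_injective hf
  rwa [Module.finrank_prod] at h3

variable {p : ℕ} [Fact p.Prime]

/-- Subadditivity over the primes. -/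
theorem KField.finrank_eqFunOn_placesOver_le (S : KField p) {W : Type} [AddCommGroup W]
    [Module k W] [Finite W] [Module.Finite k W] (ρ : Representation k S.C W) (P : Finset ℕ) :
    Module.finrank k (eqFunOn ρ (S.placesOver P : Set (Ext.Place S.K))) ≤
      ∑ l ∈ P, Module.finrank k (eqFunOn ρ (S.placesOver {l} : Set (Ext.Place S.K))) := by
  induction P using Finset.induction with
  | empty =>
    have : eqFunOn ρ (S.placesOver ∅ : Set (Ext.Place S.K)) = ⊥ := eq_bot_iff.mpr fun T hT => by
      rw [Submodule.mem_bot]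
      exact funext fun v => (mem_eqFunOn.mp hT).2 v fun hv => by
        obtain ⟨l, hl, -⟩ := S.mem_placesOver.mp hv
        simp at hl
    rw [this, finrank_bot]
    exact Nat.zero_le _
  | insert l P hl ih =>
    rw [Finset.sum_insert hl]
    refine (finrank_eqFunOn_le_add ρ (S.placesOver_stable {l}) (Finset.finite_toSet _)
      (Finset.finite_toSet _) fun v hv => ?_).trans (Nat.add_le_add_left ih _)
    obtain ⟨q, hq, hqp, hqv⟩ := S.mem_placesOver.mp hv
    rcases Finset.mem_insert.mp hq with rfl | hq
    · exact Or.inl (S.mem_placesOver.mpr ⟨q, Finset.mem_singleton_self q, hqp, hqv⟩)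
    · exact Or.inr (S.mem_placesOver.mpr ⟨q, hq, hqp, hqv⟩)

end FLTAgent.TW
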