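import Fermat.Agent.TW.Kummer

/-!
# Every continuous homomorphism to `ℤ/p` is a Kummer character
-/

set_option autoImplicit false
set_option linter.unusedSectionVars false

noncomputable section

namespace FLTAgent.TW

variable {p : ℕ} [hpf : Fact p.Prime] {K : IntermediateField ℚ Qb} {ζ : K}

theorem exists_kum (hζ : IsPrimitiveRoot ζ p) [FiniteDimensional ℚ K]
    (f : K.fixingSubgroup → ZMod p) (hadd : ∀ σ τ, f (σ * τ) = f σ + f τ) (hf : IsLevel f) :
    ∃ x : Kˣ, ∀ σ, kum p ζ x σ = f σ := by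
  classical
  obtain ⟨L, hL, hlev⟩ := hf
  -- a finite Galois level containing `K` and `L`
  let E : IntermediateField ℚ Qb := IntermediateField.normalClosure ℚ (L ⊔ K : IntermediateField ℚ Qb) Qb
  have : FiniteDimensional ℚ (L ⊔ K : IntermediateField ℚ Qb) :=
    IntermediateField.finiteDimensional_sup L K
  have hE : FiniteDimensional ℚ E := normalClosure.is_finiteDimensional _ _ _
  have hLE : L ≤ E := le_sup_left.trans (IntermediateField.le_normalClosure _)
  have hKE : K ≤ E := le_sup_right.trans (IntermediateField.le_normalClosure _)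
  have hnorm : Normal ℚ E := normalClosure.normal ℚ _ _
  let N : Subgroup K.fixingSubgroup := E.fixingSubgroup.subgroupOf K.fixingSubgroup
  have hker : ∀ s : K.fixingSubgroup, (s : Γ) ∈ E.fixingSubgroup → f s = 0 := fun s hs => by
    have h := hlev 1 s fun x hx => apply_eq_of_mem_fixing hs (hLE hx)
    rw [one_mul] at h
    have h1 := hadd 1 1
    rw [one_mul, left_eq_add] at h1
    rw [h, h1]
  -- the restriction to `E`
  let r : K.fixingSubgroup →* (E ≃ₐ[ℚ] E) :=
    (AlgEquiv.restrictNormalHom E).comp K.fixingSubgroup.subtype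
  have hr : ∀ (σ : K.fixingSubgroup) (z : E), ((r σ z : E) : Qb) = (σ : Γ) z := fun σ z =>
    AlgEquiv.restrictNormal_commutes (σ : Γ) E z
  have : Finite r.range := Finite.of_injective _ Subtype.val_injective
  let _ : Fintype r.range := Fintype.ofFinite _
  have hconst : ∀ σ τ : K.fixingSubgroup, r σ = r τ → f σ = f τ := fun σ τ h => by
    have hmem : ((σ⁻¹ * τ : K.fixingSubgroup) : Γ) ∈ E.fixingSubgroup := by
      rw [IntermediateField.mem_fixingSubgroup_iff]
      intro z hz
      have h1 : r (σ⁻¹ * τ) = 1 := by rw [map_mul, map_inv, h, inv_mul_cancel]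
      have := hr (σ⁻¹ * τ) ⟨z, hz⟩
      rw [h1] at this
      exact this.symm
    have := hadd σ (σ⁻¹ * τ)
    rw [mul_inv_cancel_left, hker _ hmem, add_zero] at this
    exact this.symm
  choose lift hlift using fun g : r.range => g.2
  let f' : r.range → ZMod p := fun g => f (lift g)
  have hz := coe_zeta_isPrimitiveRoot hζ
  have hf' : ∀ σ : K.fixingSubgroup, f' ⟨r σ, σ, rfl⟩ = f σ := fun σ =>
    hconst _ _ (hlift _)
  -- Lagrange resolvent, nonzero by independence of characters
  obtain ⟨z, hz0⟩ : ∃ z : E,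
      ∑ g : r.range, (ζ : Qb) ^ (-(f' g)).val * (((g : E ≃ₐ[ℚ] E) z : E) : Qb) ≠ 0 := by
    by_contra hcon
    push Not at hcon
    have hli : LinearIndependent Qb fun (g : r.range) (z : E) => (((g : E ≃ₐ[ℚ] E) z : E) : Qb) := by
      refine (linearIndependent_monoidHom E Qb).comp
        (fun g : r.range => ((E.val : E →+* Qb).toMonoidHom.comp
          (g : E ≃ₐ[ℚ] E).toAlgHom.toRingHom.toMonoidHom)) ?_
      intro a b hab
      exact Subtype.ext (AlgEquiv.ext fun z => Subtype.ext (DFunLike.congr_fun hab z))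
    have h0 := Fintype.linearIndependent_iff.mp hli (fun g => (ζ : Qb) ^ (-(f' g)).val)
      (funext fun z => by simpa [Finset.sum_apply] using hcon z) ⟨1, one_mem _⟩
    exact pow_ne_zero _ (hz.ne_zero hpf.out.ne_zero) h0
  set y := ∑ g : r.range, (ζ : Qb) ^ (-(f' g)).val * (((g : E ≃ₐ[ℚ] E) z : E) : Qb) with hy
  have hσy : ∀ σ : K.fixingSubgroup, (σ : Γ) y = (ζ : Qb) ^ (f σ).val * y := fun σ => by
    rw [hy, map_sum, Finset.mul_sum]
    refine Fintype.sum_equiv (Equiv.mulLeft (⟨r σ, σ, rfl⟩ : r.range)) _ _ fun g => ?_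
    rw [map_mul, map_pow, apply_coe_eq_of_mem_fixing σ.2]
    have hval : f' (⟨r σ, σ, rfl⟩ * g) = f σ + f' g := by
      show f (lift _) = f σ + f (lift g)
      rw [← hadd]
      refine hconst _ _ ?_
      rw [hlift, map_mul, hlift]
      rfl
    rw [Equiv.coe_mulLeft, hval, ← mul_assoc, ← zetaPow_add hz.pow_eq_one,
      show f σ + -(f σ + f' g) = -f' g by abel]
    congr 1
    exact (hr σ _).symm
  have hmem : y ^ p ∈ K := mem_of_forall_fixed K fun σ hσ => by
    rw [map_pow, hσy ⟨σ, hσ⟩, mul_pow, ← pow_mul, mul_comm _ p, pow_mul, hz.pow_eq_one, one_pow,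
      one_mul]
  have hne : (⟨y ^ p, hmem⟩ : K) ≠ 0 := fun h => by
    have h' : y ^ p = 0 := congrArg Subtype.val h
    exact hz0 (pow_eq_zero_iff hpf.out.ne_zero |>.mp h')
  exact ⟨Units.mk0 _ hne, fun σ => kum_eq hζ (y := y) rfl (hσy σ)⟩

end FLTAgent.TW
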