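import Mathlib

/-!
# Subfields of `ℚ̄` and the absolute Galois group
-/

set_option autoImplicit false

noncomputable section

namespace FLTAgent.TW

/-- The algebraic closure of `ℚ`. -/
abbrev Qb : Type := AlgebraicClosure ℚ

/-- The absolute Galois group. -/
abbrev Γ : Type := AlgebraicClosure ℚ ≃ₐ[ℚ] AlgebraicClosure ℚ

scoped instance (priority := 100) qb_isAlgebraic : Algebra.IsAlgebraic ℚ Qb :=
  AlgebraicClosure.isAlgebraic ℚ

scoped instance (priority := 100) qb_isGalois : IsGalois ℚ Qb :=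
  haveI : IsAlgClosure ℚ Qb := ⟨inferInstance, inferInstance⟩
  haveI : Normal ℚ Qb := IsAlgClosure.normal ℚ Qb
  ⟨⟩

scoped instance (priority := 100) qb_numberField (K : IntermediateField ℚ Qb)
    [FiniteDimensional ℚ K] : NumberField K where

/-- An element fixed by every automorphism fixing `K` lies in `K`. -/
theorem mem_of_forall_fixed (K : IntermediateField ℚ Qb) {y : Qb}
    (h : ∀ σ ∈ K.fixingSubgroup, σ y = y) : y ∈ K := by
  rw [← InfiniteGalois.fixedField_fixingSubgroup K]
  exact fun σ => h σ σ.2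

theorem apply_eq_of_mem_fixing {K : IntermediateField ℚ Qb} {σ : Γ}
    (hσ : σ ∈ K.fixingSubgroup) {x : Qb} (hx : x ∈ K) : σ x = x :=
  (IntermediateField.mem_fixingSubgroup_iff _ _).mp hσ x hx

theorem apply_coe_eq_of_mem_fixing {K : IntermediateField ℚ Qb} {σ : Γ}
    (hσ : σ ∈ K.fixingSubgroup) (x : K) : σ (x : Qb) = x :=
  apply_eq_of_mem_fixing hσ x.2

/-- A function on a subgroup through a finite level. -/
def IsLevel {X : Type*} {D : Subgroup Γ} (f : D → X) : Prop :=
  ∃ L : IntermediateField ℚ Qb, FiniteDimensional ℚ L ∧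
    ∀ g s : D, (∀ x ∈ L, (s : Γ) x = x) → f (g * s) = f g

end FLTAgent.TW
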