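import Fermat.Agent.TW.ProjMod

/-!
# The Euler function `ξ(A) = cnt(A/p) - cnt(A[p])`

It is additive in short exact sequences and vanishes on finite groups, hence only depends on a
finitely generated `C`-module up to isogeny.
-/

set_option autoImplicit false
set_option linter.unusedSectionVars false

noncomputable section

namespace FLTAgent.TW

variable (p : ℕ) [Fact p.Prime]

/-- `A / p A`. -/
def ModP (A : Type) [AddCommGroup A] : Type := A ⧸ (nsmulAddMonoidHom p : A →+ A).range

variable {A : Type} [AddCommGroup A]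

instance : AddCommGroup (ModP p A) :=
  inferInstanceAs (AddCommGroup (A ⧸ (nsmulAddMonoidHom p : A →+ A).range))

/-- The quotient map to `A / p A`. -/
def toModP : A →+ ModP p A := QuotientAddGroup.mk' _

theorem toModP_surjective : Function.Surjective (toModP p (A := A)) :=
  QuotientAddGroup.mk'_surjective _

theorem toModP_eq_zero_iff {a : A} : toModP p a = 0 ↔ ∃ b, p • b = a :=
  (QuotientAddGroup.eq_zero_iff (N := (nsmulAddMonoidHom p : A →+ A).range) a).trans Iff.rfl

theorem toModP_eq_iff {a b : A} : toModP p a = toModP p b ↔ ∃ c, p • c = a - b := by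
  rw [← sub_eq_zero, ← map_sub, toModP_eq_zero_iff]

instance : Module (ZMod p) (ModP p A) :=
  AddCommGroup.zmodModule fun x => by
    obtain ⟨a, rfl⟩ := toModP_surjective p x
    rw [← map_nsmul, toModP_eq_zero_iff]
    exact ⟨a, rfl⟩

variable (A) in
/-- `A[p]`. -/
def TorP : Type := ↥(nsmulAddMonoidHom p : A →+ A).ker

instance : AddCommGroup (TorP p A) :=
  inferInstanceAs (AddCommGroup ↥(nsmulAddMonoidHom p : A →+ A).ker)

/-- The inclusion of `A[p]`. -/
def ofTorP : TorP p A →+ A := AddSubgroup.subtype _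

theorem ofTorP_injective : Function.Injective (ofTorP p (A := A)) := Subtype.val_injective

theorem nsmul_ofTorP (x : TorP p A) : p • ofTorP p x = 0 := x.2

theorem exists_ofTorP {a : A} (h : p • a = 0) : ∃ x : TorP p A, ofTorP p x = a := ⟨⟨a, h⟩, rfl⟩

instance : Module (ZMod p) (TorP p A) :=
  AddCommGroup.zmodModule fun x => ofTorP_injective p (by
    rw [map_nsmul, nsmul_ofTorP, map_zero])

variable {B D : Type} [AddCommGroup B] [AddCommGroup D]

/-- Functoriality of `A / p A`. -/
def modPMap (f : A →+ B) : ModP p A →ₗ[ZMod p] ModP p B :=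
  AddMonoidHom.toZModLinearMap p
    (QuotientAddGroup.map _ _ f (by
      rintro _ ⟨a, rfl⟩
      exact ⟨f a, by simp⟩))

@[simp] theorem modPMap_toModP (f : A →+ B) (a : A) :
    modPMap p f (toModP p a) = toModP p (f a) := rfl

/-- Functoriality of `A[p]`. -/
def torPMap (f : A →+ B) : TorP p A →ₗ[ZMod p] TorP p B :=
  AddMonoidHom.toZModLinearMap p
    ((f.comp (ofTorP p)).codRestrict _ fun x => by
      show p • f (ofTorP p x) = 0
      rw [← map_nsmul, nsmul_ofTorP, map_zero])

@[simp] theorem ofTorP_torPMap (f : A →+ B) (x : TorP p A) :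
    ofTorP p (torPMap p f x) = f (ofTorP p x) := rfl

variable {C : Type} [Group C]

/-- The action on `A / p A`. -/
def modPRep (α : C →* AddMonoid.End A) : Representation (ZMod p) C (ModP p A) where
  toFun c := modPMap p (α c)
  map_one' := LinearMap.ext fun x => by
    obtain ⟨a, rfl⟩ := toModP_surjective p x
    rw [modPMap_toModP, map_one]; rfl
  map_mul' c d := LinearMap.ext fun x => by
    obtain ⟨a, rfl⟩ := toModP_surjective p x
    rw [Module.End.mul_apply, modPMap_toModP, modPMap_toModP, modPMap_toModP, map_mul]; rfl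

/-- The action on `A[p]`. -/
def torPRep (α : C →* AddMonoid.End A) : Representation (ZMod p) C (TorP p A) where
  toFun c := torPMap p (α c)
  map_one' := LinearMap.ext fun x => ofTorP_injective p (by rw [ofTorP_torPMap, map_one]; rfl)
  map_mul' c d := LinearMap.ext fun x => ofTorP_injective p (by
    rw [Module.End.mul_apply, ofTorP_torPMap, ofTorP_torPMap, ofTorP_torPMap, map_mul]; rfl)

/-- A subrepresentation on an invariant submodule. -/
def subRep {X : Type} [AddCommGroup X] [Module (ZMod p) X] (σ : Representation (ZMod p) C X)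
    (U : Submodule (ZMod p) X) (hU : ∀ c, ∀ x ∈ U, σ c x ∈ U) : Representation (ZMod p) C U where
  toFun c := (σ c).restrict (hU c)
  map_one' := LinearMap.ext fun x => Subtype.ext (by simp)
  map_mul' c d := LinearMap.ext fun x => Subtype.ext (by simp)

section Additive

variable {k : Type} [Field k] [Algebra (ZMod p) k] [Fintype C]
variable {W : Type} [AddCommGroup W] [Module k W] [Module (ZMod p) W] [IsScalarTower (ZMod p) k W]
  [Finite W] (ρ : Representation k C W)

variable {p}

theorem range_invariant {X Y : Type} [AddCommGroup X] [Module (ZMod p) X] [AddCommGroup Y]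
    [Module (ZMod p) Y] {σ : Representation (ZMod p) C X} {τ : Representation (ZMod p) C Y}
    (f : X →ₗ[ZMod p] Y) (hf : ∀ c x, f (σ c x) = τ c (f x)) :
    ∀ c, ∀ y ∈ LinearMap.range f, τ c y ∈ LinearMap.range f := by
  rintro c _ ⟨x, rfl⟩
  exact ⟨σ c x, hf c x⟩

/-- The count of the image of an equivariant map. -/
def cntRange {X Y : Type} [AddCommGroup X] [Module (ZMod p) X] [AddCommGroup Y]
    [Module (ZMod p) Y] {σ : Representation (ZMod p) C X} {τ : Representation (ZMod p) C Y}
    (f : X →ₗ[ZMod p] Y) (hf : ∀ c x, f (σ c x) = τ c (f x)) : ℕ :=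
  cnt ρ (subRep p τ (LinearMap.range f) (range_invariant f hf))

variable {ρ}

/-- `cnt` is invariant under equivariant isomorphisms. -/
theorem cnt_congr {X Y : Type} [AddCommGroup X] [Module (ZMod p) X] [AddCommGroup Y]
    [Module (ZMod p) Y] {σ : Representation (ZMod p) C X} {τ : Representation (ZMod p) C Y}
    (e : X ≃ₗ[ZMod p] Y) (he : ∀ c x, e (σ c x) = τ c (e x)) : cnt ρ σ = cnt ρ τ := by
  have hsymm : ∀ c y, e.symm (τ c y) = σ c (e.symm y) := fun c y => e.injective (by
    rw [he, e.apply_symm_apply, e.apply_symm_apply])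
  exact LinearEquiv.finrank_eq
    { toFun := eqRes ρ e.toLinearMap.dualMap (dual_comp_eq e.toLinearMap he)
      map_add' := map_add _
      map_smul' := map_smul _
      invFun := eqRes ρ e.symm.toLinearMap.dualMap (dual_comp_eq e.symm.toLinearMap hsymm)
      left_inv := fun T => Subtype.ext (LinearMap.ext fun ξ =>
        congrArg T.1 (LinearMap.ext fun x => congrArg ξ (by simp)))
      right_inv := fun T => Subtype.ext (LinearMap.ext fun ξ =>
        congrArg T.1 (LinearMap.ext fun x => congrArg ξ (by simp))) }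

theorem cnt_eq_cntRange_add {X Y Z : Type} [AddCommGroup X] [Module (ZMod p) X] [AddCommGroup Y]
    [Module (ZMod p) Y] [AddCommGroup Z] [Module (ZMod p) Z] [Finite Y] (hρ : IsRelProj ρ)
    {σ : Representation (ZMod p) C X} {τ : Representation (ZMod p) C Y}
    {υ : Representation (ZMod p) C Z} (f : X →ₗ[ZMod p] Y) (g : Y →ₗ[ZMod p] Z)
    (hf : ∀ c x, f (σ c x) = τ c (f x)) (hg : ∀ c y, g (τ c y) = υ c (g y))
    (hex : Function.Exact f g) : cnt ρ τ = cntRange ρ f hf + cntRange ρ g hg :=
  cnt_eq_add hρ (LinearMap.range f).subtype g.rangeRestrict (fun _ _ => rfl)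
    (fun c y => Subtype.ext (hg c y)) Subtype.val_injective g.surjective_rangeRestrict
    (fun y => by
      constructor
      · intro h
        obtain ⟨x, rfl⟩ := (hex y).mp (congrArg Subtype.val h)
        exact ⟨⟨f x, x, rfl⟩, rfl⟩
      · rintro ⟨⟨_, x, rfl⟩, rfl⟩
        exact Subtype.ext (hex.apply_apply_eq_zero x))

theorem cntRange_of_injective {X Y : Type} [AddCommGroup X] [Module (ZMod p) X] [AddCommGroup Y]
    [Module (ZMod p) Y] [Finite X] (hρ : IsRelProj ρ)
    {σ : Representation (ZMod p) C X} {τ : Representation (ZMod p) C Y}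
    (f : X →ₗ[ZMod p] Y) (hf : ∀ c x, f (σ c x) = τ c (f x)) (hinj : Function.Injective f) :
    cntRange ρ f hf = cnt ρ σ := by
  have h0 : ∀ c x, (0 : PUnit →ₗ[ZMod p] X) ((1 : Representation (ZMod p) C PUnit) c x) =
      σ c ((0 : PUnit →ₗ[ZMod p] X) x) := fun c x => by simp
  have h1 := cnt_eq_add hρ (0 : PUnit →ₗ[ZMod p] X) f.rangeRestrict h0
    (υ := subRep p τ _ (range_invariant f hf)) (fun c y => Subtype.ext (hf c y))
    (fun _ _ _ => Subsingleton.elim _ _) f.surjective_rangeRestrict
    (fun y => by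
      constructor
      · intro h
        exact ⟨0, by simp [hinj ((congrArg Subtype.val h).trans (map_zero f).symm)]⟩
      · rintro ⟨_, rfl⟩
        simp)
  have hz : cnt ρ (1 : Representation (ZMod p) C PUnit) = 0 := by
    have : Subsingleton (Module.Dual (ZMod p) PUnit →ₗ[ZMod p] W) :=
      ⟨fun a b => LinearMap.ext fun x => by
        rw [show x = 0 from LinearMap.ext fun u => by
          rw [Subsingleton.elim u 0, map_zero, map_zero], map_zero, map_zero]⟩
    rw [cnt]
    exact Module.finrank_zero_of_subsingleton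
  rw [cntRange, h1, hz, zero_add]

theorem cntRange_of_surjective {X Y : Type} [AddCommGroup X] [Module (ZMod p) X] [AddCommGroup Y]
    [Module (ZMod p) Y] {σ : Representation (ZMod p) C X} {τ : Representation (ZMod p) C Y}
    (f : X →ₗ[ZMod p] Y) (hf : ∀ c x, f (σ c x) = τ c (f x)) (hsurj : Function.Surjective f) :
    cntRange ρ f hf = cnt ρ τ := by
  exact cnt_congr (LinearEquiv.ofTop _ (LinearMap.range_eq_top.mpr hsurj)) fun _ _ => rfl

variable (p) in
/-- `A/p` and `A[p]` are finite. -/
def XiFin (A : Type) [AddCommGroup A] : Prop := Finite (ModP p A) ∧ Finite (TorP p A)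

variable (ρ) in
/-- `ξ(A) = cnt(A/p) - cnt(A[p])`. -/
def xi (α : C →* AddMonoid.End A) : ℤ :=
  (cnt ρ (modPRep p α) : ℤ) - cnt ρ (torPRep p α)

/-- `ξ` is additive in short exact sequences. -/
theorem xi_eq_add (hρ : IsRelProj ρ) {α : C →* AddMonoid.End A} {β : C →* AddMonoid.End B}
    {δ : C →* AddMonoid.End D} (f : A →+ B) (g : B →+ D) (hf : ∀ c a, f (α c a) = β c (f a))
    (hg : ∀ c b, g (β c b) = δ c (g b)) (hinj : Function.Injective f)
    (hsurj : Function.Surjective g) (hex : Function.Exact f g)
    (hA : XiFin p A) (hB : XiFin p B) (hD : XiFin p D) :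
    xi (p := p) ρ β = xi (p := p) ρ α + xi (p := p) ρ δ := by
  have := hA.1; have := hA.2; have := hB.1; have := hB.2; have := hD.1; have := hD.2
  choose s hs using fun d : TorP p D => hsurj (ofTorP p d)
  have hps : ∀ d, ∃ a, f a = p • s d := fun d =>
    (hex _).mp (by rw [map_nsmul, hs, nsmul_ofTorP])
  choose t ht using hps
  have hwd : ∀ (d : TorP p D) (b : B) (a : A), g b = ofTorP p d → f a = p • b →
      toModP p a = toModP p (t d) := by
    intro d b a hb ha
    obtain ⟨a', ha'⟩ := (hex (b - s d)).mp (by rw [map_sub, hb, hs, sub_self])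
    exact (toModP_eq_iff p).mpr ⟨a', hinj (by rw [map_nsmul, ha', map_sub, ha, ht, smul_sub])⟩
  let conn : TorP p D →ₗ[ZMod p] ModP p A :=
    AddMonoidHom.toZModLinearMap p (AddMonoidHom.mk' (fun d => toModP p (t d)) fun d d' => by
      rw [← map_add]
      exact (hwd (d + d') (s d + s d') (t d + t d') (by rw [map_add, hs, hs, map_add])
        (by rw [map_add, ht, ht, smul_add])).symm)
  have hconn : ∀ c d, conn (torPRep p δ c d) = modPRep p α c (conn d) := fun c d => by
    show toModP p (t (torPMap p (δ c) d)) = toModP p (α c (t d))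
    exact (hwd _ (β c (s d)) (α c (t d)) (by rw [hg, hs]; rfl)
      (by rw [hf, ht, map_nsmul])).symm
  have h1 : ∀ c x, torPMap p f (torPRep p α c x) = torPRep p β c (torPMap p f x) :=
    fun c x => ofTorP_injective p (hf c _)
  have h2 : ∀ c x, torPMap p g (torPRep p β c x) = torPRep p δ c (torPMap p g x) :=
    fun c x => ofTorP_injective p (hg c _)
  have h4 : ∀ c x, modPMap p f (modPRep p α c x) = modPRep p β c (modPMap p f x) := fun c x => by
    obtain ⟨a, rfl⟩ := toModP_surjective p x
    exact congrArg (toModP p) (hf c a)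
  have h5 : ∀ c x, modPMap p g (modPRep p β c x) = modPRep p δ c (modPMap p g x) := fun c x => by
    obtain ⟨a, rfl⟩ := toModP_surjective p x
    exact congrArg (toModP p) (hg c a)
  have i1 : Function.Injective (torPMap p f) := fun x y h =>
    ofTorP_injective p (hinj (congrArg (ofTorP p) h))
  have s5 : Function.Surjective (modPMap p g) := fun y => by
    obtain ⟨d, rfl⟩ := toModP_surjective p y
    obtain ⟨b, rfl⟩ := hsurj d
    exact ⟨toModP p b, rfl⟩
  have e12 : Function.Exact (torPMap p f) (torPMap p g) := fun x => by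
    constructor
    · intro h
      obtain ⟨a, ha⟩ := (hex (ofTorP p x)).mp (congrArg (ofTorP p) h)
      obtain ⟨x', rfl⟩ := exists_ofTorP p (a := a) (hinj (by
        rw [map_nsmul, ha, nsmul_ofTorP, map_zero]))
      exact ⟨x', ofTorP_injective p ha⟩
    · rintro ⟨x', rfl⟩
      exact ofTorP_injective p (hex.apply_apply_eq_zero _)
  have e23 : Function.Exact (torPMap p g) conn := fun d => by
    constructor
    · intro h
      obtain ⟨a, ha⟩ := (toModP_eq_zero_iff p).mp (show toModP p (t d) = 0 from h)
      obtain ⟨x, hx⟩ := exists_ofTorP p (a := s d - f a) (by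
        rw [smul_sub, ← map_nsmul, ha, ht, sub_self])
      refine ⟨x, ofTorP_injective p ?_⟩
      rw [ofTorP_torPMap, hx, map_sub, hs, hex.apply_apply_eq_zero, sub_zero]
    · rintro ⟨x, rfl⟩
      show toModP p (t _) = 0
      rw [← hwd _ (ofTorP p x) 0 rfl (by rw [map_zero, nsmul_ofTorP]), map_zero]
  have e34 : Function.Exact conn (modPMap p f) := fun x => by
    obtain ⟨a, rfl⟩ := toModP_surjective p x
    constructor
    · intro h
      obtain ⟨b, hb⟩ := (toModP_eq_zero_iff p).mp (show toModP p (f a) = 0 from h)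
      obtain ⟨d, hd⟩ := exists_ofTorP p (a := g b) (by
        rw [← map_nsmul, hb, hex.apply_apply_eq_zero])
      exact ⟨d, (hwd d b a hd.symm hb.symm).symm⟩
    · rintro ⟨d, hd⟩
      rw [← hd]
      show toModP p (f (t d)) = 0
      rw [ht]
      exact (toModP_eq_zero_iff p).mpr ⟨_, rfl⟩
  have e45 : Function.Exact (modPMap p f) (modPMap p g) := fun x => by
    obtain ⟨b, rfl⟩ := toModP_surjective p x
    constructor
    · intro h
      obtain ⟨d, hd⟩ := (toModP_eq_zero_iff p).mp (show toModP p (g b) = 0 from h)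
      obtain ⟨b', rfl⟩ := hsurj d
      obtain ⟨a, ha⟩ := (hex (b - p • b')).mp (by rw [map_sub, map_nsmul, hd, sub_self])
      refine ⟨toModP p a, ?_⟩
      rw [modPMap_toModP, toModP_eq_iff]
      exact ⟨-b', by rw [ha, smul_neg]; abel⟩
    · rintro ⟨x', hx'⟩
      obtain ⟨a, rfl⟩ := toModP_surjective p x'
      rw [← hx', modPMap_toModP, modPMap_toModP, hex.apply_apply_eq_zero, map_zero]
  have q1 := cnt_eq_cntRange_add hρ _ _ h1 h2 e12
  have q2 := cnt_eq_cntRange_add hρ _ _ h2 hconn e23
  have q3 := cnt_eq_cntRange_add hρ _ _ hconn h4 e34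
  have q4 := cnt_eq_cntRange_add hρ _ _ h4 h5 e45
  rw [cntRange_of_injective hρ _ h1 i1] at q1
  rw [cntRange_of_surjective _ h5 s5] at q4
  simp only [xi]
  omega

end Additive

end FLTAgent.TW
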