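import Fermat.Agent.TW.ProjExtra
import Fermat.Agent.TW.Xi
import Fermat.Agent.TW.Field

/-!
# Linear algebra helpers
-/

set_option autoImplicit false
set_option linter.unusedSectionVars false

noncomputable section

namespace FLTAgent.TW

variable {p : ℕ} [Fact p.Prime]

/-- A separating family of functionals spans the dual of a finite space. -/
theorem span_eq_top_of_separating {X : Type} [AddCommGroup X] [Module (ZMod p) X] [Finite X]
    (s : Set (Module.Dual (ZMod p) X)) (h : ∀ x, (∀ φ ∈ s, φ x = 0) → x = 0) :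
    Submodule.span (ZMod p) s = ⊤ := by
  have hbot : (Submodule.span (ZMod p) s).dualCoannihilator = ⊥ := by
    rw [eq_bot_iff]
    intro x hx
    rw [Submodule.mem_bot]
    rw [Submodule.mem_dualCoannihilator] at hx
    exact h x fun φ hφ => hx φ (Submodule.subset_span hφ)
  rw [← Subspace.dualCoannihilator_dualAnnihilator_eq (W := Submodule.span (ZMod p) s), hbot,
    Submodule.dualAnnihilator_bot]

/-- An additive map into the dual with separating image is surjective. -/
theorem surjective_of_separating {G : Type} [Group G] {X : Type} [AddCommGroup X]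
    [Module (ZMod p) X] [Finite X] (f : G → Module.Dual (ZMod p) X)
    (hf : ∀ g h, f (g * h) = f g + f h) (h : ∀ x, (∀ g, f g x = 0) → x = 0) :
    Function.Surjective f := by
  let F : Additive G →+ Module.Dual (ZMod p) X := AddMonoidHom.mk' (fun g => f g.toMul) fun a b =>
    hf a.toMul b.toMul
  let U : Submodule (ZMod p) (Module.Dual (ZMod p) X) := AddSubgroup.toZModSubmodule p F.range
  have htop : Submodule.span (ZMod p) (Set.range f) = ⊤ :=
    span_eq_top_of_separating _ fun x hx => h x fun g => hx _ ⟨g, rfl⟩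
  have hle : Submodule.span (ZMod p) (Set.range f) ≤ U :=
    Submodule.span_le.mpr (by rintro _ ⟨g, rfl⟩; exact ⟨Additive.ofMul g, rfl⟩)
  intro φ
  obtain ⟨g, hg⟩ := hle (htop ▸ Submodule.mem_top (x := φ))
  exact ⟨g.toMul, hg⟩

variable {k : Type} [Field k] [Algebra (ZMod p) k] {C : Type} [Group C] [Fintype C]
variable {W : Type} [AddCommGroup W] [Module k W] [Module (ZMod p) W] [IsScalarTower (ZMod p) k W]
  [Finite W] {ρ : Representation k C W}

/-- The restriction on equivariant maps of duals is surjective when the cokernel counts zero. -/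
theorem eqRes_dualMap_surjective (hρ : IsRelProj ρ) {X Y : Type} [AddCommGroup X]
    [Module (ZMod p) X] [AddCommGroup Y] [Module (ZMod p) Y] [Finite Y]
    {σ : Representation (ZMod p) C X} {τ : Representation (ZMod p) C Y}
    (f : X →ₗ[ZMod p] Y) (hf : ∀ c x, f (σ c x) = τ c (f x))
    (hR : ∀ c, ∀ y ∈ LinearMap.range f, τ c y ∈ LinearMap.range f)
    (hcoker : cnt ρ (τ.quotient (LinearMap.range f) hR) = 0) :
    Function.Surjective (eqRes ρ f.dualMap (dual_comp_eq f hf)) := by
  intro T
  set g := (LinearMap.range f).mkQ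
  have hg : ∀ c y, g (τ c y) = τ.quotient (LinearMap.range f) hR c (g y) := fun c y => rfl
  have hz : eqRes ρ g.dualMap (dual_comp_eq g hg) T = 0 := by
    have : Subsingleton (eqMaps ρ (τ.quotient (LinearMap.range f) hR).dual) :=
      Module.finrank_zero_iff.mp hcoker
    exact Subsingleton.elim _ _
  -- `T` factors through the range of `f.dualMap`
  have hker : ∀ ξ : Module.Dual (ZMod p) Y, f.dualMap ξ = 0 →
      (T : Module.Dual (ZMod p) Y →ₗ[ZMod p] W) ξ = 0 := fun ξ hξ => by
    have hle : LinearMap.range f ≤ LinearMap.ker ξ := by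
      rintro _ ⟨x, rfl⟩
      exact LinearMap.congr_fun hξ x
    have h := LinearMap.congr_fun (congrArg Subtype.val hz) ((LinearMap.range f).liftQ ξ hle)
    have e : g.dualMap ((LinearMap.range f).liftQ ξ hle) = ξ := LinearMap.ext fun y => rfl
    rw [← e]
    exact h
  set r := f.dualMap.rangeRestrict
  have : Module.Free (ZMod p) (LinearMap.range f.dualMap) :=
    Module.Free.of_divisionRing (ZMod p) _
  obtain ⟨s, hs⟩ := r.exists_rightInverse_of_surjective
    (LinearMap.range_eq_top.mpr f.dualMap.surjective_rangeRestrict)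
  have hrange : ∀ c, ∀ ξ ∈ LinearMap.range f.dualMap, σ.dual c ξ ∈ LinearMap.range f.dualMap := by
    rintro c _ ⟨η, rfl⟩
    exact ⟨τ.dual c η, dual_comp_eq f hf c η⟩
  let σR : Representation (ZMod p) C (LinearMap.range f.dualMap) := subRep p σ.dual _ hrange
  have hfac : ∀ ξ, (T : Module.Dual (ZMod p) Y →ₗ[ZMod p] W) (s (r ξ)) =
      (T : Module.Dual (ZMod p) Y →ₗ[ZMod p] W) ξ := fun ξ => by
    rw [← sub_eq_zero, ← map_sub]
    refine hker _ ?_
    have h1 : r (s (r ξ) - ξ) = 0 := by
      rw [map_sub, ← LinearMap.comp_apply, hs, LinearMap.id_apply, sub_self]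
    exact congrArg Subtype.val h1
  have hT' : (T : Module.Dual (ZMod p) Y →ₗ[ZMod p] W).comp s ∈ eqMaps ρ σR := fun c x => by
    obtain ⟨ξ, rfl⟩ := f.dualMap.surjective_rangeRestrict x
    rw [LinearMap.comp_apply, LinearMap.comp_apply, hfac, ← T.2 c ξ, ← hfac (τ.dual c ξ)]
    congr 2
    exact Subtype.ext (dual_comp_eq f hf c ξ).symm
  obtain ⟨T'', hT'', hext⟩ := exists_eqMaps_extend hρ (LinearMap.range f.dualMap).subtype
    Subtype.val_injective (τ := σ.dual) (fun c x => rfl) hT'
  refine ⟨⟨T'', hT''⟩, Subtype.ext (LinearMap.ext fun ξ => ?_)⟩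
  have := LinearMap.congr_fun hext (r ξ)
  rw [LinearMap.comp_apply, LinearMap.comp_apply, hfac] at this
  exact this

/-- The dimension of a preimage under a surjection. -/
theorem finrank_comap_of_surjective {K V V₂ : Type} [Field K] [AddCommGroup V] [Module K V]
    [Module.Finite K V] [AddCommGroup V₂] [Module K V₂] (f : V →ₗ[K] V₂)
    (hf : Function.Surjective f) (N : Submodule K V₂) :
    Module.finrank K ↥(N.comap f) = Module.finrank K N + Module.finrank K (LinearMap.ker f) := by
  let g : ↥(N.comap f) →ₗ[K] N :=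
    (f.comp (N.comap f).subtype).codRestrict N fun x => x.2
  have hg : Function.Surjective g := fun y => by
    obtain ⟨x, hx⟩ := hf y.1
    exact ⟨⟨x, show f x ∈ N from hx ▸ y.2⟩, Subtype.ext hx⟩
  have h := LinearMap.finrank_range_add_finrank_ker g
  rw [LinearMap.range_eq_top.mpr hg, finrank_top] at h
  have hker : LinearMap.ker g = (LinearMap.ker f).comap (N.comap f).subtype := by
    rw [LinearMap.ker_codRestrict, LinearMap.ker_comp]
  rw [hker, LinearEquiv.finrank_eq (Submodule.comapSubtypeEquivOfLe
    (fun x hx => show f x ∈ N by rw [LinearMap.mem_ker.mp hx]; exact zero_mem N))] at h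
  omega

/-- A finite family of functions through finite levels goes through a common finite level. -/
theorem exists_common_level {X ι : Type} [Finite ι] {D : Subgroup Γ} (f : ι → D → X)
    (h : ∀ i, IsLevel (f i)) :
    ∃ L : IntermediateField ℚ Qb, FiniteDimensional ℚ L ∧
      ∀ i, ∀ g s : D, (∀ x ∈ L, (s : Γ) x = x) → f i (g * s) = f i g := by
  have : Fintype ι := Fintype.ofFinite ι
  choose L hL hf using h
  have := hL
  exact ⟨⨆ i, L i, inferInstance, fun i g s hs => hf i g s fun x hx =>
    hs x (le_iSup L i hx)⟩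

end FLTAgent.TW
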