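import Fermat.Agent.TW.Setting
import Fermat.Agent.TW.KummerExists
import Fermat.Agent.TW.LinTools

/-!
# Equivariant homomorphisms and Kummer theory
-/

set_option autoImplicit false
set_option linter.unusedSectionVars false

open IsDedekindDomain NumberField
open scoped Pointwise

noncomputable section

namespace FLTAgent.TW

variable {p : ℕ} [hpf : Fact p.Prime]

namespace KField

variable (S : KField p)
variable {k : Type} [Field k] [Algebra (ZMod p) k]
variable {W : Type} [AddCommGroup W] [Module k W] [Module (ZMod p) W] [IsScalarTower (ZMod p) k W]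
  [Finite W]

/-- `f` kills inertia outside `T`. -/
def InertiaKills (T : Set (Ext.Place S.K)) (f : S.K.fixingSubgroup → W) : Prop :=
  ∀ (A : ValuationSubring Qb) (l : ℕ) (hl : l.Prime) (hA : A.LiesOverPrime l),
    placeIn S.K A hl hA ∉ T →
      ∀ σ : S.K.fixingSubgroup, (σ : Γ) ∈ A.inertiaSubgroupIn ℚ → f σ = 0

/-- Equivariant homomorphisms unramified outside `T`. -/
def eqHom (ρ : Representation k S.C W) (T : Set (Ext.Place S.K)) :
    Submodule k (S.K.fixingSubgroup → W) where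
  carrier := {f | (∀ σ τ, f (σ * τ) = f σ + f τ) ∧ IsLevel f ∧
    (∀ h σ, f (S.conjK h σ) = twistRep S.eps ρ (S.π h) (f σ)) ∧ S.InertiaKills T f}
  zero_mem' := ⟨fun _ _ => by simp, ⟨⊥, inferInstance, fun _ _ _ => rfl⟩, fun _ _ => by simp,
    fun _ _ _ _ _ _ _ => rfl⟩
  add_mem' := by
    rintro a b ⟨a1, ⟨L, hL, a2⟩, a3, a4⟩ ⟨b1, ⟨L', hL', b2⟩, b3, b4⟩
    refine ⟨fun σ τ => ?_, ⟨L ⊔ L', IntermediateField.finiteDimensional_sup L L',
      fun g s hs => ?_⟩, fun h σ => ?_, fun A l hl hA hT σ hσ => ?_⟩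
    · simp only [Pi.add_apply, a1, b1]; abel
    · simp only [Pi.add_apply]
      rw [a2 g s fun x hx => hs x (le_sup_left (b := L') hx),
        b2 g s fun x hx => hs x (le_sup_right (a := L) hx)]
    · simp only [Pi.add_apply, a3, b3, map_add]
    · simp only [Pi.add_apply, a4 A l hl hA hT σ hσ, b4 A l hl hA hT σ hσ, add_zero]
  smul_mem' := by
    rintro t a ⟨a1, ⟨L, hL, a2⟩, a3, a4⟩
    refine ⟨fun σ τ => ?_, ⟨L, hL, fun g s hs => ?_⟩, fun h σ => ?_,
      fun A l hl hA hT σ hσ => ?_⟩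
    · simp only [Pi.smul_apply, a1, smul_add]
    · simp only [Pi.smul_apply, a2 g s hs]
    · simp only [Pi.smul_apply, a3, map_smul]
    · simp only [Pi.smul_apply, a4 A l hl hA hT σ hσ, smul_zero]

/-- Classes with valuations divisible by `p` outside `T`. -/
def XT (T : Set (Ext.Place S.K)) : Submodule (ZMod p) S.KP :=
  ⨅ v ∈ Tᶜ, LinearMap.ker (S.ordP v)

theorem mem_XT {T : Set (Ext.Place S.K)} {a : S.KP} : a ∈ S.XT T ↔ ∀ v ∉ T, S.ordP v a = 0 := by
  simp [XT, Submodule.mem_iInf]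

theorem cls_mem_XT {T : Set (Ext.Place S.K)} {x : S.Kˣ} :
    S.cls x ∈ S.XT T ↔ ∀ v ∉ T, (p : ℤ) ∣ Ext.ord v (x : S.K) := by
  rw [mem_XT]
  exact forall₂_congr fun v _ => by rw [ordP_cls, ZMod.intCast_zmod_eq_zero_iff_dvd]

/-- `T` is stable under `C`. -/
def IsStable (T : Set (Ext.Place S.K)) : Prop := ∀ (c : S.C), ∀ v ∈ T, c • v ∈ T

variable {S}

theorem IsStable.compl {T : Set (Ext.Place S.K)} (hT : S.IsStable T) (c : S.C) {v : Ext.Place S.K}
    (hv : v ∉ T) : c • v ∉ T := fun h => hv (by simpa using hT c⁻¹ _ h)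

theorem IsStable.kpRep_mem {T : Set (Ext.Place S.K)} (hT : S.IsStable T) :
    ∀ c, ∀ a ∈ S.XT T, S.kpRep c a ∈ S.XT T := fun c a ha => by
  rw [mem_XT] at ha ⊢
  intro v hv
  rw [show v = c • c⁻¹ • v by rw [smul_inv_smul], ordP_smul]
  exact ha _ (hT.compl _ hv)

/-- The action on `XT`. -/
abbrev xtRep {T : Set (Ext.Place S.K)} (hT : S.IsStable T) :
    Representation (ZMod p) S.C (S.XT T) :=
  subRep p S.kpRep (S.XT T) hT.kpRep_mem

/-- Evaluation on `XT`. -/
def evT (T : Set (Ext.Place S.K)) (σ : S.K.fixingSubgroup) : Module.Dual (ZMod p) (S.XT T) :=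
  (S.ev σ).comp (S.XT T).subtype

theorem evT_mul (T : Set (Ext.Place S.K)) (σ τ : S.K.fixingSubgroup) :
    evT T (σ * τ) = evT T σ + evT T τ := by
  rw [evT, S.ev_mul, LinearMap.add_comp]; rfl

theorem evT_surjective (T : Set (Ext.Place S.K)) [Finite (S.XT T)] :
    Function.Surjective (evT (S := S) T) := by
  refine surjective_of_separating _ (evT_mul T) fun a ha => Subtype.ext ?_
  obtain ⟨x, hx⟩ := S.cls_surjective a
  show (a : S.KP) = 0
  rw [← hx, S.cls_eq_zero_iff]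
  refine (kum_eq_zero_iff_mem_powSub S.hζ x).mp fun σ => ?_
  have h : S.ev σ (a : S.KP) = 0 := ha σ
  rwa [← hx, S.ev_cls] at h

theorem evT_conj {T : Set (Ext.Place S.K)} (hT : S.IsStable T) (h : S.H)
    (σ : S.K.fixingSubgroup) :
    (xtRep hT).dual (S.π h) (evT T σ) = (S.eps (S.π h)⁻¹ : ZMod p) • evT T (S.conjK h σ) := by
  refine LinearMap.ext fun a => ?_
  show S.ev σ (S.kpRep (S.π h)⁻¹ (a : S.KP)) = (S.eps (S.π h)⁻¹ : ZMod p) •
    S.ev (S.conjK h σ) (a : S.KP)
  have h1 := S.ev_conj h σ (S.kpRep (S.π h)⁻¹ (a : S.KP))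
  rw [← Module.End.mul_apply, ← map_mul, mul_inv_cancel, map_one, Module.End.one_apply] at h1
  rw [h1, smul_eq_mul, ← mul_assoc, ← Units.val_mul, ← map_mul, inv_mul_cancel, map_one,
    Units.val_one, one_mul]

variable {T : Set (Ext.Place S.K)} {ρ : Representation k S.C W}

/-- The homomorphism of an equivariant map. -/
def ofMaps (hT : S.IsStable T) (hp : ∀ v : Ext.Place S.K, (p : 𝓞 S.K) ∈ v.asIdeal → v ∈ T)
    [Finite (S.XT T)] : eqMaps ρ (xtRep hT).dual →ₗ[k] S.eqHom ρ T where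
  toFun M := ⟨fun σ => M.1 (evT T σ), fun σ τ => by simp only [evT_mul, map_add], by
    choose x hx using fun a : S.XT T => S.cls_surjective (a : S.KP)
    obtain ⟨L, hL, hlev⟩ := exists_common_level
      (fun a : S.XT T => fun σ => kum p S.ζ (x a) σ) fun a => kum_isLevel S.hζ (x a)
    refine ⟨L, hL, fun g s hs => congrArg M.1 (LinearMap.ext fun a => ?_)⟩
    show S.ev (g * s) (a : S.KP) = S.ev g (a : S.KP)
    rw [← hx a, S.ev_cls, S.ev_cls]
    exact hlev a g s hs, fun h σ => by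
    have h1 := M.2 (S.π h) (evT T σ)
    rw [evT_conj, map_smul] at h1
    show M.1 (evT T (S.conjK h σ)) = twistRep S.eps ρ (S.π h) (M.1 (evT T σ))
    rw [twistRep_apply, algebraMap_smul, ← h1, smul_smul, ← Units.val_mul, ← map_mul,
      mul_inv_cancel, map_one, Units.val_one, one_smul], fun A l hl hA hv σ hσ => by
    have hlp : l ≠ p := fun h => hv (hp _ (by
      have h' : (l : 𝓞 S.K) ∈ (placeIn S.K A hl hA).asIdeal := natCast_mem_placeIn
      simpa [h] using h'))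
    show M.1 (evT T σ) = 0
    rw [show evT T σ = 0 from LinearMap.ext fun a => by
      obtain ⟨x, hx⟩ := S.cls_surjective (a : S.KP)
      show S.ev σ (a : S.KP) = 0
      rw [← hx, S.ev_cls]
      refine kum_eq_zero_of_dvd_ord (hl := hl) (hA := hA) S.hζ hlp ?_ σ hσ
      exact S.cls_mem_XT.mp (hx ▸ a.2) _ hv]
    exact map_zero _⟩
  map_add' _ _ := rfl
  map_smul' _ _ := rfl

@[simp] theorem ofMaps_apply (hT : S.IsStable T)
    (hp : ∀ v : Ext.Place S.K, (p : 𝓞 S.K) ∈ v.asIdeal → v ∈ T) [Finite (S.XT T)]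
    (M : eqMaps ρ (xtRep hT).dual) (σ : S.K.fixingSubgroup) :
    (ofMaps hT hp M : S.K.fixingSubgroup → W) σ = M.1 (evT T σ) := rfl

theorem ofMaps_bijective (hT : S.IsStable T)
    (hp : ∀ v : Ext.Place S.K, (p : 𝓞 S.K) ∈ v.asIdeal → v ∈ T) [Finite (S.XT T)] :
    Function.Bijective (ofMaps (ρ := ρ) hT hp) := by
  refine ⟨fun M M' h => Subtype.ext (LinearMap.ext fun ξ => ?_), fun f => ?_⟩
  · obtain ⟨σ, rfl⟩ := evT_surjective T ξ
    exact congrFun (congrArg Subtype.val h) σ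
  obtain ⟨hadd, hlev, heq, hker⟩ := f.2
  have hone : f.1 1 = 0 := by simpa using hadd 1 1
  have hwd : ∀ σ τ, evT T σ = evT T τ → f.1 σ = f.1 τ := by
    intro σ τ h
    have key : evT T (σ⁻¹ * τ) = 0 := by
      have h1 := evT_mul T σ (σ⁻¹ * τ)
      rw [mul_inv_cancel_left, ← h, left_eq_add] at h1
      exact h1
    have h0 : f.1 (σ⁻¹ * τ) = 0 := by
      by_contra hne
      obtain ⟨φ, hφ⟩ : ∃ φ : Module.Dual (ZMod p) W, φ (f.1 (σ⁻¹ * τ)) ≠ 0 :=
        not_forall.mp fun hall => hne ((Module.forall_dual_apply_eq_zero_iff (ZMod p) _).mp hall)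
      obtain ⟨x, hx⟩ := exists_kum S.hζ (fun g => φ (f.1 g))
        (fun g g' => by rw [hadd, map_add]) (by
          obtain ⟨L, hL, hl⟩ := hlev
          exact ⟨L, hL, fun g s hs => congrArg φ (hl g s hs)⟩)
      have hmem : S.cls x ∈ S.XT T := S.cls_mem_XT.mpr fun v hv => by
        obtain ⟨l, hl, hlv⟩ := exists_prime_mem v
        obtain ⟨A, hA, rfl⟩ := exists_placeIn S.K v hl hlv
        exact dvd_ord_of_kum_eq_zero S.hζ fun g hg => by
          rw [hx g, hker A l hl hA hv g hg, map_zero]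
      have := LinearMap.congr_fun key ⟨_, hmem⟩
      exact hφ (by rw [← hx]; exact this)
    have h2 := hadd σ (σ⁻¹ * τ)
    rw [mul_inv_cancel_left, h0, add_zero] at h2
    exact h2.symm
  set s := Function.surjInv (evT_surjective (S := S) T)
  have hs : ∀ ξ, evT T (s ξ) = ξ := Function.surjInv_eq _
  let M₀ : Module.Dual (ZMod p) (S.XT T) →ₗ[ZMod p] W := AddMonoidHom.toZModLinearMap p
    (AddMonoidHom.mk' (fun ξ => f.1 (s ξ)) fun a b => by
      rw [← hadd]
      exact hwd _ _ (by rw [evT_mul, hs, hs, hs]))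
  have hM₀ : ∀ σ, M₀ (evT T σ) = f.1 σ := fun σ => hwd _ _ (hs _)
  refine ⟨⟨M₀, fun c ξ => ?_⟩, Subtype.ext (funext hM₀)⟩
  obtain ⟨h, rfl⟩ := S.π_surj c
  obtain ⟨σ, rfl⟩ := evT_surjective T ξ
  rw [evT_conj, map_smul, hM₀, hM₀, heq, twistRep_apply, algebraMap_smul, smul_smul,
    ← Units.val_mul, ← map_mul, inv_mul_cancel, map_one, Units.val_one, one_smul]

/-- The dimension of the space of equivariant homomorphisms unramified outside `T`. -/
theorem finrank_eqHom (hT : S.IsStable T)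
    (hp : ∀ v : Ext.Place S.K, (p : 𝓞 S.K) ∈ v.asIdeal → v ∈ T) [Finite (S.XT T)] :
    Module.finrank k (S.eqHom ρ T) = cnt ρ (xtRep hT) :=
  (LinearEquiv.ofBijective _ (ofMaps_bijective hT hp)).finrank_eq.symm

end KField

end FLTAgent.TW
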