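import Fermat.Agent.TW.Kill
import Fermat.Agent.TW.DivMaps
import Fermat.Agent.TW.PlaceActions

/-!
# The choice of a bounded number of primes killing the ray characters
-/

set_option autoImplicit false
set_option linter.unusedSectionVars false

open IsDedekindDomain NumberField
open scoped Pointwise

noncomputable section

namespace FLTAgent.TW

open FLTAgent.Frobenius

variable {p : ℕ} [hpf : Fact p.Prime]

namespace KField

variable (S : KField p)

/-- The modulus at a set of primes, deep enough for Kummer theory. -/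
def modulus (P : Finset ℕ) : Ideal (𝓞 S.K) :=
  Ideal.span {(((∏ l ∈ P, l) ^ 3 : ℕ) : 𝓞 S.K)}

variable {S}

theorem modulus_ne_bot {P : Finset ℕ} (hP : ∀ l ∈ P, l.Prime) : S.modulus P ≠ ⊥ := fun h => by
  rw [modulus, Ideal.span_singleton_eq_bot, Nat.cast_eq_zero,
    pow_eq_zero_iff (by norm_num : (3 : ℕ) ≠ 0), Finset.prod_eq_zero_iff] at h
  obtain ⟨l, hl, rfl⟩ := h
  exact Nat.not_prime_zero (hP 0 hl)

theorem mem_placesOver_of_modulus_le {P : Finset ℕ} (hP : ∀ l ∈ P, l.Prime) {v : Ext.Place S.K}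
    (hv : S.modulus P ≤ v.asIdeal) : v ∈ S.placesOver P := by
  have h : (((∏ l ∈ P, l) ^ 3 : ℕ) : 𝓞 S.K) ∈ v.asIdeal :=
    hv (Ideal.mem_span_singleton_self _)
  push_cast at h
  obtain ⟨l, hl, hlv⟩ := Ideal.IsPrime.prod_mem_iff.mp (v.isPrime.mem_of_pow_mem 3 h)
  exact S.mem_placesOver.mpr ⟨l, hl, hP l hl, hlv⟩

theorem valuation_lt_thr_of_mem_modulus {P : Finset ℕ} {v : Ext.Place S.K}
    (hv : v ∈ (S.placesOver P : Set (Ext.Place S.K))) {y : 𝓞 S.K} (hy : y ∈ S.modulus P) :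
    v.valuation S.K (y : S.K) < Ext.thr S.hζ v := by
  obtain ⟨l, hl, hlp, hlv⟩ := S.mem_placesOver.mp hv
  obtain ⟨a, rfl⟩ := Ideal.mem_span_singleton'.mp hy
  obtain ⟨c, hc⟩ := Finset.dvd_prod_of_mem (fun i => i) hl
  have hle : ∀ z : 𝓞 S.K, v.valuation S.K (z : S.K) ≤ 1 := fun z => v.valuation_le_one z
  have hl1 : v.valuation S.K ((l : 𝓞 S.K) : S.K) < 1 := by
    rw [RingOfIntegers.coe_eq_algebraMap, v.valuation_lt_one_iff_mem]
    exact hlv
  have hb : v.valuation S.K ((a * (((∏ i ∈ P, i) ^ 3 : ℕ) : 𝓞 S.K) : 𝓞 S.K) : S.K) ≤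
      v.valuation S.K ((l : 𝓞 S.K) : S.K) ^ 3 := by
    rw [hc, show (a * (((l * c) ^ 3 : ℕ) : 𝓞 S.K)) = (l : 𝓞 S.K) ^ 3 * (a * (c : 𝓞 S.K) ^ 3) by
      push_cast; ring, RingOfIntegers.coe_eq_algebraMap, map_mul (algebraMap (𝓞 S.K) S.K),
      map_mul (v.valuation S.K), map_pow, map_pow]
    exact mul_le_of_le_one_right' (hle _)
  refine hb.trans_lt ?_
  by_cases hp : l = p
  · subst hp
    rw [show (((l : 𝓞 S.K)) : S.K) = (l : S.K) by simp, Ext.valuation_natCast_eq S.hζ v, ← pow_mul]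
    have hz : v.valuation S.K (S.ζ - 1) < 1 := by
      refine lt_of_le_of_ne (Ext.valuation_sub_one_le S.hζ v) fun h1 => ?_
      rw [show (((l : 𝓞 S.K)) : S.K) = (l : S.K) by simp, Ext.valuation_natCast_eq S.hζ v, h1,
        one_pow] at hl1
      exact lt_irrefl _ hl1
    rw [Ext.thr]
    refine pow_lt_pow_right_of_lt_one₀ ?_ hz ?_
    · rw [zero_lt_iff, Valuation.ne_zero_iff, sub_ne_zero]
      exact S.hζ.ne_one hpf.out.one_lt
    · have := hpf.out.two_le
      omega
  · have h1 : v.valuation S.K ((p : ℕ) : S.K) = 1 := by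
      refine le_antisymm (by simpa using hle (p : 𝓞 S.K)) (not_lt.mp fun hlt => hp ?_)
      refine eq_of_natCast_mem hlp hpf.out v hlv ?_
      rw [show ((p : ℕ) : S.K) = algebraMap (𝓞 S.K) S.K (p : 𝓞 S.K) by simp,
        v.valuation_lt_one_iff_mem] at hlt
      exact hlt
    rw [Ext.thr_eq_one S.hζ h1]
    exact pow_lt_one₀ zero_le hl1 (by norm_num)

variable {k : Type} [Field k] [Algebra (ZMod p) k]
variable {W : Type} [AddCommGroup W] [Module k W] [Module (ZMod p) W] [IsScalarTower (ZMod p) k W]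
  [Finite W]
variable {F : IntermediateField ℚ Qb} [FiniteDimensional ℚ F] [Normal ℚ F]

/-- The dual action by additive maps. -/
def dualAct (ρ : Representation k S.C W) (c : S.C) : Module.Dual k W →+ Module.Dual k W :=
  (ρ.dual c).toAddMonoidHom

/-- The primes allowed in `Q`. -/
def GoodPrime (P : (F ≃ₐ[ℚ] F) → Prop) (n : ℕ) (bad : Finset ℕ) (l : ℕ) : Prop :=
  l.Prime ∧ l ∉ bad ∧ p ^ (n + 1) ∣ l - 1 ∧
    ∀ A : ValuationSubring Qb, A.LiesOverPrime l → A.inertiaSubgroupIn ℚ ≤ F.fixingSubgroup ∧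
      ∀ φ : Γ, A.IsFrobeniusAt φ l → P (resTo F φ)

/-- A good prime exists. -/
theorem exists_goodPrime (hp : p ≠ 2) {u : Γ} (hu : u ∈ (muField p).fixingSubgroup)
    (hu4 : resTo F u ^ 4 = 1) (P : (F ≃ₐ[ℚ] F) → Prop) (hPconj : ∀ a b, P b → P (a * b * a⁻¹))
    (hPu : P (resTo F u)) (n : ℕ) (bad : Finset ℕ) : ∃ l, GoodPrime (p := p) P n bad l := by
  set N := p ^ (n + 1)
  have : FiniteDimensional ℚ (muField N) :=
    finiteDimensional_muField (pow_ne_zero _ hpf.out.ne_zero)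
  set M : IntermediateField ℚ Qb := F ⊔ muField N
  have : FiniteDimensional ℚ M := IntermediateField.finiteDimensional_sup _ _
  obtain ⟨j, hj⟩ := (hpf.out.odd_of_ne_two hp).pow (n := n)
  set u' : Γ := u ^ (p ^ n * p ^ n) with hu'
  have huF : resTo F u' = resTo F u := by
    rw [hu', map_pow, show p ^ n * p ^ n = 4 * (j * j + j) + 1 by rw [hj]; ring, pow_succ, pow_mul,
      hu4, one_pow, one_mul]
  have hu'mu : u' ∈ (muField N).fixingSubgroup := by
    rw [hu', pow_mul]
    exact pow_mem (pow_mem_muField hu n) _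
  obtain ⟨Sram, hSram⟩ := exists_finset_inertia_le_fixingSubgroup M
  obtain ⟨l, hl, hlb, A, hA, -, φ, hφ, heq⟩ :=
    Chebotarev.exists_frobenius_eqOn M u' (bad ∪ Sram ∪ {p})
  simp only [Finset.mem_union, Finset.mem_singleton, not_or] at hlb
  have hφN : φ ∈ (muField N).fixingSubgroup := mem_fixing_muField.mpr fun x hx => by
    rw [heq x ((le_sup_right : muField N ≤ M) (IntermediateField.subset_adjoin ℚ _ hx))]
    exact mem_fixing_muField.mp hu'mu x hx
  have hφF : resTo F φ = resTo F u := by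
    rw [← huF]
    refine AlgEquiv.ext fun x => Subtype.ext ?_
    show ((AlgEquiv.restrictNormalHom F φ x : F) : Qb) =
      ((AlgEquiv.restrictNormalHom F u' x : F) : Qb)
    rw [← apply_coe_eq F φ x, ← apply_coe_eq F u' x]
    exact heq _ ((le_sup_left : F ≤ M) x.2)
  refine ⟨l, hl, hlb.1.1, dvd_sub_one_of_frobenius hl hlb.2 hA hφ hφN, fun B hB => ?_⟩
  have hin : B.inertiaSubgroupIn ℚ ≤ F.fixingSubgroup :=
    (hSram l hl hlb.1.2 B hB).trans (IntermediateField.fixingSubgroup_antitone le_sup_left)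
  refine ⟨hin, fun ψ hψ => ?_⟩
  obtain ⟨a, ha⟩ := exists_smul_eq hl hA hB
  have hconj : B.IsFrobeniusAt (a * φ * a⁻¹) l := by
    rw [← ha]; exact isFrobeniusAt_conj hl.pos hφ a
  have h2 := hin (inv_mul_mem_inertiaSubgroupIn hl.pos hconj hψ)
  rw [← restrict_eq_one, map_mul, map_inv, inv_mul_eq_one, map_mul, map_mul, map_inv] at h2
  show P (AlgEquiv.restrictNormalHom F ψ)
  rw [← h2]
  exact hPconj _ _ (hφF ▸ hPu)

/-- Finitely many good primes kill all ray characters, in number independent of `n`. -/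
theorem exists_primes_noChar [Finite k] (hp : p ≠ 2) (hKF : S.K ≤ F) (ρ : Representation k S.C W)
    (hinv : ∀ x : Module.Dual k W, (∀ c, ρ.dual c x = x) → x = 0)
    {m : Ideal (𝓞 S.K)} (hm : m ≠ ⊥) (A₀ : Set (Ext.Place S.K))
    (hA₀ : ∀ χ : RayHom m (Module.Dual k W),
      (∀ (c : S.C) (v : Ext.Place S.K), χ.toFun (c • v).asIdeal = ρ.dual c (χ.toFun v.asIdeal)) →
      (∀ v ∈ A₀, χ.toFun v.asIdeal = 0) → S.VanAt χ F → ∀ I, χ.toFun I = 0)
    {z s t : Γ} (hzH : z ∈ S.H) (hzact : ∀ x, ρ.dual (S.π ⟨z, hzH⟩) x = x)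
    (hzc : ∀ g, Commute (resTo F g) (resTo F z)) (hz1 : resTo F z ≠ 1)
    (hz2 : resTo F z * resTo F z = 1)
    (hs : s ∈ (muField p).fixingSubgroup) (ht : t ∈ (muField p).fixingSubgroup)
    (hs2 : resTo F s * resTo F s = resTo F z) (ht2 : resTo F t * resTo F t = resTo F z)
    (hst2 : resTo F (s * t) * resTo F (s * t) = resTo F z)
    (P : (F ≃ₐ[ℚ] F) → Prop) (hPconj : ∀ a b, P b → P (a * b * a⁻¹))
    (hPsq : ∀ b, b * b = resTo F z → P b) :
    ∃ d : ℕ, ∀ (n : ℕ) (bad : Finset ℕ), ∃ Q : Finset ℕ, Q.card ≤ d ∧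
      (∀ l ∈ Q, GoodPrime (p := p) P n bad l) ∧
      S.NoChar ρ m ((S.placesOver Q : Set (Ext.Place S.K)) ∪ A₀) := by
  classical
  obtain ⟨Fi, hFi⟩ := RayHom.exists_determining hm
  have : Finite (Module.Dual k W) := Finite.of_injective _ DFunLike.coe_injective
  let X : Finset ℕ → Set (Fi → Module.Dual k W) := fun Q =>
    {f | ∃ χ : RayHom m (Module.Dual k W),
      (∀ (c : S.C) (v : Ext.Place S.K), χ.toFun (c • v).asIdeal = ρ.dual c (χ.toFun v.asIdeal)) ∧
      (∀ v ∈ (S.placesOver Q : Set (Ext.Place S.K)) ∪ A₀, χ.toFun v.asIdeal = 0) ∧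
      f = fun I : Fi => χ.toFun I.1}
  refine ⟨Nat.card (Fi → Module.Dual k W), fun n bad => ?_⟩
  have key : ∀ (c : ℕ) (Q : Finset ℕ), (X Q).ncard ≤ c →
      (∀ l ∈ Q, GoodPrime (p := p) P n bad l) → ∃ Q' : Finset ℕ, Q'.card ≤ Q.card + c ∧
        (∀ l ∈ Q', GoodPrime (p := p) P n bad l) ∧
        S.NoChar ρ m ((S.placesOver Q' : Set (Ext.Place S.K)) ∪ A₀) := by
    intro c
    induction c with
    | zero =>
      intro Q hc hQ
      refine ⟨Q, le_rfl, hQ, fun χ heq hvan v => ?_⟩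
      exfalso
      have hmem : (fun I : Fi => χ.toFun I.1) ∈ X Q := ⟨χ, heq, hvan, rfl⟩
      have := Set.ncard_pos (Set.toFinite (X Q)) |>.mpr ⟨_, hmem⟩
      omega
    | succ c ih =>
      intro Q hc hQ
      by_cases hno : S.NoChar ρ m ((S.placesOver Q : Set (Ext.Place S.K)) ∪ A₀)
      · exact ⟨Q, by omega, hQ, hno⟩
      · unfold NoChar at hno
        push Not at hno
        obtain ⟨χ, heq, hvan, v₀, hv₀⟩ := hno
        have hne : ¬ S.VanAt χ F := fun h =>
          hv₀ (hA₀ χ heq (fun v hv => hvan v (Or.inr hv)) h _)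
        obtain ⟨l, hl, hlb, hdvd, hA, v, hlv, hχv⟩ := exists_twPrime (S.dualAct ρ) hp hKF hinv hm χ
          heq hne hzH hzact hzc hz1 hz2 hs ht hs2 ht2 hst2 P hPconj hPsq n bad
        have hsub : X (insert l Q) ⊆ X Q := by
          rintro f ⟨ψ, h1, h2, h3⟩
          refine ⟨ψ, h1, fun w hw => h2 w ?_, h3⟩
          rcases hw with hw | hw
          · refine Or.inl ?_
            rw [Finset.mem_coe, S.mem_placesOver] at hw ⊢
            obtain ⟨q, hq, hq2⟩ := hw
            exact ⟨q, Finset.mem_insert_of_mem hq, hq2⟩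
          · exact Or.inr hw
        have hmem : (fun I : Fi => χ.toFun I.1) ∈ X Q := ⟨χ, heq, hvan, rfl⟩
        have hnot : (fun I : Fi => χ.toFun I.1) ∉ X (insert l Q) := by
          rintro ⟨ψ, h1, h2, h3⟩
          refine hχv ?_
          have hdiff : ∀ I, χ.toFun I = ψ.toFun I := fun I => by
            let δ : RayHom m (Module.Dual k W) :=
              { toFun := fun J => χ.toFun J - ψ.toFun J
                map_mul := fun J J' a b c d => by
                  rw [χ.map_mul J J' a b c d, ψ.map_mul J J' a b c d]; abel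
                map_ray := fun x a b => by rw [χ.map_ray x a b, ψ.map_ray x a b, sub_zero]
                eq_zero := fun J hJ => by rw [χ.eq_zero J hJ, ψ.eq_zero J hJ, sub_zero] }
            exact sub_eq_zero.mp (hFi δ (fun J hJ => sub_eq_zero.mpr (congrFun h3 ⟨J, hJ⟩)) I)
          rw [hdiff]
          exact h2 v (Or.inl (by
            rw [Finset.mem_coe, S.mem_placesOver]
            exact ⟨l, Finset.mem_insert_self _ _, hl, hlv⟩))
        have hlt : (X (insert l Q)).ncard < (X Q).ncard :=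
          Set.ncard_lt_ncard (ssubset_of_subset_of_ne hsub fun h => hnot (h ▸ hmem))
            (Set.toFinite _)
        obtain ⟨Q', h1, h2, h3⟩ := ih (insert l Q) (by omega) fun q hq => by
          rcases Finset.mem_insert.mp hq with rfl | hq
          · exact ⟨hl, hlb, hdvd, hA⟩
          · exact hQ q hq
        exact ⟨Q', by have := Finset.card_insert_le l Q; omega, h2, h3⟩
  obtain ⟨Q, h1, h2, h3⟩ := key (Nat.card (Fi → Module.Dual k W)) ∅ (by
    rw [← Nat.card_coe_set_eq]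
    exact Nat.card_le_card_of_injective Subtype.val Subtype.val_injective) (by simp)
  exact ⟨Q, by simpa using h1, h2, h3⟩

end KField

end FLTAgent.TW
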