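import Fermat.Agent.TW.Adjoint
import Fermat.Agent.TW.QChoice

/-!
# The kernel field as a `KField`, the adjoint module and its twist
-/

set_option autoImplicit false
set_option linter.unusedSectionVars false

open IsDedekindDomain NumberField
open scoped Pointwise

noncomputable section

namespace FLTAgent.TW

open FLTAgent.Deformation FLTAgent.Frobenius

variable {k : Type} [Field k] {p : ℕ} [hpf : Fact p.Prime] [CharP k p]
variable {rb : Gal →* Mat k} {Smin : Finset ℕ} (h : ResidualHyp p rb Smin)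

include h in
theorem ResidualHyp.exists_zeta : ∃ ζ : kerField rb, IsPrimitiveRoot ζ p := by
  have : NeZero p := ⟨hpf.out.ne_zero⟩
  obtain ⟨ζ, hζ⟩ := HasEnoughRootsOfUnity.exists_primitiveRoot Qb p
  exact ⟨⟨ζ, h.mem_kerField_of_pow_eq_one hζ.pow_eq_one⟩,
    IsPrimitiveRoot.of_map_of_injective (f := (kerField rb).val) (by exact hζ)
      (kerField rb).val.injective⟩

/-- The kernel field with its Galois group. -/
def ResidualHyp.fieldKF : KField p :=
  haveI := h.finiteDimensional
  haveI := h.normal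
  { K := kerField rb
    ζ := h.exists_zeta.choose
    hζ := h.exists_zeta.choose_spec
    H := ⊤
    fix_le := le_top
    stable := fun g _ x hx => by
      rw [show g x = g ((⟨x, hx⟩ : kerField rb) : Qb) from rfl, apply_coe_eq (kerField rb) g]
      exact SetLike.coe_mem _
    C := kerField rb ≃ₐ[ℚ] kerField rb
    π := (KField.resTo (kerField rb)).comp (⊤ : Subgroup Γ).subtype
    π_surj := fun c => by
      obtain ⟨σ, hσ⟩ := AlgEquiv.restrictNormalHom_surjective (F := ℚ) (K₁ := kerField rb) Qb c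
      exact ⟨⟨σ, Subgroup.mem_top σ⟩, hσ⟩
    π_ker := fun g => restrict_eq_one }

theorem ResidualHyp.fieldKF_K : h.fieldKF.K = kerField rb := rfl

theorem ResidualHyp.fieldKF_H : h.fieldKF.H = ⊤ := rfl

/-- The residual representation of the Galois group of the kernel field. -/
def ResidualHyp.rbF : h.fieldKF.C →* GL (Fin 2) k := h.exists_rbF.choose

theorem ResidualHyp.rbF_injective : Function.Injective h.rbF := h.exists_rbF.choose_spec.1

theorem ResidualHyp.rbF_π (g : h.fieldKF.H) : h.rbF (h.fieldKF.π g) = rbGL rb (g : Γ) :=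
  h.exists_rbF.choose_spec.2 (g : Γ)

/-- An element of the Galois group as an element of `H`. -/
abbrev ResidualHyp.inH (g : Γ) : h.fieldKF.H := ⟨g, Subgroup.mem_top g⟩

theorem ResidualHyp.coe_rbF_π (g : Γ) :
    ((h.rbF (h.fieldKF.π (h.inH g)) : GL (Fin 2) k) : Mat k) = rb g := by
  rw [h.rbF_π]; rfl

variable [Algebra (ZMod p) k]

theorem ResidualHyp.algebraMap_eps (c : h.fieldKF.C) :
    algebraMap (ZMod p) k (h.fieldKF.eps c) = ((h.rbF c : GL (Fin 2) k) : Mat k).det := by
  obtain ⟨g, rfl⟩ := h.fieldKF.π_surj c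
  rw [h.rbF_π]
  have hz := h.fieldKF.coe_act_π g h.fieldKF.ζ
  rw [KField.act_zeta'] at hz
  show _ = (rb (g : Γ)).det
  have hprim := coe_zeta_isPrimitiveRoot h.fieldKF.hζ
  rw [h.det (g : Γ) (h.fieldKF.eps (h.fieldKF.π g) : ZMod p).val fun μ hμ => ?_,
    ← map_natCast (algebraMap (ZMod p) k), ZMod.natCast_zmod_val]
  have : NeZero p := ⟨hpf.out.ne_zero⟩
  obtain ⟨i, -, rfl⟩ := hprim.eq_pow_of_pow_eq_one hμ
  rw [map_pow, ← hz]
  push_cast
  rw [← pow_mul, ← pow_mul, mul_comm]

/-- The adjoint module. -/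
def ResidualHyp.adF : Representation k h.fieldKF.C (sl2 k) := adGL.comp h.rbF

/-- The adjoint module twisted by the inverse cyclotomic character. -/
def ResidualHyp.rho : Representation k h.fieldKF.C (sl2 k) :=
  twistRep h.fieldKF.eps⁻¹ h.adF

theorem ResidualHyp.adF_apply (c : h.fieldKF.C) (X : sl2 k) : h.adF c X = adGL (h.rbF c) X := rfl

theorem ResidualHyp.twist_rho : twistRep h.fieldKF.eps h.rho = h.adF :=
  MonoidHom.ext fun c => LinearMap.ext fun X => by
    rw [twistRep_apply, ResidualHyp.rho, twistRep_apply, smul_smul, ← map_mul,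
      MonoidHom.inv_apply, ← Units.val_mul, mul_inv_cancel, Units.val_one, map_one, one_smul]

theorem ResidualHyp.coe_adF_π (g : Γ) (X : sl2 k) :
    ((h.adF (h.fieldKF.π (h.inH g)) X : sl2 k) : Mat k) = adAct rb g X := by
  rw [h.adF_apply, h.rbF_π, coe_adGL, adAct, ← map_inv]
  rfl

/-- Elements of determinant one act on the twist by conjugation. -/
theorem ResidualHyp.rho_of_det_one {c : h.fieldKF.C}
    (hc : ((h.rbF c : GL (Fin 2) k) : Mat k).det = 1) (X : sl2 k) :
    h.rho c X = adGL (h.rbF c) X := by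
  have h1 : algebraMap (ZMod p) k (h.fieldKF.eps c) = 1 := (h.algebraMap_eps c).trans hc
  have h2 : h.fieldKF.eps c = 1 :=
    Units.ext ((algebraMap (ZMod p) k).injective (by rw [h1, Units.val_one, map_one]))
  rw [ResidualHyp.rho, twistRep_apply, MonoidHom.inv_apply, h2, inv_one, Units.val_one, map_one,
    one_smul, h.adF_apply]

/-- The allowed Frobenius classes. -/
def ResidualHyp.IsTW (c : h.fieldKF.C) : Prop :=
  ((h.rbF c : GL (Fin 2) k) : Mat k) * (h.rbF c : GL (Fin 2) k) = -1

end FLTAgent.TW
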