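import Fermat.Agent.TW.XiBasic

/-!
# Equivariant functions and orbit representatives
-/

set_option autoImplicit false
set_option linter.unusedSectionVars false

open scoped Pointwise

noncomputable section

namespace FLTAgent.TW

variable {k : Type} [Field k] {C : Type} [Group C] [Fintype C]
variable {W : Type} [AddCommGroup W] [Module k W] [Finite W]
variable {X : Type} [MulAction C X]

/-- The vectors fixed by a set of group elements. -/
def fixedBy' (ρ : Representation k C W) (s : Set C) : Submodule k W where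
  carrier := {w | ∀ c ∈ s, ρ c w = w}
  zero_mem' := fun c _ => map_zero _
  add_mem' := fun ha hb c hc => by rw [map_add, ha c hc, hb c hc]
  smul_mem' := fun t a ha c hc => by rw [map_smul, ha c hc]

theorem mem_fixedBy' {ρ : Representation k C W} {s : Set C} {w : W} :
    w ∈ fixedBy' ρ s ↔ ∀ c ∈ s, ρ c w = w := Iff.rfl

/-- Equivariant functions supported on a subset. -/
abbrev eqFunOn (ρ : Representation k C W) (U : Set X) : Submodule k (X → W) :=
  eqFun ρ X ⊓ ⨅ v ∈ Uᶜ, LinearMap.ker (LinearMap.proj v)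

theorem mem_eqFunOn {ρ : Representation k C W} {U : Set X} {T : X → W} :
    T ∈ eqFunOn ρ U ↔ (∀ (c : C) x, T (c • x) = ρ c (T x)) ∧ ∀ x ∉ U, T x = 0 := by
  rw [Submodule.mem_inf, mem_eqFun]
  simp [Submodule.mem_iInf]

theorem eqFunOn_univ (ρ : Representation k C W) :
    eqFunOn ρ (Set.univ : Set X) = eqFun ρ X := by
  ext T
  rw [mem_eqFunOn, mem_eqFun]
  simp

/-- Orbit representatives decompose the equivariant functions. -/
theorem finrank_eqFunOn {ι : Type} [Fintype ι] [Module.Finite k W] (ρ : Representation k C W)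
    {U : Set X} (hU : ∀ (c : C), ∀ x ∈ U, c • x ∈ U) (r : ι → X) (hr : ∀ i, r i ∈ U)
    (hcov : ∀ x ∈ U, ∃ i, ∃ c : C, c • r i = x)
    (huniq : ∀ i j, ∀ c : C, c • r i = r j → i = j) :
    Module.finrank k (eqFunOn ρ U) =
      ∑ i, Module.finrank k (fixedBy' ρ (MulAction.stabilizer C (r i) : Set C)) := by
  classical
  rw [← Module.finrank_pi_fintype k]
  refine LinearEquiv.finrank_eq (LinearEquiv.ofBijective
    (LinearMap.pi fun i => ((LinearMap.proj (r i)).comp (eqFunOn ρ U).subtype).codRestrict
      (fixedBy' ρ (MulAction.stabilizer C (r i) : Set C)) fun T c hc => by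
        have h := (mem_eqFunOn.mp T.2).1 c (r i)
        rw [MulAction.mem_stabilizer_iff.mp hc] at h
        exact h.symm) ⟨fun T T' h => ?_, fun w => ?_⟩)
  · refine Subtype.ext (funext fun x => ?_)
    by_cases hx : x ∈ U
    · obtain ⟨i, c, rfl⟩ := hcov x hx
      rw [(mem_eqFunOn.mp T.2).1, (mem_eqFunOn.mp T'.2).1]
      exact congrArg _ (congrArg Subtype.val (congrFun h i))
    · rw [(mem_eqFunOn.mp T.2).2 x hx, (mem_eqFunOn.mp T'.2).2 x hx]
  · let F : X → W := fun x => if h : x ∈ U then
      ρ (hcov x h).choose_spec.choose (w (hcov x h).choose).1 else 0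
    have hF : ∀ i (c : C), F (c • r i) = ρ c (w i).1 := fun i c => by
      have h : c • r i ∈ U := hU c _ (hr i)
      simp only [F, dif_pos h]
      have hspec := (hcov _ h).choose_spec.choose_spec
      generalize hd : (hcov _ h).choose_spec.choose = d at hspec ⊢
      generalize hj : (hcov _ h).choose = j at hspec ⊢
      clear hd hj
      have hji : j = i := huniq j i (c⁻¹ * d) (by rw [mul_smul, hspec, inv_smul_smul])
      subst hji
      have hst : c⁻¹ * d ∈ MulAction.stabilizer C (r j) := by
        rw [MulAction.mem_stabilizer_iff, mul_smul, hspec, inv_smul_smul]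
      have h1 : ρ (c⁻¹ * d) (w j).1 = (w j).1 := (w j).2 _ hst
      conv_rhs => rw [← h1, ← Module.End.mul_apply (ρ c), ← map_mul ρ, mul_inv_cancel_left]
    have hmem : F ∈ eqFunOn ρ U := mem_eqFunOn.mpr ⟨fun c x => by
      by_cases hx : x ∈ U
      · obtain ⟨i, d, rfl⟩ := hcov x hx
        rw [← mul_smul, hF, hF, map_mul, Module.End.mul_apply]
      · have hcx : c • x ∉ U := fun h => hx (by simpa using hU c⁻¹ _ h)
        simp [F, hx, hcx], fun x hx => by simp [F, hx]⟩
    refine ⟨⟨F, hmem⟩, funext fun i => Subtype.ext ?_⟩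
    show F (r i) = _
    have := hF i 1
    rwa [one_smul, map_one] at this

/-- A transitive set of functions. -/
theorem finrank_eqFunOn_orbit [Module.Finite k W] (ρ : Representation k C W) {U : Set X} (x : X)
    (hx : x ∈ U) (hU : ∀ (c : C), ∀ y ∈ U, c • y ∈ U) (hcov : ∀ y ∈ U, ∃ c : C, c • x = y) :
    Module.finrank k (eqFunOn ρ U) =
      Module.finrank k (fixedBy' ρ (MulAction.stabilizer C x : Set C)) := by
  rw [finrank_eqFunOn ρ hU (fun _ : Unit => x) (fun _ => hx) (fun y hy => ⟨(), hcov y hy⟩)
    (fun _ _ _ _ => rfl)]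
  simp

end FLTAgent.TW
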