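import Fermat.Agent.TW.FField
import Fermat.Agent.TW.Orbits
import Mathlib.NumberTheory.NumberField.InfinitePlace.Ramification

/-!
# Finite and infinite places of the kernel field: stabilisers and the resulting local terms
-/

set_option autoImplicit false
set_option linter.unusedSectionVars false

open IsDedekindDomain NumberField
open scoped Pointwise

noncomputable section

namespace FLTAgent.TW

open FLTAgent.Deformation FLTAgent.Frobenius

variable {k : Type} [Field k] [Finite k] {p : ℕ} [hpf : Fact p.Prime] [CharP k p]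
  [Algebra (ZMod p) k]
variable {rb : Gal →* Mat k} {Smin : Finset ℕ} (h : ResidualHyp p rb Smin)

section finite

variable {A : ValuationSubring Qb} {l : ℕ} (hl : l.Prime) (hA : A.LiesOverPrime l)

/-- The places over one prime form one orbit. -/
theorem ResidualHyp.exists_smul_placeIn {v : Ext.Place h.fieldKF.K}
    (hv : v ∈ h.fieldKF.placesOver {l}) :
    ∃ c : h.fieldKF.C, c • placeIn h.fieldKF.K A hl hA = v := by
  obtain ⟨q, hq, -, hqv⟩ := h.fieldKF.mem_placesOver.mp hv
  rw [Finset.mem_singleton] at hq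
  subst hq
  obtain ⟨B, hB, rfl⟩ := exists_placeIn h.fieldKF.K v hl hqv
  obtain ⟨g, rfl⟩ := exists_smul_eq hl hA hB
  exact ⟨h.fieldKF.π (h.inH g), (h.fieldKF.placeIn_smul_π (h.inH g) hl hA).symm⟩

include h in
theorem ResidualHyp.mem_placesOver_placeIn :
    placeIn h.fieldKF.K A hl hA ∈ h.fieldKF.placesOver {l} :=
  h.fieldKF.mem_placesOver.mpr ⟨l, Finset.mem_singleton_self l, hl, natCast_mem_placeIn⟩

/-- The stabiliser consists of images of decomposition elements. -/
theorem ResidualHyp.exists_decomposition_of_stabilizer {c : h.fieldKF.C}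
    (hc : c • placeIn h.fieldKF.K A hl hA = placeIn h.fieldKF.K A hl hA) :
    ∃ g ∈ A.decompositionSubgroup ℚ, h.fieldKF.π (h.inH g) = c := by
  obtain ⟨g, rfl⟩ := h.fieldKF.π_surj c
  rw [← h.fieldKF.placeIn_smul_π g hl hA] at hc
  have : Normal ℚ h.fieldKF.K := h.normal
  obtain ⟨d, hd, hdg⟩ := exists_decomposition_eqOn h.fieldKF.K (g : Γ)
    (congrArg HeightOneSpectrum.asIdeal hc)
  refine ⟨d, hd, ?_⟩
  have h1 : h.fieldKF.π (h.inH d * g⁻¹) = 1 := (h.fieldKF.π_ker _).mpr
    ((IntermediateField.mem_fixingSubgroup_iff _ _).mpr fun x hx => by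
      have hx' : (g : Γ)⁻¹ x ∈ h.fieldKF.K := h.fieldKF.stable _ (g⁻¹).2 _ hx
      show d ((g : Γ)⁻¹ x) = x
      rw [hdg _ hx']
      exact AlgEquiv.apply_symm_apply (g : Γ) x)
  rwa [map_mul, map_inv, mul_inv_eq_one] at h1

/-- Decomposition elements fix the place. -/
theorem ResidualHyp.smul_placeIn_of_decomposition {g : Γ} (hg : g ∈ A.decompositionSubgroup ℚ) :
    h.fieldKF.π (h.inH g) • placeIn h.fieldKF.K A hl hA = placeIn h.fieldKF.K A hl hA := by
  rw [← h.fieldKF.placeIn_smul_π (h.inH g) hl hA]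
  refine HeightOneSpectrum.ext ?_
  show centreIn h.fieldKF.K (g • A) = centreIn h.fieldKF.K A
  rw [MulAction.mem_stabilizer_iff.mp hg]

/-- Equivariant functions on the places over `l` are the invariants of a stabiliser. -/
theorem ResidualHyp.finrank_eqFunOn_over {W : Type} [AddCommGroup W] [Module k W] [Finite W]
    (ρ : Representation k h.fieldKF.C W) :
    Module.finrank k (eqFunOn ρ (h.fieldKF.placesOver {l} : Set (Ext.Place h.fieldKF.K))) =
      Module.finrank k (fixedBy' ρ
        (MulAction.stabilizer h.fieldKF.C (placeIn h.fieldKF.K A hl hA) : Set h.fieldKF.C)) :=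
  finrank_eqFunOn_orbit ρ _ (h.mem_placesOver_placeIn hl hA) (h.fieldKF.placesOver_stable {l})
    fun _ hy => h.exists_smul_placeIn hl hA hy

/-- The adjoint invariants of the decomposition group are fixed by the stabiliser. -/
theorem ResidualHyp.adH0_le_fixedBy :
    Module.finrank k (adH0 rb (A.decompositionSubgroup ℚ)) ≤
      Module.finrank k (fixedBy' h.adF
        (MulAction.stabilizer h.fieldKF.C (placeIn h.fieldKF.K A hl hA) : Set h.fieldKF.C)) := by
  let f : adH0 rb (A.decompositionSubgroup ℚ) →ₗ[k] sl2 k :=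
    (adH0 rb (A.decompositionSubgroup ℚ)).subtype.codRestrict (sl2 k) fun X => X.2.1
  have hf : Function.Injective f := fun X Y hXY =>
    Subtype.ext (congrArg (fun Z : sl2 k => (Z : Mat k)) hXY)
  refine le_of_eq_of_le (LinearMap.finrank_range_of_inj hf).symm (Submodule.finrank_mono ?_)
  rintro _ ⟨X, rfl⟩ c hc
  obtain ⟨g, hg, rfl⟩ := h.exists_decomposition_of_stabilizer hl hA hc
  refine Subtype.ext ?_
  rw [h.coe_adF_π]
  have h2 := X.2.2
  rw [SetLike.mem_coe, LinearMap.mem_ker] at h2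
  exact sub_eq_zero.mp (congrFun h2 ⟨g, hg⟩)

end finite

section infinite

/-- At an infinite place of the kernel field a complex conjugation stabilises it. -/
theorem ResidualHyp.exists_conjugation (hp : p ≠ 2) (w : InfinitePlace h.fieldKF.K) :
    ∃ c : h.fieldKF.C, c • w = w ∧ c * c = 1 ∧
      ((h.rbF c : GL (Fin 2) k) : Mat k).det = -1 := by
  have : Normal ℚ h.fieldKF.K := h.normal
  have : IsGalois ℚ h.fieldKF.K := ⟨⟩
  set φ := w.embedding
  obtain ⟨c₀, hc₀⟩ : ∃ c₀ : h.fieldKF.K ≃ₐ[ℚ] h.fieldKF.K,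
      φ.comp (c₀.symm : h.fieldKF.K →+* h.fieldKF.K) = ComplexEmbedding.conjugate φ :=
    ComplexEmbedding.exists_comp_symm_eq_of_comp_eq (k := ℚ) φ (ComplexEmbedding.conjugate φ)
      (Subsingleton.elim _ _)
  obtain ⟨g, hg⟩ := AlgEquiv.restrictNormalHom_surjective (F := ℚ) (K₁ := h.fieldKF.K) Qb c₀.symm
  have hact : ∀ x, h.fieldKF.act (h.fieldKF.π (h.inH g)) x = c₀.symm x := fun x => Subtype.ext (by
    rw [h.fieldKF.coe_act_π, ← hg]
    exact apply_coe_eq h.fieldKF.K g x)
  set c := h.fieldKF.π (h.inH g)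
  have hφ : ∀ x, φ (h.fieldKF.act c x) = starRingEnd ℂ (φ x) := fun x => by
    rw [hact]
    exact RingHom.congr_fun hc₀ x
  have hcc : ∀ x, h.fieldKF.act c (h.fieldKF.act c x) = x := fun x => φ.injective (by
    rw [hφ, hφ, Complex.conj_conj])
  have hnorm : ∀ x, w x = ‖φ x‖ := fun x => (InfinitePlace.norm_embedding_eq w x).symm
  have h1 : c * c = 1 := by
    rw [← h.fieldKF.π.map_mul, h.fieldKF.π_ker]
    refine (IntermediateField.mem_fixingSubgroup_iff _ _).mpr fun x hx => ?_
    have := congrArg Subtype.val (hcc ⟨x, hx⟩)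
    rw [h.fieldKF.coe_act_π, h.fieldKF.coe_act_π] at this
    exact this
  refine ⟨c, ?_, h1, ?_⟩
  · refine Subtype.ext (AbsoluteValue.ext fun x => ?_)
    show w ((h.fieldKF.act c).symm x) = w x
    have hx : (h.fieldKF.act c).symm x = h.fieldKF.act c x :=
      (h.fieldKF.act c).injective (by rw [RingEquiv.apply_symm_apply, hcc])
    rw [hx, hnorm, hnorm, hφ, Complex.norm_conj]
  · -- conjugation inverts the roots of unity
    have hz : φ (h.fieldKF.act c h.fieldKF.ζ) = (φ h.fieldKF.ζ)⁻¹ := by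
      rw [hφ]
      have h2 : ‖φ h.fieldKF.ζ‖ = 1 := Complex.norm_eq_one_of_pow_eq_one
        (by rw [← map_pow, h.fieldKF.hζ.pow_eq_one, map_one]) hpf.out.ne_zero
      rw [Complex.inv_def, Complex.normSq_eq_norm_sq, h2]
      simp
    rw [← map_inv₀] at hz
    have h2 := φ.injective hz
    rw [h.fieldKF.act_zeta', inv_eq_of_mul_eq_one_right (b := h.fieldKF.ζ ^ (p - 1)) (by
      rw [← pow_succ', Nat.sub_add_cancel hpf.out.one_le, h.fieldKF.hζ.pow_eq_one])] at h2
    have h3 := h.fieldKF.hζ.pow_inj (ZMod.val_lt _) (Nat.sub_lt hpf.out.pos one_pos) h2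
    have h4 : (h.fieldKF.eps c : ZMod p) = -1 := by
      rw [← ZMod.natCast_zmod_val (h.fieldKF.eps c : ZMod p), h3, Nat.cast_sub hpf.out.one_le]
      simp
    rw [← h.algebraMap_eps, h4, map_neg, map_one]

/-- The twisted adjoint module has at most two invariants at infinity. -/
theorem ResidualHyp.finrank_eqFun_infinite_le (hp : p ≠ 2) :
    Module.finrank k (eqFun h.rho (InfinitePlace h.fieldKF.K)) ≤ 2 := by
  have : Normal ℚ h.fieldKF.K := h.normal
  have : IsGalois ℚ h.fieldKF.K := ⟨⟩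
  obtain ⟨w⟩ := (inferInstance : Nonempty (InfinitePlace h.fieldKF.K))
  rw [← eqFunOn_univ, finrank_eqFunOn_orbit h.rho w (Set.mem_univ w) (fun _ _ _ => Set.mem_univ _)
    (fun w' _ => by
      obtain ⟨σ, hσ⟩ := InfinitePlace.exists_smul_eq_of_comap_eq (k := ℚ) (w := w) (w' := w')
        (Subsingleton.elim _ _)
      obtain ⟨g, hg⟩ := AlgEquiv.restrictNormalHom_surjective (F := ℚ) (K₁ := h.fieldKF.K) Qb σ
      refine ⟨h.fieldKF.π (h.inH g), ?_⟩
      rw [← hσ]
      refine Subtype.ext (AbsoluteValue.ext fun x => ?_)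
      show w ((h.fieldKF.act (h.fieldKF.π (h.inH g))).symm x) = w (σ.symm x)
      congr 1
      apply (h.fieldKF.act (h.fieldKF.π (h.inH g))).injective
      rw [RingEquiv.apply_symm_apply]
      refine (Subtype.ext ?_).symm
      rw [h.fieldKF.coe_act_π]
      show g ((σ.symm x : h.fieldKF.K) : Qb) = (x : Qb)
      rw [apply_coe_eq h.fieldKF.K g]
      show ((AlgEquiv.restrictNormalHom h.fieldKF.K g (σ.symm x) : h.fieldKF.K) : Qb) = _
      rw [hg, AlgEquiv.apply_symm_apply])]
  obtain ⟨c, hcw, hcc, hcd⟩ := h.exists_conjugation hp w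
  have hc : ((h.rbF c : GL (Fin 2) k) : Mat k) * ((h.rbF c : GL (Fin 2) k) : Mat k) = 1 := by
    rw [← Units.val_mul, ← map_mul, hcc, map_one, Units.val_one]
  refine finrank_antifixed_le_two hp hc hcd _ fun X hX => ?_
  have h1 := hX c hcw
  rw [ResidualHyp.rho, twistRep_apply, MonoidHom.inv_apply, h.adF_apply] at h1
  have h2 : algebraMap (ZMod p) k ((h.fieldKF.eps c)⁻¹ : (ZMod p)ˣ) = -1 := by
    rw [map_units_inv, h.algebraMap_eps, hcd, inv_neg, inv_one]
  rw [h2, neg_one_smul, neg_eq_iff_eq_neg] at h1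
  exact h1

end infinite

/-- At a Taylor–Wiles prime the twisted adjoint module has at most one invariant. -/
theorem ResidualHyp.finrank_eqFunOn_tw_le (hp : p ≠ 2) {q : ℕ} (hq : q.Prime)
    {A : ValuationSubring Qb} (hA : A.LiesOverPrime q) {φ : Γ} (hφ : A.IsFrobeniusAt φ q)
    (hP : h.IsTW (h.fieldKF.π (h.inH φ))) (hdet : (rb φ).det = 1) :
    Module.finrank k (eqFunOn h.rho (h.fieldKF.placesOver {q} : Set (Ext.Place h.fieldKF.K))) ≤
      1 := by
  rw [h.finrank_eqFunOn_over hq hA]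
  have hd : ((h.rbF (h.fieldKF.π (h.inH φ)) : GL (Fin 2) k) : Mat k).det = 1 := by
    rw [h.coe_rbF_π]; exact hdet
  refine finrank_fixed_le_one hp hP (trace_eq_zero_of_sq_eq_neg_one hP hd) _ fun X hX => ?_
  rw [← h.rho_of_det_one hd]
  exact hX _ (h.smul_placeIn_of_decomposition hq hA hφ.mem_decompositionSubgroup)

end FLTAgent.TW
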