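import Fermat.Agent.TW.LevelField
import Fermat.Agent.TW.RayL.Defs
import Mathlib.RingTheory.Frobenius

/-!
# Degree one places and Frobenius elements
-/

set_option autoImplicit false
set_option linter.unusedSectionVars false

open IsDedekindDomain NumberField
open scoped Pointwise

noncomputable section

namespace FLTAgent.TW

open FLTAgent.Frobenius

local instance : IsGalois ℚ Qb := qb_isGalois

variable {K : IntermediateField ℚ Qb} [FiniteDimensional ℚ K]
variable {A : ValuationSubring Qb} {l : ℕ} {hl : l.Prime} {hA : A.LiesOverPrime l}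

/-- A Frobenius element fixing `K` gives residue degree one. -/
theorem absNorm_placeIn_of_frobenius {φ : Γ} (hφK : φ ∈ K.fixingSubgroup)
    (hφ : A.IsFrobeniusAt φ l) : Ideal.absNorm (placeIn K A hl hA).asIdeal = l := by
  classical
  set v := placeIn K A hl hA
  let _ : Field (𝓞 K ⧸ v.asIdeal) := @Ideal.Quotient.field _ _ v.asIdeal v.isMaximal
  have : Finite (𝓞 K ⧸ v.asIdeal) := Ideal.finiteQuotientOfFreeOfNeBot v.asIdeal v.ne_bot
  have : Fintype (𝓞 K ⧸ v.asIdeal) := Fintype.ofFinite _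
  rw [isFrobeniusAt_iff_centre hl.pos] at hφ
  have hroot : ∀ a : 𝓞 K ⧸ v.asIdeal, a ^ l = a := fun a => by
    obtain ⟨x, rfl⟩ := Ideal.Quotient.mk_surjective a
    rw [← map_pow, Ideal.Quotient.eq]
    show toZbar K (x ^ l - x) ∈ centre A
    rw [map_sub, map_pow, ← neg_sub]
    refine neg_mem ?_
    have h := hφ (toZbar K x)
    rwa [show φ • toZbar K x = toZbar K x from
      Subtype.ext (apply_coe_eq_of_mem_fixing hφK (x : K))] at h
  have hle : Fintype.card (𝓞 K ⧸ v.asIdeal) ≤ l := by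
    have hne : (Polynomial.X ^ l - Polynomial.X : Polynomial (𝓞 K ⧸ v.asIdeal)) ≠ 0 :=
      FiniteField.X_pow_card_sub_X_ne_zero _ hl.one_lt
    calc Fintype.card (𝓞 K ⧸ v.asIdeal)
        ≤ (Polynomial.X ^ l - Polynomial.X : Polynomial (𝓞 K ⧸ v.asIdeal)).natDegree :=
          Polynomial.card_le_degree_of_subset_roots (Z := Finset.univ) fun a _ => by
            rw [Polynomial.mem_roots hne]; simp [hroot a]
      _ = l := FiniteField.X_pow_card_sub_X_natDegree_eq _ hl.one_lt
  have hdvd : l ∣ Fintype.card (𝓞 K ⧸ v.asIdeal) := by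
    have h0 : (l : 𝓞 K ⧸ v.asIdeal) = 0 := by
      rw [← map_natCast (Ideal.Quotient.mk v.asIdeal), Ideal.Quotient.eq_zero_iff_mem]
      exact natCast_mem_placeIn
    have hchar : CharP (𝓞 K ⧸ v.asIdeal) l :=
      ringChar.of_eq ((hl.eq_one_or_self_of_dvd _ (ringChar.dvd h0)).resolve_left
        CharP.ringChar_ne_one)
    obtain ⟨n, -, hn⟩ := FiniteField.card (𝓞 K ⧸ v.asIdeal) l
    rw [hn]
    exact dvd_pow_self l n.ne_zero
  rw [Ideal.absNorm_apply, Submodule.cardQuot_apply, Nat.card_eq_fintype_card]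
  exact le_antisymm hle (Nat.le_of_dvd Fintype.card_pos hdvd)

/-- At an unramified degree one place the Frobenius elements fix `K`. -/
theorem frobenius_mem_fixingSubgroup {L : IntermediateField ℚ Qb} [FiniteDimensional ℚ L]
    [Normal ℚ L] (hKL : K ≤ L) (hunr : A.inertiaSubgroupIn ℚ ≤ L.fixingSubgroup)
    (hdeg : Ideal.absNorm (placeIn K A hl hA).asIdeal = l) {φ : Γ}
    (hφ : A.IsFrobeniusAt φ l) : φ ∈ K.fixingSubgroup := by
  let _ := inclAlgebra hKL
  have := isInclusion_inclAlgebra hKL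
  have := IsInclusion.isGalois (K := K) (L := L)
  set w := placeIn L A hl hA
  have : Finite (𝓞 L ⧸ w.asIdeal) := Ideal.finiteQuotientOfFreeOfNeBot w.asIdeal w.ne_bot
  obtain ⟨τ, hτ⟩ := IsArithFrobAt.exists_of_isInvariant (R := 𝓞 K) (G := L ≃ₐ[K] L) w.asIdeal
  obtain ⟨σ, rfl⟩ := resK_surjective τ
  have hunder : Nat.card (𝓞 K ⧸ w.asIdeal.under (𝓞 K)) = l := by
    rw [show w.asIdeal.under (𝓞 K) = (placeIn K A hl hA).asIdeal from
      congrArg HeightOneSpectrum.asIdeal below_placeIn, ← Submodule.cardQuot_apply,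
      ← Ideal.absNorm_apply]
    exact hdeg
  obtain ⟨φ', hφ', heq⟩ := exists_isFrobeniusAt_eqOn L hl hA (σ : Γ) fun x hx => by
    obtain ⟨y, rfl⟩ := exists_toZbar_eq L hx
    have h := hτ y
    rw [hunder] at h
    have h2 : toZbar L ((resK σ : L ≃ₐ[K] L) • y) = (σ : Γ) • toZbar L y :=
      Subtype.ext (coe_resK σ (y : L))
    rw [← h2, ← map_pow, ← map_sub]
    exact h
  rw [IntermediateField.mem_fixingSubgroup_iff]
  intro x hx
  have hι := hunr (inv_mul_mem_inertiaSubgroupIn hl.pos hφ' hφ)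
  have h1 : φ x = φ' x := by
    have h := apply_eq_of_mem_fixing hι (hKL hx)
    rw [AlgEquiv.mul_apply] at h
    conv_rhs => rw [← h]
    exact (AlgEquiv.apply_symm_apply φ' _).symm
  rw [h1, heq x (hKL hx)]
  exact apply_eq_of_mem_fixing σ.2 hx

end FLTAgent.TW
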