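import Fermat.Agent.TW.Field
import Fermat.Agent.Ext.Ord

/-!
# Kummer characters of the Galois group of a number field containing `μ_p`
-/

set_option autoImplicit false
set_option linter.unusedSectionVars false

noncomputable section

namespace FLTAgent.TW

open scoped BigOperators

variable {p : ℕ} [hpf : Fact p.Prime] {K : IntermediateField ℚ Qb} {ζ : K}

/-- A chosen `p`-th root. -/
def proot (p : ℕ) [Fact p.Prime] (x : Qb) : Qb :=
  (IsAlgClosed.exists_pow_nat_eq x (Fact.out : p.Prime).pos).choose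

theorem proot_pow (x : Qb) : proot p x ^ p = x :=
  (IsAlgClosed.exists_pow_nat_eq x (Fact.out : p.Prime).pos).choose_spec

theorem proot_ne_zero {x : Qb} (hx : x ≠ 0) : proot p x ≠ 0 := fun h => hx (by
  rw [← proot_pow (p := p) x, h, zero_pow hpf.out.ne_zero])

theorem coe_zeta_isPrimitiveRoot (hζ : IsPrimitiveRoot ζ p) : IsPrimitiveRoot (ζ : Qb) p :=
  hζ.map_of_injective K.val.injective

theorem zetaPow_add {z : Qb} (hz : z ^ p = 1) (a b : ZMod p) :
    z ^ (a + b).val = z ^ a.val * z ^ b.val := by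
  rw [ZMod.val_add, ← pow_eq_pow_mod _ hz, pow_add]

theorem zetaPow_natCast {z : Qb} (hz : z ^ p = 1) (a : ℕ) : z ^ (a : ZMod p).val = z ^ a := by
  rw [ZMod.val_natCast, ← pow_eq_pow_mod _ hz]

theorem zetaPow_inj (hζ : IsPrimitiveRoot ζ p) {a b : ZMod p}
    (h : (ζ : Qb) ^ a.val = (ζ : Qb) ^ b.val) : a = b :=
  ZMod.val_injective p ((coe_zeta_isPrimitiveRoot hζ).pow_inj (ZMod.val_lt a) (ZMod.val_lt b) h)

theorem exists_zetaPow (hζ : IsPrimitiveRoot ζ p) {z : Qb} (hz : z ^ p = 1) :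
    ∃ a : ZMod p, (ζ : Qb) ^ a.val = z := by
  obtain ⟨i, hi, rfl⟩ := (coe_zeta_isPrimitiveRoot hζ).eq_pow_of_pow_eq_one hz
  exact ⟨i, zetaPow_natCast (coe_zeta_isPrimitiveRoot hζ).pow_eq_one i⟩

/-- The discrete logarithm on `μ_p`. -/
def zLog (ζ : K) (z : Qb) : ZMod p :=
  Function.invFun (fun a : ZMod p => (ζ : Qb) ^ a.val) z

theorem zetaPow_zLog (hζ : IsPrimitiveRoot ζ p) {z : Qb} (hz : z ^ p = 1) :
    (ζ : Qb) ^ (zLog ζ z : ZMod p).val = z :=
  Function.invFun_eq (f := fun a : ZMod p => (ζ : Qb) ^ a.val) (exists_zetaPow hζ hz)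

theorem zLog_eq (hζ : IsPrimitiveRoot ζ p) {z : Qb} {a : ZMod p} (h : (ζ : Qb) ^ a.val = z) :
    zLog ζ z = a := by
  subst h
  exact zetaPow_inj hζ (zetaPow_zLog hζ (by
    rw [← pow_mul, mul_comm, pow_mul, (coe_zeta_isPrimitiveRoot hζ).pow_eq_one, one_pow]))

/-- The Kummer character of `x`. -/
def kum (p : ℕ) [Fact p.Prime] (ζ : K) (x : Kˣ) (σ : K.fixingSubgroup) : ZMod p :=
  zLog ζ ((σ : Γ) (proot p ((x : K) : Qb)) / proot p ((x : K) : Qb))

theorem coe_units_ne_zero (x : Kˣ) : ((x : K) : Qb) ≠ 0 := by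
  simpa using x.ne_zero

theorem root_ne_zero {x : Kˣ} {y : Qb} (hy : y ^ p = ((x : K) : Qb)) : y ≠ 0 := fun h =>
  coe_units_ne_zero x (by rw [← hy, h, zero_pow hpf.out.ne_zero])

theorem root_quot_pow {x : Kˣ} {y : Qb} (hy : y ^ p = ((x : K) : Qb)) (σ : K.fixingSubgroup) :
    ((σ : Γ) y / y) ^ p = 1 := by
  rw [div_pow, ← map_pow, hy, apply_coe_eq_of_mem_fixing σ.2, div_self (coe_units_ne_zero x)]

/-- Characterisation of the Kummer character by any root. -/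
theorem apply_root (hζ : IsPrimitiveRoot ζ p) (x : Kˣ) {y : Qb} (hy : y ^ p = ((x : K) : Qb))
    (σ : K.fixingSubgroup) : (σ : Γ) y = (ζ : Qb) ^ (kum p ζ x σ).val * y := by
  set r := proot p ((x : K) : Qb)
  have hr : r ^ p = ((x : K) : Qb) := proot_pow _
  have hr0 : r ≠ 0 := root_ne_zero hr
  have h1 : (σ : Γ) r = (ζ : Qb) ^ (kum p ζ x σ).val * r := by
    rw [kum, zetaPow_zLog hζ (root_quot_pow hr σ), div_mul_cancel₀ _ hr0]
  obtain ⟨a, ha⟩ := exists_zetaPow hζ (z := y / r) (by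
    rw [div_pow, hy, hr, div_self (coe_units_ne_zero x)])
  have hy' : y = (ζ : Qb) ^ a.val * r := by rw [ha, div_mul_cancel₀ _ hr0]
  rw [hy', map_mul, map_pow, apply_coe_eq_of_mem_fixing σ.2, h1]
  ring

theorem kum_eq (hζ : IsPrimitiveRoot ζ p) {x : Kˣ} {y : Qb} (hy : y ^ p = ((x : K) : Qb))
    {σ : K.fixingSubgroup} {a : ZMod p} (h : (σ : Γ) y = (ζ : Qb) ^ a.val * y) :
    kum p ζ x σ = a :=
  zetaPow_inj hζ (mul_right_cancel₀ (root_ne_zero hy) ((apply_root hζ x hy σ).symm.trans h))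

theorem kum_eq_zero_iff (hζ : IsPrimitiveRoot ζ p) {x : Kˣ} {y : Qb}
    (hy : y ^ p = ((x : K) : Qb)) {σ : K.fixingSubgroup} :
    kum p ζ x σ = 0 ↔ (σ : Γ) y = y := by
  constructor
  · intro h
    rw [apply_root hζ x hy σ, h, ZMod.val_zero, pow_zero, one_mul]
  · intro h
    exact kum_eq hζ hy (by rw [h, ZMod.val_zero, pow_zero, one_mul])

theorem kum_mul_right (hζ : IsPrimitiveRoot ζ p) (x : Kˣ) (σ τ : K.fixingSubgroup) :
    kum p ζ x (σ * τ) = kum p ζ x σ + kum p ζ x τ := by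
  have hy : proot p ((x : K) : Qb) ^ p = ((x : K) : Qb) := proot_pow _
  refine kum_eq hζ hy ?_
  rw [Subgroup.coe_mul, AlgEquiv.mul_apply, apply_root hζ x hy τ, map_mul, map_pow,
    apply_coe_eq_of_mem_fixing σ.2, apply_root hζ x hy σ,
    zetaPow_add (coe_zeta_isPrimitiveRoot hζ).pow_eq_one]
  ring

/-- The Kummer character as a homomorphism. -/
def kumHom (hζ : IsPrimitiveRoot ζ p) (x : Kˣ) : Additive K.fixingSubgroup →+ ZMod p :=
  AddMonoidHom.mk' (fun σ => kum p ζ x σ.toMul) fun _ _ => kum_mul_right hζ x _ _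

theorem kum_mul (hζ : IsPrimitiveRoot ζ p) (x x' : Kˣ) (σ : K.fixingSubgroup) :
    kum p ζ (x * x') σ = kum p ζ x σ + kum p ζ x' σ := by
  refine kum_eq hζ (y := proot p ((x : K) : Qb) * proot p ((x' : K) : Qb)) ?_ ?_
  · rw [mul_pow, proot_pow, proot_pow]; simp
  · rw [map_mul, apply_root hζ x (proot_pow _) σ, apply_root hζ x' (proot_pow _) σ,
      zetaPow_add (coe_zeta_isPrimitiveRoot hζ).pow_eq_one]
    ring

theorem kum_one_left (hζ : IsPrimitiveRoot ζ p) (σ : K.fixingSubgroup) :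
    kum p ζ (1 : Kˣ) σ = 0 :=
  (kum_eq_zero_iff hζ (y := 1) (by simp)).mpr (map_one _)

theorem kum_pow (hζ : IsPrimitiveRoot ζ p) (x : Kˣ) (n : ℕ) (σ : K.fixingSubgroup) :
    kum p ζ (x ^ n) σ = n * kum p ζ x σ := by
  induction n with
  | zero => simp [kum_one_left hζ]
  | succ n ih => rw [pow_succ, kum_mul hζ, ih, Nat.cast_succ]; ring

theorem kum_pow_p (hζ : IsPrimitiveRoot ζ p) (x : Kˣ) (σ : K.fixingSubgroup) :
    kum p ζ (x ^ p) σ = 0 := by
  rw [kum_pow hζ, ZMod.natCast_self, zero_mul]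

/-- The Kummer pairing as a homomorphism on `Kˣ`. -/
def kumPairing (hζ : IsPrimitiveRoot ζ p) :
    Additive Kˣ →+ (K.fixingSubgroup → ZMod p) :=
  AddMonoidHom.mk' (fun x σ => kum p ζ x.toMul σ) fun _ _ => funext fun σ => kum_mul hζ _ _ σ

/-- The Kummer character of `x` vanishes iff `x` is a `p`-th power. -/
theorem kum_eq_zero_iff_mem_powSub [FiniteDimensional ℚ K] (hζ : IsPrimitiveRoot ζ p) (x : Kˣ) :
    (∀ σ, kum p ζ x σ = 0) ↔ x ∈ FLTAgent.Ext.powSub K p := by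
  constructor
  · intro h
    have hy : proot p ((x : K) : Qb) ^ p = ((x : K) : Qb) := proot_pow _
    have hmem : proot p ((x : K) : Qb) ∈ K :=
      mem_of_forall_fixed K fun σ hσ => (kum_eq_zero_iff hζ hy).mp (h ⟨σ, hσ⟩)
    refine FLTAgent.Ext.mem_powSub.mpr ⟨Units.mk0 ⟨_, hmem⟩ ?_, ?_⟩
    · intro h0
      exact root_ne_zero hy (congrArg Subtype.val h0)
    · ext
      simpa using hy
  · intro h σ
    obtain ⟨y, rfl⟩ := FLTAgent.Ext.mem_powSub.mp h
    exact kum_pow_p hζ y σ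

theorem kum_isLevel (hζ : IsPrimitiveRoot ζ p) (x : Kˣ) :
    IsLevel (fun σ : K.fixingSubgroup => kum p ζ x σ) := by
  have hy : proot p ((x : K) : Qb) ^ p = ((x : K) : Qb) := proot_pow _
  refine ⟨IntermediateField.adjoin ℚ {proot p ((x : K) : Qb)},
    IntermediateField.adjoin.finiteDimensional
      ((AlgebraicClosure.isAlgebraic ℚ).isAlgebraic _).isIntegral, fun g s hs => ?_⟩
  show kum p ζ x (g * s) = kum p ζ x g
  rw [kum_mul_right hζ, (kum_eq_zero_iff hζ hy).mpr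
    (hs _ (IntermediateField.mem_adjoin_simple_self ℚ _)), add_zero]

/-- Transport by an automorphism preserving `K`. -/
theorem kum_conj (hζ : IsPrimitiveRoot ζ p) (g : Γ) {x x' : Kˣ}
    (hx : g ((x : K) : Qb) = ((x' : K) : Qb)) {a : ℕ} (ha : g (ζ : Qb) = (ζ : Qb) ^ a)
    (σ σ' : K.fixingSubgroup) (hσ : (σ' : Γ) = g * σ * g⁻¹) :
    kum p ζ x' σ' = a * kum p ζ x σ := by
  set r := proot p ((x : K) : Qb)
  have hr : r ^ p = ((x : K) : Qb) := proot_pow _
  refine kum_eq hζ (y := g r) (by rw [← map_pow, hr, hx]) ?_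
  rw [hσ]
  have : g⁻¹ (g r) = r := AlgEquiv.symm_apply_apply g r
  rw [AlgEquiv.mul_apply, AlgEquiv.mul_apply, this, apply_root hζ x hr σ, map_mul, map_pow, ha]
  congr 1
  rw [← pow_mul]
  conv_rhs => rw [← ZMod.natCast_zmod_val (kum p ζ x σ), ← Nat.cast_mul]
  rw [zetaPow_natCast (coe_zeta_isPrimitiveRoot hζ).pow_eq_one]

end FLTAgent.TW
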