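import Fermat.Agent.TW.LocalKummer

/-!
# Local Kummer theory without auxiliary levels
-/

set_option autoImplicit false
set_option linter.unusedSectionVars false

open IsDedekindDomain NumberField
open scoped Pointwise

noncomputable section

namespace FLTAgent.TW

variable {p : ℕ} [hpf : Fact p.Prime]
variable {K : IntermediateField ℚ Qb} [FiniteDimensional ℚ K] {ζ : K} (hζ : IsPrimitiveRoot ζ p)
variable {A : ValuationSubring Qb} {l : ℕ} {hl : l.Prime} {hA : A.LiesOverPrime l}

include hζ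

/-- Auxiliary: a level containing a chosen root. -/
theorem exists_root_level (x : Kˣ) :
    ∃ (L : IntermediateField ℚ Qb) (_ : FiniteDimensional ℚ L) (_ : Normal ℚ L) (h : K ≤ L)
      (y : L), (y : Qb) = proot p ((x : K) : Qb) ∧
      y ^ p = @algebraMap K L _ _ (inclAlgebra h) (x : K) := by
  obtain ⟨L, hf, hn, hle, hy⟩ := exists_normal_level K (proot p ((x : K) : Qb))
  refine ⟨L, hf, hn, hle, ⟨_, hy⟩, rfl, Subtype.ext ?_⟩
  push_cast
  exact proot_pow _

/-- Local `p`-th powers have trivial Kummer character on decomposition groups. -/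
theorem kum_eq_zero_of_splitSub {x : Kˣ} (hx : x ∈ Ext.splitSub hζ (placeIn K A hl hA))
    (σ : K.fixingSubgroup) (hσ : (σ : Γ) ∈ A.decompositionSubgroup ℚ) : kum p ζ x σ = 0 := by
  obtain ⟨z, hz⟩ := (Ext.mem_splitSub hζ).mp hx
  obtain ⟨L, _, _, hle, y, -, hy⟩ := exists_root_level hζ (x / z ^ p)
  let _ := inclAlgebra hle
  have := isInclusion_inclAlgebra hle
  have := IsInclusion.isGalois (K := K) (L := L)
  have h := kum_near_eq_zero hζ (hl := hl) (hA := hA) σ hσ hz hy
  rw [← div_mul_cancel x (z ^ p), kum_mul hζ, h, kum_pow_p hζ, add_zero]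

/-- Trivial Kummer character on a decomposition group forces a local `p`-th power. -/
theorem mem_splitSub_of_kum_eq_zero {x : Kˣ}
    (h : ∀ σ : K.fixingSubgroup, (σ : Γ) ∈ A.decompositionSubgroup ℚ → kum p ζ x σ = 0) :
    x ∈ Ext.splitSub hζ (placeIn K A hl hA) := by
  obtain ⟨L, _, _, hle, y, hy0, hy⟩ := exists_root_level hζ x
  let _ := inclAlgebra hle
  have := isInclusion_inclAlgebra hle
  have := IsInclusion.isGalois (K := K) (L := L)
  refine mem_splitSub_of_decomposition hζ hy fun σ hσ => Subtype.ext ?_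
  rw [coe_resK, hy0]
  exact (kum_eq_zero_iff hζ (proot_pow _)).mp (h σ hσ)

/-- Away from `p`, valuation divisible by `p` means unramified. -/
theorem kum_eq_zero_of_dvd_ord (hlp : l ≠ p) {x : Kˣ}
    (hx : (p : ℤ) ∣ Ext.ord (placeIn K A hl hA) (x : K))
    (σ : K.fixingSubgroup) (hσ : (σ : Γ) ∈ A.inertiaSubgroupIn ℚ) : kum p ζ x σ = 0 := by
  have hv : (placeIn K A hl hA).valuation K (p : K) = 1 := by
    rw [show (p : K) = algebraMap (𝓞 K) K (p : 𝓞 K) by simp,
      HeightOneSpectrum.valuation_eq_one_iff_notMem]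
    exact fun h => hlp (eq_of_natCast_mem hl hpf.out _ natCast_mem_placeIn h)
  obtain ⟨z, hz⟩ := (Ext.mem_unrSub hζ).mp (Ext.mem_unrSub_of_dvd_ord hζ hv hx)
  obtain ⟨L, _, _, hle, y, -, hy⟩ := exists_root_level hζ (x / z ^ p)
  let _ := inclAlgebra hle
  have := isInclusion_inclAlgebra hle
  have := IsInclusion.isGalois (K := K) (L := L)
  have h := kum_unr_eq_zero hζ (hl := hl) (hA := hA) σ hσ hlp hz.1 hy
  rw [← div_mul_cancel x (z ^ p), kum_mul hζ, h, kum_pow_p hζ, add_zero]

/-- An unramified Kummer character comes from a valuation divisible by `p`. -/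
theorem dvd_ord_of_kum_eq_zero {x : Kˣ}
    (h : ∀ σ : K.fixingSubgroup, (σ : Γ) ∈ A.inertiaSubgroupIn ℚ → kum p ζ x σ = 0) :
    (p : ℤ) ∣ Ext.ord (placeIn K A hl hA) (x : K) := by
  obtain ⟨L, _, _, hle, y, hy0, hy⟩ := exists_root_level hζ x
  let _ := inclAlgebra hle
  have := isInclusion_inclAlgebra hle
  have := IsInclusion.isGalois (K := K) (L := L)
  refine dvd_ord_of_inertia hy fun σ hσ => Subtype.ext ?_
  rw [coe_resK, hy0]
  exact (kum_eq_zero_iff hζ (proot_pow _)).mp (h σ hσ)

end FLTAgent.TW
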