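import Fermat.Agent.TW.Places

/-!
# A finite normal level over a number field inside `ℚ̄`
-/

set_option autoImplicit false
set_option linter.unusedSectionVars false

open IsDedekindDomain NumberField
open scoped Pointwise

noncomputable section

namespace FLTAgent.TW

open FLTAgent.Frobenius

local instance : IsGalois ℚ Qb := qb_isGalois

/-- Existence of a finite normal level containing given elements. -/
theorem exists_normal_level (K : IntermediateField ℚ Qb) [FiniteDimensional ℚ K] (y : Qb) :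
    ∃ L : IntermediateField ℚ Qb, FiniteDimensional ℚ L ∧ Normal ℚ L ∧ K ≤ L ∧ y ∈ L := by
  have : FiniteDimensional ℚ (IntermediateField.adjoin ℚ {y}) :=
    IntermediateField.adjoin.finiteDimensional
      ((AlgebraicClosure.isAlgebraic ℚ).isAlgebraic _).isIntegral
  let M : IntermediateField ℚ Qb := K ⊔ IntermediateField.adjoin ℚ {y}
  have : FiniteDimensional ℚ M := IntermediateField.finiteDimensional_sup _ _
  refine ⟨IntermediateField.normalClosure ℚ M Qb, normalClosure.is_finiteDimensional _ _ _,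
    normalClosure.normal ℚ _ _, le_sup_left.trans (IntermediateField.le_normalClosure M), ?_⟩
  exact (le_sup_right.trans (IntermediateField.le_normalClosure M))
    (IntermediateField.mem_adjoin_simple_self ℚ y)

variable {K L : IntermediateField ℚ Qb}

/-- The algebra structure of an inclusion. -/
@[reducible] def inclAlgebra (h : K ≤ L) : Algebra K L :=
  (IntermediateField.inclusion h).toRingHom.toAlgebra

/-- The algebra structure on `L` is the inclusion. -/
class IsInclusion (K L : IntermediateField ℚ Qb) [Algebra K L] : Prop where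
  coe_algebraMap : ∀ x : K, ((algebraMap K L x : L) : Qb) = x

theorem isInclusion_inclAlgebra (h : K ≤ L) : @IsInclusion K L (inclAlgebra h) :=
  @IsInclusion.mk K L (inclAlgebra h) fun _ => rfl

variable [Algebra K L] [IsInclusion K L]

theorem IsInclusion.le : K ≤ L := fun x hx => by
  have h := IsInclusion.coe_algebraMap (L := L) (⟨x, hx⟩ : K)
  show ((⟨x, hx⟩ : K) : Qb) ∈ L
  rw [← h]
  exact SetLike.coe_mem _

theorem IsInclusion.scalarTower : IsScalarTower ℚ K L :=
  IsScalarTower.of_algebraMap_eq fun q => Subtype.ext (by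
    rw [IsInclusion.coe_algebraMap]; rfl)

theorem IsInclusion.isGalois [Normal ℚ L] : IsGalois K L :=
  have := IsInclusion.scalarTower (K := K) (L := L)
  have : IsGalois ℚ L := ⟨⟩
  IsGalois.tower_top_of_isGalois ℚ K L

/-- Restriction of an element of `G_K` to a normal level. -/
def resK [Normal ℚ L] (σ : K.fixingSubgroup) : L ≃ₐ[K] L :=
  AlgEquiv.ofRingEquiv (f := (AlgEquiv.restrictNormalHom L (σ : Γ)).toRingEquiv) fun x =>
    Subtype.ext (by
      show ((AlgEquiv.restrictNormalHom L (σ : Γ) (algebraMap K L x) : L) : Qb) = _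
      rw [← apply_coe_eq L, IsInclusion.coe_algebraMap, apply_coe_eq_of_mem_fixing σ.2])

theorem coe_resK [Normal ℚ L] (σ : K.fixingSubgroup) (x : L) :
    ((resK σ x : L) : Qb) = (σ : Γ) x :=
  (apply_coe_eq L (σ : Γ) x).symm

theorem resK_surjective [Normal ℚ L] (τ : L ≃ₐ[K] L) : ∃ σ : K.fixingSubgroup, resK σ = τ := by
  have := IsInclusion.scalarTower (K := K) (L := L)
  let σ : Γ := AlgEquiv.liftNormal (τ.restrictScalars ℚ) Qb
  have hσ : ∀ x : L, σ (x : Qb) = ((τ x : L) : Qb) := fun x =>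
    AlgEquiv.liftNormal_commutes (τ.restrictScalars ℚ) Qb x
  refine ⟨⟨σ, (IntermediateField.mem_fixingSubgroup_iff _ _).mpr fun x hx => ?_⟩,
    AlgEquiv.ext fun x => Subtype.ext ?_⟩
  · show σ ((⟨x, hx⟩ : K) : Qb) = ((⟨x, hx⟩ : K) : Qb)
    rw [← IsInclusion.coe_algebraMap (L := L) (⟨x, hx⟩ : K), hσ, τ.commutes]
  · rw [coe_resK]
    exact hσ x

variable [FiniteDimensional ℚ K] [FiniteDimensional ℚ L]
variable {A : ValuationSubring Qb} {l : ℕ} {hl : l.Prime} {hA : A.LiesOverPrime l}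

theorem below_placeIn : Ext.below K (placeIn L A hl hA) = placeIn K A hl hA := by
  refine HeightOneSpectrum.ext (Ideal.ext fun x => ?_)
  show algebraMap (𝓞 K) (𝓞 L) x ∈ centreIn L A ↔ x ∈ centreIn K A
  rw [centreIn, centreIn, Ideal.mem_comap, Ideal.mem_comap]
  have : toZbar L (algebraMap (𝓞 K) (𝓞 L) x) = toZbar K x :=
    Subtype.ext (IsInclusion.coe_algebraMap (x : K))
  rw [this]

theorem conjPlace_placeIn [Normal ℚ L] [IsGalois K L] (σ : K.fixingSubgroup) :
    Ext.conjPlace (resK σ : L ≃ₐ[K] L) (placeIn L A hl hA) =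
      placeIn L ((σ : Γ) • A) hl (liesOverPrime_smul hA _) := by
  rw [placeIn_smul (resK σ : L ≃ₐ[K] L).toRingEquiv (σ : Γ) (fun x => coe_resK σ x)]
  refine HeightOneSpectrum.ext (Ideal.ext fun x => ?_)
  rw [mem_placeMap]
  show x ∈ (resK σ : L ≃ₐ[K] L) • (placeIn L A hl hA).asIdeal ↔ _
  rw [Ideal.mem_pointwise_smul_iff_inv_smul_mem]
  rfl

theorem conjPlace_eq_of_decomposition [Normal ℚ L] [IsGalois K L] (σ : K.fixingSubgroup)
    (hσ : (σ : Γ) ∈ A.decompositionSubgroup ℚ) :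
    Ext.conjPlace (resK σ : L ≃ₐ[K] L) (placeIn L A hl hA) = placeIn L A hl hA := by
  rw [conjPlace_placeIn]
  refine HeightOneSpectrum.ext ?_
  show centreIn L ((σ : Γ) • A) = centreIn L A
  rw [MulAction.mem_stabilizer_iff.mp hσ]

/-- Lifting of decomposition groups. -/
theorem exists_decomposition_resK [Normal ℚ L] [IsGalois K L] (τ : L ≃ₐ[K] L)
    (hτ : Ext.conjPlace τ (placeIn L A hl hA) = placeIn L A hl hA) :
    ∃ σ : K.fixingSubgroup, (σ : Γ) ∈ A.decompositionSubgroup ℚ ∧ resK σ = τ := by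
  obtain ⟨σ₀, rfl⟩ := resK_surjective τ
  rw [conjPlace_placeIn] at hτ
  obtain ⟨σ, hσD, hσ⟩ := exists_decomposition_eqOn L (σ₀ : Γ)
    (congrArg HeightOneSpectrum.asIdeal hτ)
  have hfix : σ ∈ K.fixingSubgroup := (IntermediateField.mem_fixingSubgroup_iff _ _).mpr
    fun x hx => by rw [hσ x (IsInclusion.le hx), apply_eq_of_mem_fixing σ₀.2 hx]
  exact ⟨⟨σ, hfix⟩, hσD, AlgEquiv.ext fun x => Subtype.ext (by
    rw [coe_resK, coe_resK]; exact hσ _ x.2)⟩

/-- Inertia restricts into the inertia group of the level. -/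
theorem resK_mem_inertia [Normal ℚ L] (σ : K.fixingSubgroup)
    (hσ : (σ : Γ) ∈ A.inertiaSubgroupIn ℚ) :
    (resK σ : L ≃ₐ[K] L) ∈ (placeIn L A hl hA).asIdeal.inertia (L ≃ₐ[K] L) := by
  rw [mem_inertiaSubgroupIn_iff_centre] at hσ
  intro x
  show (resK σ : L ≃ₐ[K] L) • x - x ∈ (centre A).comap (toZbar L)
  rw [Ideal.mem_comap, map_sub]
  have : toZbar L ((resK σ : L ≃ₐ[K] L) • x) = (σ : Γ) • toZbar L x :=
    Subtype.ext (coe_resK σ (x : L))
  rw [this]
  exact hσ _

/-- Lifting of inertia groups. -/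
theorem exists_inertia_resK [Normal ℚ L] (τ : L ≃ₐ[K] L)
    (hτ : τ ∈ (placeIn L A hl hA).asIdeal.inertia (L ≃ₐ[K] L)) :
    ∃ σ : K.fixingSubgroup, (σ : Γ) ∈ A.inertiaSubgroupIn ℚ ∧ resK σ = τ := by
  obtain ⟨σ₀, rfl⟩ := resK_surjective τ
  obtain ⟨ι, hι, hιL⟩ := exists_mem_inertiaSubgroupIn_eqOn L (A := A) (σ₀ : Γ) fun x hx => by
    obtain ⟨y, rfl⟩ := exists_toZbar_eq L hx
    have h2 : toZbar L ((resK σ₀ : L ≃ₐ[K] L) • y) = (σ₀ : Γ) • toZbar L y :=
      Subtype.ext (coe_resK σ₀ (y : L))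
    have h1 := hτ y
    rw [← h2, ← map_sub]
    exact h1
  have hfix : ι ∈ K.fixingSubgroup := (IntermediateField.mem_fixingSubgroup_iff _ _).mpr
    fun x hx => by rw [hιL x (IsInclusion.le hx), apply_eq_of_mem_fixing σ₀.2 hx]
  exact ⟨⟨ι, hfix⟩, hι, AlgEquiv.ext fun x => Subtype.ext (by
    rw [coe_resK, coe_resK]; exact hιL _ x.2)⟩

end FLTAgent.TW
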