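import Fermat.Agent.TW.Counts.Local

/-!
# The local Kummer group at several primes
-/

set_option autoImplicit false
set_option linter.unusedSectionVars false

open IsDedekindDomain NumberField
open scoped Pointwise

noncomputable section

namespace FLTAgent.TW

variable {p : ℕ} [hpf : Fact p.Prime]

namespace KField

variable (S : KField p)

/-- Forgetting places. -/
def locProj {U U' : Set (Ext.Place S.K)} (h : U' ⊆ U) :
    S.LocK U →ₗ[ZMod p] S.LocK U' :=
  (S.splitP U).mapQ (S.splitP U') LinearMap.id fun a ha => by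
    obtain ⟨x, rfl⟩ := S.cls_surjective a
    exact S.cls_mem_splitP.mpr fun v hv => (S.cls_mem_splitP.mp ha) v (h hv)

theorem locProj_mk {U U' : Set (Ext.Place S.K)} (h : U' ⊆ U) (a : S.KP) :
    S.locProj h (Submodule.Quotient.mk a) = Submodule.Quotient.mk a := rfl

variable {S} in
theorem locProj_equivariant {U U' : Set (Ext.Place S.K)} (h : U' ⊆ U) (hU : S.IsStable U)
    (hU' : S.IsStable U') (c : S.C) (x : S.LocK U) :
    S.locProj h (locRep hU c x) = locRep hU' c (S.locProj h x) := by
  obtain ⟨a, rfl⟩ := Submodule.Quotient.mk_surjective _ x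
  simp only [locRep, locProj, Representation.quotient_apply, Submodule.mapQ_apply, LinearMap.id_apply]

variable {k : Type} [Field k] [Algebra (ZMod p) k]
variable {W : Type} [AddCommGroup W] [Module k W] [Module (ZMod p) W] [IsScalarTower (ZMod p) k W]
  [Finite W]

/-- The count for two disjoint stable sets of places over sets of primes. -/
theorem cnt_locK_insert {ρ : Representation k S.C W} (hρ : IsRelProj ρ) {l : ℕ} {P : Finset ℕ}
    (hl : l ∉ P) (hP : ∀ q ∈ insert l P, q.Prime) :
    cnt ρ (locRep (S.placesOver_stable (insert l P))) =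
      cnt ρ (locRep (S.placesOver_stable {l})) + cnt ρ (locRep (S.placesOver_stable P)) := by
  classical
  have hsub1 : (S.placesOver {l} : Set (Ext.Place S.K)) ⊆ S.placesOver (insert l P) := fun v hv => by
    rw [Finset.mem_coe, S.mem_placesOver] at hv ⊢
    obtain ⟨q, hq, h⟩ := hv
    exact ⟨q, Finset.mem_insert.mpr (Or.inl (Finset.mem_singleton.mp hq)), h⟩
  have hsub2 : (S.placesOver P : Set (Ext.Place S.K)) ⊆ S.placesOver (insert l P) := fun v hv => by
    rw [Finset.mem_coe, S.mem_placesOver] at hv ⊢
    obtain ⟨q, hq, h⟩ := hv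
    exact ⟨q, Finset.mem_insert_of_mem hq, h⟩
  have := S.finite_locK (insert l P)
  have := S.finite_locK {l}
  have := S.finite_locK P
  let τ : Representation (ZMod p) S.C
      (S.LocK (S.placesOver {l} : Set (Ext.Place S.K)) ×
        S.LocK (S.placesOver P : Set (Ext.Place S.K))) :=
    (locRep (S.placesOver_stable {l})).prod (locRep (S.placesOver_stable P))
  let e := (S.locProj hsub1).prod (S.locProj hsub2)
  have heq : ∀ c x, e (locRep (S.placesOver_stable (insert l P)) c x) = τ c (e x) := fun c x => by
    refine Prod.ext ?_ ?_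
    · exact locProj_equivariant hsub1 _ (S.placesOver_stable {l}) c x
    · exact locProj_equivariant hsub2 _ (S.placesOver_stable P) c x
  have hinj : Function.Injective e := by
    refine (injective_iff_map_eq_zero _).mpr fun x hx => ?_
    obtain ⟨a, rfl⟩ := Submodule.Quotient.mk_surjective _ x
    obtain ⟨y, rfl⟩ := S.cls_surjective a
    have h1 : (Submodule.Quotient.mk (S.cls y) :
        S.LocK (S.placesOver {l} : Set (Ext.Place S.K))) = 0 := congrArg Prod.fst hx
    have h2 : (Submodule.Quotient.mk (S.cls y) :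
        S.LocK (S.placesOver P : Set (Ext.Place S.K))) = 0 := congrArg Prod.snd hx
    rw [Submodule.Quotient.mk_eq_zero, S.cls_mem_splitP] at h1 h2 ⊢
    intro v hv
    rw [Finset.mem_coe, S.mem_placesOver] at hv
    obtain ⟨q, hq, hqp, hqv⟩ := hv
    rcases Finset.mem_insert.mp hq with rfl | hq
    · exact h1 v (Finset.mem_coe.mpr (S.mem_placesOver.mpr ⟨q, Finset.mem_singleton_self q, hqp, hqv⟩))
    · exact h2 v (Finset.mem_coe.mpr (S.mem_placesOver.mpr ⟨q, hq, hqp, hqv⟩))
  have hsurj : Function.Surjective e := by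
    rintro ⟨x, y⟩
    obtain ⟨a, rfl⟩ := Submodule.Quotient.mk_surjective _ x
    obtain ⟨b, rfl⟩ := Submodule.Quotient.mk_surjective _ y
    obtain ⟨x, rfl⟩ := S.cls_surjective a
    obtain ⟨y, rfl⟩ := S.cls_surjective b
    let L := S.thrLevel (insert l P)
    obtain ⟨Y, hY⟩ := L.exists_glue fun v => if v ∈ S.placesOver {l} then x else y
    have hglue : ∀ v ∈ L.U, ∀ z, (if v ∈ S.placesOver {l} then x else y) = z →
        Y / z ∈ Ext.splitSub S.hζ v := fun v hv z hz => by
      have h := hY v hv
      simp only [hz] at h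
      exact Ext.near_le_splitSub S.hζ v (lt_of_le_of_lt h.2 (L.γ_lt v hv))
    refine ⟨Submodule.Quotient.mk (S.cls Y), Prod.ext ?_ ?_⟩
    · show (Submodule.Quotient.mk (S.cls Y) : S.LocK (S.placesOver {l} : Set (Ext.Place S.K))) = _
      rw [Submodule.Quotient.eq, show S.cls Y - S.cls x = S.cls (Y / x) by
        rw [KField.cls, KField.cls, KField.cls, ← map_sub, ofMul_div], S.cls_mem_splitP]
      exact fun v hv => hglue v (hsub1 hv) x (if_pos hv)
    · show (Submodule.Quotient.mk (S.cls Y) : S.LocK (S.placesOver P : Set (Ext.Place S.K))) = _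
      rw [Submodule.Quotient.eq, show S.cls Y - S.cls y = S.cls (Y / y) by
        rw [KField.cls, KField.cls, KField.cls, ← map_sub, ofMul_div], S.cls_mem_splitP]
      refine fun v hv => hglue v (hsub2 hv) y (if_neg fun h => hl ?_)
      obtain ⟨q, hq, hqp, hqv⟩ := S.mem_placesOver.mp hv
      obtain ⟨q', hq', hq'p, hq'v⟩ := S.mem_placesOver.mp h
      rw [Finset.mem_singleton] at hq'
      subst hq'
      rwa [eq_of_natCast_mem hq'p hqp v hq'v hqv]
  rw [cnt_congr (LinearEquiv.ofBijective e ⟨hinj, hsurj⟩) heq]
  exact cnt_eq_add hρ (LinearMap.inl _ _ _) (LinearMap.snd _ _ _)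
    (fun c x => Prod.ext rfl (map_zero (locRep (S.placesOver_stable P) c)).symm) (fun c x => rfl) LinearMap.inl_injective
    LinearMap.snd_surjective (LinearMap.exact_iff.mpr (by
      ext x; simp [LinearMap.mem_ker, LinearMap.mem_range, Prod.ext_iff, eq_comm]))

/-- The count at the places over a finite set of primes. -/
theorem cnt_locK_finset {ρ : Representation k S.C W} (hρ : IsRelProj ρ) (P : Finset ℕ)
    (hP : ∀ q ∈ P, q.Prime) :
    cnt ρ (locRep (S.placesOver_stable P)) =
      ∑ l ∈ P, cnt ρ (locRep (S.placesOver_stable {l})) := by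
  classical
  induction P using Finset.induction with
  | empty =>
    rw [Finset.sum_empty]
    have := S.finite_locK ∅
    have hsub : Subsingleton (S.LocK (S.placesOver ∅ : Set (Ext.Place S.K))) := by
      refine ⟨fun x y => ?_⟩
      obtain ⟨a, rfl⟩ := Submodule.Quotient.mk_surjective _ x
      obtain ⟨b, rfl⟩ := Submodule.Quotient.mk_surjective _ y
      obtain ⟨z, hz⟩ := S.cls_surjective (a - b)
      rw [Submodule.Quotient.eq, ← hz, S.cls_mem_splitP]
      intro v hv
      simp [mem_placesOver] at hv
    have hbot : eqMaps ρ (locRep (S.placesOver_stable ∅)).dual = ⊥ := by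
      rw [eq_bot_iff]
      intro T _
      rw [Submodule.mem_bot]
      refine LinearMap.ext fun φ => ?_
      rw [show φ = 0 from LinearMap.ext fun x => by rw [Subsingleton.elim x 0, map_zero, map_zero],
        map_zero, LinearMap.zero_apply]
    rw [cnt, hbot, finrank_bot]
  | insert l P hl ih =>
    rw [Finset.sum_insert hl, S.cnt_locK_insert hρ hl hP, ih fun q hq => hP q (Finset.mem_insert_of_mem hq)]

end KField

end FLTAgent.TW
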