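import Fermat.Agent.TW.LevelField
import Fermat.Agent.TW.Kummer
import Fermat.Agent.Ext.Local
import Mathlib.NumberTheory.RamificationInertia.Galois

/-!
# Local behaviour of Kummer characters
-/

set_option autoImplicit false
set_option linter.unusedSectionVars false

open IsDedekindDomain NumberField WithZero
open scoped Pointwise

noncomputable section

namespace FLTAgent.TW

open FLTAgent.Frobenius

local instance : IsGalois ℚ Qb := qb_isGalois

variable {p : ℕ} [hpf : Fact p.Prime]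

/-- A `p`-th root of an element close to `1` is close to a root of unity. -/
theorem exists_root_near {F : Type} [Field F] [NumberField F] {ζ : F} (hζ : IsPrimitiveRoot ζ p)
    (w : Ext.Place F) {y : F} (h : w.valuation F (y ^ p - 1) < Ext.thr hζ w) :
    ∃ μ : F, μ ^ p = 1 ∧ w.valuation F (y * μ - 1) < w.valuation F (ζ - 1) := by
  classical
  by_contra hcon
  push Not at hcon
  rw [show y ^ p - 1 = y ^ p - 1 ^ p by rw [one_pow],
    hζ.pow_sub_pow_eq_prod_sub_mul y 1 hpf.out.pos, map_prod] at h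
  have hle : ∀ μ ∈ Polynomial.nthRootsFinset p (1 : F),
      w.valuation F (ζ - 1) ≤ w.valuation F (y - μ * 1) := fun μ hμ => by
    rw [Polynomial.mem_nthRootsFinset hpf.out.pos] at hμ
    have hμ0 : μ ≠ 0 := fun h0 => by
      rw [h0, zero_pow hpf.out.ne_zero] at hμ
      exact zero_ne_one hμ
    have h1 : w.valuation F μ = 1 := Ext.eq_one_of_pow_eq_one hpf.out.ne_zero (by
      rw [← map_pow, hμ, map_one])
    have h2 := hcon μ⁻¹ (by rw [inv_pow, hμ, inv_one])
    rwa [show y * μ⁻¹ - 1 = μ⁻¹ * (y - μ * 1) by field_simp, map_mul, map_inv₀, h1, inv_one,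
      one_mul] at h2
  have h3 := Finset.prod_le_prod' hle
  rw [Finset.prod_const, hζ.card_nthRootsFinset] at h3
  exact absurd (lt_of_le_of_lt h3 h) (lt_irrefl _)

variable {K : IntermediateField ℚ Qb} [FiniteDimensional ℚ K] {ζ : K} (hζ : IsPrimitiveRoot ζ p)
variable {A : ValuationSubring Qb} {l : ℕ} {hl : l.Prime} {hA : A.LiesOverPrime l}
variable {L : IntermediateField ℚ Qb} [FiniteDimensional ℚ L] [Normal ℚ L] [Algebra K L]
  [IsInclusion K L]

include hζ in
theorem algebraMap_zeta : IsPrimitiveRoot (algebraMap K L ζ) p :=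
  hζ.map_of_injective (algebraMap K L).injective

theorem thr_algebraMap (w : Ext.Place L) :
    Ext.thr (algebraMap_zeta (L := L) hζ) w =
      Ext.thr hζ (Ext.below K w) ^ Ext.eIdx K w := by
  rw [Ext.thr, Ext.thr, ← map_one (algebraMap K L), ← map_sub, Ext.valuation_algebraMap',
    ← pow_mul, ← pow_mul, mul_comm]

theorem kum_near_eq_zero [IsGalois K L] (σ : K.fixingSubgroup)
    (hσ : (σ : Γ) ∈ A.decompositionSubgroup ℚ) {u : Kˣ}
    (hu : u ∈ Ext.near hζ (placeIn K A hl hA)) {y : L} (hy : y ^ p = algebraMap K L (u : K)) :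
    kum p ζ u σ = 0 := by
  have hζL := algebraMap_zeta (L := L) hζ
  set w := placeIn L A hl hA
  have hw : Ext.below K w = placeIn K A hl hA := below_placeIn
  obtain ⟨μ, hμ, hnear⟩ := exists_root_near hζL w (y := y) (by
    rw [hy, ← map_one (algebraMap K L), ← map_sub, Ext.valuation_algebraMap', thr_algebraMap hζ, hw]
    exact pow_lt_pow_left₀ hu zero_le (Ext.eIdx_pos w).ne')
  set y' := y * μ with hy'
  have hy'p : y' ^ p = algebraMap K L (u : K) := by rw [hy', mul_pow, hy, hμ, mul_one]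
  have hroot : ((y' : L) : Qb) ^ p = ((u : K) : Qb) := by
    rw [← IsInclusion.coe_algebraMap (L := L) (u : K), ← hy'p]
    push_cast
    rfl
  have h1 := apply_root hζ u hroot σ
  set a := kum p ζ u σ
  by_contra ha
  have h2 : (resK σ : L ≃ₐ[K] L) y' = (algebraMap K L ζ) ^ a.val * y' := Subtype.ext (by
    rw [coe_resK, h1]
    show _ = ((algebraMap K L ζ : L) : Qb) ^ a.val * (y' : Qb)
    rw [IsInclusion.coe_algebraMap])
  have h3 : w.valuation L ((resK σ : L ≃ₐ[K] L) y' - 1) = w.valuation L (y' - 1) := by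
    calc w.valuation L ((resK σ : L ≃ₐ[K] L) y' - 1)
        = (Ext.conjPlace (resK σ : L ≃ₐ[K] L) w).valuation L
            ((resK σ : L ≃ₐ[K] L) y' - 1) := by
          rw [show Ext.conjPlace (resK σ : L ≃ₐ[K] L) w = w from
            conjPlace_eq_of_decomposition σ hσ]
      _ = w.valuation L (y' - 1) := by
          rw [← map_one (resK σ : L ≃ₐ[K] L), ← map_sub, Ext.valuation_conjPlace, map_one]
  have hval : w.valuation L y' = 1 := by
    have := Valuation.map_one_add_of_lt (w.valuation L)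
      (lt_of_lt_of_le hnear (Ext.valuation_sub_one_le hζL w))
    simpa using this
  have h4 : w.valuation L (((algebraMap K L ζ) ^ a.val - 1) * y') =
      w.valuation L (algebraMap K L ζ - 1) := by
    rw [map_mul, hval, mul_one]
    refine Ext.valuation_pow_sub_one hζL w fun hdvd => ha ((ZMod.val_eq_zero a).mp ?_)
    exact Nat.eq_zero_of_dvd_of_lt hdvd (ZMod.val_lt a)
  rw [h2, show (algebraMap K L ζ) ^ a.val * y' - 1 =
    ((algebraMap K L ζ) ^ a.val - 1) * y' + (y' - 1) by ring,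
    Valuation.map_add_eq_of_lt_left _ (by rw [h4]; exact hnear), h4] at h3
  exact hnear.ne h3.symm

include hζ in
theorem kum_unr_eq_zero [IsGalois K L] (σ : K.fixingSubgroup)
    (hσ : (σ : Γ) ∈ A.inertiaSubgroupIn ℚ) (hlp : l ≠ p) {u : Kˣ}
    (hu : (placeIn K A hl hA).valuation K (u : K) = 1) {y : L}
    (hy : y ^ p = algebraMap K L (u : K)) :
    kum p ζ u σ = 0 := by
  have hζL := algebraMap_zeta (L := L) hζ
  set w := placeIn L A hl hA
  have hw : Ext.below K w = placeIn K A hl hA := below_placeIn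
  have hyv : w.valuation L y = 1 := Ext.eq_one_of_pow_eq_one hpf.out.ne_zero (by
    rw [← map_pow, hy, Ext.valuation_algebraMap', hw, hu, one_pow])
  have hpw : w.valuation L (p : L) = 1 := by
    rw [show (p : L) = algebraMap (𝓞 L) L (p : 𝓞 L) by simp,
      HeightOneSpectrum.valuation_eq_one_iff_notMem]
    exact fun h => hlp (eq_of_natCast_mem hl hpf.out w natCast_mem_placeIn h)
  obtain ⟨b, hb⟩ := Ext.exists_integral_rep w 1 (le_of_eq hyv)
  have hlt : exp (-((1 : ℕ) : ℤ)) < (1 : ℤᵐ⁰) := by rw [← exp_zero, exp_lt_exp]; norm_num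
  have h1 : w.valuation L ((b : L) - y) < 1 := lt_of_le_of_lt hb hlt
  have hin := resK_mem_inertia (K := K) (L := L) (hl := hl) (hA := hA) σ hσ
  have hdec : Ext.conjPlace (resK σ : L ≃ₐ[K] L) w = w := HeightOneSpectrum.ext
    (MulAction.mem_stabilizer_iff.mp (Ideal.inertia_le_stabilizer (M := L ≃ₐ[K] L) w.asIdeal hin))
  have h2 : w.valuation L ((resK σ : L ≃ₐ[K] L) ((b : L) - y)) < 1 := by
    calc w.valuation L ((resK σ : L ≃ₐ[K] L) ((b : L) - y))
        = (Ext.conjPlace (resK σ : L ≃ₐ[K] L) w).valuation L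
            ((resK σ : L ≃ₐ[K] L) ((b : L) - y)) := by rw [hdec]
      _ < 1 := by rw [Ext.valuation_conjPlace]; exact h1
  have h3 : w.valuation L ((resK σ : L ≃ₐ[K] L) (b : L) - (b : L)) < 1 := by
    rw [show (resK σ : L ≃ₐ[K] L) (b : L) - (b : L) =
      algebraMap (𝓞 L) L ((resK σ : L ≃ₐ[K] L) • b - b) by rw [map_sub]; rfl]
    exact (w.valuation_lt_one_iff_mem _).mpr (hin b)
  set a := kum p ζ u σ
  by_contra ha
  have hroot : ((y : L) : Qb) ^ p = ((u : K) : Qb) := by
    rw [← IsInclusion.coe_algebraMap (L := L) (u : K), ← hy]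
    push_cast
    rfl
  have h4 : (resK σ : L ≃ₐ[K] L) y = (algebraMap K L ζ) ^ a.val * y := Subtype.ext (by
    rw [coe_resK, apply_root hζ u hroot σ]
    show _ = ((algebraMap K L ζ : L) : Qb) ^ a.val * (y : Qb)
    rw [IsInclusion.coe_algebraMap])
  have h5 : w.valuation L (((algebraMap K L ζ) ^ a.val - 1) * y) = 1 := by
    rw [map_mul, hyv, mul_one, Ext.valuation_pow_sub_one hζL w fun hdvd =>
      ha ((ZMod.val_eq_zero a).mp (Nat.eq_zero_of_dvd_of_lt hdvd (ZMod.val_lt a))),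
      Ext.valuation_sub_one_eq_one hζL hpw]
  have h6 : w.valuation L (((algebraMap K L ζ) ^ a.val - 1) * y) < 1 := by
    rw [show ((algebraMap K L ζ) ^ a.val - 1) * y =
      ((resK σ : L ≃ₐ[K] L) (b : L) - (b : L)) + ((b : L) - y) -
        (resK σ : L ≃ₐ[K] L) ((b : L) - y) by rw [map_sub, h4]; ring]
    exact Valuation.map_sub_lt _ (Valuation.map_add_lt _ h3 h1) h2
  exact h6.ne h5

/-- A fixed `p`-th root under inertia forces the valuation to be divisible by `p`. -/
theorem dvd_ord_of_inertia [IsGalois K L] {x : Kˣ} {y : L} (hy : y ^ p = algebraMap K L (x : K))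
    (hfix : ∀ σ : K.fixingSubgroup, (σ : Γ) ∈ A.inertiaSubgroupIn ℚ → resK σ y = y) :
    (p : ℤ) ∣ Ext.ord (placeIn K A hl hA) (x : K) := by
  classical
  set w := placeIn L A hl hA
  let T : IntermediateField K L := IntermediateField.adjoin K {y}
  have hT : ∀ τ ∈ w.asIdeal.inertia (L ≃ₐ[K] L), τ ∈ T.fixingSubgroup := fun τ hτ => by
    obtain ⟨σ, hσ, rfl⟩ := exists_inertia_resK (hl := hl) (hA := hA) τ hτ
    have : ∀ z ∈ T, resK σ z = z := fun z hz => by
      have hle : T ≤ IntermediateField.fixedField (Subgroup.zpowers (resK σ : L ≃ₐ[K] L)) := by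
        rw [IntermediateField.adjoin_simple_le_iff, IntermediateField.mem_fixedField_iff]
        exact (Subgroup.zpowers_le (H := MulAction.stabilizer (L ≃ₐ[K] L) y)).mpr (hfix σ hσ)
      exact (IntermediateField.mem_fixedField_iff _ _).mp (hle hz) _ (Subgroup.mem_zpowers _)
    exact (IntermediateField.mem_fixingSubgroup_iff _ _).mpr this
  have hcard : Nat.card (w.asIdeal.inertia (L ≃ₐ[T] L)) =
      Nat.card (w.asIdeal.inertia (L ≃ₐ[K] L)) := by
    refine Nat.card_congr (Equiv.ofBijective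
      (fun τ => (⟨τ.1.restrictScalars K, τ.2⟩ : w.asIdeal.inertia (L ≃ₐ[K] L)))
      ⟨fun a b h => Subtype.ext (AlgEquiv.ext fun z =>
        DFunLike.congr_fun (congrArg Subtype.val h : a.1.restrictScalars K = b.1.restrictScalars K) z),
      fun τ => ⟨⟨IntermediateField.fixingSubgroupEquiv T ⟨τ.1, hT τ.1 τ.2⟩, τ.2⟩, rfl⟩⟩)
  have he : Ext.eIdx T w = Ext.eIdx K w := by
    rw [Ext.eIdx, Ext.eIdx,
      ← Ideal.ramificationIdxIn_eq_ramificationIdx (Ext.below T w).asIdeal w.asIdeal (L ≃ₐ[T] L),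
      ← Ideal.ramificationIdxIn_eq_ramificationIdx (Ext.below K w).asIdeal w.asIdeal (L ≃ₐ[K] L),
      ← Ideal.card_inertia_eq_ramificationIdxIn (G := L ≃ₐ[T] L) (Ext.below T w).asIdeal w.asIdeal,
      ← Ideal.card_inertia_eq_ramificationIdxIn (G := L ≃ₐ[K] L) (Ext.below K w).asIdeal w.asIdeal,
      hcard]
  let y₀ : T := ⟨y, IntermediateField.mem_adjoin_simple_self K y⟩
  have h1 := congrArg (Ext.ord w) hy
  have h2 : Ext.ord w y = Ext.eIdx T w * Ext.ord (Ext.below T w) y₀ :=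
    Ext.ord_algebraMap' w y₀
  rw [Ext.ord_pow, h2, Ext.ord_algebraMap', he,
    show Ext.below K w = placeIn K A hl hA from below_placeIn] at h1
  refine ⟨Ext.ord (Ext.below T w) y₀, ?_⟩
  have hpos : (Ext.eIdx K w : ℤ) ≠ 0 := by exact_mod_cast (Ext.eIdx_pos w).ne'
  exact mul_left_cancel₀ hpos (by rw [← h1]; ring)

/-- A fixed `p`-th root under the decomposition group forces a local `p`-th power. -/
theorem mem_splitSub_of_decomposition [IsGalois K L] {x : Kˣ} {y : L}
    (hy : y ^ p = algebraMap K L (x : K))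
    (hfix : ∀ σ : K.fixingSubgroup, (σ : Γ) ∈ A.decompositionSubgroup ℚ → resK σ y = y) :
    x ∈ Ext.splitSub hζ (placeIn K A hl hA) := by
  classical
  have hy0 : y ≠ 0 := fun h => x.ne_zero ((algebraMap K L).injective (by
    rw [← hy, h, zero_pow hpf.out.ne_zero, map_zero]))
  set w := placeIn L A hl hA
  have hw : Ext.below K w = placeIn K A hl hA := below_placeIn
  have hζL := algebraMap_zeta (L := L) hζ
  let D : Subgroup (L ≃ₐ[K] L) := MulAction.stabilizer (L ≃ₐ[K] L) w.asIdeal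
  have hD : ∀ τ, τ ∈ D ↔ Ext.conjPlace τ w = w := fun τ =>
    ⟨fun h => HeightOneSpectrum.ext h, fun h => congrArg HeightOneSpectrum.asIdeal h⟩
  have hyD : ∀ τ ∈ D, τ y = y := fun τ hτ => by
    obtain ⟨σ, hσ, rfl⟩ := exists_decomposition_resK (hl := hl) (hA := hA) τ ((hD τ).mp hτ)
    exact hfix σ hσ
  let B : Finset (Ext.Place L) := (Ext.finite_places_over (F := L) (Ext.below K w)).toFinset
  have hB : ∀ τ : L ≃ₐ[K] L, Ext.conjPlace τ w ∈ B := fun τ =>
    (Set.Finite.mem_toFinset _).mpr (Ext.below_conjPlace τ w)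
  -- precision
  obtain ⟨k, hk⟩ := Ext.exists_exp_neg_le (Ext.thr_pos hζL w)
  obtain ⟨n, hn⟩ : ∃ n : ℕ, ∀ w' ∈ B, w'.valuation L (y - 1) ≤ exp (n : ℤ) ∧
      (w.valuation L y)⁻¹ ≤ exp (n : ℤ) := by
    refine ⟨(B.sup fun w' => (log (w'.valuation L (y - 1))).toNat) +
      (log (w.valuation L y)⁻¹).toNat, fun w' hw' => ⟨?_, ?_⟩⟩
    · rcases eq_or_ne (w'.valuation L (y - 1)) 0 with h0 | h0
      · rw [h0]; exact zero_le
      rw [← exp_log h0, exp_le_exp]
      have h1 := Finset.le_sup (f := fun w' => (log (w'.valuation L (y - 1))).toNat) hw'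
      have h2 := Int.self_le_toNat (log (w'.valuation L (y - 1)))
      beta_reduce at h1
      omega
    · have h0 : (w.valuation L y)⁻¹ ≠ 0 := by simp [hy0]
      have h2 := Int.self_le_toNat (log (w.valuation L y)⁻¹)
      refine (exp_log h0).ge.trans (exp_le_exp.mpr ?_)
      omega
  set N := k + 2 * n with hN
  obtain ⟨e₀, he₀⟩ := IsDedekindDomain.exists_forall_sub_mem_ideal (R := 𝓞 L) (s := B)
    (fun w' => w'.asIdeal) (fun _ => N) (fun w' _ => w'.prime)
    (fun a _ b _ hab h => hab (HeightOneSpectrum.ext h)) (fun w' => if w'.1 = w then 1 else 0)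
  have he₀v : ∀ w' ∈ B, w'.valuation L ((e₀ : L) - (if w' = w then 1 else 0)) ≤
      exp (-(N : ℤ)) := fun w' hw' => by
    have := (Ext.valuation_le_exp_iff_mem w' _ N).mpr (he₀ w' hw')
    split_ifs with h <;> simpa [h] using this
  let e : 𝓞 L := ∏ d : D, (d : L ≃ₐ[K] L) • e₀
  have he : (e : L) = ∏ d : D, (d : L ≃ₐ[K] L) (e₀ : L) := by
    rw [show (e : L) = algebraMap (𝓞 L) L e from rfl, map_prod]
    rfl
  have hefix : ∀ τ ∈ D, τ (e : L) = e := fun τ hτ => by
    rw [he, map_prod]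
    exact Fintype.prod_equiv (Equiv.mulLeft ⟨τ, hτ⟩) _ _ fun d => rfl
  have hconjB : ∀ (τ : L ≃ₐ[K] L) (w' : Ext.Place L), w' ∈ B → Ext.conjPlace τ w' ∈ B :=
    fun τ w' h => (Set.Finite.mem_toFinset _).mpr
      ((Ext.below_conjPlace τ w').trans
        (by simpa [B] using h : Ext.below K w' = Ext.below K w))
  have he1 : ∀ w' ∈ B, w' ≠ w → w'.valuation L (e : L) ≤ exp (-(N : ℤ)) := fun w' hw' hne => by
    rw [he, map_prod, ← Finset.mul_prod_erase _ _ (Finset.mem_univ (1 : D))]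
    refine le_trans (mul_le_of_le_one_right' ?_) ?_
    · refine Finset.prod_le_one' fun d _ => ?_
      exact Ext.valuation_coe_le_one w' ((d : L ≃ₐ[K] L) • e₀)
    · have := he₀v w' hw'
      rw [if_neg hne, sub_zero] at this
      simpa using this
  have he2 : w.valuation L ((e : L) - 1) ≤ exp (-(N : ℤ)) := by
    rw [he]
    refine Finset.prod_induction _
      (fun z => w.valuation L z ≤ 1 ∧ w.valuation L (z - 1) ≤ exp (-(N : ℤ)))
      (fun a b ha hb => ⟨by rw [map_mul]; exact mul_le_one' ha.1 hb.1, ?_⟩)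
      ⟨by simp, by simp⟩ (fun d _ => ⟨?_, ?_⟩) |>.2
    · rw [show a * b - 1 = a * (b - 1) + (a - 1) by ring]
      exact Valuation.map_add_le _ (by rw [map_mul]; exact (mul_le_of_le_one_left' ha.1).trans hb.2)
        ha.2
    · exact Ext.valuation_coe_le_one w ((d : L ≃ₐ[K] L) • e₀)
    · rw [← map_one (d : L ≃ₐ[K] L), ← map_sub, Ext.valuation_apply_eq,
        (hD _).mp (inv_mem d.2)]
      have := he₀v w (hB 1 |> fun h => by rwa [Ext.conjPlace_one] at h)
      rwa [if_pos rfl] at this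
  -- the approximate root fixed by `D`
  set z : L := 1 + (e : L) * (y - 1) with hz
  have hzfix : ∀ τ ∈ D, τ z = z := fun τ hτ => by
    rw [hz, map_add, map_one, map_mul, map_sub, map_one, hefix τ hτ, hyD τ hτ]
  let t : L := ∏ q : (L ≃ₐ[K] L) ⧸ D, (q.out : L ≃ₐ[K] L) z
  have htfix : ∀ g : L ≃ₐ[K] L, g t = t := fun g => by
    show g (∏ q : (L ≃ₐ[K] L) ⧸ D, (q.out : L ≃ₐ[K] L) z) = _
    rw [map_prod]
    refine Fintype.prod_equiv (MulAction.toPerm g) _ _ fun q => ?_
    have hmem : (MulAction.toPerm g q).out⁻¹ * (g * q.out) ∈ D := by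
      rw [← QuotientGroup.eq, QuotientGroup.out_eq']
      show g • q = _
      conv_lhs => rw [← QuotientGroup.out_eq' q]
      rfl
    have h1 := congrArg (MulAction.toPerm g q).out (hzfix _ hmem)
    rw [AlgEquiv.mul_apply] at h1
    rw [← h1]
    show _ = (MulAction.toPerm g q).out ((MulAction.toPerm g q).out⁻¹ (g (q.out z)))
    exact (AlgEquiv.apply_symm_apply _ _).symm
  obtain ⟨t₀, ht₀⟩ := (IsGalois.mem_bot_iff_fixed t).mpr htfix
  -- estimates
  have hyv : w.valuation L y ≠ 0 := (Valuation.ne_zero_iff _).mpr hy0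
  have hzw : w.valuation L (z / y - 1) ≤ exp (-(k : ℤ)) := by
    rw [show z / y - 1 = ((e : L) - 1) * (y - 1) * y⁻¹ by rw [hz]; field_simp; ring, map_mul,
      map_mul, map_inv₀]
    have := hn w (by simpa [Ext.conjPlace_one] using hB 1)
    refine (mul_le_mul' (mul_le_mul' he2 this.1) this.2).trans ?_
    rw [← exp_add, ← exp_add, exp_le_exp]
    omega
  have hzo : ∀ τ : L ≃ₐ[K] L, τ ∉ D → w.valuation L (τ z - 1) ≤ exp (-(k : ℤ)) := fun τ hτ => by
    rw [← map_one τ, ← map_sub, Ext.valuation_apply_eq, hz, add_sub_cancel_left, map_mul]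
    have hne : Ext.conjPlace τ⁻¹ w ≠ w := fun h => hτ (by simpa using inv_mem ((hD _).mpr h))
    refine (mul_le_mul' (he1 _ (hB τ⁻¹) hne) (hn _ (hB τ⁻¹)).1).trans ?_
    rw [← exp_add, exp_le_exp]
    omega
  have hk1 : exp (-(k : ℤ)) ≤ (1 : ℤᵐ⁰) := by rw [← exp_zero, exp_le_exp]; omega
  have hmul : ∀ a b : L, w.valuation L (a - 1) ≤ exp (-(k : ℤ)) →
      w.valuation L (b - 1) ≤ exp (-(k : ℤ)) →
      w.valuation L (a * b - 1) ≤ exp (-(k : ℤ)) := fun a b ha hb => by
    rw [show a * b - 1 = (a - 1) * (b - 1) + (a - 1) + (b - 1) by ring]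
    refine Valuation.map_add_le _ (Valuation.map_add_le _ ?_ ha) hb
    rw [map_mul]
    exact (mul_le_of_le_one_left' (ha.trans hk1)).trans hb
  have ht : w.valuation L (t / y - 1) ≤ exp (-(k : ℤ)) := by
    have : t / y = (z / y) * ∏ q ∈ Finset.univ.erase ((1 : L ≃ₐ[K] L) : (L ≃ₐ[K] L) ⧸ D),
        (q.out : L ≃ₐ[K] L) z := by
      show (∏ q : (L ≃ₐ[K] L) ⧸ D, (q.out : L ≃ₐ[K] L) z) / y = _
      rw [← Finset.mul_prod_erase _ _ (Finset.mem_univ ((1 : L ≃ₐ[K] L) : (L ≃ₐ[K] L) ⧸ D)),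
        hzfix _ (by
          have h1 := QuotientGroup.out_eq' ((1 : L ≃ₐ[K] L) : (L ≃ₐ[K] L) ⧸ D)
          rw [QuotientGroup.eq] at h1
          simpa using inv_mem h1)]
      ring
    rw [this]
    refine hmul _ _ hzw (Finset.prod_induction _
      (fun a => w.valuation L (a - 1) ≤ exp (-(k : ℤ))) hmul (by simp) fun q hq => hzo _ ?_)
    intro hmem
    refine Finset.ne_of_mem_erase hq ?_
    rw [← QuotientGroup.out_eq' q, QuotientGroup.eq]
    simpa using inv_mem hmem
  have hpow : ∀ m : ℕ, w.valuation L ((t / y) ^ m - 1) ≤ exp (-(k : ℤ)) := fun m => by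
    induction m with
    | zero => simp
    | succ m ih => rw [pow_succ]; exact hmul _ _ ih ht
  -- conclusion
  have ht0 : t₀ ≠ 0 := by
    rintro rfl
    rw [map_zero] at ht₀
    rw [← ht₀, zero_div, zero_sub, Valuation.map_neg, map_one] at ht
    exact absurd (lt_of_le_of_lt ht hk) (Ext.thr_le_one hζL w).not_gt
  have hr : Units.mk0 t₀ ht0 ^ p / x ∈ Ext.near hζ (placeIn K A hl hA) := by
    show (placeIn K A hl hA).valuation K (((Units.mk0 t₀ ht0 ^ p / x : Kˣ) : K) - 1) < _
    refine lt_of_pow_lt_pow_left₀ (Ext.eIdx K w) zero_le ?_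
    rw [← hw, ← Ext.valuation_algebraMap', ← thr_algebraMap hζ, map_sub, map_one,
      Units.val_div_eq_div_val, Units.val_pow_eq_pow_val, Units.val_mk0, map_div₀, map_pow, ← hy,
      ← div_pow]
    have : (algebraMap K L t₀) = t := ht₀
    rw [this]
    exact lt_of_le_of_lt (hpow p) hk
  refine (Ext.mem_splitSub hζ).mpr ⟨Units.mk0 t₀ ht0, ?_⟩
  simpa using inv_mem hr

end FLTAgent.TW
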