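import Fermat.Agent.TW.FPlaces
import Fermat.Agent.TW.SelmerCount
import Fermat.Agent.TW.Cocycle
import Fermat.Agent.TW.Tangent

/-!
# Restriction of Selmer cocycles to the kernel field and the local image
-/

set_option autoImplicit false
set_option linter.unusedSectionVars false

open IsDedekindDomain NumberField
open scoped Pointwise

noncomputable section

namespace FLTAgent.TW

open FLTAgent.Deformation FLTAgent.Frobenius

section

variable {k : Type} [Field k]

/-- The coboundaries on a subgroup have the dimension of the moved part. -/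
theorem finrank_adB1_add (rb : Gal →* Mat k) (D : Subgroup Gal) :
    Module.finrank k (adB1 rb D) + Module.finrank k (adH0 rb D) = 3 := by
  have h := LinearMap.finrank_range_add_finrank_ker ((adDelta rb D).comp (sl2 k).subtype)
  rw [finrank_sl2, LinearMap.range_comp, Submodule.range_subtype] at h
  have e : Module.finrank k (LinearMap.ker ((adDelta rb D).comp (sl2 k).subtype)) =
      Module.finrank k (adH0 rb D) := by
    rw [LinearMap.ker_comp]
    refine LinearEquiv.finrank_eq ?_
    rw [show adH0 rb D = sl2 k ⊓ LinearMap.ker (adDelta rb D) from rfl]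
    exact (Submodule.equivMapOfInjective (sl2 k).subtype Subtype.val_injective _).trans
      (LinearEquiv.ofEq _ _ (Submodule.map_comap_subtype _ _))
  rw [e] at h
  exact h

variable {rb : Gal →* Mat k} {Smin Q : Finset ℕ} {A : ℕ → ValuationSubring (AlgebraicClosure ℚ)}
  {L : ∀ l : ℕ, Submodule k ((A l).decompositionSubgroup ℚ → Mat k)}

/-- Conjugates of kernel elements. -/
theorem selmer_conj {c : Gal → Mat k} (hc : c ∈ selmer rb Smin Q A L) (g : Gal) {σ : Gal}
    (hσ : rb σ = 1) : c (g * σ * g⁻¹) = adAct rb g (c σ) := by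
  obtain ⟨hcoc, -⟩ := hc
  have h1 : c 1 = 0 := by
    have h := hcoc 1 1
    rwa [one_mul, adAct, inv_one, map_one, one_mul, mul_one, left_eq_add] at h
  have h2 : c g + adAct rb g (c g⁻¹) = 0 := by rw [← hcoc, mul_inv_cancel, h1]
  have h3 : rb σ⁻¹ = 1 := by
    have h := map_mul rb σ σ⁻¹
    rw [mul_inv_cancel, map_one, hσ, one_mul] at h
    exact h.symm
  have h4 : ∀ X, adAct rb σ X = X := fun X => by rw [adAct, hσ, h3, one_mul, mul_one]
  rw [mul_assoc, hcoc g (σ * g⁻¹), hcoc σ g⁻¹, h4]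
  simp only [adAct, mul_add, add_mul] at h2 ⊢
  rw [← add_assoc, add_comm (c g), add_assoc, h2, add_zero]

theorem selmer_trace {c : Gal → Mat k} (hc : c ∈ selmer rb Smin Q A L) (g : Gal) :
    c g ∈ sl2 k := hc.2.1 g

end

variable {k : Type} [Field k] [Finite k] {p : ℕ} [hpf : Fact p.Prime] [CharP k p]
  [Algebra (ZMod p) k]
variable {rb : Gal →* Mat k} {Smin : Finset ℕ} (h : ResidualHyp p rb Smin)
variable {Q : Finset ℕ} {A : ℕ → ValuationSubring (AlgebraicClosure ℚ)}
  {L : ∀ l : ℕ, Submodule k ((A l).decompositionSubgroup ℚ → Mat k)}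

include h in
theorem ResidualHyp.rb_eq_one (σ : h.fieldKF.K.fixingSubgroup) : rb (σ : Γ) = 1 :=
  h.mem_kerField.mp σ.2

/-- The restriction to the kernel field. -/
def ResidualHyp.resSel : selmer rb Smin Q A L →ₗ[k] (h.fieldKF.K.fixingSubgroup → sl2 k) where
  toFun c σ := ⟨c.1 σ, selmer_trace c.2 σ⟩
  map_add' _ _ := rfl
  map_smul' _ _ := rfl

@[simp] theorem ResidualHyp.coe_resSel (c : selmer rb Smin Q A L)
    (σ : h.fieldKF.K.fixingSubgroup) :
    ((h.resSel c σ : sl2 k) : Mat k) = c.1 σ := rfl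

/-- A Selmer cocycle as a cocycle of the adjoint module. -/
theorem ResidualHyp.isCocycle_selmer (c : selmer rb Smin Q A L) :
    IsCocycle h.fieldKF.π h.adF
      (fun g : h.fieldKF.H => (⟨c.1 g, selmer_trace c.2 g⟩ : sl2 k)) := fun g g' =>
  Subtype.ext (by
    rw [Submodule.coe_add, show h.fieldKF.π g = h.fieldKF.π (h.inH g) from rfl, h.coe_adF_π]
    exact c.2.1 g g')

theorem ResidualHyp.resSel_mem (c : selmer rb Smin Q A L) :
    h.resSel c ∈ h.fieldKF.eqHom h.rho
      (h.fieldKF.placesOver (Smin ∪ Q) : Set (Ext.Place h.fieldKF.K)) := by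
  obtain ⟨hcoc, htr, ⟨M, hM, hlev⟩, hloc, hur⟩ := c.2
  refine ⟨fun σ τ => Subtype.ext ?_, ⟨M, hM, fun g s hs => Subtype.ext (hlev g s hs)⟩,
    fun g σ => Subtype.ext ?_, fun B l hl hB hT σ hσ => Subtype.ext ?_⟩
  · rw [Submodule.coe_add, h.coe_resSel, h.coe_resSel, h.coe_resSel, Subgroup.coe_mul, hcoc]
    rw [adAct, h.rb_eq_one σ, ← Subgroup.coe_inv, h.rb_eq_one σ⁻¹, one_mul, mul_one]
  · rw [h.coe_resSel, KField.coe_conjK, selmer_conj c.2 g (h.rb_eq_one σ), h.twist_rho,
      show h.fieldKF.π g = h.fieldKF.π (h.inH g) from rfl, h.coe_adF_π, h.coe_resSel]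
  · rw [h.coe_resSel]
    have hl' : l ∉ Smin ∪ Q := fun hmem =>
      hT (h.fieldKF.mem_placesOver.mpr ⟨l, hmem, hl, natCast_mem_placeIn⟩)
    rw [Finset.mem_union, not_or] at hl'
    exact hur l hl hl'.1 hl'.2 B hB σ hσ

/-- Cocycles vanishing on the kernel field are coboundaries. -/
theorem ResidualHyp.finrank_ker_resSel (hρ : IsRelProj h.rho) :
    Module.Finite k (LinearMap.ker (h.resSel (Q := Q) (A := A) (L := L))) ∧
      Module.finrank k (LinearMap.ker (h.resSel (Q := Q) (A := A) (L := L))) ≤ 3 := by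
  have hρ' : IsRelProj h.adF := by
    refine isRelProj_of_twist
      ((Units.map (algebraMap (ZMod p) k).toMonoidHom).comp h.fieldKF.eps) (fun c w => ?_) hρ
    rw [← h.twist_rho, twistRep_apply]
    rfl
  obtain ⟨θ, hθ⟩ := hρ'
  let V : Submodule k (Gal → Mat k) := (sl2 k).map
    ({ toFun := fun X g => adAct rb g X - X
       map_add' := fun X Y => funext fun g => by simp [adAct, mul_add, add_mul]; abel
       map_smul' := fun t X => funext fun g => by simp [adAct, smul_sub] } :
      Mat k →ₗ[k] (Gal → Mat k))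
  have hV : ∀ c ∈ LinearMap.ker (h.resSel (Q := Q) (A := A) (L := L)), c.1 ∈ V := fun c hc => by
    obtain ⟨X, hX⟩ := (h.isCocycle_selmer c).exists_eq_cobd h.fieldKF.π_surj hθ fun n hn =>
      congrFun (LinearMap.mem_ker.mp hc) ⟨(n : Γ), (h.fieldKF.π_ker n).mp hn⟩
    refine ⟨X, X.2, funext fun g => ?_⟩
    have h1 := congrArg Subtype.val (congrFun hX (h.inH g))
    rw [cobd_apply, Submodule.coe_sub, h.coe_adF_π] at h1
    exact h1.symm
  let j : LinearMap.ker (h.resSel (Q := Q) (A := A) (L := L)) →ₗ[k] V :=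
    ((selmer rb Smin Q A L).subtype.comp
      (LinearMap.ker (h.resSel (Q := Q) (A := A) (L := L))).subtype).codRestrict V
      fun c => hV c.1 c.2
  have hj : Function.Injective j := fun a b hab =>
    Subtype.ext (Subtype.ext (congrArg (fun x : V => (x : Gal → Mat k)) hab))
  have : Module.Finite k (sl2 k) := inferInstance
  have : Module.Finite k V := Module.Finite.map _ _
  refine ⟨Module.Finite.of_injective j hj, ?_⟩
  calc _ ≤ Module.finrank k V := LinearMap.finrank_le_finrank_of_injective hj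
    _ ≤ Module.finrank k (sl2 k) := Submodule.finrank_map_le _ _
    _ = 3 := finrank_sl2

variable (hA : ∀ l ∈ Smin, (A l).LiesOverPrime l)

include hA in
/-- Elements of decomposition groups over `Smin` are conjugate into the chosen ones. -/
theorem ResidualHyp.exists_conj_rep
    (σ : h.fieldKF.InDec (h.fieldKF.placesOver Smin : Set (Ext.Place h.fieldKF.K))) :
    ∃ (l : Smin) (g : Γ) (τ : (A l).decompositionSubgroup ℚ),
      rb (τ : Γ) = 1 ∧ ((σ.1 : h.fieldKF.K.fixingSubgroup) : Γ) = g * τ * g⁻¹ := by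
  obtain ⟨B, l, hl, hB, hv, hD⟩ := σ.2
  obtain ⟨q, hq, hqp, hqv⟩ := h.fieldKF.mem_placesOver.mp hv
  obtain rfl := eq_of_natCast_mem hl hqp _ natCast_mem_placeIn hqv
  obtain ⟨g, rfl⟩ := exists_smul_eq hl (hA l hq) hB
  refine ⟨⟨l, hq⟩, g, ⟨g⁻¹ * ((σ.1 : h.fieldKF.K.fixingSubgroup) : Γ) * g,
    MulAction.mem_stabilizer_iff.mpr ?_⟩, ?_, by group⟩
  · rw [mul_smul, mul_smul, MulAction.mem_stabilizer_iff.mp hD, inv_smul_smul]
  · show rb (g⁻¹ * _ * g) = 1
    rw [map_mul, map_mul, h.rb_eq_one, mul_one, ← map_mul, inv_mul_cancel, map_one]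

include hA in
/-- The local image over the kernel field. -/
theorem ResidualHyp.exists_locImage (hLB : ∀ l ∈ Smin, adB1 rb ((A l).decompositionSubgroup ℚ) ≤ L l)
    (hLZ : ∀ l ∈ Smin, L l ≤ adZ1 rb ((A l).decompositionSubgroup ℚ))
    (hLfin : ∀ l ∈ Smin, Module.Finite k (L l)) :
    ∃ Λ : Submodule k
        (h.fieldKF.InDec (h.fieldKF.placesOver Smin : Set (Ext.Place h.fieldKF.K)) → sl2 k),
      Module.Finite k Λ ∧
      (∀ c : selmer rb Smin Q A L, KField.decRes (k := k) _ (h.resSel c) ∈ Λ) ∧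
      Module.finrank k Λ + 3 * Smin.card ≤
        ∑ l ∈ Smin, (Module.finrank k (L l) +
          Module.finrank k (adH0 rb ((A l).decompositionSubgroup ℚ))) := by
  choose lf gf τf hτ hσ using fun σ => h.exists_conj_rep hA σ
  let E : ∀ l : Smin, ((A l).decompositionSubgroup ℚ) → (L l →ₗ[k] sl2 k) := fun l τ =>
    ((LinearMap.proj τ).comp (L l).subtype).codRestrict (sl2 k) fun x => (hLZ l l.2 x.2).2.1 τ
  let Ψ : (∀ l : Smin, L l) →ₗ[k]
      (h.fieldKF.InDec (h.fieldKF.placesOver Smin : Set (Ext.Place h.fieldKF.K)) → sl2 k) :=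
    LinearMap.pi fun σ => (adGL (rbGL rb (gf σ))).comp
      ((E (lf σ) (τf σ)).comp (LinearMap.proj (lf σ)))
  have : ∀ l : Smin, Module.Finite k (L l) := fun l => hLfin l l.2
  refine ⟨LinearMap.range Ψ, inferInstance, fun c => ?_, ?_⟩
  · refine ⟨fun l => ⟨fun g => c.1 g, c.2.2.2.2.1 l l.2⟩, funext fun σ => Subtype.ext ?_⟩
    show (rbGL rb (gf σ) : Mat k) * c.1 (τf σ) * ((rbGL rb (gf σ))⁻¹ : GL (Fin 2) k) =
      c.1 ((σ.1 : h.fieldKF.K.fixingSubgroup) : Γ)
    rw [hσ σ, selmer_conj c.2 _ (hτ σ), adAct, ← map_inv]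
    rfl
  · have h1 := LinearMap.finrank_range_add_finrank_ker Ψ
    rw [Module.finrank_pi_fintype] at h1
    let B : ∀ l : Smin, Submodule k (L l) := fun l =>
      (adB1 rb ((A l).decompositionSubgroup ℚ)).comap (L l).subtype
    let ι : (∀ l : Smin, B l) →ₗ[k] LinearMap.ker Ψ :=
      (LinearMap.pi fun l => (B l).subtype.comp (LinearMap.proj l)).codRestrict _ fun x =>
        LinearMap.mem_ker.mpr (funext fun σ => Subtype.ext (by
          obtain ⟨X, -, hX⟩ := (x (lf σ)).2
          have h0 : ((x (lf σ)).1 : (A (lf σ)).decompositionSubgroup ℚ → Mat k) (τf σ) = 0 := by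
            rw [show ((x (lf σ)).1 : (A (lf σ)).decompositionSubgroup ℚ → Mat k) =
              adDelta rb _ X from hX.symm]
            show adAct rb (τf σ : Γ) X - X = 0
            have hinv : rb (τf σ : Γ)⁻¹ = 1 := by
              have h := map_mul rb (τf σ : Γ) (τf σ : Γ)⁻¹
              rw [mul_inv_cancel, map_one, hτ σ, one_mul] at h
              exact h.symm
            rw [adAct, hτ σ, hinv, one_mul, mul_one, sub_self]
          show (rbGL rb (gf σ) : Mat k) * ((x (lf σ)).1 : _ → Mat k) (τf σ) *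
            ((rbGL rb (gf σ))⁻¹ : GL (Fin 2) k) = 0
          rw [h0, mul_zero, zero_mul]))
    have hι : Function.Injective ι := fun a b hab => funext fun l => Subtype.ext
      (congrFun (congrArg (fun z : LinearMap.ker Ψ => (z : ∀ l : Smin, L l)) hab) l)
    have : ∀ l : Smin, Module.Free k (B l) := fun l => Module.Free.of_divisionRing k ↥(B l)
    have h2 := LinearMap.finrank_le_finrank_of_injective hι
    rw [Module.finrank_pi_fintype] at h2
    have h3 : ∀ l : Smin, Module.finrank k (B l) +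
        Module.finrank k (adH0 rb ((A l).decompositionSubgroup ℚ)) = 3 := fun l => by
      rw [LinearEquiv.finrank_eq (Submodule.comapSubtypeEquivOfLe (hLB l l.2)), finrank_adB1_add]
    have h4 : ∑ l : Smin, Module.finrank k (B l) +
        ∑ l : Smin, Module.finrank k (adH0 rb ((A l).decompositionSubgroup ℚ)) =
          3 * Smin.card := by
      rw [← Finset.sum_add_distrib, Finset.sum_congr rfl fun l _ => h3 l, Finset.sum_const,
        Finset.card_univ, Fintype.card_coe, smul_eq_mul, mul_comm]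
    rw [← Finset.sum_coe_sort Smin, Finset.sum_add_distrib]
    omega

end FLTAgent.TW
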