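import Fermat.Agent.TW.FPlaces

/-!
# Sets of Taylor–Wiles primes: the allowed Frobenius classes and padding
-/

set_option autoImplicit false
set_option linter.unusedSectionVars false

open IsDedekindDomain NumberField Polynomial
open scoped Pointwise

noncomputable section

namespace FLTAgent.TW

open FLTAgent.Deformation FLTAgent.Frobenius

variable {k : Type} [Field k] [Finite k] {p : ℕ} [hpf : Fact p.Prime] [CharP k p]
  [Algebra (ZMod p) k]
variable {rb : Gal →* Mat k} {Smin : Finset ℕ} (h : ResidualHyp p rb Smin)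

include h in
/-- At primes `q ≡ 1 mod p` the Frobenius has determinant one. -/
theorem ResidualHyp.det_frobenius {q : ℕ} (hq : q.Prime) (hqp : q ≠ p) (hdvd : p ∣ q - 1)
    {A : ValuationSubring Qb} (hA : A.LiesOverPrime q) {φ : Γ} (hφ : A.IsFrobeniusAt φ q) :
    (rb φ).det = 1 := by
  refine (h.det_eq_one_iff φ).mpr (mem_fixing_muField.mpr fun x hx => ?_)
  have hx' : x ^ p ^ 1 = 1 := by rwa [pow_one]
  rw [GalRep.cyclo_spec p φ hx', GalRep.cyclo_frobenius hq hqp hA hφ, map_natCast]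
  have h1 : ((q : ℕ) : ZMod (p ^ 1)) = 1 := by
    have h2 : 1 ≡ q [MOD p ^ 1] := (Nat.modEq_iff_dvd' hq.one_le).mpr (by rwa [pow_one])
    rw [← (ZMod.natCast_eq_natCast_iff 1 q (p ^ 1)).mpr h2, Nat.cast_one]
  have : Fact (1 < p ^ 1) := ⟨by rw [pow_one]; exact hpf.out.one_lt⟩
  rw [h1, ZMod.val_one, pow_one]

/-- An automorphism of the kernel field as an element of its Galois group `C`. -/
def ResidualHyp.toC : (h.fieldKF.K ≃ₐ[ℚ] h.fieldKF.K) →* h.fieldKF.C where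
  toFun b := b
  map_one' := rfl
  map_mul' _ _ := rfl

/-- The Frobenius classes allowed in `Q`, on the kernel field. -/
def ResidualHyp.twP (b : h.fieldKF.K ≃ₐ[ℚ] h.fieldKF.K) : Prop := h.IsTW (h.toC b)

include h in
theorem ResidualHyp.normal_fieldKF : Normal ℚ h.fieldKF.K := h.normal

theorem ResidualHyp.twP_conj (a b : h.fieldKF.K ≃ₐ[ℚ] h.fieldKF.K) (hb : h.twP b) :
    h.twP (a * b * a⁻¹) := by
  have hb' : ((h.rbF (h.toC b) : GL (Fin 2) k) : Mat k) * (h.rbF (h.toC b) : GL (Fin 2) k) = -1 :=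
    hb
  show ((h.rbF (h.toC (a * b * a⁻¹)) : GL (Fin 2) k) : Mat k) *
    (h.rbF (h.toC (a * b * a⁻¹)) : GL (Fin 2) k) = -1
  rw [← Units.val_mul, ← map_mul, ← map_mul,
    show a * b * a⁻¹ * (a * b * a⁻¹) = a * (b * b) * a⁻¹ by group, map_mul h.toC, map_mul h.toC,
    map_mul h.toC, map_mul, map_mul, map_mul, Units.val_mul, Units.val_mul, Units.val_mul, hb',
    mul_neg, mul_one, neg_mul, ← Units.val_mul, ← map_mul, ← map_mul, mul_inv_cancel, map_one,
    map_one, Units.val_one]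

theorem ResidualHyp.resTo_eq (g : Γ) :
    haveI := h.normal_fieldKF
    h.toC (KField.resTo h.fieldKF.K g) = h.fieldKF.π (h.inH g) := rfl

theorem ResidualHyp.toC_injective : Function.Injective h.toC := fun _ _ he => he

/-- The data of a quaternionic pair for the choice of primes. -/
theorem ResidualHyp.exists_tw_data (hp : p ≠ 2) :
    haveI := h.normal_fieldKF
    ∃ z s t : Γ, rb z = -1 ∧ rb s * rb s = -1 ∧ rb t * rb t = -1 ∧
      rb s * rb t = -(rb t * rb s) ∧ (rb s).trace = 0 ∧ (rb t).trace = 0 ∧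
      (∀ g, Commute (KField.resTo h.fieldKF.K g) (KField.resTo h.fieldKF.K z)) ∧
      KField.resTo h.fieldKF.K z ≠ 1 ∧
      KField.resTo h.fieldKF.K z * KField.resTo h.fieldKF.K z = 1 ∧
      s ∈ (muField p).fixingSubgroup ∧ t ∈ (muField p).fixingSubgroup ∧
      KField.resTo h.fieldKF.K s * KField.resTo h.fieldKF.K s = KField.resTo h.fieldKF.K z ∧
      KField.resTo h.fieldKF.K t * KField.resTo h.fieldKF.K t = KField.resTo h.fieldKF.K z ∧
      KField.resTo h.fieldKF.K (s * t) * KField.resTo h.fieldKF.K (s * t) =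
        KField.resTo h.fieldKF.K z ∧
      ∀ b : h.fieldKF.K ≃ₐ[ℚ] h.fieldKF.K, b * b = KField.resTo h.fieldKF.K z → h.twP b := by
  have := h.normal_fieldKF
  obtain ⟨s, t, hs, ht, hss, htt, hst, hs0, ht0, hstst⟩ := h.exists_klein_lifts hp
  have hz : rb (s * s) = -1 := by rw [map_mul, hss]
  have key : ∀ g g' : Γ, rb g = rb g' →
      KField.resTo h.fieldKF.K g = KField.resTo h.fieldKF.K g' := fun g g' he => by
    refine h.toC_injective (h.rbF_injective (Units.ext ?_))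
    rw [h.resTo_eq, h.resTo_eq, h.coe_rbF_π, h.coe_rbF_π, he]
  refine ⟨s * s, s, t, hz, hss, htt, hst, hs0, ht0, fun g => ?_, fun h1 => ?_, ?_, hs, ht, ?_, ?_,
    ?_, fun b hb => ?_⟩
  · show _ = _
    rw [← map_mul, ← map_mul]
    refine key _ _ ?_
    simp only [map_mul, hss, mul_neg, neg_mul, mul_one, one_mul]
  · have h2 : rb (s * s) = rb 1 := by
      rw [← h.coe_rbF_π, ← h.coe_rbF_π, ← h.resTo_eq, ← h.resTo_eq, h1, map_one (KField.resTo _)]
    rw [hz, map_one] at h2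
    have h3 := congrFun (congrFun h2 0) 0
    simp at h3
    exact two_ne_zero_of_charP (k := k) hp (by linear_combination -h3)
  · rw [← map_mul, ← map_one (KField.resTo h.fieldKF.K)]
    refine key _ _ ?_
    rw [map_mul, hz, map_one, neg_mul, mul_neg, one_mul, neg_neg]
  · rw [map_mul]
  · rw [← map_mul]
    refine key _ _ ?_
    rw [map_mul, htt, hz]
  · rw [← map_mul]
    refine key _ _ ?_
    rw [map_mul, hstst, hz]
  · show ((h.rbF (h.toC b) : GL (Fin 2) k) : Mat k) * (h.rbF (h.toC b) : GL (Fin 2) k) = -1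
    rw [← Units.val_mul, ← map_mul, ← map_mul, hb, h.resTo_eq, h.coe_rbF_π, hz]

/-- The primes allowed in `Q`. -/
def ResidualHyp.TWSet (n : ℕ) (bad Q : Finset ℕ) : Prop :=
  haveI := h.normal_fieldKF
  ∀ l ∈ Q, KField.GoodPrime (p := p) h.twP n bad l

/-- What is used of an element of `Q`. -/
theorem ResidualHyp.TWSet.prime_spec {n : ℕ} {bad Q : Finset ℕ} (hQ : h.TWSet n bad Q)
    (hbad : Smin ⊆ bad) {q : ℕ} (hq : q ∈ Q) :
    q.Prime ∧ q ∉ bad ∧ q ∉ Smin ∧ q ≠ p ∧ p ^ (n + 1) ∣ q - 1 ∧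
      ∀ A : ValuationSubring Qb, A.LiesOverPrime q →
        A.inertiaSubgroupIn ℚ ≤ h.fieldKF.K.fixingSubgroup ∧
        ∀ φ : Γ, A.IsFrobeniusAt φ q →
          h.IsTW (h.fieldKF.π (h.inH φ)) ∧ (rb φ).det = 1 := by
  obtain ⟨hl, hlb, hdvd, hA⟩ := hQ q hq
  have hqp : q ≠ p := fun e => hlb (hbad (e ▸ h.mem_p))
  exact ⟨hl, hlb, fun hm => hlb (hbad hm), hqp, hdvd, fun A hA' =>
    ⟨(hA A hA').1, fun φ hφ => ⟨(hA A hA').2 φ hφ,
      h.det_frobenius hl hqp ((dvd_pow_self p n.succ_ne_zero).trans hdvd) hA' hφ⟩⟩⟩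

theorem ResidualHyp.TWSet.mono {n : ℕ} {bad bad' Q : Finset ℕ} (hQ : h.TWSet n bad' Q)
    (hbad : bad ⊆ bad') : h.TWSet n bad Q :=
  fun l hl => ⟨(hQ l hl).1, fun hm => (hQ l hl).2.1 (hbad hm), (hQ l hl).2.2⟩

/-- Sets of allowed primes extend to any larger size. -/
theorem ResidualHyp.exists_pad (hp : p ≠ 2) (n : ℕ) (bad : Finset ℕ) {d : ℕ} (Q : Finset ℕ)
    (hQd : Q.card ≤ d) (hQ : h.TWSet n bad Q) :
    ∃ Q', Q ⊆ Q' ∧ Q'.card = d ∧ h.TWSet n bad Q' := by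
  have := h.normal_fieldKF
  obtain ⟨z, s, t, -, -, -, -, -, -, -, -, hz2, hs, -, hs2, -, -, hPsq⟩ := h.exists_tw_data hp
  obtain ⟨m, rfl⟩ := Nat.exists_eq_add_of_le hQd
  clear hQd
  induction m with
  | zero => exact ⟨Q, subset_rfl, rfl, hQ⟩
  | succ m ih =>
    obtain ⟨Q', hsub, hcard, hQ'⟩ := ih
    obtain ⟨l, hl, hlb, hrest⟩ := KField.exists_goodPrime (F := h.fieldKF.K) hp hs
      (by rw [show (4 : ℕ) = 2 * 2 from rfl, pow_mul, pow_two, pow_two, hs2, hz2])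
      h.twP h.twP_conj (hPsq _ hs2) n (bad ∪ Q')
    rw [Finset.mem_union, not_or] at hlb
    refine ⟨insert l Q', hsub.trans (Finset.subset_insert _ _), ?_, fun q hq => ?_⟩
    · rw [Finset.card_insert_of_notMem hlb.2, hcard]
      omega
    · rcases Finset.mem_insert.mp hq with rfl | hq
      · exact ⟨hl, hlb.1, hrest⟩
      · exact hQ' q hq

/-- Padding to a fixed number of primes, for an arbitrary bound. -/
theorem ResidualHyp.exists_qv_of (hp : p ≠ 2) (S : Finset ℕ) (B : Finset ℕ → Prop)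
    (H : ∃ d : ℕ, ∀ n : ℕ, ∃ Q : Finset ℕ, Q.card ≤ d ∧ h.TWSet n (S ∪ Smin) Q ∧
      ∀ Q' : Finset ℕ, Q ⊆ Q' → h.TWSet n (S ∪ Smin) Q' → B Q') :
    ∃ r : ℕ, ∀ n : ℕ, ∃ qv : Fin r → ℕ, Function.Injective qv ∧
      (∀ i, (qv i).Prime ∧ qv i ∉ S ∧ qv i ∉ Smin ∧ p ^ (n + 1) ∣ qv i - 1) ∧
      (∀ i, ∀ P : ValuationSubring (AlgebraicClosure ℚ), P.LiesOverPrime (qv i) →
        ∀ φ : Gal, P.IsFrobeniusAt φ (qv i) →
          ∃ α β : k, α ≠ β ∧ (rb φ).charpoly = (X - C α) * (X - C β)) ∧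
      ∃ Q' : Finset ℕ, Finset.univ.image qv = Q' ∧ Q'.card = r ∧ B Q' := by
  classical
  obtain ⟨d, hd⟩ := H
  refine ⟨d, fun n => ?_⟩
  obtain ⟨Q, hQd, hQ, hbound⟩ := hd n
  obtain ⟨Q', hsub, hcard, hQ'⟩ := h.exists_pad hp n _ Q hQd hQ
  let qv : Fin d → ℕ := fun i => (Q'.orderIsoOfFin hcard i : ℕ)
  have himg : Finset.univ.image qv = Q' := by
    ext x
    simp only [Finset.mem_image, Finset.mem_univ, true_and, qv]
    exact ⟨fun ⟨i, hi⟩ => hi ▸ Subtype.prop _, fun hx =>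
      ⟨(Q'.orderIsoOfFin hcard).symm ⟨x, hx⟩, by simp⟩⟩
  have hmem : ∀ i, qv i ∈ Q' := fun i => Subtype.prop _
  refine ⟨qv, fun i j hij => (Q'.orderIsoOfFin hcard).injective (Subtype.ext hij), fun i => ?_,
    fun i P hP φ hφ => ?_, ?_⟩
  · obtain ⟨h1, h2, h3, -, h5, -⟩ := hQ'.prime_spec h Finset.subset_union_right (hmem i)
    exact ⟨h1, fun e => h2 (Finset.mem_union_left _ e), h3, h5⟩
  · obtain ⟨-, -, -, -, -, h6⟩ := hQ'.prime_spec h Finset.subset_union_right (hmem i)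
    obtain ⟨htw, hdet⟩ := (h6 P hP).2 φ hφ
    have htw' : rb φ * rb φ = -1 := by
      rw [← h.coe_rbF_π]
      exact htw
    obtain ⟨α, β, hcp⟩ := h.split (rbGL rb φ) ⟨φ, rfl⟩
    exact exists_distinct_roots hp htw' hdet ⟨α, β, hcp⟩
  · exact ⟨Q', himg, hcard, hbound Q' hsub hQ'⟩

/-- The Taylor–Wiles statement from a bound on all large enough sets of allowed primes. -/
theorem ResidualHyp.exists_qv (hp : p ≠ 2) {A : ℕ → ValuationSubring Qb}
    {L : ∀ l : ℕ, Submodule k ((A l).decompositionSubgroup ℚ → Mat k)} (S : Finset ℕ)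
    (H : ∃ d : ℕ, ∀ n : ℕ, ∃ Q : Finset ℕ, Q.card ≤ d ∧ h.TWSet n (S ∪ Smin) Q ∧
      ∀ Q' : Finset ℕ, Q ⊆ Q' → h.TWSet n (S ∪ Smin) Q' →
        Module.Finite k (selmer rb Smin Q' A L) ∧
          Module.finrank k (selmer rb Smin Q' A L) ≤ Q'.card + 3) :
    ∃ r : ℕ, ∀ n : ℕ, ∃ qv : Fin r → ℕ, Function.Injective qv ∧
      (∀ i, (qv i).Prime ∧ qv i ∉ S ∧ qv i ∉ Smin ∧ p ^ (n + 1) ∣ qv i - 1) ∧
      (∀ i, ∀ P : ValuationSubring (AlgebraicClosure ℚ), P.LiesOverPrime (qv i) →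
        ∀ φ : Gal, P.IsFrobeniusAt φ (qv i) →
          ∃ α β : k, α ≠ β ∧ (rb φ).charpoly = (X - C α) * (X - C β)) ∧
      Module.Finite k (selmer rb Smin (Finset.univ.image qv) A L) ∧
      Module.finrank k (selmer rb Smin (Finset.univ.image qv) A L) ≤ r + 3 := by
  obtain ⟨r, hr⟩ := h.exists_qv_of hp S (fun Q' => Module.Finite k (selmer rb Smin Q' A L) ∧
    Module.finrank k (selmer rb Smin Q' A L) ≤ Q'.card + 3) H
  refine ⟨r, fun n => ?_⟩
  obtain ⟨qv, h1, h2, h3, Q', hQ', hc, hfin, hle⟩ := hr n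
  subst hQ'
  exact ⟨qv, h1, h2, h3, hfin, hle.trans_eq (by rw [hc])⟩

end FLTAgent.TW
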