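import Fermat.Agent.TW.FField
import Fermat.Agent.TW.Cocycle

/-!
# The permutation module on the cosets of the Borel part
-/

set_option autoImplicit false
set_option linter.unusedSectionVars false

open IsDedekindDomain NumberField
open scoped Pointwise

noncomputable section

namespace FLTAgent.TW

open FLTAgent.Deformation

variable {k : Type} [Field k]

/-- The upper triangular matrices. -/
def borelGL (k : Type) [Field k] : Subgroup (GL (Fin 2) k) where
  carrier := {g | (g : Matrix (Fin 2) (Fin 2) k) 1 0 = 0}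
  one_mem' := by simp
  mul_mem' := fun {a b} ha hb => by
    simp only [Set.mem_ofPred_eq] at ha hb ⊢
    simp [Matrix.mul_apply, Fin.sum_univ_two, ha, hb]
  inv_mem' := fun {a} ha => by
    simp only [Set.mem_ofPred_eq] at ha ⊢
    rw [Matrix.coe_units_inv, Matrix.inv_def, Matrix.adjugate_fin_two, Matrix.smul_apply]
    simp [ha]

theorem mem_borelGL {g : GL (Fin 2) k} :
    g ∈ borelGL k ↔ (g : Matrix (Fin 2) (Fin 2) k) 1 0 = 0 := Iff.rfl

variable {p : ℕ} [hpf : Fact p.Prime] [CharP k p]
variable {rb : Gal →* Mat k} {Smin : Finset ℕ} (h : ResidualHyp p rb Smin)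

/-- The Borel part of the Galois group of the kernel field. -/
def ResidualHyp.borelF : Subgroup h.fieldKF.C := (borelGL k).comap h.rbF

/-- The cosets of the Borel part. -/
abbrev ResidualHyp.Omega : Type := h.fieldKF.C ⧸ h.borelF

instance : Finite h.Omega :=
  have := h.fieldKF.fin
  Quotient.finite _

instance : Fintype h.Omega := Fintype.ofFinite _

/-- The preimage of the Borel part in the absolute Galois group. -/
def borelΓ (rb : Gal →* Mat k) : Subgroup Γ := (borelGL k).comap (rbGL rb)

theorem mem_borelΓ {rb : Gal →* Mat k} {g : Γ} : g ∈ borelΓ rb ↔ rb g 1 0 = 0 := Iff.rfl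

/-- Functions on the cosets with values in the adjoint module and sum zero. -/
def ResidualHyp.MI : Submodule k (h.Omega → sl2 k) :=
  LinearMap.ker (∑ ω : h.Omega, LinearMap.proj ω)

theorem ResidualHyp.mem_MI {Y : h.Omega → sl2 k} : Y ∈ h.MI ↔ ∑ ω, Y ω = 0 := by
  rw [ResidualHyp.MI, LinearMap.mem_ker, LinearMap.sum_apply]
  rfl

/-- The adjoint action on functions. -/
def ResidualHyp.adΩ : Representation k h.fieldKF.C (h.Omega → sl2 k) where
  toFun c := LinearMap.pi fun ω => (adGL (h.rbF c)).comp (LinearMap.proj (c⁻¹ • ω))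
  map_one' := LinearMap.ext fun Y => funext fun ω => by simp
  map_mul' c d := LinearMap.ext fun Y => funext fun ω => by simp [mul_smul]

theorem ResidualHyp.adΩ_apply (c : h.fieldKF.C) (Y : h.Omega → sl2 k) (ω : h.Omega) :
    h.adΩ c Y ω = adGL (h.rbF c) (Y (c⁻¹ • ω)) := rfl

theorem ResidualHyp.adΩ_mem (c : h.fieldKF.C) {Y : h.Omega → sl2 k} (hY : Y ∈ h.MI) :
    h.adΩ c Y ∈ h.MI := by
  rw [h.mem_MI] at hY ⊢
  simp only [h.adΩ_apply]
  rw [← map_sum, show ∑ x, Y (c⁻¹ • x) = ∑ x, Y x from Equiv.sum_comp (MulAction.toPerm c⁻¹) Y, hY,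
    map_zero]

/-- The adjoint action on `MI`. -/
def ResidualHyp.adI : Representation k h.fieldKF.C h.MI where
  toFun c := (h.adΩ c).restrict fun _ hY => h.adΩ_mem c hY
  map_one' := LinearMap.ext fun Y => Subtype.ext (by simp)
  map_mul' c d := LinearMap.ext fun Y => Subtype.ext (by simp)

theorem ResidualHyp.coe_adI (c : h.fieldKF.C) (Y : h.MI) (ω : h.Omega) :
    ((h.adI c Y : h.MI) : h.Omega → sl2 k) ω =
      adGL (h.rbF c) ((Y : h.Omega → sl2 k) (c⁻¹ • ω)) := rfl

variable [Algebra (ZMod p) k]

/-- The adjoint action on `MI` twisted by the inverse cyclotomic character. -/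
def ResidualHyp.rhoI : Representation k h.fieldKF.C h.MI :=
  twistRep (W := h.MI) h.fieldKF.eps⁻¹ h.adI

theorem ResidualHyp.twist_rhoI : twistRep (W := h.MI) h.fieldKF.eps h.rhoI = h.adI :=
  MonoidHom.ext fun c => LinearMap.ext fun X => by
    rw [twistRep_apply, ResidualHyp.rhoI, twistRep_apply, smul_smul, ← map_mul,
      MonoidHom.inv_apply, ← Units.val_mul, mul_inv_cancel, Units.val_one, map_one, one_smul]

/-- Evaluation at the base coset, as a function on the preimage of the Borel part. -/
def ResidualHyp.evBase (b : h.fieldKF.H → h.MI) : borelΓ rb → sl2 k :=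
  fun g => ((b (h.inH (g : Γ)) : h.MI) : h.Omega → sl2 k) (QuotientGroup.mk 1)

end FLTAgent.TW
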