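import Fermat.Agent.TW.Restrict
import Fermat.Agent.TW.TWPrimes
import Fermat.Agent.TW.LocSum
import Fermat.Agent.TW.Counts.Units

/-!
# The Selmer bound when the adjoint module is relatively projective
-/

set_option autoImplicit false
set_option linter.unusedSectionVars false

open IsDedekindDomain NumberField Polynomial
open scoped Pointwise

noncomputable section

namespace FLTAgent.TW

open FLTAgent.Deformation FLTAgent.Frobenius

variable {k : Type} [Field k] [Finite k] {p : ℕ} [hpf : Fact p.Prime] [CharP k p]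
  [Algebra (ZMod p) k]
variable {rb : Gal →* Mat k} {Smin : Finset ℕ} (h : ResidualHyp p rb Smin)

/-- Equivariant functions on the places over finitely many primes. -/
theorem ResidualHyp.finrank_eqFunOn_sum {W : Type} [AddCommGroup W] [Module k W] [Finite W]
    (ρ : Representation k h.fieldKF.C W) (P : Finset ℕ) (hP : ∀ l ∈ P, l.Prime) :
    Module.finrank k (eqFunOn ρ (h.fieldKF.placesOver P : Set (Ext.Place h.fieldKF.K))) =
      ∑ l ∈ P, Module.finrank k
        (eqFunOn ρ (h.fieldKF.placesOver {l} : Set (Ext.Place h.fieldKF.K))) := by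
  choose B hB using fun l : P => exists_liesOverPrime (hP l l.2)
  rw [finrank_eqFunOn ρ (h.fieldKF.placesOver_stable P)
    (fun l : P => placeIn h.fieldKF.K (B l) (hP l l.2) (hB l))
    (fun l => h.fieldKF.mem_placesOver.mpr ⟨l, l.2, hP l l.2, natCast_mem_placeIn⟩)
    (fun v hv => by
      obtain ⟨l, hl, hlp, hlv⟩ := h.fieldKF.mem_placesOver.mp hv
      exact ⟨⟨l, hl⟩, h.exists_smul_placeIn (hP l hl) (hB ⟨l, hl⟩)
        (h.fieldKF.mem_placesOver.mpr ⟨l, Finset.mem_singleton_self l, hlp, hlv⟩)⟩)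
    (fun i j c hc => by
      have h1 := h.fieldKF.placesOver_stable {(i : ℕ)} c _
        (h.mem_placesOver_placeIn (hP i i.2) (hB i))
      rw [hc] at h1
      obtain ⟨l, hl, hlp, hlv⟩ := h.fieldKF.mem_placesOver.mp h1
      rw [Finset.mem_singleton] at hl
      subst hl
      exact Subtype.ext (eq_of_natCast_mem hlp (hP j j.2) _ hlv natCast_mem_placeIn)),
    ← Finset.sum_coe_sort P]
  exact Finset.sum_congr rfl fun l _ => (h.finrank_eqFunOn_over (hP l l.2) (hB l) ρ).symm

include h in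
/-- The adjoint module has no invariants. -/
theorem ResidualHyp.invariants_adF_eq_bot (hp : p ≠ 2) :
    Representation.invariants h.adF = ⊥ := by
  obtain ⟨s, t, -, -, hss, -, hst, hs0, -, -⟩ := h.exists_klein_lifts hp
  rw [eq_bot_iff]
  intro X hX
  rw [Submodule.mem_bot]
  have hX' : ∀ c, h.adF c X = X := hX
  refine eq_zero_of_klein_fixed hp (s := rbGL rb s) (t := rbGL rb t) hss hs0 hst ?_ ?_
  · have h1 := hX' (h.fieldKF.π (h.inH s))
    rwa [h.adF_apply, h.rbF_π] at h1
  · have h1 := hX' (h.fieldKF.π (h.inH t))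
    rwa [h.adF_apply, h.rbF_π] at h1

section bound

variable (hp : p ≠ 2) (hρ : IsRelProj h.rho)
variable {A : ℕ → ValuationSubring (AlgebraicClosure ℚ)} (hA : ∀ l ∈ Smin, (A l).LiesOverPrime l)
  {L : ∀ l : ℕ, Submodule k ((A l).decompositionSubgroup ℚ → Mat k)}
  (hLB : ∀ l ∈ Smin, adB1 rb ((A l).decompositionSubgroup ℚ) ≤ L l)
  (hLZ : ∀ l ∈ Smin, L l ≤ adZ1 rb ((A l).decompositionSubgroup ℚ))
  (hLfin : ∀ l ∈ Smin, Module.Finite k (L l))
  (hLdim : ∀ l ∈ Smin, Module.finrank k (L l) ≤ if l = p then 4 else 3)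

include hp hρ hA hLB hLZ hLfin

/-- The Selmer bound in the relatively projective case, in sum form. -/
theorem ResidualHyp.selmer_add_le_of_isRelProj {Q : Finset ℕ} {n : ℕ} {bad : Finset ℕ}
    (hbad : Smin ⊆ bad) (hQ : h.TWSet n bad Q)
    (hno : h.fieldKF.NoChar h.rho (h.fieldKF.modulus Smin)
      (h.fieldKF.placesOver Q : Set (Ext.Place h.fieldKF.K))) :
    Module.Finite k (selmer rb Smin Q A L) ∧
      Module.finrank k (selmer rb Smin Q A L) + ∑ l ∈ Smin, (if l = p then 4 else 3) ≤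
        Q.card + 3 + ∑ l ∈ Smin, Module.finrank k (L l) := by
  classical
  have hQp : ∀ q ∈ Q, q.Prime := fun q hq => (hQ q hq).1
  have hP : ∀ l ∈ Smin ∪ Q, l.Prime := fun l hl =>
    (Finset.mem_union.mp hl).elim (h.prime l) (hQp l)
  have hdisj : Disjoint Smin Q :=
    Finset.disjoint_right.mpr fun q hq => (hQ.prime_spec h hbad hq).2.2.1
  set T := h.fieldKF.placesOver (Smin ∪ Q) with hTdef
  have hpT : ∀ v : Ext.Place h.fieldKF.K, (p : 𝓞 h.fieldKF.K) ∈ v.asIdeal →
      v ∈ (T : Set (Ext.Place h.fieldKF.K)) := fun v hv =>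
    h.fieldKF.mem_placesOver.mpr ⟨p, Finset.mem_union_left _ h.mem_p, hpf.out, hv⟩
  have hm : ∀ v : Ext.Place h.fieldKF.K, h.fieldKF.modulus Smin ≤ v.asIdeal → v ∈ T := fun v hv =>
    by
      obtain ⟨l, hl, h'⟩ := h.fieldKF.mem_placesOver.mp
        (h.fieldKF.mem_placesOver_of_modulus_le h.prime hv)
      exact h.fieldKF.mem_placesOver.mpr ⟨l, Finset.mem_union_left _ hl, h'⟩
  have hQT : (h.fieldKF.placesOver Q : Set (Ext.Place h.fieldKF.K)) ⊆ T := fun v hv => by
    obtain ⟨l, hl, h'⟩ := h.fieldKF.mem_placesOver.mp hv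
    exact h.fieldKF.mem_placesOver.mpr ⟨l, Finset.mem_union_right _ hl, h'⟩
  have hTst := h.fieldKF.placesOver_stable (Smin ∪ Q)
  have hUst := h.fieldKF.placesOver_stable Smin
  have := h.fieldKF.finite_locK Smin
  obtain ⟨Λ, hΛfin, hΛmem, hΛdim⟩ := h.exists_locImage (Q := Q) hA hLB hLZ hLfin
  have hcount := KField.selmer_count_le hρ T hTst hUst hpT hm hQT hno
    (fun v hv y hy => KField.valuation_lt_thr_of_mem_modulus hv hy) Λ
  -- the restriction map
  set res := h.resSel (Q := Q) (A := A) (L := L)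
  have hrange : LinearMap.range res ≤ h.fieldKF.eqHom h.rho (T : Set (Ext.Place h.fieldKF.K)) ⊓
      Λ.comap (KField.decRes _) := by
    rintro _ ⟨c, rfl⟩
    exact ⟨h.resSel_mem c, hΛmem c⟩
  have : Module.Finite k
      (h.fieldKF.eqHom h.rho (T : Set (Ext.Place h.fieldKF.K))) := by
    have : Finite (Module.Dual (ZMod p) (h.fieldKF.XT (T : Set (Ext.Place h.fieldKF.K)))) :=
      Finite.of_injective _ DFunLike.coe_injective
    have : Finite (eqMaps h.rho (KField.xtRep hTst).dual) :=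
      Finite.of_injective (fun M => (M.1 : _ → sl2 k)) fun a b hab =>
        Subtype.ext (DFunLike.coe_injective hab)
    exact Module.Finite.equiv (LinearEquiv.ofBijective _ (KField.ofMaps_bijective hTst hpT))
  have : Module.Finite k ↥(h.fieldKF.eqHom h.rho (T : Set (Ext.Place h.fieldKF.K)) ⊓
      Λ.comap (KField.decRes _)) := Submodule.finiteDimensional_of_le inf_le_left
  have : Module.Finite k (LinearMap.range res) := Submodule.finiteDimensional_of_le hrange
  obtain ⟨hkfin, hker⟩ := h.finrank_ker_resSel (Q := Q) (A := A) (L := L) hρ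
  have : Module.Finite k (selmer rb Smin Q A L ⧸ LinearMap.ker res) :=
    Module.Finite.equiv res.quotKerEquivRange.symm
  have hfin : Module.Finite k (selmer rb Smin Q A L) :=
    Module.Finite.of_submodule_quotient (LinearMap.ker res)
  refine ⟨hfin, ?_⟩
  have h1 := LinearMap.finrank_range_add_finrank_ker res
  have h2 := Submodule.finrank_mono hrange
  -- the counts
  have hTsum : Module.finrank k (eqFunOn h.rho (T : Set (Ext.Place h.fieldKF.K))) =
      ∑ l ∈ Smin, Module.finrank k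
        (eqFunOn h.rho (h.fieldKF.placesOver {l} : Set (Ext.Place h.fieldKF.K))) +
      ∑ l ∈ Q, Module.finrank k
        (eqFunOn h.rho (h.fieldKF.placesOver {l} : Set (Ext.Place h.fieldKF.K))) := by
    rw [hTdef, h.finrank_eqFunOn_sum h.rho _ hP, Finset.sum_union hdisj]
  have hunits := h.fieldKF.cnt_units hρ T hTst
  rw [h.twist_rho, h.invariants_adF_eq_bot hp, finrank_bot] at hunits
  unfold eqFunOn at hTsum
  have hinf := h.finrank_eqFun_infinite_le hp
  have hρQ : ∑ q ∈ Q, Module.finrank k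
      (eqFunOn h.rho (h.fieldKF.placesOver {q} : Set (Ext.Place h.fieldKF.K))) ≤ Q.card := by
    refine (Finset.sum_le_card_nsmul _ _ 1 fun q hq => ?_).trans (by simp)
    obtain ⟨hq', -, -, -, -, hsp⟩ := hQ.prime_spec h hbad hq
    obtain ⟨B, φ, hB, hφ⟩ := exists_liesOverPrime_isFrobeniusAt hq'
    obtain ⟨htw, hdet⟩ := (hsp B hB).2 φ hφ
    exact h.finrank_eqFunOn_tw_le hp hq' hB hφ htw hdet
  have hloc : ∀ l ∈ Smin, Module.finrank k
      (eqFunOn h.rho (h.fieldKF.placesOver {l} : Set (Ext.Place h.fieldKF.K))) +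
      Module.finrank k (adH0 rb ((A l).decompositionSubgroup ℚ)) + (if l = p then 3 else 0) ≤
      cnt h.rho (KField.locRep (h.fieldKF.placesOver_stable {l})) := fun l hl => by
    have hh0 := h.adH0_le_fixedBy (h.prime l hl) (hA l hl)
    rw [← h.finrank_eqFunOn_over (h.prime l hl) (hA l hl) h.adF] at hh0
    unfold eqFunOn at hh0 ⊢
    by_cases hlp : l = p
    · rw [if_pos hlp]
      subst hlp
      have hc := h.fieldKF.cnt_locK_p hρ
      have hcard : Module.finrank ℚ h.fieldKF.K = Fintype.card h.fieldKF.C := by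
        have : Normal ℚ h.fieldKF.K := h.normal_fieldKF
        have : IsGalois ℚ h.fieldKF.K := ⟨⟩
        rw [← IsGalois.card_aut_eq_finrank ℚ h.fieldKF.K, ← Nat.card_eq_fintype_card]
        rfl
      rw [h.twist_rho, hcard, finrank_sl2, ← Nat.mul_add, ← Nat.mul_add] at hc
      rw [Nat.eq_of_mul_eq_mul_left Fintype.card_pos hc]
      omega
    · rw [if_neg hlp, h.fieldKF.cnt_locK_ne hρ (h.prime l hl) hlp, h.twist_rho]
      omega
  unfold eqFunOn at hρQ hloc
  have hlocsum := Finset.sum_le_sum hloc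
  rw [← h.fieldKF.cnt_locK_finset hρ Smin h.prime, Finset.sum_add_distrib,
    Finset.sum_add_distrib, Finset.sum_ite_eq' Smin p (fun _ => 3), if_pos h.mem_p] at hlocsum
  have hcap : ∑ l ∈ Smin, (if l = p then 4 else 3) = 3 * Smin.card + 1 := by
    rw [Finset.sum_congr rfl (g := fun l => 3 + (if l = p then 1 else 0)) fun l _ => by
      split_ifs <;> rfl, Finset.sum_add_distrib, Finset.sum_ite_eq' Smin p (fun _ => 1),
      if_pos h.mem_p, Finset.sum_const, smul_eq_mul, mul_comm]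
  rw [Finset.sum_add_distrib] at hΛdim
  have hker' : Module.finrank k (LinearMap.ker res) ≤ 3 := hker
  rw [hcap]
  omega

/-- The Taylor–Wiles statement in the relatively projective case, in sum form. -/
theorem ResidualHyp.exists_twPrimes_add_of_isRelProj (S : Finset ℕ) :
    ∃ r : ℕ, ∀ n : ℕ, ∃ qv : Fin r → ℕ, Function.Injective qv ∧
      (∀ i, (qv i).Prime ∧ qv i ∉ S ∧ qv i ∉ Smin ∧ p ^ (n + 1) ∣ qv i - 1) ∧
      (∀ i, ∀ P : ValuationSubring (AlgebraicClosure ℚ), P.LiesOverPrime (qv i) →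
        ∀ φ : Gal, P.IsFrobeniusAt φ (qv i) →
          ∃ α β : k, α ≠ β ∧ (rb φ).charpoly = (X - C α) * (X - C β)) ∧
      Module.Finite k (selmer rb Smin (Finset.univ.image qv) A L) ∧
      Module.finrank k (selmer rb Smin (Finset.univ.image qv) A L) +
          ∑ l ∈ Smin, (if l = p then 4 else 3) ≤
        r + 3 + ∑ l ∈ Smin, Module.finrank k (L l) := by
  classical
  suffices key : ∃ d : ℕ, ∀ n : ℕ, ∃ Q : Finset ℕ, Q.card ≤ d ∧ h.TWSet n (S ∪ Smin) Q ∧
      ∀ Q' : Finset ℕ, Q ⊆ Q' → h.TWSet n (S ∪ Smin) Q' →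
        Module.Finite k (selmer rb Smin Q' A L) ∧
          Module.finrank k (selmer rb Smin Q' A L) + ∑ l ∈ Smin, (if l = p then 4 else 3) ≤
            Q'.card + 3 + ∑ l ∈ Smin, Module.finrank k (L l) by
    obtain ⟨r, hr⟩ := h.exists_qv_of hp S _ key
    refine ⟨r, fun n => ?_⟩
    obtain ⟨qv, h1, h2, h3, Q', hQ', hc, hfin, hle⟩ := hr n
    subst hQ'
    exact ⟨qv, h1, h2, h3, hfin, hle.trans_eq (by rw [hc])⟩
  have := h.normal_fieldKF
  obtain ⟨z, s, t, hz, hss, -, hst, hs0, ht0, hzc, hz1, hz2, hs, ht, hs2, ht2, hst2, hPsq⟩ :=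
    h.exists_tw_data hp
  have hdet1 : ∀ g : Γ, rb g * rb g = -1 → g ∈ (muField p).fixingSubgroup →
      ∀ X, h.rho (h.fieldKF.π (h.inH g)) X = adGL (rbGL rb g) X := fun g _ hg X => by
    rw [h.rho_of_det_one (by rw [h.coe_rbF_π]; exact (h.det_eq_one_iff g).mpr hg), h.rbF_π]
  have hinv : ∀ x : Module.Dual k (sl2 k), (∀ c, h.rho.dual c x = x) → x = 0 := fun x hx => by
    have key : ∀ c X, x (h.rho c X) = x X := fun c X => by
      have h1 := LinearMap.congr_fun (hx c⁻¹) X
      rwa [Representation.dual_apply, Module.Dual.transpose_apply, LinearMap.comp_apply,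
        inv_inv] at h1
    obtain ⟨s', t', hs', ht', hss', htt', hst', hs0', -, -⟩ := h.exists_klein_lifts hp
    refine dual_eq_zero_of_klein_fixed hp (s := rbGL rb s') (t := rbGL rb t') hss' hs0' hst'
      (fun X => ?_) (fun X => ?_)
    · rw [← hdet1 s' hss' hs' X, key]
    · rw [← hdet1 t' htt' ht' X, key]
  have hzact : ∀ x, h.rho.dual (h.fieldKF.π ⟨z, Subgroup.mem_top z⟩) x = x := fun x => by
    refine LinearMap.ext fun X => ?_
    rw [Representation.dual_apply, Module.Dual.transpose_apply, LinearMap.comp_apply,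
      ← map_inv h.fieldKF.π, show (⟨z, Subgroup.mem_top z⟩ : h.fieldKF.H)⁻¹ = h.inH z⁻¹ from rfl]
    have hzinv : rb z⁻¹ = -1 := by
      have h1 := map_mul rb z z⁻¹
      rw [mul_inv_cancel, map_one, hz, neg_mul, one_mul] at h1
      exact neg_eq_iff_eq_neg.mp h1.symm
    rw [h.rho_of_det_one (by rw [h.coe_rbF_π, hzinv]; simp [Matrix.det_fin_two])]
    congr 1
    refine Subtype.ext ?_
    rw [coe_adGL, h.rbF_π, ← map_inv (rbGL rb), show ((h.inH z⁻¹ : h.fieldKF.H) : Γ)⁻¹ = z from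
      inv_inv z]
    show rb z⁻¹ * (X : Mat k) * rb z = X
    rw [hz, hzinv]
    simp
  obtain ⟨d, hd⟩ := KField.exists_primes_noChar (S := h.fieldKF) (F := h.fieldKF.K) hp le_rfl
    h.rho hinv (KField.modulus_ne_bot h.prime) ∅
    (fun χ heq _ hvan => h.fieldKF.eq_zero_of_vanAt (h.fieldKF.dualAct h.rho) hp le_rfl
      (fun σ hσ => pow_mem hσ p)
      (fun σ hσ τ hτ => mul_mem (mul_mem (mul_mem hσ hτ) (inv_mem hσ)) (inv_mem hτ))
      (fun f _ hf _ τ => hf τ τ.2) (KField.modulus_ne_bot h.prime) χ heq hvan)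
    (Subgroup.mem_top z) hzact hzc hz1 hz2 hs ht hs2 ht2 hst2 h.twP h.twP_conj hPsq
  refine ⟨d, fun n => ?_⟩
  obtain ⟨Q, hcard, hQ, hno⟩ := hd n (S ∪ Smin)
  refine ⟨Q, hcard, hQ, fun Q' hsub hQ' => ?_⟩
  refine h.selmer_add_le_of_isRelProj hp hρ hA hLB hLZ hLfin Finset.subset_union_right hQ' ?_
  intro χ heq hvan
  refine hno χ heq fun v hv => hvan v ?_
  rw [Set.union_empty] at hv
  obtain ⟨l, hl, h'⟩ := h.fieldKF.mem_placesOver.mp hv
  exact h.fieldKF.mem_placesOver.mpr ⟨l, hsub hl, h'⟩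

include hLdim in
/-- The Taylor–Wiles statement in the relatively projective case. -/
theorem ResidualHyp.exists_twPrimes_of_isRelProj (S : Finset ℕ) :
    ∃ r : ℕ, ∀ n : ℕ, ∃ qv : Fin r → ℕ, Function.Injective qv ∧
      (∀ i, (qv i).Prime ∧ qv i ∉ S ∧ qv i ∉ Smin ∧ p ^ (n + 1) ∣ qv i - 1) ∧
      (∀ i, ∀ P : ValuationSubring (AlgebraicClosure ℚ), P.LiesOverPrime (qv i) →
        ∀ φ : Gal, P.IsFrobeniusAt φ (qv i) →
          ∃ α β : k, α ≠ β ∧ (rb φ).charpoly = (X - C α) * (X - C β)) ∧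
      Module.Finite k (selmer rb Smin (Finset.univ.image qv) A L) ∧
      Module.finrank k (selmer rb Smin (Finset.univ.image qv) A L) ≤ r + 3 := by
  obtain ⟨r, hr⟩ := h.exists_twPrimes_add_of_isRelProj hp hρ hA hLB hLZ hLfin S
  refine ⟨r, fun n => ?_⟩
  obtain ⟨qv, h1, h2, h3, hfin, hle⟩ := hr n
  have := Finset.sum_le_sum hLdim
  exact ⟨qv, h1, h2, h3, hfin, by omega⟩

end bound

end FLTAgent.TW
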