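import Mathlib

/-!
# Relatively projective modules and the counting functor

For a finite group `C`, a `k[C]`-module `W` with a trace-one endomorphism, and `𝔽_p[C]`-modules
`X`, the dimension of the equivariant maps `Dual X → W` is additive in short exact sequences.
-/

set_option autoImplicit false
set_option linter.unusedSectionVars false

noncomputable section

namespace FLTAgent.TW

variable {p : ℕ} [Fact p.Prime] {k : Type} [Field k] [Algebra (ZMod p) k]
variable {C : Type} [Group C] [Fintype C]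
variable {W : Type} [AddCommGroup W] [Module k W] [Module (ZMod p) W] [IsScalarTower (ZMod p) k W]
  (ρ : Representation k C W)

/-- `W` is projective relative to the trivial subgroup. -/
def IsRelProj : Prop :=
  ∃ θ : W →ₗ[k] W, ∑ c : C, (ρ c).comp (θ.comp (ρ c⁻¹)) = LinearMap.id

variable {X Y Z : Type} [AddCommGroup X] [Module (ZMod p) X] [AddCommGroup Y] [Module (ZMod p) Y]
  [AddCommGroup Z] [Module (ZMod p) Z]

/-- Equivariant additive maps into `W`. -/
def eqMaps (σ : Representation (ZMod p) C X) : Submodule k (X →ₗ[ZMod p] W) where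
  carrier := {T | ∀ c x, T (σ c x) = ρ c (T x)}
  zero_mem' := fun c x => by simp
  add_mem' := fun ha hb c x => by simp [ha c x, hb c x]
  smul_mem' := fun t a ha c x => by simp [ha c x]

variable {ρ}

theorem mem_eqMaps {σ : Representation (ZMod p) C X} {T : X →ₗ[ZMod p] W} :
    T ∈ eqMaps ρ σ ↔ ∀ c x, T (σ c x) = ρ c (T x) := Iff.rfl

/-- Averaging. -/
def eqAvg (θ : W →ₗ[k] W) (σ : Representation (ZMod p) C X) (T : X →ₗ[ZMod p] W) :
    X →ₗ[ZMod p] W :=
  ∑ c : C, (((ρ c).comp θ).restrictScalars (ZMod p)).comp (T.comp (σ c⁻¹))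

theorem eqAvg_apply (θ : W →ₗ[k] W) (σ : Representation (ZMod p) C X) (T : X →ₗ[ZMod p] W)
    (x : X) : eqAvg (ρ := ρ) θ σ T x = ∑ c : C, ρ c (θ (T (σ c⁻¹ x))) := by
  simp [eqAvg, LinearMap.sum_apply]

theorem eqAvg_mem (θ : W →ₗ[k] W) (σ : Representation (ZMod p) C X) (T : X →ₗ[ZMod p] W) :
    eqAvg (ρ := ρ) θ σ T ∈ eqMaps ρ σ := fun d x => by
  rw [eqAvg_apply, eqAvg_apply, map_sum]
  refine Fintype.sum_equiv (Equiv.mulLeft d⁻¹) _ _ fun c => ?_
  rw [Equiv.coe_mulLeft, mul_inv_rev, inv_inv, ← Module.End.mul_apply (ρ d), ← map_mul ρ,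
    mul_inv_cancel_left, ← Module.End.mul_apply (σ c⁻¹), ← map_mul]

theorem eqAvg_comp (θ : W →ₗ[k] W) {σ : Representation (ZMod p) C X}
    {τ : Representation (ZMod p) C Y} (i : X →ₗ[ZMod p] Y) (hi : ∀ c x, i (σ c x) = τ c (i x))
    (T : Y →ₗ[ZMod p] W) :
    (eqAvg (ρ := ρ) θ τ T).comp i = eqAvg (ρ := ρ) θ σ (T.comp i) := by
  refine LinearMap.ext fun x => ?_
  simp only [LinearMap.comp_apply, eqAvg_apply, hi]

theorem eqAvg_of_mem {θ : W →ₗ[k] W}
    (hθ : ∑ c : C, (ρ c).comp (θ.comp (ρ c⁻¹)) = LinearMap.id)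
    {σ : Representation (ZMod p) C X} {T : X →ₗ[ZMod p] W} (hT : T ∈ eqMaps ρ σ) :
    eqAvg (ρ := ρ) θ σ T = T := by
  refine LinearMap.ext fun x => ?_
  rw [eqAvg_apply]
  have := LinearMap.congr_fun hθ (T x)
  rw [LinearMap.sum_apply, LinearMap.id_apply] at this
  rw [← this]
  exact Finset.sum_congr rfl fun c _ => by rw [hT]; rfl

theorem exists_eqMaps_extend (hρ : IsRelProj ρ) {σ : Representation (ZMod p) C X}
    {τ : Representation (ZMod p) C Y} (i : X →ₗ[ZMod p] Y) (hinj : Function.Injective i)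
    (hi : ∀ c x, i (σ c x) = τ c (i x)) {T : X →ₗ[ZMod p] W} (hT : T ∈ eqMaps ρ σ) :
    ∃ T' ∈ eqMaps ρ τ, T'.comp i = T := by
  obtain ⟨θ, hθ⟩ := hρ
  obtain ⟨g, hg⟩ := i.exists_leftInverse_of_injective (LinearMap.ker_eq_bot.mpr hinj)
  refine ⟨_, eqAvg_mem θ τ (T.comp g), ?_⟩
  rw [eqAvg_comp θ i hi, LinearMap.comp_assoc, hg, LinearMap.comp_id, eqAvg_of_mem hθ hT]

/-- Restriction of equivariant maps. -/
def eqRes (ρ : Representation k C W) {σ : Representation (ZMod p) C X}
    {τ : Representation (ZMod p) C Y} (i : X →ₗ[ZMod p] Y) (hi : ∀ c x, i (σ c x) = τ c (i x)) :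
    eqMaps ρ τ →ₗ[k] eqMaps ρ σ where
  toFun T := ⟨(T : Y →ₗ[ZMod p] W).comp i, fun c x => by
    rw [LinearMap.comp_apply, hi, T.2]; rfl⟩
  map_add' _ _ := rfl
  map_smul' _ _ := rfl

theorem eqRes_surjective (hρ : IsRelProj ρ) {σ : Representation (ZMod p) C X}
    {τ : Representation (ZMod p) C Y} (i : X →ₗ[ZMod p] Y) (hinj : Function.Injective i)
    (hi : ∀ c x, i (σ c x) = τ c (i x)) : Function.Surjective (eqRes ρ i hi) := fun T => by
  obtain ⟨T', hT', he⟩ := exists_eqMaps_extend hρ i hinj hi T.2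
  exact ⟨⟨T', hT'⟩, Subtype.ext he⟩

theorem eqRes_injective {σ : Representation (ZMod p) C X} {τ : Representation (ZMod p) C Y}
    (q : X →ₗ[ZMod p] Y) (hq : ∀ c x, q (σ c x) = τ c (q x)) (hsurj : Function.Surjective q) :
    Function.Injective (eqRes ρ q hq) := fun T T' h => by
  have h' : (T : Y →ₗ[ZMod p] W).comp q = (T' : Y →ₗ[ZMod p] W).comp q := congrArg Subtype.val h
  exact Subtype.ext (LinearMap.ext fun y => by
    obtain ⟨x, rfl⟩ := hsurj y
    exact LinearMap.congr_fun h' x)

section Count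

variable [Finite W]

instance finite_eqMaps [Finite X] (σ : Representation (ZMod p) C X) :
    Module.Finite k (eqMaps ρ σ) := by
  have : Finite (X →ₗ[ZMod p] W) := Finite.of_injective _ DFunLike.coe_injective
  exact Module.Finite.of_finite

variable (ρ) in
/-- The dimension of the equivariant maps from the dual of `X` to `W`. -/
def cnt (σ : Representation (ZMod p) C X) : ℕ := Module.finrank k (eqMaps ρ σ.dual)

theorem dual_comp_eq {σ : Representation (ZMod p) C X} {τ : Representation (ZMod p) C Y}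
    (f : X →ₗ[ZMod p] Y) (hf : ∀ c x, f (σ c x) = τ c (f x)) (c : C)
    (ξ : Module.Dual (ZMod p) Y) : f.dualMap (τ.dual c ξ) = σ.dual c (f.dualMap ξ) := by
  refine LinearMap.ext fun x => ?_
  simp [Representation.dual_apply, Module.Dual.transpose_apply, hf]

/-- `cnt` is additive in short exact sequences. -/
theorem cnt_eq_add (hρ : IsRelProj ρ) [Finite Y] {σ : Representation (ZMod p) C X}
    {τ : Representation (ZMod p) C Y} {υ : Representation (ZMod p) C Z}
    (f : X →ₗ[ZMod p] Y) (g : Y →ₗ[ZMod p] Z) (hf : ∀ c x, f (σ c x) = τ c (f x))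
    (hg : ∀ c y, g (τ c y) = υ c (g y)) (hinj : Function.Injective f)
    (hsurj : Function.Surjective g) (hex : Function.Exact f g) :
    cnt ρ τ = cnt ρ σ + cnt ρ υ := by
  have : Finite X := Finite.of_injective f hinj
  have : Finite Z := Finite.of_surjective g hsurj
  have : Finite (Module.Dual (ZMod p) Y) := Finite.of_injective _ DFunLike.coe_injective
  have : Finite (Module.Dual (ZMod p) X) := Finite.of_injective _ DFunLike.coe_injective
  have : Finite (Module.Dual (ZMod p) Z) := Finite.of_injective _ DFunLike.coe_injective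
  set a := eqRes ρ g.dualMap (dual_comp_eq g hg)
  set b := eqRes ρ f.dualMap (dual_comp_eq f hf)
  have hfd : Function.Surjective f.dualMap := LinearMap.dualMap_surjective_of_injective hinj
  have hgd : Function.Injective g.dualMap := LinearMap.dualMap_injective_of_surjective hsurj
  have ha : Function.Surjective a := eqRes_surjective hρ _ hgd _
  have hb : Function.Injective b := eqRes_injective _ _ hfd
  have hker : LinearMap.ker a = LinearMap.range b := by
    ext T
    constructor
    · intro hT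
      rw [LinearMap.mem_ker] at hT
      have hT' : (T : Module.Dual (ZMod p) Y →ₗ[ZMod p] W).comp g.dualMap = 0 :=
        congrArg Subtype.val hT
      obtain ⟨s, hs⟩ := f.dualMap.exists_rightInverse_of_surjective
        (LinearMap.range_eq_top.mpr hfd)
      have hfact : ∀ ξ, (T : Module.Dual (ZMod p) Y →ₗ[ZMod p] W) (s (f.dualMap ξ))
          = (T : Module.Dual (ZMod p) Y →ₗ[ZMod p] W) ξ := by
        intro ξ
        have h1 : f.dualMap (s (f.dualMap ξ) - ξ) = 0 := by
          rw [map_sub, ← LinearMap.comp_apply, hs, LinearMap.id_apply, sub_self]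
        have h2 : s (f.dualMap ξ) - ξ ∈ LinearMap.range g.dualMap := by
          rw [LinearMap.range_dualMap_eq_dualAnnihilator_ker, Submodule.mem_dualAnnihilator]
          intro y hy
          obtain ⟨x, rfl⟩ := (hex y).mp (LinearMap.mem_ker.mp hy)
          exact LinearMap.congr_fun h1 x
        obtain ⟨η, hη⟩ := h2
        rw [← sub_eq_zero, ← map_sub, ← hη]
        exact LinearMap.congr_fun hT' η
      refine ⟨⟨(T : Module.Dual (ZMod p) Y →ₗ[ZMod p] W).comp s, fun c ξ => ?_⟩, ?_⟩
      · obtain ⟨η, rfl⟩ := hfd ξ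
        rw [LinearMap.comp_apply, LinearMap.comp_apply, ← dual_comp_eq f hf, hfact, hfact]
        exact T.2 c η
      · exact Subtype.ext (LinearMap.ext hfact)
    · rintro ⟨S, rfl⟩
      rw [LinearMap.mem_ker]
      refine Subtype.ext (LinearMap.ext fun η => ?_)
      show (S : Module.Dual (ZMod p) X →ₗ[ZMod p] W) (f.dualMap (g.dualMap η)) = 0
      have : f.dualMap (g.dualMap η) = 0 := LinearMap.ext fun x => by
        simp [hex.apply_apply_eq_zero]
      rw [this, map_zero]
  have h := LinearMap.finrank_range_add_finrank_ker a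
  rw [LinearMap.range_eq_top.mpr ha, finrank_top, hker, LinearMap.finrank_range_of_inj hb] at h
  simp only [cnt]
  omega

end Count

end FLTAgent.TW
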