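import Fermat.Agent.TW.Defs
import Fermat.Agent.TW.GroupLemma.Defs

/-!
# The Selmer spaces of the Taylor–Wiles argument
-/

set_option autoImplicit false

noncomputable section

open Polynomial

namespace FLTAgent.TW

open FLTAgent.Deformation

variable {k : Type} [Field k]

/-- The image of a matrix representation in `GL₂`. -/
def imageGL (rb : Gal →* Mat k) : Subgroup (GL (Fin 2) k) := rb.toHomUnits.range

/-- The hypotheses on the residual representation in matrix form. -/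
structure ResidualHyp (p : ℕ) (rb : Gal →* Mat k) (Smin : Finset ℕ) : Prop where
  level : ∃ L : IntermediateField ℚ (AlgebraicClosure ℚ), FiniteDimensional ℚ L ∧
    ∀ σ : Gal, (∀ x ∈ L, σ x = x) → rb σ = 1
  split : IsSplitGroup (imageGL rb)
  irred : IsIrredGroup (imageGL rb)
  noHalf : NoHalfReducible (imageGL rb)
  det : ∀ (σ : Gal) (a : ℕ),
    (∀ μ : AlgebraicClosure ℚ, μ ^ p = 1 → σ μ = μ ^ a) → (rb σ).det = (a : k)
  mem_p : p ∈ Smin
  prime : ∀ q ∈ Smin, q.Prime
  unramified : ∀ q : ℕ, q.Prime → q ∉ Smin →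
    ∀ A : ValuationSubring (AlgebraicClosure ℚ), A.LiesOverPrime q →
      ∀ σ ∈ A.inertiaSubgroupIn ℚ, rb σ = 1

/-- Cocycles with a local condition at one place over each prime of `Smin`, nothing at `Q`, and
unramified elsewhere. -/
def selmer (rb : Gal →* Mat k) (Smin Q : Finset ℕ)
    (A : ℕ → ValuationSubring (AlgebraicClosure ℚ))
    (L : ∀ l : ℕ, Submodule k ((A l).decompositionSubgroup ℚ → Mat k)) :
    Submodule k (Gal → Mat k) where
  carrier := {c | (∀ g h : Gal, c (g * h) = c g + adAct rb g (c h)) ∧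
    (∀ g, Matrix.trace (c g) = 0) ∧
    (∃ M : IntermediateField ℚ (AlgebraicClosure ℚ), FiniteDimensional ℚ M ∧
      ∀ g s : Gal, (∀ x ∈ M, s x = x) → c (g * s) = c g) ∧
    (∀ l ∈ Smin, (fun g : (A l).decompositionSubgroup ℚ => c g) ∈ L l) ∧
    ∀ l : ℕ, l.Prime → l ∉ Smin → l ∉ Q →
      ∀ B : ValuationSubring (AlgebraicClosure ℚ), B.LiesOverPrime l →
        ∀ σ ∈ B.inertiaSubgroupIn ℚ, c σ = 0}
  zero_mem' := ⟨fun g h => by simp [adAct], fun g => by simp, ⟨⊥, inferInstance, fun _ _ _ => rfl⟩,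
    fun l _ => (L l).zero_mem, fun _ _ _ _ _ _ _ _ => rfl⟩
  add_mem' := by
    rintro a b ⟨ha, ha', ⟨M, hM, haM⟩, haL, haU⟩ ⟨hb, hb', ⟨M', hM', hbM⟩, hbL, hbU⟩
    refine ⟨fun g h => ?_, fun g => ?_, ⟨M ⊔ M', IntermediateField.finiteDimensional_sup M M',
      fun g s hs => ?_⟩, fun l hl => (L l).add_mem (haL l hl) (hbL l hl),
      fun l h1 h2 h3 B hB σ hσ => ?_⟩
    · simp only [Pi.add_apply, ha g h, hb g h, adAct, mul_add, add_mul]
      abel
    · simp [ha' g, hb' g]
    · simp only [Pi.add_apply]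
      rw [haM g s fun x hx => hs x (le_sup_left (b := M') hx),
        hbM g s fun x hx => hs x (le_sup_right (a := M) hx)]
    · simp [haU l h1 h2 h3 B hB σ hσ, hbU l h1 h2 h3 B hB σ hσ]
  smul_mem' := by
    rintro t a ⟨ha, ha', ⟨M, hM, haM⟩, haL, haU⟩
    refine ⟨fun g h => ?_, fun g => ?_, ⟨M, hM, fun g s hs => ?_⟩,
      fun l hl => (L l).smul_mem t (haL l hl), fun l h1 h2 h3 B hB σ hσ => ?_⟩
    · simp only [Pi.smul_apply, ha g h, smul_add, adAct, Matrix.mul_smul, Matrix.smul_mul]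
    · simp [ha' g]
    · simp only [Pi.smul_apply, haM g s hs]
    · simp [haU l h1 h2 h3 B hB σ hσ]

end FLTAgent.TW
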