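import Fermat.Agent.TW.Xi

/-!
# Finite modules, isogenies and permutation modules
-/

set_option autoImplicit false
set_option linter.unusedSectionVars false

noncomputable section

namespace FLTAgent.TW

variable {p : ℕ} [Fact p.Prime] {k : Type} [Field k] [Algebra (ZMod p) k]
variable {C : Type} [Group C] [Fintype C]
variable {W : Type} [AddCommGroup W] [Module k W] [Module (ZMod p) W] [IsScalarTower (ZMod p) k W]
  [Finite W] {ρ : Representation k C W}
variable {A B D : Type} [AddCommGroup A] [AddCommGroup B] [AddCommGroup D]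

/-- The action on an invariant subgroup. -/
def subAct (α : C →* AddMonoid.End A) (U : AddSubgroup A) (hU : ∀ c, ∀ a ∈ U, α c a ∈ U) :
    C →* AddMonoid.End U where
  toFun c := ((α c : A →+ A).comp U.subtype).codRestrict U fun a => hU c a a.2
  map_one' := AddMonoidHom.ext fun a => Subtype.ext (by
    show α 1 (a : A) = _
    rw [map_one]; rfl)
  map_mul' c d := AddMonoidHom.ext fun a => Subtype.ext (by
    show α (c * d) (a : A) = _
    rw [map_mul]; rfl)

/-- The action on the quotient by an invariant subgroup. -/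
def quotAct (α : C →* AddMonoid.End A) (U : AddSubgroup A) (hU : ∀ c, ∀ a ∈ U, α c a ∈ U) :
    C →* AddMonoid.End (A ⧸ U) where
  toFun c := QuotientAddGroup.map U U (α c) fun a ha => hU c a ha
  map_one' := AddMonoidHom.ext fun x => by
    induction x using QuotientAddGroup.induction_on with
    | H a =>
      show QuotientAddGroup.mk (α 1 a) = _
      rw [map_one]; rfl
  map_mul' c d := AddMonoidHom.ext fun x => by
    induction x using QuotientAddGroup.induction_on with
    | H a =>
      show QuotientAddGroup.mk (α (c * d) a) = _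
      rw [map_mul]; rfl

theorem xiFin_of_finite [Finite A] : XiFin p A :=
  ⟨Finite.of_surjective _ (toModP_surjective p), Finite.of_injective _ (ofTorP_injective p)⟩

theorem xiFin_of_fg [AddGroup.FG A] : XiFin p A := by
  have hA : Module.Finite ℤ A := Module.Finite.iff_addGroup_fg.mpr ‹_›
  let h1 : A →ₗ[ℤ] ModP p A := (toModP p).toIntLinearMap
  have : Module.Finite ℤ (ModP p A) := Module.Finite.of_surjective h1 (toModP_surjective p)
  have : Module.Finite (ZMod p) (ModP p A) := Module.Finite.of_restrictScalars_finite ℤ _ _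
  let h2 : TorP p A →ₗ[ℤ] A := (ofTorP p).toIntLinearMap
  have : Module.Finite ℤ (TorP p A) := Module.Finite.of_injective h2 (ofTorP_injective p)
  have : Module.Finite (ZMod p) (TorP p A) := Module.Finite.of_restrictScalars_finite ℤ _ _
  exact ⟨Module.finite_of_finite (ZMod p), Module.finite_of_finite (ZMod p)⟩

theorem xi_of_elementary (α : C →* AddMonoid.End A) (h : ∀ a : A, p • a = 0) :
    xi (p := p) ρ α = 0 := by
  let f : TorP p A →+ ModP p A := (toModP p).comp (ofTorP p)
  have hf : Function.Bijective f := by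
    refine ⟨fun x y hxy => ?_, fun y => ?_⟩
    · obtain ⟨c, hc⟩ := (toModP_eq_iff p).mp hxy
      refine ofTorP_injective p ?_
      rw [← sub_eq_zero, ← hc, h]
    · obtain ⟨a, rfl⟩ := toModP_surjective p y
      obtain ⟨x, hx⟩ := exists_ofTorP p (h a)
      exact ⟨x, congrArg (toModP p) hx⟩
  have := cnt_congr (ρ := ρ) (σ := torPRep p α) (τ := modPRep p α)
    (LinearEquiv.ofBijective (AddMonoidHom.toZModLinearMap p f) hf) fun c x => rfl
  rw [xi, this, sub_self]

/-- `ξ` of a finite module is zero. -/
theorem xi_of_finite (hρ : IsRelProj ρ) [Finite A] (α : C →* AddMonoid.End A) :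
    xi (p := p) ρ α = 0 := by
  induction h : Nat.card A using Nat.strong_induction_on generalizing A with
  | _ n ih =>
  subst h
  let U : AddSubgroup A := (nsmulAddMonoidHom p : A →+ A).range
  have hU : ∀ c, ∀ a ∈ U, α c a ∈ U := by
    rintro c _ ⟨b, rfl⟩
    exact ⟨α c b, by simp⟩
  by_cases htop : U = ⊤
  · have hsurj : Function.Surjective (nsmulAddMonoidHom p : A →+ A) :=
      AddMonoidHom.range_eq_top.mp htop
    have hinj := Finite.injective_iff_surjective.mpr hsurj
    have : Subsingleton (ModP p A) := ⟨fun x y => by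
      obtain ⟨a, rfl⟩ := toModP_surjective p x
      obtain ⟨b, rfl⟩ := toModP_surjective p y
      exact (toModP_eq_iff p).mpr (hsurj (a - b))⟩
    have : Subsingleton (TorP p A) := ⟨fun x y => ofTorP_injective p (hinj (by
      show p • ofTorP p x = p • ofTorP p y
      rw [nsmul_ofTorP, nsmul_ofTorP]))⟩
    rw [xi, cnt_congr (ρ := ρ) (σ := modPRep p α) (τ := torPRep p α)
      { toFun := fun _ => 0, map_add' := fun _ _ => (add_zero _).symm,
        map_smul' := fun _ _ => (smul_zero _).symm, invFun := fun _ => 0,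
        left_inv := fun _ => Subsingleton.elim _ _, right_inv := fun _ => Subsingleton.elim _ _ }
      fun _ _ => Subsingleton.elim _ _, sub_self]
  · have hlt : Nat.card U < Nat.card A := by
      refine lt_of_le_of_ne (Nat.card_le_card_of_injective _ Subtype.val_injective) fun he => ?_
      exact htop (AddSubgroup.eq_top_of_card_eq U he)
    rw [xi_eq_add hρ (α := subAct α U hU) (δ := quotAct α U hU) U.subtype
      (QuotientAddGroup.mk' U) (fun _ _ => rfl) (fun _ _ => rfl) Subtype.val_injective
      (QuotientAddGroup.mk'_surjective U) (fun b => ?_) xiFin_of_finite xiFin_of_finite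
      xiFin_of_finite, ih _ hlt (subAct α U hU) rfl, xi_of_elementary, add_zero]
    · exact fun x => by
        induction x using QuotientAddGroup.induction_on with
        | H a => exact (QuotientAddGroup.eq_zero_iff _).mpr ⟨a, rfl⟩
    · exact (QuotientAddGroup.eq_zero_iff b).trans
        ⟨fun h => ⟨⟨b, h⟩, rfl⟩, fun ⟨u, hu⟩ => hu ▸ u.2⟩

/-- `ξ` is invariant under isogenies. -/
theorem xi_eq_of_isogeny (hρ : IsRelProj ρ) [AddGroup.FG A] [AddGroup.FG B]
    {α : C →* AddMonoid.End A} {β : C →* AddMonoid.End B} (f : A →+ B)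
    (hf : ∀ c a, f (α c a) = β c (f a)) [Finite f.ker] [Finite (B ⧸ f.range)] :
    xi (p := p) ρ α = xi (p := p) ρ β := by
  have hK : ∀ c, ∀ a ∈ f.ker, α c a ∈ f.ker := fun c a ha => by
    rw [AddMonoidHom.mem_ker] at ha ⊢
    rw [hf, ha, map_zero]
  have hR : ∀ c, ∀ b ∈ f.range, β c b ∈ f.range := by
    rintro c _ ⟨a, rfl⟩
    exact ⟨α c a, hf c a⟩
  have : AddGroup.FG f.range := AddGroup.fg_range f
  rw [xi_eq_add hρ (α := subAct α f.ker hK) (δ := subAct β f.range hR) f.ker.subtype
      f.rangeRestrict (fun _ _ => rfl) (fun c a => Subtype.ext (hf c a)) Subtype.val_injective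
      f.rangeRestrict_surjective (fun a => by
        refine ⟨fun h => ⟨⟨a, congrArg Subtype.val h⟩, rfl⟩, ?_⟩
        rintro ⟨u, rfl⟩
        exact Subtype.ext u.2) xiFin_of_finite xiFin_of_fg xiFin_of_fg,
    xi_eq_add hρ (α := subAct β f.range hR) (δ := quotAct β f.range hR) f.range.subtype
      (QuotientAddGroup.mk' f.range) (fun _ _ => rfl) (fun _ _ => rfl) Subtype.val_injective
      (QuotientAddGroup.mk'_surjective _) (fun b => (QuotientAddGroup.eq_zero_iff b).trans
        ⟨fun h => ⟨⟨b, h⟩, rfl⟩, fun ⟨u, hu⟩ => hu ▸ u.2⟩) xiFin_of_fg xiFin_of_fg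
      xiFin_of_finite,
    xi_of_finite hρ (subAct α f.ker hK), xi_of_finite hρ (quotAct β f.range hR), zero_add, add_zero]

/-- Twisting the module by a character twists the target. -/
theorem cnt_twist {ρ' : Representation k C W} {X : Type} [AddCommGroup X] [Module (ZMod p) X]
    {σ σ' : Representation (ZMod p) C X} (η : C →* (ZMod p)ˣ)
    (hσ : ∀ c x, σ' c x = (η c : ZMod p) • σ c x)
    (hρ' : ∀ c w, ρ' c w = (η c : ZMod p) • ρ c w) : cnt ρ σ' = cnt ρ' σ := by
  have key : eqMaps ρ σ'.dual = eqMaps ρ' σ.dual := by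
    ext T
    simp only [mem_eqMaps]
    refine forall_congr' fun c => forall_congr' fun ξ => ?_
    have h1 : σ'.dual c ξ = (η c⁻¹ : ZMod p) • σ.dual c ξ := LinearMap.ext fun x => by
      show ξ (σ' c⁻¹ x) = (η c⁻¹ : ZMod p) • ξ (σ c⁻¹ x)
      rw [hσ, map_smul]
    rw [h1, map_smul, hρ', map_inv]
    rw [← Units.smul_def, ← Units.smul_def]
    exact inv_smul_eq_iff
  rw [cnt, cnt, key]

section Perm

variable {Ω : Type} [MulAction C Ω]

variable (ρ Ω) in
/-- Equivariant functions on a `C`-set. -/
def eqFun : Submodule k (Ω → W) where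
  carrier := {T | ∀ (c : C) ω, T (c • ω) = ρ c (T ω)}
  zero_mem' := fun c ω => by simp
  add_mem' := fun ha hb c ω => by simp [ha c ω, hb c ω]
  smul_mem' := fun t a ha c ω => by simp [ha c ω]

theorem mem_eqFun {T : Ω → W} : T ∈ eqFun ρ Ω ↔ ∀ (c : C) ω, T (c • ω) = ρ c (T ω) := Iff.rfl

variable (p Ω) in
/-- The permutation representation on functions. -/
def funRep : Representation (ZMod p) C (Ω → ZMod p) where
  toFun c := LinearMap.funLeft (ZMod p) (ZMod p) fun ω => c⁻¹ • ω
  map_one' := LinearMap.ext fun f => funext fun ω => by simp [LinearMap.funLeft_apply]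
  map_mul' c d := LinearMap.ext fun f => funext fun ω => by
    simp [LinearMap.funLeft_apply, mul_smul, Module.End.mul_apply]

theorem funRep_apply (c : C) (f : Ω → ZMod p) (ω : Ω) : funRep p Ω c f ω = f (c⁻¹ • ω) := rfl

/-- The count of a permutation module. -/
theorem cnt_funRep [Fintype Ω] [DecidableEq Ω] :
    cnt ρ (funRep p Ω) = Module.finrank k (eqFun ρ Ω) := by
  refine LinearEquiv.finrank_eq ?_
  have hproj : ∀ (c : C) (ω : Ω), (funRep p Ω).dual c (LinearMap.proj ω) =
      (LinearMap.proj (c • ω) : Module.Dual (ZMod p) (Ω → ZMod p)) := fun c ω =>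
    LinearMap.ext fun f => by
      simp [Representation.dual_apply, Module.Dual.transpose_apply, funRep_apply]
  have hsum : ∀ ξ : Module.Dual (ZMod p) (Ω → ZMod p),
      ξ = ∑ ω, ξ (Pi.single ω 1) • LinearMap.proj ω := fun ξ => by
    refine LinearMap.pi_ext' fun i => LinearMap.ext_ring ?_
    simp [Pi.single_apply]
  exact
    { toFun := fun T => ⟨fun ω => T.1 (LinearMap.proj ω), fun c ω => by
        show T.1 (LinearMap.proj (c • ω)) = _
        rw [← hproj]; exact T.2 c _⟩
      map_add' := fun _ _ => rfl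
      map_smul' := fun _ _ => rfl
      invFun := fun S =>
        ⟨{ toFun := fun ξ => ∑ ω, ξ (Pi.single ω 1) • S.1 ω
           map_add' := fun a b => by simp [add_smul, Finset.sum_add_distrib]
           map_smul' := fun a b => by simp [smul_smul, Finset.smul_sum] }, fun c ξ => by
          show ∑ ω, (funRep p Ω).dual c ξ (Pi.single ω 1) • S.1 ω =
            ρ c (∑ ω, ξ (Pi.single ω 1) • S.1 ω)
          rw [map_sum]
          refine Fintype.sum_equiv (MulAction.toPerm c⁻¹) _ _ fun ω => ?_
          rw [LinearMap.map_smul_of_tower, MulAction.toPerm_apply, ← S.2, smul_inv_smul]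
          congr 1
          show ξ (funRep p Ω c⁻¹ (Pi.single ω 1)) = _
          congr 1
          funext ω'
          simp [funRep_apply, Pi.single_apply, eq_inv_smul_iff]⟩
      left_inv := fun T => Subtype.ext (LinearMap.ext fun ξ => by
        conv_rhs => rw [hsum ξ, map_sum]
        simp [map_smul])
      right_inv := fun S => Subtype.ext (funext fun ω => by
        simp [Pi.single_apply]) }

/-- The action on integer valued functions on a `C`-set. -/
def funAct (Ω : Type) [MulAction C Ω] : C →* AddMonoid.End (Ω → ℤ) where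
  toFun c := (LinearMap.funLeft ℤ ℤ fun ω : Ω => c⁻¹ • ω).toAddMonoidHom
  map_one' := AddMonoidHom.ext fun f => funext fun ω => by
    show f ((1 : C)⁻¹ • ω) = f ω
    rw [inv_one, one_smul]
  map_mul' c d := AddMonoidHom.ext fun f => funext fun ω => by
    show f ((c * d)⁻¹ • ω) = f (d⁻¹ • c⁻¹ • ω)
    rw [mul_inv_rev, mul_smul]

/-- `ξ` of an integral permutation module. -/
theorem xi_funAct [Fintype Ω] :
    xi (p := p) ρ (funAct (C := C) Ω) = Module.finrank k (eqFun ρ Ω) := by
  classical
  let red : (Ω → ℤ) →+ (Ω → ZMod p) :=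
    AddMonoidHom.mk' (fun f ω => (f ω : ZMod p)) fun f g => funext fun ω => by simp
  let e : ModP p (Ω → ℤ) →+ (Ω → ZMod p) := QuotientAddGroup.lift _ red (by
    rintro _ ⟨f, rfl⟩
    refine AddMonoidHom.mem_ker.mpr (funext fun ω => ?_)
    show (((p • f) ω : ℤ) : ZMod p) = 0
    simp)
  have he : Function.Bijective e := by
    refine ⟨(injective_iff_map_eq_zero e).mpr fun x hx => ?_, fun g => ?_⟩
    · obtain ⟨f, rfl⟩ := toModP_surjective p x
      refine (toModP_eq_zero_iff p).mpr ?_
      choose q hq using fun ω =>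
        (ZMod.intCast_zmod_eq_zero_iff_dvd (f ω) p).mp (congrFun hx ω)
      exact ⟨q, funext fun ω => by simp [hq ω]⟩
    · exact ⟨toModP p fun ω => ((g ω).val : ℤ), funext fun ω => by
        show (((g ω).val : ℤ) : ZMod p) = g ω
        simp⟩
  have : Subsingleton (TorP p (Ω → ℤ)) := ⟨fun x y => ofTorP_injective p (funext fun ω => by
    have hx := congrFun (nsmul_ofTorP p x) ω
    have hy := congrFun (nsmul_ofTorP p y) ω
    simp only [Pi.smul_apply, Pi.zero_apply, smul_eq_zero] at hx hy
    have hp := (Fact.out : p.Prime).ne_zero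
    rw [hx.resolve_left hp, hy.resolve_left hp])⟩
  have htor : cnt ρ (torPRep p (funAct (C := C) Ω)) = 0 := by
    have : Subsingleton (Module.Dual (ZMod p) (TorP p (Ω → ℤ))) :=
      ⟨fun a b => LinearMap.ext fun x => by rw [Subsingleton.elim x 0, map_zero, map_zero]⟩
    have : Subsingleton (Module.Dual (ZMod p) (TorP p (Ω → ℤ)) →ₗ[ZMod p] W) :=
      ⟨fun a b => LinearMap.ext fun x => by rw [Subsingleton.elim x 0, map_zero, map_zero]⟩
    rw [cnt]
    exact Module.finrank_zero_of_subsingleton
  rw [xi, htor, Nat.cast_zero, sub_zero, Nat.cast_inj, ← cnt_funRep (p := p)]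
  exact cnt_congr (LinearEquiv.ofBijective (AddMonoidHom.toZModLinearMap p e) he) fun c x => by
    obtain ⟨f, rfl⟩ := toModP_surjective p x
    rfl

end Perm

end FLTAgent.TW
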