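import Fermat.Agent.TW.KummerLocal
import Fermat.Agent.TW.XiBasic

/-!
# A number field with a finite group of automorphisms induced from the Galois group
-/

set_option autoImplicit false
set_option linter.unusedSectionVars false

open IsDedekindDomain NumberField
open scoped Pointwise

noncomputable section

namespace FLTAgent.TW

variable (p : ℕ) [hpf : Fact p.Prime]

/-- A number field containing `μ_p` with a group of automorphisms `C = H / G_K`. -/
structure KField where
  K : IntermediateField ℚ Qb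
  [fd : FiniteDimensional ℚ K]
  ζ : K
  hζ : IsPrimitiveRoot ζ p
  H : Subgroup Γ
  fix_le : K.fixingSubgroup ≤ H
  stable : ∀ g ∈ H, ∀ x ∈ K, g x ∈ K
  C : Type
  [grp : Group C]
  [fin : Fintype C]
  π : H →* C
  π_surj : Function.Surjective π
  π_ker : ∀ h : H, π h = 1 ↔ (h : Γ) ∈ K.fixingSubgroup

attribute [instance] KField.fd KField.grp KField.fin

variable {p}

namespace KField

variable (S : KField p)

/-- The action of `H` on `K`. -/
def resH : S.H →* RingAut S.K where
  toFun h :=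
    { toFun := fun x => ⟨(h : Γ) x, S.stable _ h.2 _ x.2⟩
      invFun := fun x => ⟨((h⁻¹ : S.H) : Γ) x, S.stable _ (h⁻¹).2 _ x.2⟩
      left_inv := fun x => Subtype.ext (AlgEquiv.symm_apply_apply (h : Γ) _)
      right_inv := fun x => Subtype.ext (AlgEquiv.apply_symm_apply (h : Γ) _)
      map_mul' := fun x y => Subtype.ext (map_mul (h : Γ) _ _)
      map_add' := fun x y => Subtype.ext (map_add (h : Γ) _ _) }
  map_one' := RingEquiv.ext fun x => Subtype.ext rfl
  map_mul' _ _ := RingEquiv.ext fun x => Subtype.ext rfl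

/-- The action of `C` on `K`. -/
def act : S.C →* RingAut S.K :=
  S.π.liftOfSurjective S.π_surj ⟨S.resH, fun h hh => MonoidHom.mem_ker.mpr
    (RingEquiv.ext fun x => Subtype.ext
      (apply_coe_eq_of_mem_fixing ((S.π_ker h).mp (MonoidHom.mem_ker.mp hh)) x))⟩

theorem act_π (h : S.H) : S.act (S.π h) = S.resH h :=
  MonoidHom.liftOfRightInverse_comp_apply _ _ _ _ h

theorem coe_act_π (h : S.H) (x : S.K) : ((S.act (S.π h) x : S.K) : Qb) = (h : Γ) x := by
  rw [act_π]; rfl

/-- The action on `Kˣ`, written additively. -/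
def unitsAct : S.C →* AddMonoid.End (Additive S.Kˣ) where
  toFun c := MonoidHom.toAdditive (Units.map (S.act c).toRingHom.toMonoidHom)
  map_one' := AddMonoidHom.ext fun x => Additive.toMul.injective (Units.ext (by
    show S.act 1 ((Additive.toMul x : S.Kˣ) : S.K) = _
    rw [map_one]; rfl))
  map_mul' c d := AddMonoidHom.ext fun x => Additive.toMul.injective (Units.ext (by
    show S.act (c * d) ((Additive.toMul x : S.Kˣ) : S.K) = _
    rw [map_mul]; rfl))

theorem coe_unitsAct (c : S.C) (x : S.Kˣ) :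
    ((Additive.toMul (S.unitsAct c (Additive.ofMul x)) : S.Kˣ) : S.K) = S.act c (x : S.K) := rfl

instance : MulAction S.C (Ext.Place S.K) where
  smul c v := placeMap (S.act c) v
  one_smul v := by
    show placeMap (S.act 1) v = v
    rw [map_one]; exact placeMap_refl v
  mul_smul c d v := by
    show placeMap (S.act (c * d)) v = _
    rw [map_mul]; exact placeMap_trans (S.act d) (S.act c) v

theorem ord_smul (c : S.C) (v : Ext.Place S.K) (x : S.K) :
    Ext.ord (c • v) (S.act c x) = Ext.ord v x := ord_placeMap (S.act c) v x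

theorem valuation_smul (c : S.C) (v : Ext.Place S.K) (x : S.K) :
    (c • v).valuation S.K (S.act c x) = v.valuation S.K x := valuation_placeMap (S.act c) v x

theorem placeIn_smul_π (h : S.H) {A : ValuationSubring Qb} {l : ℕ} (hl : l.Prime)
    (hA : A.LiesOverPrime l) :
    placeIn S.K ((h : Γ) • A) hl (Frobenius.liesOverPrime_smul hA _) =
      S.π h • placeIn S.K A hl hA :=
  placeIn_smul (S.act (S.π h)) (h : Γ) (S.coe_act_π h)

theorem act_zeta_pow (c : S.C) : S.act c S.ζ ^ p = 1 := by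
  rw [← map_pow, S.hζ.pow_eq_one, map_one]

/-- The cyclotomic character of `C`. -/
def epsFun (c : S.C) : ZMod p := zLog S.ζ ((S.act c S.ζ : S.K) : Qb)

theorem act_zeta (c : S.C) : S.act c S.ζ = S.ζ ^ (S.epsFun c).val := by
  refine Subtype.ext ?_
  push_cast
  refine (zetaPow_zLog S.hζ ?_).symm
  have := congrArg (Subtype.val) (S.act_zeta_pow c)
  simpa using this

/-- The cyclotomic character of `C`. -/
def eps : S.C →* (ZMod p)ˣ :=
  MonoidHom.toHomUnits
    { toFun := S.epsFun
      map_one' := zLog_eq S.hζ (by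
        rw [map_one, ZMod.val_one, pow_one]; rfl)
      map_mul' := fun c d => by
        refine zLog_eq S.hζ ?_
        rw [map_mul, RingAut.mul_apply, S.act_zeta d, map_pow, S.act_zeta c, ← pow_mul]
        rw [SubmonoidClass.coe_pow]
        rw [← zetaPow_natCast (coe_zeta_isPrimitiveRoot S.hζ).pow_eq_one
          ((S.epsFun c).val * (S.epsFun d).val), Nat.cast_mul, ZMod.natCast_zmod_val,
          ZMod.natCast_zmod_val] }

theorem act_zeta' (c : S.C) : S.act c S.ζ = S.ζ ^ (S.eps c : ZMod p).val := S.act_zeta c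

/-- Conjugation of `G_K` by `H`. -/
def conjK (h : S.H) (σ : S.K.fixingSubgroup) : S.K.fixingSubgroup :=
  ⟨(h : Γ) * σ * (h : Γ)⁻¹, (IntermediateField.mem_fixingSubgroup_iff _ _).mpr fun x hx => by
    show (h : Γ) ((σ : Γ) ((h : Γ)⁻¹ x)) = x
    rw [apply_eq_of_mem_fixing σ.2 (show (h : Γ)⁻¹ x ∈ S.K from S.stable _ (h⁻¹).2 _ hx)]
    exact AlgEquiv.apply_symm_apply (h : Γ) x⟩

@[simp] theorem coe_conjK (h : S.H) (σ : S.K.fixingSubgroup) :
    ((S.conjK h σ : S.K.fixingSubgroup) : Γ) = (h : Γ) * σ * (h : Γ)⁻¹ := rfl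

theorem kum_act (h : S.H) (x : S.Kˣ) (σ : S.K.fixingSubgroup) :
    kum p S.ζ (Units.map (S.act (S.π h)).toRingHom.toMonoidHom x) (S.conjK h σ) =
      (S.eps (S.π h) : ZMod p) * kum p S.ζ x σ := by
  have hz : (h : Γ) (S.ζ : Qb) = (S.ζ : Qb) ^ (S.eps (S.π h) : ZMod p).val := by
    rw [← S.coe_act_π h S.ζ, act_zeta']
    push_cast
    rfl
  rw [kum_conj S.hζ (h : Γ) (x' := Units.map (S.act (S.π h)).toRingHom.toMonoidHom x)
    (S.coe_act_π h (x : S.K)).symm hz σ (S.conjK h σ) rfl, ZMod.natCast_zmod_val]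

/-- `Kˣ / Kˣᵖ`. -/
abbrev KP : Type := ModP p (Additive S.Kˣ)

/-- The action on `Kˣ / Kˣᵖ`. -/
abbrev kpRep : Representation (ZMod p) S.C S.KP := modPRep p S.unitsAct

/-- The class of `x`. -/
abbrev cls (x : S.Kˣ) : S.KP := toModP p (Additive.ofMul x)

theorem cls_surjective (a : S.KP) : ∃ x, S.cls x = a := by
  obtain ⟨b, rfl⟩ := toModP_surjective p a
  exact ⟨Additive.toMul b, rfl⟩

theorem kpRep_cls (c : S.C) (x : S.Kˣ) :
    S.kpRep c (S.cls x) = S.cls (Units.map (S.act c).toRingHom.toMonoidHom x) := rfl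

theorem cls_eq_zero_iff (x : S.Kˣ) : S.cls x = 0 ↔ x ∈ Ext.powSub S.K p := by
  rw [toModP_eq_zero_iff, Ext.mem_powSub]
  exact ⟨fun ⟨b, hb⟩ => ⟨Additive.toMul b, congrArg Additive.toMul hb⟩,
    fun ⟨y, hy⟩ => ⟨Additive.ofMul y, congrArg Additive.ofMul hy⟩⟩

/-- Evaluation of the Kummer pairing. -/
def ev (σ : S.K.fixingSubgroup) : Module.Dual (ZMod p) S.KP :=
  AddMonoidHom.toZModLinearMap p (QuotientAddGroup.lift _
    (((Pi.evalAddMonoidHom _ σ).comp (kumPairing S.hζ))) (by
      rintro _ ⟨x, rfl⟩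
      refine AddMonoidHom.mem_ker.mpr ?_
      show kum p S.ζ (Additive.toMul (p • x)) σ = 0
      exact kum_pow_p S.hζ (Additive.toMul x) σ))

@[simp] theorem ev_cls (σ : S.K.fixingSubgroup) (x : S.Kˣ) :
    S.ev σ (S.cls x) = kum p S.ζ x σ := rfl

theorem ev_mul (σ τ : S.K.fixingSubgroup) : S.ev (σ * τ) = S.ev σ + S.ev τ :=
  LinearMap.ext fun a => by
    obtain ⟨x, rfl⟩ := S.cls_surjective a
    exact kum_mul_right S.hζ x σ τ

theorem ev_conj (h : S.H) (σ : S.K.fixingSubgroup) (a : S.KP) :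
    S.ev (S.conjK h σ) (S.kpRep (S.π h) a) = (S.eps (S.π h) : ZMod p) * S.ev σ a := by
  obtain ⟨x, rfl⟩ := S.cls_surjective a
  exact S.kum_act h x σ

/-- The valuation modulo `p`. -/
def ordP (v : Ext.Place S.K) : S.KP →ₗ[ZMod p] ZMod p :=
  AddMonoidHom.toZModLinearMap p (QuotientAddGroup.lift _
    ((Int.castAddHom (ZMod p)).comp (Ext.ordHom v)) (by
      rintro _ ⟨x, rfl⟩
      refine AddMonoidHom.mem_ker.mpr ?_
      show ((Ext.ordHom v (p • x) : ℤ) : ZMod p) = 0
      rw [map_nsmul]; simp))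

@[simp] theorem ordP_cls (v : Ext.Place S.K) (x : S.Kˣ) :
    S.ordP v (S.cls x) = (Ext.ord v (x : S.K) : ZMod p) := rfl

theorem ordP_smul (c : S.C) (v : Ext.Place S.K) (a : S.KP) :
    S.ordP (c • v) (S.kpRep c a) = S.ordP v a := by
  obtain ⟨x, rfl⟩ := S.cls_surjective a
  rw [kpRep_cls, ordP_cls, ordP_cls]
  exact congrArg _ (S.ord_smul c v x)

end KField

/-- Twist of a representation by a character with values in `𝔽_pˣ`. -/
def twistRep {k : Type} [Field k] [Algebra (ZMod p) k] {C : Type} [Group C] {W : Type}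
    [AddCommGroup W] [Module k W] (η : C →* (ZMod p)ˣ) (ρ : Representation k C W) :
    Representation k C W where
  toFun c := algebraMap (ZMod p) k (η c) • ρ c
  map_one' := by rw [map_one, map_one, Units.val_one, map_one, one_smul]
  map_mul' c d := LinearMap.ext fun w => by
    simp [map_mul, smul_smul, mul_comm]

theorem twistRep_apply {k : Type} [Field k] [Algebra (ZMod p) k] {C : Type} [Group C] {W : Type}
    [AddCommGroup W] [Module k W] (η : C →* (ZMod p)ˣ) (ρ : Representation k C W) (c : C) (w : W) :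
    twistRep η ρ c w = algebraMap (ZMod p) k (η c) • ρ c w := rfl

end FLTAgent.TW
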